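import Mathlib

/-!
# S28 [TR], package HERMITE (owner: helper21): Hermite normal form of `diag(d,1) * γ`

For `γ = [[a, b], [c, e]] ∈ SL(2,ℤ)` and `d ≥ 1` there are `γ' ∈ SL(2,ℤ)` and integers
`A = gcd(d, c) > 0`, `D = d / A > 0`, `0 ≤ B < D` with

  `[[d a, d b], [c, e]] = γ' * [[A, B], [0, D]]`.

* `hnf_exists`       : the decomposition, entrywise.
* `hnf_exists_matrix`: the same as a matrix identity.
* `hnf_denom`, `hnf_num` : the resulting identities for the Möbius action on `ℂ`.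
* `hnf_gamma0`       : if `d ∣ c` then `[[a, d b], [c / d, e]] ∈ SL(2,ℤ)` does the job with
  `A = d`, `B = 0`, `D = 1`.

Mathlib only.
-/

set_option autoImplicit false

open Matrix Matrix.SpecialLinearGroup
open scoped MatrixGroups

namespace Fermat.Agent.S28

/-- Determinant identity for `SL(2,ℤ)`, entrywise. -/
theorem hnf_det (γ : SL(2, ℤ)) : γ 0 0 * γ 1 1 - γ 0 1 * γ 1 0 = 1 := by
  have h := γ.det_coe
  rw [Matrix.det_fin_two] at h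
  exact h

/-- **Hermite normal form** of `diag(d,1) * γ`, entrywise. -/
theorem hnf_exists (d : ℕ) (hd : 0 < d) (γ : SL(2, ℤ)) :
    ∃ (γ' : SL(2, ℤ)) (A B D : ℤ), 0 < A ∧ 0 < D ∧ A * D = d ∧ A = Int.gcd d (γ 1 0) ∧
      0 ≤ B ∧ B < D ∧
      γ' 0 0 * A = d * γ 0 0 ∧ γ' 0 0 * B + γ' 0 1 * D = d * γ 0 1 ∧
      γ' 1 0 * A = γ 1 0 ∧ γ' 1 0 * B + γ' 1 1 * D = γ 1 1 := by
  have hdet : γ 0 0 * γ 1 1 - γ 0 1 * γ 1 0 = 1 := hnf_det γ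
  generalize γ 0 0 = a at hdet ⊢
  generalize γ 0 1 = b at hdet ⊢
  generalize γ 1 0 = c at hdet ⊢
  generalize γ 1 1 = e at hdet ⊢
  have hd0 : (d : ℤ) ≠ 0 := by exact_mod_cast hd.ne'
  have hg0 : 0 < Int.gcd (d : ℤ) c := Int.gcd_pos_of_ne_zero_left _ hd0
  have hgz : (0 : ℤ) < (Int.gcd (d : ℤ) c : ℤ) := by exact_mod_cast hg0
  have hgd : ((Int.gcd (d : ℤ) c : ℕ) : ℤ) ∣ d := Int.gcd_dvd_left _ _
  have hgc : ((Int.gcd (d : ℤ) c : ℕ) : ℤ) ∣ c := Int.gcd_dvd_right _ _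
  have hcop0 := Int.gcd_div_gcd_div_gcd (i := (d : ℤ)) (j := c) hg0
  generalize ((Int.gcd (d : ℤ) c : ℕ) : ℤ) = g at hgz hgd hgc hcop0 ⊢
  obtain ⟨D, hD⟩ := hgd
  obtain ⟨c', hc'⟩ := hgc
  have hDpos : 0 < D := by
    have h1 : (0 : ℤ) < g * D := by rw [← hD]; exact_mod_cast hd
    exact (mul_pos_iff_of_pos_left hgz).mp h1
  have hD' : (d : ℤ) / g = D := by
    rw [hD]; exact Int.mul_ediv_cancel_left _ hgz.ne'
  have hc'' : c / g = c' := by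
    rw [hc']; exact Int.mul_ediv_cancel_left _ hgz.ne'
  rw [hD', hc''] at hcop0
  have hcop : IsCoprime D c' := Int.isCoprime_iff_gcd_eq_one.mpr hcop0
  obtain ⟨v, u, huv⟩ := hcop
  -- `v * D + u * c' = 1`
  have hB : (e * u) % D + D * ((e * u) / D) = e * u := Int.emod_add_mul_ediv _ _
  have hB0 : 0 ≤ (e * u) % D := Int.emod_nonneg _ hDpos.ne'
  have hB1 : (e * u) % D < D := Int.emod_lt_of_pos _ hDpos
  generalize (e * u) % D = B at hB hB0 hB1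
  generalize (e * u) / D = t at hB
  have hdetγ' : Matrix.det !![D * a, g * b - a * B; c', e * v + t * c'] = 1 := by
    rw [Matrix.det_fin_two_of]
    have h1 : a * e - b * (g * c') = 1 := by rw [← hc']; exact hdet
    have h2 : c' * B + (e * v + t * c') * D = e := by
      have : c' * B = c' * (e * u) - c' * (D * t) := by rw [← hB]; ring
      rw [this]
      linear_combination e * huv
    linear_combination h1 + a * h2
  refine ⟨⟨!![D * a, g * b - a * B; c', e * v + t * c'], hdetγ'⟩, g, B, D, hgz, hDpos, hD.symm,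
    rfl, hB0, hB1, ?_, ?_, ?_, ?_⟩
  · show D * a * g = d * a
    rw [hD]; ring
  · show D * a * B + (g * b - a * B) * D = d * b
    rw [hD]; ring
  · show c' * g = c
    rw [hc']; ring
  · show c' * B + (e * v + t * c') * D = e
    have : c' * B = c' * (e * u) - c' * (D * t) := by rw [← hB]; ring
    rw [this]
    linear_combination e * huv

/-- **Hermite normal form** of `diag(d,1) * γ`, as a matrix identity. -/
theorem hnf_exists_matrix (d : ℕ) (hd : 0 < d) (γ : SL(2, ℤ)) :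
    ∃ (γ' : SL(2, ℤ)) (A B D : ℤ), 0 < A ∧ 0 < D ∧ A * D = d ∧ A = Int.gcd d (γ 1 0) ∧
      0 ≤ B ∧ B < D ∧
      !![(d : ℤ) * γ 0 0, d * γ 0 1; γ 1 0, γ 1 1] = (γ' : Matrix (Fin 2) (Fin 2) ℤ) * !![A, B; 0, D] := by
  obtain ⟨γ', A, B, D, hA, hD, hAD, hAg, hB0, hB1, h00, h01, h10, h11⟩ := hnf_exists d hd γ
  refine ⟨γ', A, B, D, hA, hD, hAD, hAg, hB0, hB1, ?_⟩
  ext i j
  fin_cases i <;> fin_cases j
  · simp [Matrix.mul_apply, Fin.sum_univ_two, h00]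
  · simp [Matrix.mul_apply, Fin.sum_univ_two, h01]
  · simp [Matrix.mul_apply, Fin.sum_univ_two, h10]
  · simp [Matrix.mul_apply, Fin.sum_univ_two, h11]

/-- The cocycle identity: the denominator of `γ'` at `(A z + B) / D` is `(c z + e) / D`. -/
theorem hnf_denom {γ γ' : SL(2, ℤ)} {A B D : ℤ} (hD : D ≠ 0)
    (h10 : γ' 1 0 * A = γ 1 0) (h11 : γ' 1 0 * B + γ' 1 1 * D = γ 1 1) (z : ℂ) :
    (γ' 1 0 : ℂ) * (((A : ℂ) * z + B) / D) + (γ' 1 1 : ℂ) =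
      ((γ 1 0 : ℂ) * z + (γ 1 1 : ℂ)) / D := by
  have hDc : (D : ℂ) ≠ 0 := by exact_mod_cast hD
  have e10 : ((γ' 1 0 : ℤ) : ℂ) * (A : ℂ) = ((γ 1 0 : ℤ) : ℂ) := by exact_mod_cast h10
  have e11 : ((γ' 1 0 : ℤ) : ℂ) * (B : ℂ) + ((γ' 1 1 : ℤ) : ℂ) * (D : ℂ) = ((γ 1 1 : ℤ) : ℂ) := by
    exact_mod_cast h11
  rw [← e10, ← e11]
  field_simp
  ring

/-- The numerator of `γ'` at `(A z + B) / D` is `d (a z + b) / D`. -/
theorem hnf_num {d : ℕ} {γ γ' : SL(2, ℤ)} {A B D : ℤ} (hD : D ≠ 0)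
    (h00 : γ' 0 0 * A = d * γ 0 0) (h01 : γ' 0 0 * B + γ' 0 1 * D = d * γ 0 1) (z : ℂ) :
    (γ' 0 0 : ℂ) * (((A : ℂ) * z + B) / D) + (γ' 0 1 : ℂ) =
      (d : ℂ) * ((γ 0 0 : ℂ) * z + (γ 0 1 : ℂ)) / D := by
  have hDc : (D : ℂ) ≠ 0 := by exact_mod_cast hD
  have e00 : ((γ' 0 0 : ℤ) : ℂ) * (A : ℂ) = (d : ℂ) * ((γ 0 0 : ℤ) : ℂ) := by exact_mod_cast h00
  have e01 : ((γ' 0 0 : ℤ) : ℂ) * (B : ℂ) + ((γ' 0 1 : ℤ) : ℂ) * (D : ℂ) =
      (d : ℂ) * ((γ 0 1 : ℤ) : ℂ) := by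
    exact_mod_cast h01
  have h1 : (d : ℂ) * ((γ 0 0 : ℂ) * z + (γ 0 1 : ℂ)) =
      (d : ℂ) * ((γ 0 0 : ℤ) : ℂ) * z + (d : ℂ) * ((γ 0 1 : ℤ) : ℂ) := by ring
  rw [h1, ← e00, ← e01]
  field_simp
  ring

/-- If `d ∣ c` then `diag(d,1) * γ = γ' * diag(d,1)` with `γ' = [[a, d b], [c / d, e]]`. -/
theorem hnf_gamma0 (d : ℕ) (γ : SL(2, ℤ)) (h : (d : ℤ) ∣ γ 1 0) :
    ∃ γ' : SL(2, ℤ), γ' 0 0 = γ 0 0 ∧ γ' 0 1 = d * γ 0 1 ∧ γ' 1 0 * d = γ 1 0 ∧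
      γ' 1 1 = γ 1 1 := by
  obtain ⟨c', hc'⟩ := h
  have hdet : γ 0 0 * γ 1 1 - γ 0 1 * γ 1 0 = 1 := hnf_det γ
  have hdet' : Matrix.det !![γ 0 0, d * γ 0 1; c', γ 1 1] = 1 := by
    rw [Matrix.det_fin_two_of]
    rw [hc'] at hdet
    linear_combination hdet
  refine ⟨⟨!![γ 0 0, d * γ 0 1; c', γ 1 1], hdet'⟩, rfl, rfl, ?_, rfl⟩
  show c' * d = γ 1 0
  rw [hc']; ring

end Fermat.Agent.S28
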