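/-
S28 (DEG-Q, part 1): linear disjointness of `Q((q))` and `L` over `ℚ`, in polynomial form.
A family of Laurent series over `ℚ` which is "polynomially independent" over `ℚ[u]` stays
polynomially independent over `L[u]` after extension of the coefficients.
Owner: helper22.
-/
import Mathlib
import Fermat.Prelude.Def_ModularCurve_LaurentCoeff

set_option autoImplicit false
set_option linter.unusedSectionVars false

noncomputable section

namespace Fermat.Agent.S28

open Polynomial ModularCurve

/-- Independence over the polynomial ring `R[u]` inside a commutative `R`-algebra, in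
elementary form. -/
def degQ_PolyIndep (R : Type*) {E : Type*} [CommRing R] [CommRing E] [Algebra R E]
    {ι : Type*} (u : E) (x : ι → E) : Prop :=
  ∀ (t : Finset ι) (a : ι → R[X]), ∑ i ∈ t, aeval u (a i) * x i = 0 → ∀ i ∈ t, a i = 0

section Core

variable (L : Type*) [Field L] [Algebra ℚ L]

theorem degQ_coeff_algebraMap_mul (c : L) (f : LaurentSeries L) (n : ℤ) :
    (algebraMap L (LaurentSeries L) c * f).coeff n = c * f.coeff n := by
  rw [algebraMap_laurentSeries_eq_single]
  have := HahnSeries.coeff_single_mul_add (r := c) (x := f) (a := n) (b := (0 : ℤ))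
  rw [add_zero] at this
  exact this

/-- Lemma A: `ℚ`-linearly independent constants are linearly independent over `ℚ((q))`. -/
theorem degQ_descent {κ : Type*} [Fintype κ] (α : κ → L) (hα : LinearIndependent ℚ α)
    (y : κ → LaurentSeries ℚ)
    (h : ∑ k, algebraMap L (LaurentSeries L) (α k) * coeffEmb L (y k) = 0) :
    ∀ k, y k = 0 := by
  have hcoeff : ∀ n : ℤ, ∀ k, (y k).coeff n = 0 := by
    intro n
    have h1 := congrArg (fun f : LaurentSeries L => f.coeff n) h
    simp only [HahnSeries.coeff_sum, HahnSeries.coeff_zero, degQ_coeff_algebraMap_mul,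
      coeffEmb_coeff] at h1
    have h2 : ∑ k, ((y k).coeff n) • α k = 0 := by
      rw [← h1]
      refine Finset.sum_congr rfl fun k _ => ?_
      rw [Algebra.smul_def, mul_comm]
    exact fun k => (Fintype.linearIndependent_iff.mp hα) _ h2 k
  intro k
  ext n
  exact hcoeff n k

theorem degQ_coeffEmb_aeval (u : LaurentSeries ℚ) (p : ℚ[X]) :
    aeval (coeffEmb L u) (p.map (algebraMap ℚ L)) = coeffEmb L (aeval u p) := by
  rw [aeval_def, eval₂_map, aeval_def, hom_eval₂]
  congr 1
  exact Subsingleton.elim _ _

/-- Decomposition of a polynomial over `L` along a `ℚ`-basis of a finite dimensional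
subspace containing its coefficients. -/
theorem degQ_exists_decomp (S : Finset L) :
    ∃ (n : ℕ) (α : Fin n → L), LinearIndependent ℚ α ∧
      ∀ a : L[X], (∀ m, a.coeff m ∈ Submodule.span ℚ (S : Set L)) →
        ∃ A : Fin n → ℚ[X], a = ∑ k, C (α k) * (A k).map (algebraMap ℚ L) := by
  classical
  set V : Submodule ℚ L := Submodule.span ℚ (S : Set L) with hV
  have hfin : Module.Finite ℚ V := Module.Finite.span_finset ℚ S
  let b := Module.finBasis ℚ V
  refine ⟨Module.finrank ℚ V, fun k => (b k : L), ?_, ?_⟩
  · have h1 : LinearIndependent ℚ (fun k => b k) := b.linearIndependent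
    exact h1.map' V.subtype (Submodule.ker_subtype V)
  · intro a ha
    refine ⟨fun k => ∑ m ∈ a.support, monomial m (b.repr ⟨a.coeff m, ha m⟩ k), ?_⟩
    ext m
    simp only [finsetSum_coeff, coeff_C_mul, coeff_map, coeff_monomial]
    have h2 : ∀ k : Fin (Module.finrank ℚ V),
        (∑ x ∈ a.support, if x = m then (b.repr ⟨a.coeff x, ha x⟩) k else 0)
          = if m ∈ a.support then (b.repr ⟨a.coeff m, ha m⟩) k else 0 := by
      intro k
      rw [Finset.sum_ite_eq' a.support m (fun x => (b.repr ⟨a.coeff x, ha x⟩) k)]
    simp only [h2]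
    by_cases hm : m ∈ a.support
    · simp only [if_pos hm]
      have h3 := congrArg (fun v : V => (v : L)) (b.sum_repr ⟨a.coeff m, ha m⟩)
      simp only [AddSubmonoidClass.coe_finsetSum, Submodule.coe_smul] at h3
      refine h3.symm.trans ?_
      refine Finset.sum_congr rfl fun k _ => ?_
      rw [Algebra.smul_def, mul_comm]
    · simp only [if_neg hm, map_zero, mul_zero, Finset.sum_const_zero]
      exact (notMem_support_iff.mp hm)

/-- **Lemma 1**: polynomial independence over `ℚ[u]` is preserved by extension of the
coefficient field. -/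
theorem degQ_polyIndep_coeffEmb {ι : Type*} (u : LaurentSeries ℚ) (x : ι → LaurentSeries ℚ)
    (hx : degQ_PolyIndep ℚ u x) :
    degQ_PolyIndep L (coeffEmb L u) (fun i => coeffEmb L (x i)) := by
  classical
  intro t a h i hi
  obtain ⟨n, α, hα, hdec⟩ := degQ_exists_decomp L (t.biUnion fun i => (a i).coeffs)
  have hmem : ∀ j ∈ t, ∀ m, (a j).coeff m ∈
      Submodule.span ℚ ((t.biUnion fun i => (a i).coeffs : Finset L) : Set L) := by
    intro j hj m
    by_cases hc : (a j).coeff m = 0
    · rw [hc]
      exact Submodule.zero_mem _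
    · refine Submodule.subset_span ?_
      rw [Finset.mem_coe, Finset.mem_biUnion]
      exact ⟨j, hj, coeff_mem_coeffs hc⟩
  have hex : ∀ j, ∃ A : Fin n → ℚ[X], j ∈ t →
      a j = ∑ k, C (α k) * (A k).map (algebraMap ℚ L) := by
    intro j
    by_cases hj : j ∈ t
    · obtain ⟨A, hA⟩ := hdec (a j) (hmem j hj)
      exact ⟨A, fun _ => hA⟩
    · exact ⟨fun _ => 0, fun h => absurd h hj⟩
  choose A hA using hex
  -- rewrite the relation
  have h1 : ∑ k, algebraMap L (LaurentSeries L) (α k) *
      coeffEmb L (∑ j ∈ t, aeval u (A j k) * x j) = 0 := by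
    rw [← h]
    simp only [map_sum, map_mul, Finset.mul_sum]
    rw [Finset.sum_comm]
    refine Finset.sum_congr rfl fun j hj => ?_
    conv_rhs => rw [hA j hj]
    simp only [map_sum, map_mul, aeval_C, Finset.sum_mul, degQ_coeffEmb_aeval]
    refine Finset.sum_congr rfl fun k _ => ?_
    ring
  have h2 := degQ_descent L α hα _ h1
  have h3 : ∀ k, A i k = 0 := fun k => hx t (fun j => A j k) (h2 k) i hi
  rw [hA i hi]
  simp only [h3, Polynomial.map_zero, mul_zero, Finset.sum_const_zero]

end Core

section General

open IntermediateField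

variable {K E : Type*} [Field K] [Field E] [Algebra K E]

/-- Transport of polynomial independence along an injective algebra homomorphism
(reflection). -/
theorem degQ_polyIndep_of_comp {E' : Type*} [CommRing E'] [Algebra K E'] (φ : E →ₐ[K] E')
    {ι : Type*} (u : E) (x : ι → E)
    (h : degQ_PolyIndep K (φ u) (fun i => φ (x i))) : degQ_PolyIndep K u x := by
  intro t a ha i hi
  refine h t a ?_ i hi
  have h1 := congrArg φ ha
  simpa only [map_sum, map_mul, map_zero, Polynomial.aeval_algHom_apply] using h1

/-- Transport of polynomial independence along an injective algebra homomorphism. -/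
theorem degQ_polyIndep_comp {E' : Type*} [CommRing E'] [Algebra K E'] (φ : E →ₐ[K] E')
    (hφ : Function.Injective φ) {ι : Type*} (u : E) (x : ι → E)
    (h : degQ_PolyIndep K u x) : degQ_PolyIndep K (φ u) (fun i => φ (x i)) := by
  intro t a ha i hi
  refine h t a ?_ i hi
  apply hφ
  simpa only [map_sum, map_mul, map_zero, Polynomial.aeval_algHom_apply] using ha

open scoped IntermediateField.algebraAdjoinAdjoin in
/-- **Lemma 2**: polynomial independence over `K[u]` implies linear independence over
`K(u)`. -/
theorem degQ_linearIndependent_of_polyIndep {ι : Type*} (u : E) (y : ι → E)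
    (h : degQ_PolyIndep K u y) : LinearIndependent ↥(K⟮u⟯) y := by
  rw [← LinearIndependent.iff_fractionRing (R := Algebra.adjoin K {u}) (K := ↥(K⟮u⟯))]
  rw [linearIndependent_iff']
  intro s g hg i hi
  have hex : ∀ j, ∃ a : K[X], (g j : E) = aeval u a := by
    intro j
    have hj : (g j : E) ∈ (aeval u : K[X] →ₐ[K] E).range :=
      (Algebra.adjoin_singleton_eq_range_aeval K u) ▸ (g j).2
    obtain ⟨a, ha⟩ := hj
    exact ⟨a, ha.symm⟩
  choose a ha using hex
  have h1 : ∑ j ∈ s, aeval u (a j) * y j = 0 := by
    rw [← hg]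
    refine Finset.sum_congr rfl fun j _ => ?_
    rw [← ha j]
    rfl
  have h2 := h s a h1 i hi
  apply Subtype.ext
  rw [ha i, h2, map_zero]
  rfl

/-- **Lemma 3**: for transcendental `u`, linear independence over `K(u)` implies polynomial
independence over `K[u]`. -/
theorem degQ_polyIndep_of_linearIndependent {ι : Type*} (u : E) (hu : Transcendental K u)
    (x : ι → E) (h : LinearIndependent ↥(K⟮u⟯) x) : degQ_PolyIndep K u x := by
  intro t a ha i hi
  have hmem : ∀ j, aeval u (a j) ∈ K⟮u⟯ := by
    intro j
    have h1 : aeval u (a j) ∈ Algebra.adjoin K {u} := by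
      rw [Algebra.adjoin_singleton_eq_range_aeval]
      exact ⟨a j, rfl⟩
    exact IntermediateField.algebra_adjoin_le_adjoin K {u} h1
  have h1 : ∑ j ∈ t, (⟨aeval u (a j), hmem j⟩ : ↥(K⟮u⟯)) • x j = 0 := by
    rw [← ha]
    rfl
  have h2 := (linearIndependent_iff'.mp h) t _ h1 i hi
  have h3 : aeval u (a i) = 0 := congrArg Subtype.val h2
  exact (transcendental_iff.mp hu) (a i) h3

end General

end Fermat.Agent.S28
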