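/-
S28 (DEG-Q, part 3): coefficient descent.  For a subfield `F₀` of `ℚ((q))` and a field `L ⊇ ℚ`,
`(L · F₀) ∩ ℚ((q)) = F₀` inside `L((q))`:
  `degQ_mem_of_coeffEmb_mem : coeffEmb L u ∈ laurentBaseChange L F₀ → u ∈ F₀`.
Owner: helper22.
-/
import Mathlib
import Fermat.Prelude.Def_ModularCurve_LaurentCoeff
import Fermat.Agent.S28.DegQLin

set_option autoImplicit false
set_option linter.unusedSectionVars false

noncomputable section

namespace Fermat.Agent.S28

open ModularCurve

section Descent

variable (L : Type*) [Field L] [Algebra ℚ L]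
variable (F₀ : IntermediateField ℚ (LaurentSeries ℚ))

theorem degQ_single_mem (a : ℚ) : (HahnSeries.single (0 : ℤ) a : LaurentSeries ℚ) ∈ F₀ := by
  rw [← algebraMap_laurentSeries_eq_single]
  exact F₀.algebraMap_mem a

theorem degQ_coeffEmb_single (a : ℚ) :
    coeffEmb L (HahnSeries.single (0 : ℤ) a)
      = algebraMap L (LaurentSeries L) (algebraMap ℚ L a) := by
  rw [algebraMap_laurentSeries_eq_single]
  exact coeffMap_single _ _ _

theorem degQ_coeffEmb_injective : Function.Injective (coeffEmb L) :=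
  (coeffEmb L).injective

/-- Simultaneous decomposition of `L`-linear combinations of elements of `coeffEmb '' F₀`
along a `ℚ`-basis of a finite dimensional space containing the coefficients. -/
theorem degQ_span_decomp (S : Finset L) :
    ∃ (n : ℕ) (α : Fin n → L), LinearIndependent ℚ α ∧
      ∀ (t : Finset (LaurentSeries L)) (c : LaurentSeries L → L),
        (∀ y ∈ t, c y ∈ Submodule.span ℚ (S : Set L)) →
        (∀ y ∈ t, ∃ x ∈ F₀, coeffEmb L x = y) →
        ∃ Z : Fin n → LaurentSeries ℚ, (∀ k, Z k ∈ F₀) ∧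
          ∑ y ∈ t, algebraMap L (LaurentSeries L) (c y) * y
            = ∑ k, algebraMap L (LaurentSeries L) (α k) * coeffEmb L (Z k) := by
  classical
  set V : Submodule ℚ L := Submodule.span ℚ (S : Set L) with hV
  have hfin : Module.Finite ℚ V := Module.Finite.span_finset ℚ S
  let b := Module.finBasis ℚ V
  refine ⟨Module.finrank ℚ V, fun k => (b k : L), ?_, ?_⟩
  · have h1 : LinearIndependent ℚ (fun k => b k) := b.linearIndependent
    exact h1.map' V.subtype (Submodule.ker_subtype V)
  · intro t c hc hpre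
    let cr : LaurentSeries L → Fin (Module.finrank ℚ V) → ℚ := fun y =>
      if h : c y ∈ V then ⇑(b.repr ⟨c y, h⟩) else 0
    let pre : LaurentSeries L → LaurentSeries ℚ := fun y =>
      if h : ∃ x ∈ F₀, coeffEmb L x = y then h.choose else 0
    have hpre1 : ∀ y ∈ t, pre y ∈ F₀ := by
      intro y hy
      have h := hpre y hy
      simp only [pre, dif_pos h]
      exact h.choose_spec.1
    have hpre2 : ∀ y ∈ t, coeffEmb L (pre y) = y := by
      intro y hy
      have h := hpre y hy
      simp only [pre, dif_pos h]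
      exact h.choose_spec.2
    have hcr : ∀ y ∈ t, ∑ k, (b k : L) * algebraMap ℚ L (cr y k) = c y := by
      intro y hy
      have h := hc y hy
      have h3 := congrArg (fun v : V => (v : L)) (b.sum_repr ⟨c y, h⟩)
      simp only [AddSubmonoidClass.coe_finsetSum, Submodule.coe_smul] at h3
      refine Eq.trans ?_ h3
      refine Finset.sum_congr rfl fun k _ => ?_
      simp only [cr, dif_pos h]
      rw [Algebra.smul_def, mul_comm]
    refine ⟨fun k => ∑ y ∈ t, HahnSeries.single (0 : ℤ) (cr y k) * pre y, ?_, ?_⟩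
    · intro k
      exact sum_mem fun y hy => mul_mem (degQ_single_mem F₀ _) (hpre1 y hy)
    · simp only [map_sum, map_mul, Finset.mul_sum, degQ_coeffEmb_single]
      rw [Finset.sum_comm]
      refine Finset.sum_congr rfl fun y hy => ?_
      rw [hpre2 y hy, ← hcr y hy, map_sum, Finset.sum_mul]
      refine Finset.sum_congr rfl fun k _ => ?_
      rw [map_mul, mul_assoc]

/-- **Coefficient descent**: `(L · F₀) ∩ ℚ((q)) = F₀`. -/
theorem degQ_mem_of_coeffEmb_mem (u : LaurentSeries ℚ)
    (h : coeffEmb L u ∈ laurentBaseChange L F₀) : u ∈ F₀ := by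
  classical
  unfold laurentBaseChange at h
  obtain ⟨r, hr, s, hs, hrs⟩ := IntermediateField.mem_adjoin_iff_div.mp h
  by_cases hs0 : s = 0
  · rw [hs0, div_zero] at hrs
    have : u = 0 := degQ_coeffEmb_injective L (hrs.trans (map_zero _).symm)
    rw [this]
    exact zero_mem _
  -- the image of `F₀` is multiplicatively closed
  let M : Submonoid (LaurentSeries L) :=
    (F₀.toSubalgebra.toSubsemiring.toSubmonoid).map (coeffEmb L : LaurentSeries ℚ →* LaurentSeries L)
  have hM : (M : Set (LaurentSeries L)) = ⇑(coeffEmb L) '' (F₀ : Set (LaurentSeries ℚ)) := rfl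
  have hspan : ∀ z ∈ Algebra.adjoin L (⇑(coeffEmb L) '' (F₀ : Set (LaurentSeries ℚ))),
      ∃ (c : LaurentSeries L → L) (t : Finset (LaurentSeries L)),
        (↑t ⊆ ⇑(coeffEmb L) '' (F₀ : Set (LaurentSeries ℚ))) ∧
          ∑ a ∈ t, algebraMap L (LaurentSeries L) (c a) * a = z := by
    intro z hz
    have h1 : z ∈ Subalgebra.toSubmodule
        (Algebra.adjoin L (⇑(coeffEmb L) '' (F₀ : Set (LaurentSeries ℚ)))) := hz
    rw [Algebra.adjoin_eq_span, ← hM, Submonoid.closure_eq] at h1
    obtain ⟨c, t, ht, -, hsum⟩ :=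
      (@Submodule.mem_span_iff_exists_finset_subset L (LaurentSeries L) _ _ Algebra.toModule
        _ _).mp h1
    refine ⟨c, t, ht, ?_⟩
    rw [← hsum]
    refine Finset.sum_congr rfl fun a _ => ?_
    rw [Algebra.smul_def]
  obtain ⟨cr, tr, htr, hr'⟩ := hspan r hr
  obtain ⟨cs, ts, hts, hs'⟩ := hspan s hs
  obtain ⟨n, α, hα, hdec⟩ := degQ_span_decomp L F₀ (tr.image cr ∪ ts.image cs)
  obtain ⟨R, hR, hRsum⟩ := hdec tr cr
    (fun y hy => Submodule.subset_span (by
      rw [Finset.coe_union]
      exact Or.inl (Finset.mem_coe.mpr (Finset.mem_image_of_mem _ hy))))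
    (fun y hy => htr hy)
  obtain ⟨Sk, hS, hSsum⟩ := hdec ts cs
    (fun y hy => Submodule.subset_span (by
      rw [Finset.coe_union]
      exact Or.inr (Finset.mem_coe.mpr (Finset.mem_image_of_mem _ hy))))
    (fun y hy => hts hy)
  rw [hr'] at hRsum
  rw [hs'] at hSsum
  have hmul : coeffEmb L u * s = r := by
    rw [hrs, div_mul_cancel₀ _ hs0]
  have hrel : ∑ k, algebraMap L (LaurentSeries L) (α k) * coeffEmb L (u * Sk k - R k) = 0 := by
    simp only [map_sub, map_mul, mul_sub, Finset.sum_sub_distrib]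
    rw [← hRsum, ← hmul, hSsum, Finset.mul_sum]
    rw [sub_eq_zero]
    refine Finset.sum_congr rfl fun k _ => ?_
    ring
  have hk := degQ_descent L α hα _ hrel
  have hex : ∃ k, Sk k ≠ 0 := by
    by_contra hcon
    have hcon : ∀ k, Sk k = 0 := fun k => by
      by_contra hk
      exact hcon ⟨k, hk⟩
    apply hs0
    rw [hSsum]
    refine Finset.sum_eq_zero fun k _ => ?_
    rw [hcon k, map_zero, mul_zero]
  obtain ⟨k, hk0⟩ := hex
  have hu : u = R k / Sk k := by
    rw [eq_div_iff hk0]
    exact sub_eq_zero.mp (hk k)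
  rw [hu]
  exact div_mem (hR k) (hS k)

end Descent

end Fermat.Agent.S28
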