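/-
S28, package [MEM] (owner: helper14), analytic part.

* `umem_U d`            : the function `z ↦ Δ(d z) / Δ(z)` on the upper half plane
* `umem_U_isModFun`     : it is a modular function for `Γ₀(d)` in the sense of the S24 library
* `umem_lagrange`       : Lagrange interpolation over level one: every modular function `f` for
                          `Γ₀(N)` satisfies `f · B(j, j_N) = A(j, j_N)` with `B(j, j_N) ≠ 0`
-/
import Mathlib
import Fermat.Agent.S24.Translate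
import Fermat.Agent.S24.Degree
import Fermat.Agent.S24.CharPoly
import Fermat.Agent.S24.CombIndex

set_option autoImplicit false

noncomputable section

namespace Fermat.Agent.S28

open UpperHalfPlane ModularFormClass CongruenceSubgroup Matrix.SpecialLinearGroup Function
open ModularForm Filter Asymptotics
open scoped MatrixGroups ModularForm Manifold Real Topology Polynomial

open Fermat.Agent.S24

local notation "Δ" => ModularForm.discriminant

/-- The function `z ↦ Δ(d z) / Δ(z)`. -/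
def umem_U (d : ℕ) : ℍ → ℂ := fun z => Δ (heckeDiagMatrix d • z) / Δ z

theorem umem_U_apply (d : ℕ) (z : ℍ) : umem_U d z = Δ (heckeDiagMatrix d • z) / Δ z := rfl

/-- `Δ` is slash-invariant of weight `12` under `SL(2,ℤ)`. -/
theorem umem_disc_slash (γ : SL(2, ℤ)) :
    (Δ : ℍ → ℂ) ∣[(12 : ℤ)] (mapGL ℝ γ) = (Δ : ℍ → ℂ) := by
  have hγ : (mapGL ℝ γ : GL (Fin 2) ℝ) ∈ 𝒮ℒ := ⟨γ, rfl⟩
  exact SlashInvariantFormClass.slash_action_eq CuspForm.discriminant _ hγ

/-- The weight `12` slash of `Δ` by `diag(d, 1)`. -/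
def umem_W (d : ℕ) : ℍ → ℂ := (Δ : ℍ → ℂ) ∣[(12 : ℤ)] heckeDiagMatrix d

theorem umem_W_apply {d : ℕ} (hd : d ≠ 0) (z : ℍ) :
    umem_W d z = (d : ℂ) ^ (11 : ℤ) * Δ (heckeDiagMatrix d • z) := by
  rw [umem_W, slash_heckeDiagMatrix_apply 12 hd]
  norm_num

theorem umem_slash_SL_apply (f : ℍ → ℂ) (γ : SL(2, ℤ)) (z : ℍ) :
    (f ∣[(12 : ℤ)] (mapGL ℝ γ)) z = f (γ • z) * denom γ z ^ (-(12 : ℤ)) :=
  ModularForm.SL_slash_apply (k := 12) (f := f) γ z

/-- The basic translation formula: `U(γ z) = d⁻¹¹ (W ∣ γ)(z) / Δ(z)`. -/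
theorem umem_U_smul {d : ℕ} (hd : d ≠ 0) (γ : SL(2, ℤ)) (z : ℍ) :
    umem_U d (γ • z) =
      ((d : ℂ) ^ (11 : ℤ))⁻¹ * ((umem_W d ∣[(12 : ℤ)] (mapGL ℝ γ)) z) / Δ z := by
  have hden : denom γ z ≠ 0 := denom_ne_zero γ z
  have hd' : (d : ℂ) ^ (11 : ℤ) ≠ 0 := zpow_ne_zero _ (by exact_mod_cast hd)
  rw [umem_slash_SL_apply, umem_W_apply hd, umem_U_apply, anC_discriminant_smul]
  have hΔ : Δ z ≠ 0 := discriminant_ne_zero z
  rw [zpow_neg]
  field_simp

/-! ### Holomorphy -/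

theorem umem_U_mdiff (d : ℕ) [NeZero d] : MDiff (umem_U d) := by
  have h1 : MDiff (fun z : ℍ => Δ (heckeDiagMatrix d • z)) := by
    have h2 : MDiff ((Δ : ℍ → ℂ) ∣[(12 : ℤ)] heckeDiagMatrix d) :=
      anC_discriminant_mdiff.slash 12 _
    rw [S22.DN.comp_diag_eq 12 (NeZero.ne d) (Δ : ℍ → ℂ)]
    exact h2.const_smul _
  exact h1.div anC_discriminant_mdiff discriminant_ne_zero

/-! ### Invariance under `Γ₀(d)` -/

theorem umem_W_slash_of_mem {d : ℕ} [NeZero d] {γ : SL(2, ℤ)} (hγ : γ ∈ Gamma0 d) :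
    umem_W d ∣[(12 : ℤ)] (mapGL ℝ γ) = umem_W d := by
  have hdvd : (d : ℤ) ∣ γ 1 0 := (ZMod.intCast_zmod_eq_zero_iff_dvd _ d).1 ((Gamma0_mem).1 hγ)
  obtain ⟨e, he⟩ := hdvd
  obtain ⟨g', -, hg'⟩ :=
    P2MW.S_ModularForm_heckeT_slash_eq_self_of_mem_Gamma0.ModularForm.HeckeSlashInvariance.heckeDiagMatrix_mul_of_eq'
      (p := d) (NeZero.ne d) γ e he
  rw [umem_W, ← SlashAction.slash_mul, hg', SlashAction.slash_mul, umem_disc_slash]

theorem umem_U_smul_of_mem {d : ℕ} [NeZero d] {γ : SL(2, ℤ)} (hγ : γ ∈ Gamma0 d) (z : ℍ) :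
    umem_U d (γ • z) = umem_U d z := by
  have hd : d ≠ 0 := NeZero.ne d
  have hd' : (d : ℂ) ^ (11 : ℤ) ≠ 0 := zpow_ne_zero _ (by exact_mod_cast hd)
  rw [umem_U_smul hd, umem_W_slash_of_mem hγ, umem_W_apply hd, umem_U_apply]
  field_simp

/-! ### The translates -/

/-- **Translation formula.** For `γ ∈ SL(2,ℤ)` with Hermite form `ε · diag(d,1) · γ = (g B; 0 N')`
one has `Δ(d γ z) / Δ(γ z) = N'⁻¹² Δ((g z + B) / N') / Δ(z)`. -/
theorem umem_U_smul_hermite {d : ℕ} [NeZero d] (γ ε : SL(2, ℤ)) (g N' : ℕ) (B : ℤ)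
    (h : 0 < (g : ℝ) * (N' : ℝ)) (hgN : g * N' = d)
    (hmat : (mapGL ℝ ε) * heckeDiagMatrix d * (mapGL ℝ γ) =
      upperTriangularGL (g : ℝ) (B : ℝ) (N' : ℝ) h.ne') (z : ℍ) :
    umem_U d (γ • z) =
      ((N' : ℂ) ^ (12 : ℤ))⁻¹ * Δ (upperTriangularGL (g : ℝ) (B : ℝ) (N' : ℝ) h.ne' • z) / Δ z := by
  have hd : d ≠ 0 := NeZero.ne d
  have hd' : (d : ℂ) ≠ 0 := by exact_mod_cast hd
  have hN'0 : N' ≠ 0 := by
    rintro rfl
    simp at h
  have hN' : (N' : ℂ) ≠ 0 := by exact_mod_cast hN'0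
  have hW : umem_W d ∣[(12 : ℤ)] (mapGL ℝ γ) =
      (Δ : ℍ → ℂ) ∣[(12 : ℤ)] upperTriangularGL (g : ℝ) (B : ℝ) (N' : ℝ) h.ne' := by
    have h1 : heckeDiagMatrix d * (mapGL ℝ γ) =
        (mapGL ℝ ε⁻¹) * upperTriangularGL (g : ℝ) (B : ℝ) (N' : ℝ) h.ne' := by
      rw [← hmat, map_inv, mul_assoc, inv_mul_cancel_left]
    rw [umem_W, ← SlashAction.slash_mul, h1, SlashAction.slash_mul, umem_disc_slash]
  rw [umem_U_smul hd, hW, S22.Indep.slash_upperTriangularGL_apply 12 _ _ _ h]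
  have hΔ : Δ z ≠ 0 := discriminant_ne_zero z
  have e1 : (((g : ℝ) * (N' : ℝ) : ℝ) : ℂ) = (d : ℂ) := by
    rw [← hgN]; push_cast; ring
  rw [e1]
  have e2 : ((N' : ℝ) : ℂ) = (N' : ℂ) := by push_cast; rfl
  rw [e2, zpow_neg]
  norm_num
  field_simp

/-! ### Growth of the translates -/

theorem umem_inv_disc_isBigO :
    (fun τ : ℍ => (Δ τ)⁻¹) =O[atImInfty] fun τ : ℍ => Real.exp (2 * π * τ.im) := by
  have h3 := exp_isBigO_discriminant.inv_rev
    (Eventually.of_forall fun τ h => absurd h (Real.exp_pos _).ne')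
  refine h3.congr_right fun τ => ?_
  rw [← Real.exp_neg]
  congr 1
  ring

theorem umem_disc_comp_isBigO_one {β : GL (Fin 2) ℝ} (hβ : β 1 0 = 0) :
    (fun τ : ℍ => Δ (β • τ)) =O[atImInfty] (1 : ℍ → ℝ) := by
  refine (anG_disc_comp_isBigO hβ).trans ?_
  refine IsBigO.of_bound 1 (Eventually.of_forall fun τ => ?_)
  rw [Real.norm_of_nonneg (Real.exp_pos _).le, one_mul]
  simp only [Pi.one_apply, norm_one]
  rw [Real.exp_le_one_iff]
  have := (β • τ).im_pos
  have hpi := Real.pi_pos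
  nlinarith

theorem umem_U_smul_growth (d : ℕ) [NeZero d] (γ : SL(2, ℤ)) :
    anB_Growth (fun z => umem_U d (γ • z)) := by
  obtain ⟨ε, g, N', B, hpos, hgN, -, -, hmat⟩ := S22.Indep.exists_hermite d γ
  have hfun : (fun z : ℍ => umem_U d (γ • z)) = fun z : ℍ =>
      ((N' : ℂ) ^ (12 : ℤ))⁻¹ *
        Δ (upperTriangularGL (g : ℝ) (B : ℝ) (N' : ℝ) hpos.ne' • z) * (Δ z)⁻¹ := by
    funext z
    rw [umem_U_smul_hermite γ ε g N' B hpos hgN hmat z, div_eq_mul_inv]
  rw [hfun]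
  have hβ : (upperTriangularGL (g : ℝ) (B : ℝ) (N' : ℝ) hpos.ne') 1 0 = 0 := by
    simp [val_upperTriangularGL]
  have h1 := ((umem_disc_comp_isBigO_one hβ).const_mul_left
    (((N' : ℂ) ^ (12 : ℤ))⁻¹)).mul umem_inv_disc_isBigO
  refine ⟨1, h1.congr_right fun z => ?_⟩
  simp

theorem umem_U_isModFun (d : ℕ) [NeZero d] : anB_IsModFun d (umem_U d) where
  holo := umem_U_mdiff d
  inv := fun _ hγ z => umem_U_smul_of_mem hγ z
  growth := umem_U_smul_growth d

/-! ### Lagrange interpolation: pointwise algebra -/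

theorem umem_lagrange_pointwise {ι : Type*} [Fintype ι] [DecidableEq ι] (J F : ι → ℂ) (x₀ : ι) :
    ∑ i ∈ Finset.range (Fintype.card ι),
      (∑ m ∈ Finset.Icc (i + 1) (Fintype.card ι),
        J x₀ ^ (m - (i + 1)) * (∏ x, (Polynomial.X - Polynomial.C (J x))).coeff m) *
          (∑ x, F x * J x ^ i) =
      F x₀ * ∏ x ∈ Finset.univ.erase x₀, (J x₀ - J x) := by
  classical
  set Φ : ℂ[X] := ∏ x, (Polynomial.X - Polynomial.C (J x)) with hΦ
  set Ψ : ℂ[X] := ∏ x ∈ Finset.univ.erase x₀, (Polynomial.X - Polynomial.C (J x)) with hΨ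
  have hΦΨ : Φ = (Polynomial.X - Polynomial.C (J x₀)) * Ψ :=
    (Finset.mul_prod_erase _ _ (Finset.mem_univ x₀)).symm
  have hdiv : Φ /ₘ (Polynomial.X - Polynomial.C (J x₀)) = Ψ := by
    rw [hΦΨ]
    exact Polynomial.mul_divByMonic_cancel_left _ (Polynomial.monic_X_sub_C _)
  have hdegΦ : Φ.natDegree = Fintype.card ι := by
    rw [hΦ, Polynomial.natDegree_finsetProd_X_sub_C_eq_card, Finset.card_univ]
  have hcoeff : ∀ i, Ψ.coeff i =
      ∑ m ∈ Finset.Icc (i + 1) (Fintype.card ι), J x₀ ^ (m - (i + 1)) * Φ.coeff m := by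
    intro i
    rw [← hdiv, Polynomial.coeff_divByMonic_X_sub_C, hdegΦ]
  have hcard : 0 < Fintype.card ι := Fintype.card_pos_iff.mpr ⟨x₀⟩
  have hdegΨ : Ψ.natDegree < Fintype.card ι := by
    rw [hΨ, Polynomial.natDegree_finsetProd_X_sub_C_eq_card,
      Finset.card_erase_of_mem (Finset.mem_univ _), Finset.card_univ]
    exact Nat.sub_lt hcard one_pos
  have heval : ∀ t, Ψ.eval t = ∑ i ∈ Finset.range (Fintype.card ι), Ψ.coeff i * t ^ i :=
    fun t => Polynomial.eval_eq_sum_range' hdegΨ t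
  have hΨeval : ∀ t, Ψ.eval t = ∏ x ∈ Finset.univ.erase x₀, (t - J x) := by
    intro t
    rw [hΨ, Polynomial.eval_prod]
    simp
  calc ∑ i ∈ Finset.range (Fintype.card ι),
        (∑ m ∈ Finset.Icc (i + 1) (Fintype.card ι), J x₀ ^ (m - (i + 1)) * Φ.coeff m) *
          (∑ x, F x * J x ^ i)
      = ∑ i ∈ Finset.range (Fintype.card ι), ∑ x, F x * (Ψ.coeff i * J x ^ i) := by
        refine Finset.sum_congr rfl fun i _ => ?_
        rw [← hcoeff, Finset.mul_sum]
        refine Finset.sum_congr rfl fun x _ => ?_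
        ring
    _ = ∑ x, F x * Ψ.eval (J x) := by
        rw [Finset.sum_comm]
        refine Finset.sum_congr rfl fun x _ => ?_
        rw [heval, Finset.mul_sum]
    _ = F x₀ * Ψ.eval (J x₀) := by
        refine Finset.sum_eq_single x₀ (fun x _ hx => ?_) (fun h => absurd (Finset.mem_univ _) h)
        rw [hΨeval, Finset.prod_eq_zero (Finset.mem_erase.mpr ⟨hx, Finset.mem_univ x⟩)
          (sub_self _), mul_zero]
    _ = F x₀ * ∏ x ∈ Finset.univ.erase x₀, (J x₀ - J x) := by rw [hΨeval]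

/-! ### Lagrange interpolation over level one -/

theorem umem_growth_iff (f : ℍ → ℂ) : anD_ModGrowth f ↔ anB_Growth f := Iff.rfl

/-- **Lagrange interpolation.** Every modular function `f` for `Γ₀(N)` (holomorphic on `ℍ`,
all translates of moderate growth) satisfies `f · B(j, j_N) = A(j, j_N)` for bivariate
polynomials `A`, `B` with `B(j, j_N)` not identically zero. -/
theorem umem_lagrange (N : ℕ) [NeZero N] {f : ℍ → ℂ} (hf : anB_IsModFun N f) :
    ∃ A B : ℂ[X][X],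
      (∀ z : ℍ, f z * B.evalEval (jfun z) (anB_jd N z) = A.evalEval (jfun z) (anB_jd N z)) ∧
      ∃ z : ℍ, B.evalEval (jfun z) (anB_jd N z) ≠ 0 := by
  classical
  have hfin : Finite (XN N) := Comb.finite_X N (NeZero.ne N)
  let _ : Fintype (XN N) := Fintype.ofFinite (XN N)
  set n := Fintype.card (XN N) with hn
  have hJmod : anB_IsModFun N (anB_jd N) := anB_isModFun_jd dvd_rfl
  set J : XN N → ℍ → ℂ := anB_tr N (anB_jd N) with hJ
  set F : XN N → ℍ → ℂ := anB_tr N f with hF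
  set x₀ : XN N := QuotientGroup.mk 1 with hx₀
  have hJ0 : J x₀ = anB_jd N := anB_tr_one hJmod.inv
  have hF0 : F x₀ = f := anB_tr_one hf.inv
  -- the characteristic polynomial of `J`
  obtain ⟨P, -, hP, -⟩ := anD_exists_charPoly J
    (fun x => anB_tr_mdiff hJmod.holo x) (fun x => anB_tr_growth hJmod x)
    (fun γ => ⟨MulAction.toPerm γ⁻¹, fun x z => anB_tr_smul hJmod.inv γ x z⟩)
  let Pc : ℕ → ℂ[X] := fun m =>
    ∑ k ∈ Finset.range (n + 1), Polynomial.C ((-1 : ℂ) ^ k) * (if m = n - k then P k else 0)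
  have hPc : ∀ (m : ℕ) (z : ℍ),
      (∏ x, (Polynomial.X - Polynomial.C (J x z))).coeff m = (Pc m).eval (jfun z) := by
    intro m z
    rw [anD_prod_X_sub_C J z, Polynomial.finsetSum_coeff, Polynomial.eval_finsetSum]
    refine Finset.sum_congr rfl fun k _ => ?_
    have e1 : ((-1 : ℂ[X]) ^ k) = Polynomial.C ((-1 : ℂ) ^ k) := by simp
    rw [Polynomial.eval_mul, Polynomial.eval_C, e1, ← mul_assoc,
      ← Polynomial.C_mul, Polynomial.coeff_C_mul_X_pow, hP, jfun]
    by_cases hm : m = n - k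
    · rw [if_pos hm, if_pos hm]
    · rw [if_neg hm, if_neg hm, Polynomial.eval_zero, mul_zero]
  -- the power sums `∑ₓ F x · J x ^ i`
  have hS : ∀ i : ℕ, ∃ Q : ℂ[X], ∀ z : ℍ, ∑ x, F x z * J x z ^ i = Q.eval (jfun z) := by
    intro i
    refine anD_polynomial_of_modGrowth (fun z => ∑ x, F x z * J x z ^ i) ?_ ?_ ?_
    · have h1 : MDiff (∑ x, F x * J x ^ i) :=
        MDifferentiable.sum fun x _ =>
          (anB_tr_mdiff hf.holo x).mul ((anB_tr_mdiff hJmod.holo x).pow i)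
      have e : (fun z => ∑ x, F x z * J x z ^ i) = ∑ x, F x * J x ^ i := by
        funext z
        simp [Finset.sum_apply]
      rw [e]
      exact h1
    · intro γ z
      have h1 : ∀ x, F x (γ • z) * J x (γ • z) ^ i =
          (fun y => F y z * J y z ^ i) (MulAction.toPerm γ⁻¹ x) := by
        intro x
        simp only [hF, hJ, MulAction.toPerm_apply]
        rw [anB_tr_smul hf.inv, anB_tr_smul hJmod.inv]
      rw [Finset.sum_congr rfl fun x _ => h1 x]
      exact Equiv.sum_comp (MulAction.toPerm γ⁻¹) (fun y => F y z * J y z ^ i)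
    · refine anD_ModGrowth.sum _ fun x _ => ?_
      refine anD_ModGrowth.mul (anB_tr_growth hf x) ?_
      have h2 : anB_Growth (anB_tr N (anB_jd N) x ^ i) := (anB_tr_growth hJmod x).pow i
      exact h2
  choose Q hQ using hS
  -- the two polynomials
  let A : ℂ[X][X] := ∑ i ∈ Finset.range n, ∑ m ∈ Finset.Icc (i + 1) n,
    Polynomial.C (Pc m * Q i) * Polynomial.X ^ (m - (i + 1))
  let B : ℂ[X][X] := ∑ i ∈ Finset.range n, ∑ m ∈ Finset.Icc (i + 1) n,
    Polynomial.C (Pc m) * Polynomial.X ^ (m - (i + 1)) * Polynomial.X ^ i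
  have hA : ∀ z : ℍ, A.evalEval (jfun z) (anB_jd N z) =
      F x₀ z * ∏ x ∈ Finset.univ.erase x₀, (J x₀ z - J x z) := by
    intro z
    rw [← umem_lagrange_pointwise (fun x => J x z) (fun x => F x z) x₀]
    simp only [A, Polynomial.evalEval, Polynomial.eval_finsetSum, Polynomial.eval_mul,
      Polynomial.eval_pow, Polynomial.eval_C, Polynomial.eval_X]
    refine Finset.sum_congr rfl fun i _ => ?_
    rw [Finset.sum_mul]
    refine Finset.sum_congr rfl fun m _ => ?_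
    rw [hPc, hQ, hJ0]
    ring
  have hB : ∀ z : ℍ, B.evalEval (jfun z) (anB_jd N z) =
      ∏ x ∈ Finset.univ.erase x₀, (J x₀ z - J x z) := by
    intro z
    have h1 := umem_lagrange_pointwise (fun x => J x z)
      (fun x => if x = x₀ then (1 : ℂ) else 0) x₀
    simp only [if_true, one_mul] at h1
    rw [← h1]
    simp only [B, Polynomial.evalEval, Polynomial.eval_finsetSum, Polynomial.eval_mul,
      Polynomial.eval_pow, Polynomial.eval_C, Polynomial.eval_X]
    refine Finset.sum_congr rfl fun i _ => ?_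
    rw [Finset.sum_mul]
    have h2 : ∑ x, (if x = x₀ then (1 : ℂ) else 0) * J x z ^ i = J x₀ z ^ i := by
      rw [Finset.sum_eq_single x₀ (fun x _ hx => by rw [if_neg hx, zero_mul])
        (fun h => absurd (Finset.mem_univ _) h), if_pos rfl, one_mul]
    rw [h2]
    refine Finset.sum_congr rfl fun m _ => ?_
    rw [hPc, hJ0]
    ring
  refine ⟨A, B, fun z => ?_, ?_⟩
  · rw [hA, hB, hF0]
  · -- the discriminant factor does not vanish identically
    obtain ⟨z₀, hz₀⟩ := anG_exists_forall_ne_zero (Finset.univ.erase x₀)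
      (fun x => J x₀ - J x)
      (fun x _ => (anB_tr_mdiff hJmod.holo _).sub (anB_tr_mdiff hJmod.holo _))
      (fun x hx h0 => (Finset.mem_erase.mp hx).1
        ((anG_tr_jd_injective N (sub_eq_zero.mp h0)).symm))
    refine ⟨z₀, ?_⟩
    rw [hB]
    exact Finset.prod_ne_zero_iff.mpr fun x hx => hz₀ x hx

end Fermat.Agent.S28

end
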