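/-
S28, package [MEM] (owner: helper14): the modular units lie in the function field.

* `umem_deltaQ`     : the formal `q`-expansion `Δ(q) = q ∏ (1 - qⁿ)²⁴` over `ℚ`
* `umem_unit d`     : the modular unit `u_d = Δ(q^d) / Δ(q)` as a Laurent series over `ℚ`
* `umem_mem_of_hasLaurent` : **`q`-expansion principle in characteristic `0`**: a modular function
                      for `Γ₀(d)` (holomorphic on `ℍ`, all translates of moderate growth) whose
                      `q`-expansion at `i∞` has rational coefficients lies in `ℚ(j, j_d)`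
* `umem_unit_mem`   : `u_d ∈ modularFunctionFieldFull N` for `d ∣ N`
-/
import Mathlib
import Fermat.Prelude.Def_ModularCurve_X0
import Fermat.Prelude.Def_ModularCurve_LaurentCoeff
import Fermat.Agent.S24.Bridge
import Fermat.Agent.S24.BridgeLaurent
import Fermat.Agent.S28.UnitMemAN
import Fermat.Agent.S28.DegQDescent

set_option autoImplicit false

noncomputable section

namespace Fermat.Agent.S28

open UpperHalfPlane ModularFormClass CongruenceSubgroup Matrix.SpecialLinearGroup Function
open ModularForm Filter Asymptotics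
open scoped MatrixGroups ModularForm Manifold Real Topology Polynomial

open Fermat.Agent.S24 Fermat.Agent.S22 ModularCurve

local notation "Δ" => ModularForm.discriminant

/-! ### Polynomial expressions in functions with Laurent expansions -/

theorem umem_hasLaurent_pow {s : LaurentSeries ℂ} {f : ℍ → ℂ} (h : anA_HasLaurent s f) (n : ℕ) :
    anA_HasLaurent (s ^ n) (f ^ n) := by
  induction n with
  | zero => simpa using anA_HasLaurent.one
  | succ n ih =>
    rw [pow_succ, pow_succ]
    exact ih.mul h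

theorem umem_hasLaurent_eval {s : LaurentSeries ℂ} {f : ℍ → ℂ} (h : anA_HasLaurent s f)
    (a : ℂ[X]) :
    anA_HasLaurent (a.eval₂ (HahnSeries.C : ℂ →+* LaurentSeries ℂ) s) (fun z => a.eval (f z)) := by
  induction a using Polynomial.induction_on' with
  | add p q hp hq =>
    rw [Polynomial.eval₂_add]
    have := hp.add hq
    refine (congrArg (anA_HasLaurent _) ?_).mp this
    funext z
    simp
  | monomial n c =>
    rw [Polynomial.eval₂_monomial]
    have := (anA_HasLaurent.const c).mul (umem_hasLaurent_pow h n)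
    refine (congrArg (anA_HasLaurent _) ?_).mp this
    funext z
    simp [Polynomial.eval_monomial]

/-- The value of a bivariate polynomial at a pair of Laurent series. -/
def umem_serEval (x y : LaurentSeries ℂ) (P : ℂ[X][X]) : LaurentSeries ℂ :=
  P.eval₂ (Polynomial.eval₂RingHom (HahnSeries.C : ℂ →+* LaurentSeries ℂ) x) y

theorem umem_hasLaurent_evalEval {s t : LaurentSeries ℂ} {f g : ℍ → ℂ}
    (hf : anA_HasLaurent s f) (hg : anA_HasLaurent t g) (P : ℂ[X][X]) :
    anA_HasLaurent (umem_serEval s t P) (fun z => P.evalEval (f z) (g z)) := by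
  unfold umem_serEval
  induction P using Polynomial.induction_on' with
  | add p q hp hq =>
    rw [Polynomial.eval₂_add]
    have := hp.add hq
    refine (congrArg (anA_HasLaurent _) ?_).mp this
    funext z
    simp [Polynomial.evalEval]
  | monomial n a =>
    rw [Polynomial.eval₂_monomial]
    have := (umem_hasLaurent_eval hf a).mul (umem_hasLaurent_pow hg n)
    refine (congrArg (anA_HasLaurent _) ?_).mp this
    funext z
    simp [Polynomial.evalEval, Polynomial.eval_monomial]

theorem umem_serEval_mem (E : Subfield (LaurentSeries ℂ))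
    (hC : ∀ c : ℂ, (HahnSeries.C c : LaurentSeries ℂ) ∈ E) {x y : LaurentSeries ℂ}
    (hx : x ∈ E) (hy : y ∈ E) (P : ℂ[X][X]) : umem_serEval x y P ∈ E := by
  unfold umem_serEval
  have h1 : ∀ a : ℂ[X], a.eval₂ (HahnSeries.C : ℂ →+* LaurentSeries ℂ) x ∈ E := by
    intro a
    rw [Polynomial.eval₂_eq_sum_range]
    exact sum_mem fun i _ => mul_mem (hC _) (pow_mem hx i)
  rw [Polynomial.eval₂_eq_sum_range]
  exact sum_mem fun i _ => mul_mem (h1 _) (pow_mem hy i)

/-! ### The formal discriminant and the modular units -/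

/-- The formal `q`-expansion `Δ(q) = q ∏ (1 - qⁿ)²⁴` over `ℚ`. -/
def umem_deltaQ : LaurentSeries ℚ :=
  HahnSeries.single (1 : ℤ) (1 : ℚ) *
    HahnSeries.ofPowerSeries ℤ ℚ (ModularCurve.dedekindEtaUnit.map (Int.castRingHom ℚ))

/-- The modular unit `u_d = Δ(q^d) / Δ(q)` as a Laurent series over `ℚ`. -/
def umem_unit (d : ℕ) [NeZero d] : LaurentSeries ℚ :=
  ModularCurve.qExpand ℚ d umem_deltaQ * umem_deltaQ⁻¹

/-- The formal `q`-expansion of `Δ` over `ℂ`. -/
def umem_deltaC : LaurentSeries ℂ :=
  HahnSeries.single (1 : ℤ) (1 : ℂ) *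
    HahnSeries.ofPowerSeries ℤ ℂ (ModularCurve.dedekindEtaUnit.map (Int.castRingHom ℂ))

/-- The formal `q`-expansion of `Δ⁻¹` over `ℂ`. -/
def umem_deltaInvC : LaurentSeries ℂ :=
  HahnSeries.single (-1 : ℤ) (1 : ℂ) *
    HahnSeries.ofPowerSeries ℤ ℂ (ModularCurve.dedekindEtaUnitInv.map (Int.castRingHom ℂ))

theorem umem_deltaC_mul_inv : umem_deltaC * umem_deltaInvC = 1 := by
  rw [umem_deltaC, umem_deltaInvC]
  have h1 : HahnSeries.ofPowerSeries ℤ ℂ (ModularCurve.dedekindEtaUnit.map (Int.castRingHom ℂ)) *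
      HahnSeries.ofPowerSeries ℤ ℂ (ModularCurve.dedekindEtaUnitInv.map (Int.castRingHom ℂ)) = 1 := by
    rw [← map_mul, ← map_mul, ModularCurve.dedekindEtaUnit_mul_inv, map_one, map_one]
  calc HahnSeries.single (1 : ℤ) (1 : ℂ) *
        HahnSeries.ofPowerSeries ℤ ℂ (ModularCurve.dedekindEtaUnit.map (Int.castRingHom ℂ)) *
        (HahnSeries.single (-1 : ℤ) (1 : ℂ) *
          HahnSeries.ofPowerSeries ℤ ℂ (ModularCurve.dedekindEtaUnitInv.map (Int.castRingHom ℂ)))
      = (HahnSeries.single (1 : ℤ) (1 : ℂ) * HahnSeries.single (-1 : ℤ) (1 : ℂ)) *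
        (HahnSeries.ofPowerSeries ℤ ℂ (ModularCurve.dedekindEtaUnit.map (Int.castRingHom ℂ)) *
          HahnSeries.ofPowerSeries ℤ ℂ
            (ModularCurve.dedekindEtaUnitInv.map (Int.castRingHom ℂ))) := by ring
    _ = 1 := by
        rw [h1, mul_one, anA_single_mul_single]
        rfl

theorem umem_deltaC_inv : umem_deltaC⁻¹ = umem_deltaInvC :=
  inv_eq_of_mul_eq_one_right umem_deltaC_mul_inv

theorem umem_coeffEmb_deltaQ : coeffEmb ℂ umem_deltaQ = umem_deltaC := by
  rw [umem_deltaQ, umem_deltaC, coeffEmb, map_mul, coeffMap_single, map_one,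
    anA_coeffMap_ofPowerSeries]
  have e : (PowerSeries.map (algebraMap ℚ ℂ))
      ((PowerSeries.map (Int.castRingHom ℚ)) ModularCurve.dedekindEtaUnit) =
      PowerSeries.map (Int.castRingHom ℂ) ModularCurve.dedekindEtaUnit := by
    ext n
    simp
  rw [e]

theorem umem_coeffEmb_unit (d : ℕ) [NeZero d] :
    coeffEmb ℂ (umem_unit d) = ModularCurve.qExpand ℂ d umem_deltaC * umem_deltaInvC := by
  rw [umem_unit, map_mul, map_inv₀, umem_coeffEmb_deltaQ, umem_deltaC_inv]
  congr 1
  rw [coeffEmb, anA_coeffMap_qExpand]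
  congr 1
  exact umem_coeffEmb_deltaQ

/-! ### The Laurent expansions of `Δ`, `Δ⁻¹` and `Δ(d z) / Δ(z)` -/

theorem umem_disc_eq : (Δ : ℍ → ℂ) = anA_qfun * anA_etaF ^ 24 := by
  funext z
  rw [anA_discriminant_eq]
  rfl

theorem umem_isNice_disc : IsNice (Δ : ℍ → ℂ) := by
  rw [umem_disc_eq]
  exact anA_isNice_qfun.mul (anA_isNice_etaF.pow 24)

theorem umem_qExpansion_disc :
    HahnSeries.ofPowerSeries ℤ ℂ (qExpansion 1 (Δ : ℍ → ℂ)) = umem_deltaC := by
  rw [umem_disc_eq, anA_isNice_qfun.qExpansion_mul (anA_isNice_etaF.pow 24),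
    anA_isNice_etaF.qExpansion_pow, anA_qExpansion_qfun, anA_qExpansion_etaF, map_mul,
    umem_deltaC, ModularCurve.dedekindEtaUnit, map_pow, map_pow]
  congr 1
  · rw [HahnSeries.ofPowerSeries_X]
  · exact (map_pow _ _ _).symm

theorem umem_hasLaurent_disc : anA_HasLaurent umem_deltaC (Δ : ℍ → ℂ) := by
  have := anA_HasLaurent.of_isNice umem_isNice_disc
  rwa [umem_qExpansion_disc] at this

theorem umem_hasLaurent_disc_diag (d : ℕ) [NeZero d] :
    anA_HasLaurent (ModularCurve.qExpand ℂ d umem_deltaC)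
      (fun z => Δ (heckeDiagMatrix d • z)) := by
  have := anA_HasLaurent.of_isNice (anA_isNice_comp_diag umem_isNice_disc d)
  rwa [anA_ofPowerSeries_comp_diag umem_isNice_disc d, umem_qExpansion_disc] at this

theorem umem_hasLaurent_disc_inv : anA_HasLaurent umem_deltaInvC (fun z => (Δ z)⁻¹) := by
  have e : anA_qfun ^ 1 * (fun z => (Δ z)⁻¹) = anA_etaInv := by
    funext z
    simp only [Pi.mul_apply, pow_one, anA_etaInv]
    rw [anA_discriminant_eq, mul_inv, ← mul_assoc, mul_inv_cancel₀ (anA_qfun_ne_zero z), one_mul]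
  refine ⟨1, ?_, ?_⟩
  · rw [e]
    exact anA_isNice_etaInv
  · rw [e, anA_qExpansion_etaInv, umem_deltaInvC, ← mul_assoc]
    push_cast
    rw [anA_single_mul_single]
    rw [show (1 : ℤ) + -1 = 0 by norm_num, show HahnSeries.single (0 : ℤ) (1 : ℂ) = 1 from rfl,
      one_mul]

/-- The `q`-expansion of `Δ(d z) / Δ(z)` is (the image over `ℂ` of) `umem_unit d`. -/
theorem umem_hasLaurent_U (d : ℕ) [NeZero d] :
    anA_HasLaurent (coeffEmb ℂ (umem_unit d)) (umem_U d) := by
  rw [umem_coeffEmb_unit]
  have := (umem_hasLaurent_disc_diag d).mul umem_hasLaurent_disc_inv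
  refine (congrArg (anA_HasLaurent _) ?_).mp this
  funext z
  simp only [Pi.mul_apply, umem_U_apply, div_eq_mul_inv]

/-! ### The `q`-expansion principle in characteristic `0` -/

theorem umem_hasLaurent_jfun : anA_HasLaurent anA_jSeries jfun := by
  have h := anA_hasLaurent_jd 1
  rw [ModularCurve.qExpand_one_apply] at h
  have e : (fun z => jfun (heckeDiagMatrix 1 • z)) = jfun := anB_jd_one
  rwa [e] at h

theorem umem_hasLaurent_jd (d : ℕ) [NeZero d] :
    anA_HasLaurent (ModularCurve.qExpand ℂ d anA_jSeries) (anB_jd d) :=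
  anA_hasLaurent_jd d

theorem umem_coeffEmb_jq : coeffEmb ℂ jq = anA_jSeries := anA_coeffMap_jq _

theorem umem_coeffEmb_jqd (d : ℕ) [NeZero d] :
    coeffEmb ℂ (ModularCurve.qExpand ℚ d jq) = ModularCurve.qExpand ℂ d anA_jSeries := by
  rw [coeffEmb, anA_coeffMap_qExpand, anA_coeffMap_jq]

/-- **`q`-expansion principle in characteristic `0`.** A modular function for `Γ₀(d)`
(holomorphic on `ℍ`, invariant under `Γ₀(d)`, all `SL(2,ℤ)`-translates of moderate growth) whose
`q`-expansion at `i∞` has rational coefficients lies in `ℚ(j, j_d)`. -/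
theorem umem_mem_of_hasLaurent (d : ℕ) [NeZero d] (u : LaurentSeries ℚ) (f : ℍ → ℂ)
    (hf : anB_IsModFun d f) (hu : anA_HasLaurent (coeffEmb ℂ u) f) :
    u ∈ modularFunctionField d := by
  refine degQ_mem_of_coeffEmb_mem ℂ (modularFunctionField d) u ?_
  set E := laurentBaseChange ℂ (modularFunctionField d) with hE
  obtain ⟨A, B, hAB, z₀, hz₀⟩ := umem_lagrange d hf
  set s := anA_jSeries with hs
  set t := ModularCurve.qExpand ℂ d anA_jSeries with ht
  have hA := umem_hasLaurent_evalEval umem_hasLaurent_jfun (umem_hasLaurent_jd d) A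
  have hB := umem_hasLaurent_evalEval umem_hasLaurent_jfun (umem_hasLaurent_jd d) B
  -- the identity of Laurent series
  have hmul := hu.mul hB
  have hfun : (f * fun z => B.evalEval (jfun z) (anB_jd d z)) =
      fun z => A.evalEval (jfun z) (anB_jd d z) := by
    funext z
    exact hAB z
  rw [hfun] at hmul
  have hser : coeffEmb ℂ u * umem_serEval s t B = umem_serEval s t A := hmul.unique_series hA
  have hB0 : umem_serEval s t B ≠ 0 := by
    intro h0
    rw [h0] at hB
    have := congrFun hB.eq_zero_of_zero z₀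
    exact hz₀ this
  -- membership
  have hC : ∀ c : ℂ, (HahnSeries.C c : LaurentSeries ℂ) ∈ E.toSubfield := by
    intro c
    have h1 := E.algebraMap_mem c
    rw [algebraMap_laurentSeries_eq_single] at h1
    exact h1
  have hsE : s ∈ E.toSubfield := by
    have h1 := coeffEmb_mem_laurentBaseChange ℂ (jq_mem d)
    rw [umem_coeffEmb_jq] at h1
    exact h1
  have htE : t ∈ E.toSubfield := by
    have h1 := coeffEmb_mem_laurentBaseChange ℂ (jqN_mem d)
    rw [umem_coeffEmb_jqd] at h1
    exact h1
  have hAE := umem_serEval_mem E.toSubfield hC hsE htE A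
  have hBE := umem_serEval_mem E.toSubfield hC hsE htE B
  have hdiv : coeffEmb ℂ u = umem_serEval s t A / umem_serEval s t B := by
    rw [eq_div_iff hB0, hser]
  rw [hdiv]
  exact div_mem hAE hBE

/-- **[MEM]** The modular unit `u_d = Δ(q^d)/Δ(q)` lies in `ℚ(j, j_d)`. -/
theorem umem_unit_mem_level (d : ℕ) [NeZero d] : umem_unit d ∈ modularFunctionField d :=
  umem_mem_of_hasLaurent d (umem_unit d) (umem_U d) (umem_U_isModFun d) (umem_hasLaurent_U d)

/-- **[MEM]** The modular unit `u_d = Δ(q^d)/Δ(q)` lies in the function field of level `N`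
for every `d ∣ N`. -/
theorem umem_unit_mem (N d : ℕ) [NeZero N] [NeZero d] (hd : d ∣ N) :
    umem_unit d ∈ modularFunctionFieldFull N :=
  full_degeneracy_le hd (modularFunctionField_le_full d (umem_unit_mem_level d))

end Fermat.Agent.S28

end
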