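import Mathlib

/-!
# S28 [ESYM-ORD]: elementary symmetric functions of a family of Laurent series

Let `S : X → R((q))` be a finite family of Laurent series over a domain, `x₀ : X` with
`0 ≤ ord (S x₀)` and `ord (S x) < 0` for all `x ≠ x₀`.  Write
`e_j = ∑ t ∈ powersetCard j univ, ∏ x ∈ t, S x` for the elementary symmetric functions
(the same expression as `Fermat.Agent.S24.anD_esymm`) and `n = card X`.

* (a) `esymO_pred_ne_zero`, `esymO_pred_order`, `esymO_pred_leadingCoeff`, `esymO_pred_orderTop`: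
  `e_(n-1) ≠ 0`, `ord e_(n-1) = ∑_{x ≠ x₀} ord (S x)` and
  `leadingCoeff e_(n-1) = ∏_{x ≠ x₀} leadingCoeff (S x)`.
* (b) `esymO_lt_order`, `esymO_lt_orderTop`: for `j + 2 ≤ n`, `e_j = 0` or
  `ord e_j > ∑_{x ≠ x₀} ord (S x)`.
* (c) `esymO_coeff_mem`: if all coefficients of all `S x` lie in a subring, so do those of `e_j`
  (`esymO_coeffSubring`: the subring of series with coefficients in a subring).
* (d) `esymO_top`, `esymO_order_prod`, `esymO_orderTop_prod`, `esymO_leadingCoeff_prod`.
* (g) `esymO_aeval_order`, `esymO_aeval_leadingCoeff`, `esymO_aeval_ne_zero`: order and leading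
  coefficient of a polynomial in a series `t` of negative order.
* (e), (f) the consequences in the shape of the irreducibility criterion (K1):
  `esymO_natDegree_lt`, `esymO_natDegree_lt'`, `esymO_pred_natDegree_pos`,
  `esymO_pred_poly_leadingCoeff`, `esymO_top_const`.

Mathlib only.
-/

set_option autoImplicit false

open Finset

namespace Fermat.Agent.S28

section Domain

variable {R : Type*} [CommRing R] [IsDomain R] {X : Type*}

theorem esymO_orderTop_prod (t : Finset X) (S : X → LaurentSeries R) :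
    (∏ x ∈ t, S x).orderTop = ∑ x ∈ t, (S x).orderTop := by
  classical
  induction t using Finset.induction_on with
  | empty => simp
  | insert a s ha ih => rw [prod_insert ha, sum_insert ha, HahnSeries.orderTop_mul, ih]

theorem esymO_prod_ne_zero (t : Finset X) (S : X → LaurentSeries R) (h : ∀ x ∈ t, S x ≠ 0) :
    (∏ x ∈ t, S x) ≠ 0 :=
  Finset.prod_ne_zero_iff.2 h

theorem esymO_order_prod (t : Finset X) (S : X → LaurentSeries R) (h : ∀ x ∈ t, S x ≠ 0) :
    (∏ x ∈ t, S x).order = ∑ x ∈ t, (S x).order := by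
  classical
  induction t using Finset.induction_on with
  | empty => simp
  | insert a s ha ih =>
    rw [prod_insert ha, sum_insert ha,
      HahnSeries.order_mul (h a (mem_insert_self a s))
        (esymO_prod_ne_zero s S fun x hx => h x (mem_insert_of_mem hx)),
      ih fun x hx => h x (mem_insert_of_mem hx)]

theorem esymO_leadingCoeff_prod (t : Finset X) (S : X → LaurentSeries R) :
    (∏ x ∈ t, S x).leadingCoeff = ∏ x ∈ t, (S x).leadingCoeff := by
  classical
  induction t using Finset.induction_on with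
  | empty => simp
  | insert a s ha ih => rw [prod_insert ha, prod_insert ha, HahnSeries.leadingCoeff_mul, ih]

omit [IsDomain R] in
/-- A finite sum of series of order `> c` has order `> c`. -/
theorem esymO_lt_orderTop_sum {ι : Type*} (s : Finset ι) (f : ι → LaurentSeries R) (c : ℤ)
    (h : ∀ i ∈ s, (c : WithTop ℤ) < (f i).orderTop) :
    (c : WithTop ℤ) < (∑ i ∈ s, f i).orderTop := by
  classical
  induction s using Finset.induction_on with
  | empty => simp
  | insert a s ha ih =>
    rw [sum_insert ha]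
    refine lt_of_lt_of_le ?_ HahnSeries.min_orderTop_le_orderTop_add
    exact lt_min (h a (mem_insert_self a s)) (ih fun i hi => h i (mem_insert_of_mem hi))

variable [Fintype X] [DecidableEq X]

omit [IsDomain R] [Fintype X] [DecidableEq X] in
theorem esymO_ne_zero_of_neg (S : X → LaurentSeries R) (x₀ : X)
    (hneg : ∀ x, x ≠ x₀ → (S x).order < 0) (x : X) (hx : x ≠ x₀) : S x ≠ 0 := by
  intro h0
  have := hneg x hx
  rw [h0, HahnSeries.order_zero] at this
  exact lt_irrefl _ this

omit [IsDomain R] in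
/-- Strict subsets of `univ.erase x₀` have a larger sum of orders. -/
theorem esymO_sum_lt_of_ssubset (S : X → LaurentSeries R) (x₀ : X)
    (hneg : ∀ x, x ≠ x₀ → (S x).order < 0) (u : Finset X)
    (hu : u ⊂ (univ : Finset X).erase x₀) :
    ∑ x ∈ (univ : Finset X).erase x₀, (S x).order < ∑ x ∈ u, (S x).order := by
  obtain ⟨y, hy, hyu⟩ := Finset.exists_of_ssubset hu
  rw [← Finset.sum_sdiff hu.subset]
  have h : ∑ x ∈ (univ : Finset X).erase x₀ \ u, (S x).order < 0 :=
    Finset.sum_neg (fun x hx => hneg x (ne_of_mem_erase (mem_sdiff.1 hx).1))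
      ⟨y, mem_sdiff.2 ⟨hy, hyu⟩⟩
  linarith

/-- Every product over a subset other than `univ.erase x₀` and `univ` has order larger than
the product over `univ.erase x₀`. -/
theorem esymO_term_lt (S : X → LaurentSeries R) (x₀ : X)
    (hpos : 0 ≤ (S x₀).order) (hneg : ∀ x, x ≠ x₀ → (S x).order < 0) (t : Finset X)
    (h1 : t ≠ (univ : Finset X).erase x₀) (h2 : t ≠ univ) :
    ((∑ x ∈ (univ : Finset X).erase x₀, (S x).order : ℤ) : WithTop ℤ) <
      (∏ x ∈ t, S x).orderTop := by
  by_cases hx₀ : x₀ ∈ t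
  · by_cases hS : S x₀ = 0
    · rw [Finset.prod_eq_zero hx₀ hS, HahnSeries.orderTop_zero]
      exact WithTop.coe_lt_top _
    · have hne : ∀ x ∈ t, S x ≠ 0 := fun x _ => by
        by_cases hxx : x = x₀
        · rw [hxx]; exact hS
        · exact esymO_ne_zero_of_neg S x₀ hneg x hxx
      rw [← HahnSeries.order_eq_orderTop_of_ne_zero (esymO_prod_ne_zero t S hne),
        WithTop.coe_lt_coe, esymO_order_prod t S hne, ← Finset.add_sum_erase t _ hx₀]
      have hss : t.erase x₀ ⊂ (univ : Finset X).erase x₀ := by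
        refine Finset.ssubset_iff_subset_ne.2
          ⟨Finset.erase_subset_erase _ (subset_univ t), fun h => h2 ?_⟩
        rw [← Finset.insert_erase hx₀, h, Finset.insert_erase (mem_univ x₀)]
      have := esymO_sum_lt_of_ssubset S x₀ hneg _ hss
      linarith
  · have hne : ∀ x ∈ t, S x ≠ 0 := fun x hx =>
      esymO_ne_zero_of_neg S x₀ hneg x fun h => hx₀ (h ▸ hx)
    have hss : t ⊂ (univ : Finset X).erase x₀ :=
      Finset.ssubset_iff_subset_ne.2
        ⟨fun x hx => mem_erase.2 ⟨fun h => hx₀ (h ▸ hx), mem_univ x⟩, h1⟩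
    rw [← HahnSeries.order_eq_orderTop_of_ne_zero (esymO_prod_ne_zero t S hne),
      WithTop.coe_lt_coe, esymO_order_prod t S hne]
    exact esymO_sum_lt_of_ssubset S x₀ hneg _ hss

omit [IsDomain R] in
theorem esymO_pred_split (S : X → LaurentSeries R) (x₀ : X) :
    (∑ t ∈ powersetCard (Fintype.card X - 1) (univ : Finset X), ∏ x ∈ t, S x) =
      ∏ x ∈ (univ : Finset X).erase x₀, S x +
        ∑ t ∈ (powersetCard (Fintype.card X - 1) (univ : Finset X)).erase
          ((univ : Finset X).erase x₀), ∏ x ∈ t, S x := by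
  exact (Finset.add_sum_erase _ (fun t => ∏ x ∈ t, S x)
    (mem_powersetCard.2 ⟨subset_univ _,
      by rw [card_erase_of_mem (mem_univ _), card_univ]⟩)).symm

theorem esymO_main_orderTop (S : X → LaurentSeries R) (x₀ : X)
    (hneg : ∀ x, x ≠ x₀ → (S x).order < 0) :
    (∏ x ∈ (univ : Finset X).erase x₀, S x).orderTop =
      ((∑ x ∈ (univ : Finset X).erase x₀, (S x).order : ℤ) : WithTop ℤ) := by
  have hne : ∀ x ∈ (univ : Finset X).erase x₀, S x ≠ 0 := fun x hx =>
    esymO_ne_zero_of_neg S x₀ hneg x (ne_of_mem_erase hx)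
  rw [← HahnSeries.order_eq_orderTop_of_ne_zero (esymO_prod_ne_zero _ S hne),
    esymO_order_prod _ S hne]

theorem esymO_rest_orderTop (S : X → LaurentSeries R) (x₀ : X)
    (hpos : 0 ≤ (S x₀).order) (hneg : ∀ x, x ≠ x₀ → (S x).order < 0) :
    (∏ x ∈ (univ : Finset X).erase x₀, S x).orderTop <
      (∑ t ∈ (powersetCard (Fintype.card X - 1) (univ : Finset X)).erase
          ((univ : Finset X).erase x₀), ∏ x ∈ t, S x).orderTop := by
  rw [esymO_main_orderTop S x₀ hneg]
  refine esymO_lt_orderTop_sum _ _ _ fun t ht => ?_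
  obtain ⟨ht1, ht2⟩ := mem_erase.1 ht
  refine esymO_term_lt S x₀ hpos hneg t ht1 fun h => ?_
  have hc := (mem_powersetCard.1 ht2).2
  rw [h, card_univ] at hc
  have : 0 < Fintype.card X := Fintype.card_pos_iff.2 ⟨x₀⟩
  omega

/-- (a), `orderTop` form. -/
theorem esymO_pred_orderTop (S : X → LaurentSeries R) (x₀ : X)
    (hpos : 0 ≤ (S x₀).order) (hneg : ∀ x, x ≠ x₀ → (S x).order < 0) :
    (∑ t ∈ powersetCard (Fintype.card X - 1) (univ : Finset X), ∏ x ∈ t, S x).orderTop =
      ((∑ x ∈ (univ : Finset X).erase x₀, (S x).order : ℤ) : WithTop ℤ) := by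
  rw [esymO_pred_split S x₀,
    HahnSeries.orderTop_add_eq_left (esymO_rest_orderTop S x₀ hpos hneg),
    esymO_main_orderTop S x₀ hneg]

theorem esymO_pred_ne_zero (S : X → LaurentSeries R) (x₀ : X)
    (hpos : 0 ≤ (S x₀).order) (hneg : ∀ x, x ≠ x₀ → (S x).order < 0) :
    (∑ t ∈ powersetCard (Fintype.card X - 1) (univ : Finset X), ∏ x ∈ t, S x) ≠ 0 := by
  intro h
  have := esymO_pred_orderTop S x₀ hpos hneg
  rw [h, HahnSeries.orderTop_zero] at this
  exact WithTop.top_ne_coe this

theorem esymO_pred_order (S : X → LaurentSeries R) (x₀ : X)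
    (hpos : 0 ≤ (S x₀).order) (hneg : ∀ x, x ≠ x₀ → (S x).order < 0) :
    (∑ t ∈ powersetCard (Fintype.card X - 1) (univ : Finset X), ∏ x ∈ t, S x).order =
      ∑ x ∈ (univ : Finset X).erase x₀, (S x).order := by
  have h := esymO_pred_orderTop S x₀ hpos hneg
  rw [← HahnSeries.order_eq_orderTop_of_ne_zero (esymO_pred_ne_zero S x₀ hpos hneg)] at h
  exact WithTop.coe_injective h

theorem esymO_pred_leadingCoeff (S : X → LaurentSeries R) (x₀ : X)
    (hpos : 0 ≤ (S x₀).order) (hneg : ∀ x, x ≠ x₀ → (S x).order < 0) :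
    (∑ t ∈ powersetCard (Fintype.card X - 1) (univ : Finset X), ∏ x ∈ t, S x).leadingCoeff =
      ∏ x ∈ (univ : Finset X).erase x₀, (S x).leadingCoeff := by
  rw [esymO_pred_split S x₀,
    HahnSeries.leadingCoeff_add_eq_left (esymO_rest_orderTop S x₀ hpos hneg),
    esymO_leadingCoeff_prod]

/-- (b), `orderTop` form. -/
theorem esymO_lt_orderTop (S : X → LaurentSeries R) (x₀ : X)
    (hpos : 0 ≤ (S x₀).order) (hneg : ∀ x, x ≠ x₀ → (S x).order < 0)
    (j : ℕ) (hj : j + 2 ≤ Fintype.card X) :
    ((∑ x ∈ (univ : Finset X).erase x₀, (S x).order : ℤ) : WithTop ℤ) <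
      (∑ t ∈ powersetCard j (univ : Finset X), ∏ x ∈ t, S x).orderTop := by
  refine esymO_lt_orderTop_sum _ _ _ fun t ht => ?_
  have hc := (mem_powersetCard.1 ht).2
  refine esymO_term_lt S x₀ hpos hneg t (fun h => ?_) fun h => ?_
  · rw [h, card_erase_of_mem (mem_univ _), card_univ] at hc
    omega
  · rw [h, card_univ] at hc
    omega

theorem esymO_lt_order (S : X → LaurentSeries R) (x₀ : X)
    (hpos : 0 ≤ (S x₀).order) (hneg : ∀ x, x ≠ x₀ → (S x).order < 0)
    (j : ℕ) (hj : j + 2 ≤ Fintype.card X) :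
    (∑ t ∈ powersetCard j (univ : Finset X), ∏ x ∈ t, S x) = 0 ∨
      ∑ x ∈ (univ : Finset X).erase x₀, (S x).order <
        (∑ t ∈ powersetCard j (univ : Finset X), ∏ x ∈ t, S x).order := by
  by_cases h0 : (∑ t ∈ powersetCard j (univ : Finset X), ∏ x ∈ t, S x) = 0
  · exact Or.inl h0
  · right
    have h := esymO_lt_orderTop S x₀ hpos hneg j hj
    rw [← HahnSeries.order_eq_orderTop_of_ne_zero h0] at h
    exact WithTop.coe_lt_coe.1 h

omit [IsDomain R] [DecidableEq X] in
/-- top symmetric function = product -/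
theorem esymO_top (S : X → LaurentSeries R) :
    (∑ t ∈ powersetCard (Fintype.card X) (univ : Finset X), ∏ x ∈ t, S x) = ∏ x, S x := by
  rw [← card_univ, powersetCard_self, sum_singleton]

omit [IsDomain R] in
/-- The sum of the orders over `univ.erase x₀` is negative as soon as `2 ≤ card X`. -/
theorem esymO_sum_order_neg (S : X → LaurentSeries R) (x₀ : X)
    (hneg : ∀ x, x ≠ x₀ → (S x).order < 0) (hcard : 2 ≤ Fintype.card X) :
    ∑ x ∈ (univ : Finset X).erase x₀, (S x).order < 0 := by
  refine Finset.sum_neg (fun x hx => hneg x (ne_of_mem_erase hx)) ?_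
  rw [← Finset.card_pos, card_erase_of_mem (mem_univ _), card_univ]
  omega

end Domain

section Subring

variable {A : Type*} [CommRing A]

/-- The subring of Laurent series all of whose coefficients lie in a given subring. -/
def esymO_coeffSubring (B : Subring A) : Subring (LaurentSeries A) where
  carrier := {f | ∀ n, f.coeff n ∈ B}
  mul_mem' := by
    intro f g hf hg n
    rw [HahnSeries.coeff_mul]
    exact Subring.sum_mem _ fun ij _ => B.mul_mem (hf _) (hg _)
  one_mem' := by
    intro n
    rw [HahnSeries.coeff_one]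
    split_ifs
    · exact B.one_mem
    · exact B.zero_mem
  add_mem' := by
    intro f g hf hg n
    rw [HahnSeries.coeff_add]
    exact B.add_mem (hf n) (hg n)
  zero_mem' := by
    intro n
    rw [HahnSeries.coeff_zero]
    exact B.zero_mem
  neg_mem' := by
    intro f hf n
    rw [HahnSeries.coeff_neg]
    exact B.neg_mem (hf n)

theorem esymO_mem_coeffSubring (B : Subring A) (f : LaurentSeries A) :
    f ∈ esymO_coeffSubring B ↔ ∀ n, f.coeff n ∈ B := Iff.rfl

variable {X : Type*} [Fintype X]

/-- (c) -/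
theorem esymO_coeff_mem (B : Subring A) (S : X → LaurentSeries A)
    (hS : ∀ x n, (S x).coeff n ∈ B) (j : ℕ) (n : ℤ) :
    (∑ t ∈ powersetCard j (univ : Finset X), ∏ x ∈ t, S x).coeff n ∈ B := by
  have h : (∑ t ∈ powersetCard j (univ : Finset X), ∏ x ∈ t, S x) ∈ esymO_coeffSubring B :=
    Subring.sum_mem _ fun t _ => Subring.prod_mem _ fun x _ => hS x
  exact h n

end Subring

section Poly

variable {k : Type*} [Field k]

theorem esymO_algebraMap_eq_C (c : k) : algebraMap k (LaurentSeries k) c = HahnSeries.C c := by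
  have h1 : algebraMap k (PowerSeries k) c = PowerSeries.C c := by simp
  rw [HahnSeries.algebraMap_apply', h1, HahnSeries.ofPowerSeries_C]

theorem esymO_aeval_split (t : LaurentSeries k) (P : Polynomial k) :
    Polynomial.aeval t P = HahnSeries.C P.leadingCoeff * t ^ P.natDegree +
      ∑ i ∈ range P.natDegree, HahnSeries.C (P.coeff i) * t ^ i := by
  rw [Polynomial.aeval_def, Polynomial.eval₂_eq_sum_range, Finset.sum_range_succ, add_comm]
  simp only [esymO_algebraMap_eq_C]
  rfl

theorem esymO_orderTop_C {c : k} (hc : c ≠ 0) :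
    (HahnSeries.C c : LaurentSeries k).orderTop = 0 := by
  rw [HahnSeries.C_apply, HahnSeries.orderTop_single hc]
  rfl

theorem esymO_aeval_main_orderTop (t : LaurentSeries k) (ht : t.order < 0) (P : Polynomial k)
    (hP : P ≠ 0) :
    (HahnSeries.C P.leadingCoeff * t ^ P.natDegree).orderTop =
      (((P.natDegree : ℤ) * t.order : ℤ) : WithTop ℤ) := by
  have ht0 : t ≠ 0 := by
    intro h
    rw [h, HahnSeries.order_zero] at ht
    exact lt_irrefl _ ht
  have hlc : P.leadingCoeff ≠ 0 := Polynomial.leadingCoeff_ne_zero.2 hP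
  rw [HahnSeries.orderTop_mul,
    ← HahnSeries.order_eq_orderTop_of_ne_zero (pow_ne_zero _ ht0), HahnSeries.order_pow,
    esymO_orderTop_C hlc, zero_add, nsmul_eq_mul]

theorem esymO_aeval_rest_orderTop (t : LaurentSeries k) (ht : t.order < 0) (P : Polynomial k)
    (hP : P ≠ 0) :
    (HahnSeries.C P.leadingCoeff * t ^ P.natDegree).orderTop <
      (∑ i ∈ range P.natDegree, HahnSeries.C (P.coeff i) * t ^ i).orderTop := by
  have ht0 : t ≠ 0 := by
    intro h
    rw [h, HahnSeries.order_zero] at ht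
    exact lt_irrefl _ ht
  rw [esymO_aeval_main_orderTop t ht P hP]
  classical
  have key : ∀ (s : Finset ℕ) (f : ℕ → LaurentSeries k) (c : ℤ),
      (∀ i ∈ s, (c : WithTop ℤ) < (f i).orderTop) →
        (c : WithTop ℤ) < (∑ i ∈ s, f i).orderTop := by
    intro s f c
    induction s using Finset.induction_on with
    | empty => simp
    | insert a s ha ih =>
      intro h
      rw [sum_insert ha]
      refine lt_of_lt_of_le ?_ HahnSeries.min_orderTop_le_orderTop_add
      exact lt_min (h a (mem_insert_self a s)) (ih fun i hi => h i (mem_insert_of_mem hi))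
  refine key _ _ _ fun i hi => ?_
  by_cases hci : P.coeff i = 0
  · rw [hci, map_zero, zero_mul, HahnSeries.orderTop_zero]
    exact WithTop.coe_lt_top _
  · rw [HahnSeries.orderTop_mul, esymO_orderTop_C hci, zero_add,
      ← HahnSeries.order_eq_orderTop_of_ne_zero (pow_ne_zero _ ht0), HahnSeries.order_pow,
      WithTop.coe_lt_coe, nsmul_eq_mul]
    have hi' : (i : ℤ) < P.natDegree := by exact_mod_cast Finset.mem_range.1 hi
    nlinarith

theorem esymO_aeval_orderTop (t : LaurentSeries k) (ht : t.order < 0) (P : Polynomial k)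
    (hP : P ≠ 0) :
    (Polynomial.aeval t P).orderTop = (((P.natDegree : ℤ) * t.order : ℤ) : WithTop ℤ) := by
  rw [esymO_aeval_split, HahnSeries.orderTop_add_eq_left (esymO_aeval_rest_orderTop t ht P hP),
    esymO_aeval_main_orderTop t ht P hP]

theorem esymO_aeval_ne_zero (t : LaurentSeries k) (ht : t.order < 0) (P : Polynomial k)
    (hP : P ≠ 0) : Polynomial.aeval t P ≠ 0 := by
  intro h
  have := esymO_aeval_orderTop t ht P hP
  rw [h, HahnSeries.orderTop_zero] at this
  exact WithTop.top_ne_coe this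

theorem esymO_aeval_order (t : LaurentSeries k) (ht : t.order < 0) (P : Polynomial k)
    (hP : P ≠ 0) : (Polynomial.aeval t P).order = (P.natDegree : ℤ) * t.order := by
  have h := esymO_aeval_orderTop t ht P hP
  rw [← HahnSeries.order_eq_orderTop_of_ne_zero (esymO_aeval_ne_zero t ht P hP)] at h
  exact WithTop.coe_injective h

theorem esymO_leadingCoeff_pow (t : LaurentSeries k) (n : ℕ) :
    (t ^ n).leadingCoeff = t.leadingCoeff ^ n := by
  induction n with
  | zero => simp
  | succ n ih => rw [pow_succ, pow_succ, HahnSeries.leadingCoeff_mul, ih]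

theorem esymO_aeval_leadingCoeff (t : LaurentSeries k) (ht : t.order < 0) (P : Polynomial k) :
    (Polynomial.aeval t P).leadingCoeff = P.leadingCoeff * t.leadingCoeff ^ P.natDegree := by
  by_cases hP : P = 0
  · subst hP
    simp
  · rw [esymO_aeval_split,
      HahnSeries.leadingCoeff_add_eq_left (esymO_aeval_rest_orderTop t ht P hP),
      HahnSeries.leadingCoeff_mul, esymO_leadingCoeff_pow]
    congr 1
    rw [HahnSeries.C_apply, HahnSeries.leadingCoeff_of_single]

end Poly

section K1

variable {k : Type*} [Field k] {X : Type*} [Fintype X] [DecidableEq X]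

/-- If `e_(n-1) = P(t)` with `ord t < 0`, then `deg P * ord t = ∑_{x ≠ x₀} ord (S x)`. -/
theorem esymO_pred_natDegree_mul (S : X → LaurentSeries k) (x₀ : X)
    (hpos : 0 ≤ (S x₀).order) (hneg : ∀ x, x ≠ x₀ → (S x).order < 0)
    (t : LaurentSeries k) (ht : t.order < 0) (P : Polynomial k)
    (hP : Polynomial.aeval t P =
      ∑ s ∈ powersetCard (Fintype.card X - 1) (univ : Finset X), ∏ x ∈ s, S x) :
    (P.natDegree : ℤ) * t.order = ∑ x ∈ (univ : Finset X).erase x₀, (S x).order := by
  have hP0 : P ≠ 0 := by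
    rintro rfl
    rw [map_zero] at hP
    exact esymO_pred_ne_zero S x₀ hpos hneg hP.symm
  rw [← esymO_aeval_order t ht P hP0, hP, esymO_pred_order S x₀ hpos hneg]

/-- If `e_(n-1) = P(t)` with `ord t < 0` and `2 ≤ n`, then `P` is not constant. -/
theorem esymO_pred_natDegree_pos (S : X → LaurentSeries k) (x₀ : X)
    (hpos : 0 ≤ (S x₀).order) (hneg : ∀ x, x ≠ x₀ → (S x).order < 0)
    (hcard : 2 ≤ Fintype.card X)
    (t : LaurentSeries k) (ht : t.order < 0) (P : Polynomial k)
    (hP : Polynomial.aeval t P =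
      ∑ s ∈ powersetCard (Fintype.card X - 1) (univ : Finset X), ∏ x ∈ s, S x) :
    0 < P.natDegree := by
  have h1 := esymO_pred_natDegree_mul S x₀ hpos hneg t ht P hP
  have h2 := esymO_sum_order_neg S x₀ hneg hcard
  rcases Nat.eq_zero_or_pos P.natDegree with h | h
  · rw [h] at h1
    simp only [Nat.cast_zero, zero_mul] at h1
    rw [← h1] at h2
    exact absurd h2 (lt_irrefl _)
  · exact h

/-- If `e_(n-1) = P(t)` with `ord t < 0`, the leading coefficient of `P` is (up to the power of
the leading coefficient of `t`) the product of the leading coefficients of the `S x`,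
`x ≠ x₀`. -/
theorem esymO_pred_poly_leadingCoeff (S : X → LaurentSeries k) (x₀ : X)
    (hpos : 0 ≤ (S x₀).order) (hneg : ∀ x, x ≠ x₀ → (S x).order < 0)
    (t : LaurentSeries k) (ht : t.order < 0) (P : Polynomial k)
    (hP : Polynomial.aeval t P =
      ∑ s ∈ powersetCard (Fintype.card X - 1) (univ : Finset X), ∏ x ∈ s, S x) :
    P.leadingCoeff * t.leadingCoeff ^ P.natDegree =
      ∏ x ∈ (univ : Finset X).erase x₀, (S x).leadingCoeff := by
  rw [← esymO_aeval_leadingCoeff t ht P, hP, esymO_pred_leadingCoeff S x₀ hpos hneg]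

/-- (e) in the shape of (K1): if `e_j = Pj(t)` and `e_(n-1) = P1(t)` with `ord t < 0`, then
`deg Pj < deg P1` for `j + 2 ≤ n`. -/
theorem esymO_natDegree_lt' (S : X → LaurentSeries k) (x₀ : X)
    (hpos : 0 ≤ (S x₀).order) (hneg : ∀ x, x ≠ x₀ → (S x).order < 0)
    (t : LaurentSeries k) (ht : t.order < 0) (j : ℕ) (hj : j + 2 ≤ Fintype.card X)
    (Pj P1 : Polynomial k)
    (hPj : Polynomial.aeval t Pj = ∑ s ∈ powersetCard j (univ : Finset X), ∏ x ∈ s, S x)
    (hP1 : Polynomial.aeval t P1 =
      ∑ s ∈ powersetCard (Fintype.card X - 1) (univ : Finset X), ∏ x ∈ s, S x) :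
    Pj.natDegree < P1.natDegree := by
  have hpos' := esymO_pred_natDegree_pos S x₀ hpos hneg (by omega) t ht P1 hP1
  by_cases h0 : Pj = 0
  · rw [h0, Polynomial.natDegree_zero]
    exact hpos'
  · have h1 := esymO_aeval_orderTop t ht Pj h0
    rw [hPj] at h1
    have h2 := esymO_lt_orderTop S x₀ hpos hneg j hj
    rw [h1, WithTop.coe_lt_coe, ← esymO_pred_natDegree_mul S x₀ hpos hneg t ht P1 hP1] at h2
    by_contra hcon
    have hle : (P1.natDegree : ℤ) ≤ Pj.natDegree := by exact_mod_cast not_lt.1 hcon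
    nlinarith

/-- (e), family version. -/
theorem esymO_natDegree_lt (S : X → LaurentSeries k) (x₀ : X)
    (hpos : 0 ≤ (S x₀).order) (hneg : ∀ x, x ≠ x₀ → (S x).order < 0)
    (t : LaurentSeries k) (ht : t.order < 0) (P : ℕ → Polynomial k)
    (hP : ∀ j, Polynomial.aeval t (P j) = ∑ s ∈ powersetCard j (univ : Finset X), ∏ x ∈ s, S x)
    (j : ℕ) (hj : j + 2 ≤ Fintype.card X) :
    (P j).natDegree < (P (Fintype.card X - 1)).natDegree :=
  esymO_natDegree_lt' S x₀ hpos hneg t ht j hj _ _ (hP j) (hP _)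

omit [DecidableEq X] in
/-- (f) the constant term: if the total order is `0` then a polynomial `P` with
`P(t) = ∏ₓ S x` is a nonzero constant, namely the product of the leading coefficients. -/
theorem esymO_top_const (S : X → LaurentSeries k) (hS : ∀ x, S x ≠ 0)
    (hsum : ∑ x, (S x).order = 0)
    (t : LaurentSeries k) (ht : t.order < 0) (P : Polynomial k)
    (hP : Polynomial.aeval t P = ∏ x, S x) :
    P = Polynomial.C (∏ x, (S x).leadingCoeff) ∧ (∏ x, (S x).leadingCoeff) ≠ 0 := by
  have hprod : (∏ x, S x) ≠ 0 := esymO_prod_ne_zero _ S fun x _ => hS x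
  have hP0 : P ≠ 0 := by
    rintro rfl
    rw [map_zero] at hP
    exact hprod hP.symm
  have hord := esymO_aeval_order t ht P hP0
  rw [hP, esymO_order_prod _ S fun x _ => hS x, hsum] at hord
  have hdeg : P.natDegree = 0 := by
    rcases mul_eq_zero.1 hord.symm with h | h
    · exact_mod_cast h
    · exact absurd h ht.ne
  have hlc := esymO_aeval_leadingCoeff t ht P
  rw [hP, esymO_leadingCoeff_prod, hdeg, pow_zero, mul_one] at hlc
  refine ⟨?_, ?_⟩
  · rw [hlc]
    rw [Polynomial.leadingCoeff, hdeg]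
    exact Polynomial.eq_C_of_natDegree_eq_zero hdeg
  · exact Finset.prod_ne_zero_iff.2 fun x _ => HahnSeries.leadingCoeff_ne_zero.2 (hS x)

end K1

end Fermat.Agent.S28
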