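/-
S28 (Igusa), package R1-VAL STEP 1 (helper11): the ring `O ⊆ ℚ((q))` of quotients `a / s` of
Laurent series with `ℓ`-integral coefficients, `s ≢ 0 mod ℓ`, and its reduction map
`ρ : O → 𝔽_ℓ((q))`, with kernel `ℓ O`; the valuation-ring dichotomy on the function field.
Mathlib + Prelude only.
-/
import Mathlib
import Fermat.Prelude.Def_ModularCurve_IgusaScheme
import Fermat.Prelude.Def_ModularCurve_X0ModL

set_option autoImplicit false

noncomputable section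

namespace Fermat.Agent.S28

open ModularCurve HahnSeries

section Res

variable (ℓ : ℕ) [Fact ℓ.Prime]

theorem redO_den_ne_zero (r : ↥(GaloisRep.ratLocalizedAt ℓ)) :
    ((r : ℚ).den : ZMod ℓ) ≠ 0 := by
  intro h
  rw [ZMod.natCast_eq_zero_iff] at h
  have hcop : (r : ℚ).den.Coprime ℓ := r.2
  have h1 : ℓ ∣ Nat.gcd (r : ℚ).den ℓ := Nat.dvd_gcd h dvd_rfl
  rw [hcop] at h1
  exact (Fact.out : ℓ.Prime).one_lt.ne' (Nat.dvd_one.mp h1)

/-- The residue map `ℤ_(ℓ) → 𝔽_ℓ`. -/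
def redO_res : ↥(GaloisRep.ratLocalizedAt ℓ) →+* ZMod ℓ where
  toFun r := ((r : ℚ) : ZMod ℓ)
  map_one' := by simp
  map_mul' a b := by
    simpa using Rat.cast_mul_of_ne_zero (α := ZMod ℓ) (redO_den_ne_zero ℓ a) (redO_den_ne_zero ℓ b)
  map_zero' := by simp
  map_add' a b := by
    simpa using Rat.cast_add_of_ne_zero (α := ZMod ℓ) (redO_den_ne_zero ℓ a) (redO_den_ne_zero ℓ b)

theorem redO_res_apply (r : ↥(GaloisRep.ratLocalizedAt ℓ)) :
    redO_res ℓ r = ((r : ℚ) : ZMod ℓ) := rfl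

theorem redO_res_natCast_self : redO_res ℓ (ℓ : ↥(GaloisRep.ratLocalizedAt ℓ)) = 0 := by
  rw [map_natCast]
  exact ZMod.natCast_self ℓ

/-- The kernel of the residue map is `ℓ ℤ_(ℓ)`. -/
theorem redO_res_eq_zero (r : ↥(GaloisRep.ratLocalizedAt ℓ)) (h : redO_res ℓ r = 0) :
    ∃ r' : ↥(GaloisRep.ratLocalizedAt ℓ), r = (ℓ : ↥(GaloisRep.ratLocalizedAt ℓ)) * r' := by
  have hℓ : (ℓ : ℚ) ≠ 0 := by exact_mod_cast (Fact.out : ℓ.Prime).ne_zero
  rw [redO_res_apply, Rat.cast_def, div_eq_zero_iff] at h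
  have hnum : ((r : ℚ).num : ZMod ℓ) = 0 := h.resolve_right (redO_den_ne_zero ℓ r)
  rw [ZMod.intCast_zmod_eq_zero_iff_dvd] at hnum
  obtain ⟨m, hm⟩ := hnum
  have hmem : (Rat.divInt m (r : ℚ).den) ∈ GaloisRep.ratLocalizedAt ℓ := by
    show (Rat.divInt m (r : ℚ).den).den.Coprime ℓ
    have hdvd : (Rat.divInt m (r : ℚ).den).den ∣ (r : ℚ).den := by
      have := Rat.den_dvd m (r : ℚ).den
      exact_mod_cast this
    exact Nat.Coprime.coprime_dvd_left hdvd r.2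
  refine ⟨⟨_, hmem⟩, Subtype.ext ?_⟩
  have hden : ((r : ℚ).den : ℚ) ≠ 0 := by exact_mod_cast (r : ℚ).den_ne_zero
  show (r : ℚ) = ((ℓ : ↥(GaloisRep.ratLocalizedAt ℓ)) : ℚ) * Rat.divInt m (r : ℚ).den
  rw [show ((ℓ : ↥(GaloisRep.ratLocalizedAt ℓ)) : ℚ) = (ℓ : ℚ) from by simp,
    Rat.divInt_eq_div]
  conv_lhs => rw [← Rat.num_div_den (r : ℚ), hm]
  push_cast
  field_simp

end Res

section Iota

variable (ℓ : ℕ)

/-- The embedding `ℤ_(ℓ)((q)) → ℚ((q))`. -/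
def redO_iota : LaurentSeries ↥(GaloisRep.ratLocalizedAt ℓ) →+* LaurentSeries ℚ :=
  coeffMap (GaloisRep.ratLocalizedAt ℓ).subtype

theorem redO_iota_coeff (a : LaurentSeries ↥(GaloisRep.ratLocalizedAt ℓ)) (n : ℤ) :
    (redO_iota ℓ a).coeff n = ((a.coeff n : ↥(GaloisRep.ratLocalizedAt ℓ)) : ℚ) := rfl

theorem redO_iota_injective : Function.Injective (redO_iota ℓ) := by
  intro a b h
  ext n
  have := congrArg (fun x : LaurentSeries ℚ => x.coeff n) h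
  simp only [redO_iota_coeff] at this
  exact this

theorem redO_iota_eq_zero {a : LaurentSeries ↥(GaloisRep.ratLocalizedAt ℓ)} :
    redO_iota ℓ a = 0 ↔ a = 0 :=
  (map_eq_zero_iff _ (redO_iota_injective ℓ))

theorem redO_natCast_mul_coeff (a : LaurentSeries ↥(GaloisRep.ratLocalizedAt ℓ)) (m : ℕ) (n : ℤ) :
    (((m : ℕ) : LaurentSeries ↥(GaloisRep.ratLocalizedAt ℓ)) * a).coeff n =
      (m : ↥(GaloisRep.ratLocalizedAt ℓ)) * a.coeff n := by
  rw [← map_natCast (HahnSeries.C : ↥(GaloisRep.ratLocalizedAt ℓ) →+* _) m,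
    HahnSeries.C_mul_eq_smul, HahnSeries.coeff_smul, smul_eq_mul]

end Iota

section Lam

variable (ℓ : ℕ) [Fact ℓ.Prime]

/-- The coefficientwise reduction `ℤ_(ℓ)((q)) → 𝔽_ℓ((q))`. -/
def redO_red : LaurentSeries ↥(GaloisRep.ratLocalizedAt ℓ) →+* LaurentSeries (ZMod ℓ) :=
  coeffMap (redO_res ℓ)

theorem redO_red_coeff (a : LaurentSeries ↥(GaloisRep.ratLocalizedAt ℓ)) (n : ℤ) :
    (redO_red ℓ a).coeff n = redO_res ℓ (a.coeff n) := rfl

theorem redO_red_natCast_self :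
    redO_red ℓ ((ℓ : ℕ) : LaurentSeries ↥(GaloisRep.ratLocalizedAt ℓ)) = 0 := by
  rw [map_natCast]
  ext n
  have : ((ℓ : ℕ) : LaurentSeries (ZMod ℓ)) = HahnSeries.C ((ℓ : ℕ) : ZMod ℓ) :=
    (map_natCast (HahnSeries.C : ZMod ℓ →+* _) ℓ).symm
  rw [this, ZMod.natCast_self, map_zero]

/-- The kernel of the reduction is `ℓ · ℤ_(ℓ)((q))`. -/
theorem redO_red_eq_zero (a : LaurentSeries ↥(GaloisRep.ratLocalizedAt ℓ))
    (h : redO_red ℓ a = 0) :
    ∃ a₁ : LaurentSeries ↥(GaloisRep.ratLocalizedAt ℓ),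
      a = ((ℓ : ℕ) : LaurentSeries ↥(GaloisRep.ratLocalizedAt ℓ)) * a₁ := by
  classical
  have hc : ∀ n : ℤ, ∃ r' : ↥(GaloisRep.ratLocalizedAt ℓ),
      a.coeff n = (ℓ : ↥(GaloisRep.ratLocalizedAt ℓ)) * r' := fun n =>
    redO_res_eq_zero ℓ _ (by
      have := congrArg (fun x : LaurentSeries (ZMod ℓ) => x.coeff n) h
      simpa [redO_red_coeff] using this)
  choose b hb using hc
  have hℓ : (ℓ : ↥(GaloisRep.ratLocalizedAt ℓ)) ≠ 0 := by
    intro h0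
    have := congrArg (Subtype.val) h0
    simp at this
    exact (Fact.out : ℓ.Prime).ne_zero this
  have hsupp : Function.support b ⊆ a.support := by
    intro n hn
    simp only [Function.mem_support, HahnSeries.mem_support] at hn ⊢
    rw [hb n]
    exact mul_ne_zero hℓ hn
  refine ⟨⟨b, a.isPWO_support.mono hsupp⟩, ?_⟩
  ext n
  rw [redO_natCast_mul_coeff, hb n]

theorem redO_padicValRat_nonneg (r : ↥(GaloisRep.ratLocalizedAt ℓ)) :
    0 ≤ padicValRat ℓ (r : ℚ) := by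
  have hnd : ¬ ℓ ∣ (r : ℚ).den := by
    intro h
    have hcop : (r : ℚ).den.Coprime ℓ := r.2
    have h1 : ℓ ∣ Nat.gcd (r : ℚ).den ℓ := Nat.dvd_gcd h dvd_rfl
    rw [hcop] at h1
    exact (Fact.out : ℓ.Prime).one_lt.ne' (Nat.dvd_one.mp h1)
  rw [padicValRat_def, padicValNat.eq_zero_of_not_dvd hnd]
  simp

theorem redO_exists_factor_aux (n₀ : ℤ) : ∀ (k : ℕ)
    (a : LaurentSeries ↥(GaloisRep.ratLocalizedAt ℓ)), a.coeff n₀ ≠ 0 →
    padicValRat ℓ ((a.coeff n₀ : ↥(GaloisRep.ratLocalizedAt ℓ)) : ℚ) ≤ k →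
    ∃ (m : ℕ) (a' : LaurentSeries ↥(GaloisRep.ratLocalizedAt ℓ)),
      redO_red ℓ a' ≠ 0 ∧ a = ((ℓ : ℕ) : LaurentSeries ↥(GaloisRep.ratLocalizedAt ℓ)) ^ m * a' := by
  intro k
  induction k with
  | zero =>
    intro a h0 hk
    by_cases hred : redO_red ℓ a = 0
    · exfalso
      obtain ⟨a₁, ha₁⟩ := redO_red_eq_zero ℓ a hred
      have hc : a.coeff n₀ = (ℓ : ↥(GaloisRep.ratLocalizedAt ℓ)) * a₁.coeff n₀ := by
        conv_lhs => rw [ha₁]
        rw [redO_natCast_mul_coeff]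
      have h1 : a₁.coeff n₀ ≠ 0 := by
        intro h; rw [hc, h, mul_zero] at h0; exact h0 rfl
      have h1q : ((a₁.coeff n₀ : ↥(GaloisRep.ratLocalizedAt ℓ)) : ℚ) ≠ 0 := by
        intro h; exact h1 (Subtype.ext h)
      have hℓq : ((ℓ : ℕ) : ℚ) ≠ 0 := by exact_mod_cast (Fact.out : ℓ.Prime).ne_zero
      have hval : padicValRat ℓ ((a.coeff n₀ : ↥(GaloisRep.ratLocalizedAt ℓ)) : ℚ) =
          1 + padicValRat ℓ ((a₁.coeff n₀ : ↥(GaloisRep.ratLocalizedAt ℓ)) : ℚ) := by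
        rw [hc]
        push_cast
        rw [padicValRat.mul hℓq h1q, padicValRat.self (Fact.out : ℓ.Prime).one_lt]
      have := redO_padicValRat_nonneg ℓ (a₁.coeff n₀)
      rw [hval] at hk
      simp at hk
      omega
    · exact ⟨0, a, hred, by simp⟩
  | succ k ih =>
    intro a h0 hk
    by_cases hred : redO_red ℓ a = 0
    · obtain ⟨a₁, ha₁⟩ := redO_red_eq_zero ℓ a hred
      have hc : a.coeff n₀ = (ℓ : ↥(GaloisRep.ratLocalizedAt ℓ)) * a₁.coeff n₀ := by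
        conv_lhs => rw [ha₁]
        rw [redO_natCast_mul_coeff]
      have h1 : a₁.coeff n₀ ≠ 0 := by
        intro h; rw [hc, h, mul_zero] at h0; exact h0 rfl
      have h1q : ((a₁.coeff n₀ : ↥(GaloisRep.ratLocalizedAt ℓ)) : ℚ) ≠ 0 := by
        intro h; exact h1 (Subtype.ext h)
      have hℓq : ((ℓ : ℕ) : ℚ) ≠ 0 := by exact_mod_cast (Fact.out : ℓ.Prime).ne_zero
      have hval : padicValRat ℓ ((a.coeff n₀ : ↥(GaloisRep.ratLocalizedAt ℓ)) : ℚ) =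
          1 + padicValRat ℓ ((a₁.coeff n₀ : ↥(GaloisRep.ratLocalizedAt ℓ)) : ℚ) := by
        rw [hc]
        push_cast
        rw [padicValRat.mul hℓq h1q, padicValRat.self (Fact.out : ℓ.Prime).one_lt]
      rw [hval] at hk
      obtain ⟨m, a', h', e⟩ := ih a₁ h1 (by push_cast at hk; linarith)
      exact ⟨m + 1, a', h', by rw [ha₁, e, pow_succ]; ring⟩
    · exact ⟨0, a, hred, by simp⟩

/-- Every nonzero `ℓ`-integral Laurent series is `ℓ^m` times one with nonzero reduction. -/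
theorem redO_exists_factor (a : LaurentSeries ↥(GaloisRep.ratLocalizedAt ℓ)) (ha : a ≠ 0) :
    ∃ (m : ℕ) (a' : LaurentSeries ↥(GaloisRep.ratLocalizedAt ℓ)),
      redO_red ℓ a' ≠ 0 ∧ a = ((ℓ : ℕ) : LaurentSeries ↥(GaloisRep.ratLocalizedAt ℓ)) ^ m * a' := by
  obtain ⟨n₀, hn₀⟩ : ∃ n₀, a.coeff n₀ ≠ 0 := by
    by_contra h
    push Not at h
    exact ha (HahnSeries.ext (funext h))
  have hnn := redO_padicValRat_nonneg ℓ (a.coeff n₀)
  exact redO_exists_factor_aux ℓ n₀ (padicValRat ℓ ((a.coeff n₀ :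
    ↥(GaloisRep.ratLocalizedAt ℓ)) : ℚ)).toNat a hn₀ (by rw [Int.toNat_of_nonneg hnn])

end Lam

section RingO

variable (ℓ : ℕ) [Fact ℓ.Prime]

/-- (O1) The ring `O` of quotients `a / s`, `a, s ∈ ℤ_(ℓ)((q))`, `s ≢ 0 mod ℓ`. -/
def redO : Subring (LaurentSeries ℚ) where
  carrier := {x | ∃ a s : LaurentSeries ↥(GaloisRep.ratLocalizedAt ℓ),
    redO_red ℓ s ≠ 0 ∧ x * redO_iota ℓ s = redO_iota ℓ a}
  mul_mem' := by
    rintro x y ⟨a, s, hs, h⟩ ⟨a', s', hs', h'⟩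
    refine ⟨a * a', s * s', ?_, ?_⟩
    · rw [map_mul]; exact mul_ne_zero hs hs'
    · rw [map_mul, map_mul, ← h, ← h']; ring
  one_mem' := ⟨1, 1, by rw [map_one]; exact one_ne_zero, by simp⟩
  add_mem' := by
    rintro x y ⟨a, s, hs, h⟩ ⟨a', s', hs', h'⟩
    refine ⟨a * s' + a' * s, s * s', ?_, ?_⟩
    · rw [map_mul]; exact mul_ne_zero hs hs'
    · rw [map_mul, map_add, map_mul, map_mul, ← h, ← h']; ring
  zero_mem' := ⟨0, 1, by rw [map_one]; exact one_ne_zero, by simp⟩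
  neg_mem' := by
    rintro x ⟨a, s, hs, h⟩
    exact ⟨-a, s, hs, by rw [map_neg, ← h]; ring⟩

theorem redO_mem_iff {x : LaurentSeries ℚ} : x ∈ redO ℓ ↔
    ∃ a s : LaurentSeries ↥(GaloisRep.ratLocalizedAt ℓ),
      redO_red ℓ s ≠ 0 ∧ x * redO_iota ℓ s = redO_iota ℓ a := Iff.rfl

theorem redO_iota_ne_zero_of_red {s : LaurentSeries ↥(GaloisRep.ratLocalizedAt ℓ)}
    (hs : redO_red ℓ s ≠ 0) : redO_iota ℓ s ≠ 0 := by
  intro h
  rw [redO_iota_eq_zero] at h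
  rw [h, map_zero] at hs
  exact hs rfl

theorem redO_rho_aux (x : ↥(redO ℓ)) : ∃ v : LaurentSeries (ZMod ℓ),
    ∀ a s : LaurentSeries ↥(GaloisRep.ratLocalizedAt ℓ), redO_red ℓ s ≠ 0 →
      (x : LaurentSeries ℚ) * redO_iota ℓ s = redO_iota ℓ a → v = redO_red ℓ a / redO_red ℓ s := by
  obtain ⟨a₀, s₀, hs₀, h₀⟩ := x.2
  refine ⟨redO_red ℓ a₀ / redO_red ℓ s₀, fun a s hs h => ?_⟩
  have hcross : a₀ * s = a * s₀ := by
    apply redO_iota_injective ℓ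
    rw [map_mul, map_mul, ← h₀, ← h]
    ring
  rw [div_eq_div_iff hs₀ hs, ← map_mul, ← map_mul, hcross]

/-- The underlying function of the reduction map. -/
def redO_rhoFun (x : ↥(redO ℓ)) : LaurentSeries (ZMod ℓ) := Classical.choose (redO_rho_aux ℓ x)

theorem redO_rhoFun_eq (x : ↥(redO ℓ)) (a s : LaurentSeries ↥(GaloisRep.ratLocalizedAt ℓ))
    (hs : redO_red ℓ s ≠ 0) (h : (x : LaurentSeries ℚ) * redO_iota ℓ s = redO_iota ℓ a) :
    redO_rhoFun ℓ x = redO_red ℓ a / redO_red ℓ s :=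
  Classical.choose_spec (redO_rho_aux ℓ x) a s hs h

/-- (O2) The reduction map `ρ : O → 𝔽_ℓ((q))`. -/
def redO_rho : ↥(redO ℓ) →+* LaurentSeries (ZMod ℓ) where
  toFun := redO_rhoFun ℓ
  map_one' := by
    rw [redO_rhoFun_eq ℓ 1 1 1 (by rw [map_one]; exact one_ne_zero) (by simp), map_one,
      div_one]
  map_mul' := by
    intro x y
    obtain ⟨a, s, hs, h⟩ := (redO_mem_iff ℓ).mp x.2
    obtain ⟨a', s', hs', h'⟩ := (redO_mem_iff ℓ).mp y.2
    rw [redO_rhoFun_eq ℓ x a s hs h, redO_rhoFun_eq ℓ y a' s' hs' h',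
      redO_rhoFun_eq ℓ (x * y) (a * a') (s * s')
        (by rw [map_mul]; exact mul_ne_zero hs hs')
        (by
          show (x : LaurentSeries ℚ) * y * redO_iota ℓ (s * s') = redO_iota ℓ (a * a')
          rw [map_mul, map_mul, ← h, ← h']; ring),
      map_mul, map_mul, mul_div_mul_comm]
  map_zero' := by
    rw [redO_rhoFun_eq ℓ 0 0 1 (by rw [map_one]; exact one_ne_zero) (by simp), map_zero,
      zero_div]
  map_add' := by
    intro x y
    obtain ⟨a, s, hs, h⟩ := (redO_mem_iff ℓ).mp x.2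
    obtain ⟨a', s', hs', h'⟩ := (redO_mem_iff ℓ).mp y.2
    rw [redO_rhoFun_eq ℓ x a s hs h, redO_rhoFun_eq ℓ y a' s' hs' h',
      redO_rhoFun_eq ℓ (x + y) (a * s' + a' * s) (s * s')
        (by rw [map_mul]; exact mul_ne_zero hs hs')
        (by
          show ((x : LaurentSeries ℚ) + y) * redO_iota ℓ (s * s') = redO_iota ℓ (a * s' + a' * s)
          rw [map_mul, map_add, map_mul, map_mul, ← h, ← h']; ring),
      map_mul, map_add, map_mul, map_mul, div_add_div _ _ hs hs',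
      mul_comm (redO_red ℓ a') (redO_red ℓ s)]

theorem redO_rho_eq (x : ↥(redO ℓ)) (a s : LaurentSeries ↥(GaloisRep.ratLocalizedAt ℓ))
    (hs : redO_red ℓ s ≠ 0) (h : (x : LaurentSeries ℚ) * redO_iota ℓ s = redO_iota ℓ a) :
    redO_rho ℓ x = redO_red ℓ a / redO_red ℓ s :=
  redO_rhoFun_eq ℓ x a s hs h

theorem redO_natCast_ne_zero : ((ℓ : ℕ) : LaurentSeries ℚ) ≠ 0 := by
  have h : ((ℓ : ℕ) : ℚ) ≠ 0 := by exact_mod_cast (Fact.out : ℓ.Prime).ne_zero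
  rw [← map_natCast (HahnSeries.C : ℚ →+* LaurentSeries ℚ) ℓ]
  exact fun h0 => h (HahnSeries.C_injective (by rw [h0, map_zero]))

/-- `ℓ`-integral Laurent series lie in `O`. -/
theorem redO_intL (G : LaurentSeries ↥(GaloisRep.ratLocalizedAt ℓ)) :
    redO_iota ℓ G ∈ redO ℓ :=
  ⟨G, 1, by rw [map_one]; exact one_ne_zero, by simp⟩

theorem redO_rho_intL (G : LaurentSeries ↥(GaloisRep.ratLocalizedAt ℓ)) :
    redO_rho ℓ ⟨redO_iota ℓ G, redO_intL ℓ G⟩ = redO_red ℓ G := by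
  rw [redO_rho_eq ℓ _ G 1 (by rw [map_one]; exact one_ne_zero) (by simp), map_one, div_one]

/-- (O4) Laurent series with integer coefficients lie in `O`. -/
theorem redO_int (G : LaurentSeries ℤ) : coeffMap (Int.castRingHom ℚ) G ∈ redO ℓ := by
  have h : coeffMap (Int.castRingHom ℚ) G =
      redO_iota ℓ (coeffMap (Int.castRingHom ↥(GaloisRep.ratLocalizedAt ℓ)) G) := by
    rw [redO_iota, coeffMap_coeffMap]
    exact coeffMap_congr (RingHom.ext_int _ _) G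
  rw [h]
  exact redO_intL ℓ _

/-- (O4) The reduction of a Laurent series with integer coefficients. -/
theorem redO_rho_int (G : LaurentSeries ℤ) :
    redO_rho ℓ ⟨coeffMap (Int.castRingHom ℚ) G, redO_int ℓ G⟩ =
      coeffMap (Int.castRingHom (ZMod ℓ)) G := by
  have h : coeffMap (Int.castRingHom ℚ) G =
      redO_iota ℓ (coeffMap (Int.castRingHom ↥(GaloisRep.ratLocalizedAt ℓ)) G) := by
    rw [redO_iota, coeffMap_coeffMap]
    exact coeffMap_congr (RingHom.ext_int _ _) G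
  rw [redO_rho_eq ℓ _ (coeffMap (Int.castRingHom ↥(GaloisRep.ratLocalizedAt ℓ)) G) 1
    (by rw [map_one]; exact one_ne_zero) (by simp [h]), map_one, div_one, redO_red,
    coeffMap_coeffMap]
  exact coeffMap_congr (RingHom.ext_int _ _) G

theorem redO_natCast_mem (m : ℕ) : ((m : ℕ) : LaurentSeries ℚ) ∈ redO ℓ :=
  natCast_mem (redO ℓ) m

theorem redO_rho_natCast_self :
    redO_rho ℓ ⟨((ℓ : ℕ) : LaurentSeries ℚ), redO_natCast_mem ℓ ℓ⟩ = 0 := by
  have h : (⟨((ℓ : ℕ) : LaurentSeries ℚ), redO_natCast_mem ℓ ℓ⟩ : ↥(redO ℓ)) =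
      ((ℓ : ℕ) : ↥(redO ℓ)) := Subtype.ext (by simp)
  rw [h, map_natCast]
  have : ((ℓ : ℕ) : LaurentSeries (ZMod ℓ)) = HahnSeries.C ((ℓ : ℕ) : ZMod ℓ) :=
    (map_natCast (HahnSeries.C : ZMod ℓ →+* _) ℓ).symm
  rw [this, ZMod.natCast_self, map_zero]

/-- (O3) The kernel of `ρ` is `ℓ O`. -/
theorem redO_rho_eq_zero (x : ↥(redO ℓ)) (h : redO_rho ℓ x = 0) :
    (x : LaurentSeries ℚ) / ((ℓ : ℕ) : LaurentSeries ℚ) ∈ redO ℓ := by
  obtain ⟨a, s, hs, hx⟩ := (redO_mem_iff ℓ).mp x.2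
  rw [redO_rho_eq ℓ x a s hs hx, div_eq_zero_iff] at h
  have ha : redO_red ℓ a = 0 := h.resolve_right hs
  obtain ⟨a₁, ha₁⟩ := redO_red_eq_zero ℓ a ha
  refine ⟨a₁, s, hs, ?_⟩
  have hℓ := redO_natCast_ne_zero ℓ
  rw [div_mul_eq_mul_div, hx, ha₁, map_mul, map_natCast]
  field_simp

theorem redO_rho_eq_zero_iff (x : ↥(redO ℓ)) :
    redO_rho ℓ x = 0 ↔ ∃ y : ↥(redO ℓ), x = ((ℓ : ℕ) : ↥(redO ℓ)) * y := by
  constructor
  · intro h
    refine ⟨⟨_, redO_rho_eq_zero ℓ x h⟩, Subtype.ext ?_⟩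
    have hℓ := redO_natCast_ne_zero ℓ
    show (x : LaurentSeries ℚ) = ((ℓ : ℕ) : LaurentSeries ℚ) * ((x : LaurentSeries ℚ) / ((ℓ : ℕ) : LaurentSeries ℚ))
    field_simp
  · rintro ⟨y, rfl⟩
    rw [map_mul, map_natCast]
    have : ((ℓ : ℕ) : LaurentSeries (ZMod ℓ)) = HahnSeries.C ((ℓ : ℕ) : ZMod ℓ) :=
      (map_natCast (HahnSeries.C : ZMod ℓ →+* _) ℓ).symm
    rw [this, ZMod.natCast_self, map_zero, zero_mul]

/-- Elements of `O` with nonzero reduction are units of `O`. -/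
theorem redO_inv_mem (x : ↥(redO ℓ)) (h : redO_rho ℓ x ≠ 0) :
    (x : LaurentSeries ℚ)⁻¹ ∈ redO ℓ := by
  obtain ⟨a, s, hs, hx⟩ := (redO_mem_iff ℓ).mp x.2
  rw [redO_rho_eq ℓ x a s hs hx] at h
  have ha : redO_red ℓ a ≠ 0 := fun h0 => h (by rw [h0, zero_div])
  have hιs := redO_iota_ne_zero_of_red ℓ hs
  have hιa := redO_iota_ne_zero_of_red ℓ ha
  refine ⟨s, a, ha, ?_⟩
  have hx0 : (x : LaurentSeries ℚ) ≠ 0 := by
    intro h0; rw [h0, zero_mul] at hx; exact hιa hx.symm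
  rw [← hx]
  field_simp

theorem redO_rho_inv (x : ↥(redO ℓ)) (h : redO_rho ℓ x ≠ 0) :
    redO_rho ℓ ⟨(x : LaurentSeries ℚ)⁻¹, redO_inv_mem ℓ x h⟩ = (redO_rho ℓ x)⁻¹ := by
  have hmul : x * ⟨(x : LaurentSeries ℚ)⁻¹, redO_inv_mem ℓ x h⟩ = 1 := by
    apply Subtype.ext
    have hx0 : (x : LaurentSeries ℚ) ≠ 0 := by
      intro h0
      apply h
      have : x = 0 := Subtype.ext h0
      rw [this, map_zero]
    show (x : LaurentSeries ℚ) * (x : LaurentSeries ℚ)⁻¹ = 1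
    exact mul_inv_cancel₀ hx0
  have := congrArg (redO_rho ℓ) hmul
  rw [map_mul, map_one] at this
  exact eq_inv_of_mul_eq_one_right this

end RingO

section Frac

variable (ℓ : ℕ)

/-- `x` is a quotient of two `ℓ`-integral Laurent series. -/
def redO_IsFrac (x : LaurentSeries ℚ) : Prop :=
  ∃ a s : LaurentSeries ↥(GaloisRep.ratLocalizedAt ℓ), s ≠ 0 ∧ x * redO_iota ℓ s = redO_iota ℓ a

variable {ℓ}

theorem redO_isFrac_iota (a : LaurentSeries ↥(GaloisRep.ratLocalizedAt ℓ)) :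
    redO_IsFrac ℓ (redO_iota ℓ a) :=
  ⟨a, 1, one_ne_zero, by simp⟩

theorem redO_IsFrac.add {x y : LaurentSeries ℚ} (hx : redO_IsFrac ℓ x) (hy : redO_IsFrac ℓ y) :
    redO_IsFrac ℓ (x + y) := by
  obtain ⟨a, s, hs, h⟩ := hx
  obtain ⟨a', s', hs', h'⟩ := hy
  exact ⟨a * s' + a' * s, s * s', mul_ne_zero hs hs', by
    rw [map_mul, map_add, map_mul, map_mul, ← h, ← h']; ring⟩

theorem redO_IsFrac.mul {x y : LaurentSeries ℚ} (hx : redO_IsFrac ℓ x) (hy : redO_IsFrac ℓ y) :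
    redO_IsFrac ℓ (x * y) := by
  obtain ⟨a, s, hs, h⟩ := hx
  obtain ⟨a', s', hs', h'⟩ := hy
  exact ⟨a * a', s * s', mul_ne_zero hs hs', by
    rw [map_mul, map_mul, ← h, ← h']; ring⟩

theorem redO_IsFrac.neg {x : LaurentSeries ℚ} (hx : redO_IsFrac ℓ x) : redO_IsFrac ℓ (-x) := by
  obtain ⟨a, s, hs, h⟩ := hx
  exact ⟨-a, s, hs, by rw [map_neg, ← h]; ring⟩

theorem redO_IsFrac.inv {x : LaurentSeries ℚ} (hx : redO_IsFrac ℓ x) : redO_IsFrac ℓ x⁻¹ := by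
  obtain ⟨a, s, hs, h⟩ := hx
  by_cases hx0 : x = 0
  · rw [hx0, inv_zero]
    exact ⟨0, 1, one_ne_zero, by simp⟩
  · have ha : a ≠ 0 := by
      intro h0
      rw [h0, map_zero] at h
      rcases mul_eq_zero.mp h with h1 | h1
      · exact hx0 h1
      · exact hs ((redO_iota_eq_zero ℓ).mp h1)
    refine ⟨s, a, ha, ?_⟩
    rw [← h]
    field_simp

theorem redO_isFrac_algebraMap (c : ℚ) :
    redO_IsFrac ℓ (HahnSeries.single (0 : ℤ) c) := by
  have hden : (c.den : ℚ) ≠ 0 := by exact_mod_cast c.den_ne_zero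
  refine ⟨HahnSeries.single 0 ((c.num : ℤ) : ↥(GaloisRep.ratLocalizedAt ℓ)),
    HahnSeries.single 0 ((c.den : ℕ) : ↥(GaloisRep.ratLocalizedAt ℓ)), ?_, ?_⟩
  · intro h
    have := congrArg (fun x : LaurentSeries ↥(GaloisRep.ratLocalizedAt ℓ) => x.coeff 0) h
    simp only [HahnSeries.coeff_single_same, HahnSeries.coeff_zero] at this
    have h2 := congrArg Subtype.val this
    simp at h2
  · rw [redO_iota, coeffMap_single, coeffMap_single, HahnSeries.single_mul_single, zero_add]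
    congr 1
    simp only [map_natCast, map_intCast]
    exact Rat.mul_den_eq_num c

/-- Every element of the function field is a quotient of `ℓ`-integral Laurent series. -/
theorem redO_isFrac_of_mem (N : ℕ) [NeZero N] (x : LaurentSeries ℚ)
    (hx : x ∈ modularFunctionFieldFull N) : redO_IsFrac ℓ x := by
  have hx' : x ∈ Subfield.closure
      (Set.range (algebraMap ℚ (LaurentSeries ℚ)) ∪ divisorExpansions N) := hx
  clear hx
  induction hx' using Subfield.closure_induction with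
  | mem y hy =>
    rcases hy with ⟨c, rfl⟩ | ⟨d, hne, -, rfl⟩
    · rw [algebraMap_apply_eq_single]
      exact redO_isFrac_algebraMap c
    · have := hne
      have h : qExpand ℚ d jq =
          redO_iota ℓ (qExpand ↥(GaloisRep.ratLocalizedAt ℓ) d
            (jqModC ↥(GaloisRep.ratLocalizedAt ℓ))) := by
        rw [redO_iota, coeffMap_qExpand, coeffMap_jqModC, jqModC_rat]
      rw [h]
      exact redO_isFrac_iota _
  | one =>
    have := redO_isFrac_iota (ℓ := ℓ) 1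
    rwa [map_one] at this
  | add x y _ _ hx hy => exact hx.add hy
  | neg x _ hx => exact hx.neg
  | inv x _ hx => exact hx.inv
  | mul x y _ _ hx hy => exact hx.mul hy

end Frac

section Val

theorem redO_iota_natCast_pow (ℓ : ℕ) (m : ℕ) :
    redO_iota ℓ (((ℓ : ℕ) : LaurentSeries ↥(GaloisRep.ratLocalizedAt ℓ)) ^ m) =
      ((ℓ : ℕ) : LaurentSeries ℚ) ^ m := by
  rw [map_pow, map_natCast]

variable (ℓ : ℕ) [Fact ℓ.Prime]

/-- A nonzero quotient of `ℓ`-integral Laurent series is `ℓ^e` times a unit of `O`. -/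
theorem redO_exists_pow_of_isFrac (x : LaurentSeries ℚ) (hx : redO_IsFrac ℓ x) (hx0 : x ≠ 0) :
    ∃ (e : ℤ) (u : ↥(redO ℓ)), redO_rho ℓ u ≠ 0 ∧
      x = ((ℓ : ℕ) : LaurentSeries ℚ) ^ e * (u : LaurentSeries ℚ) := by
  obtain ⟨a, s, hs, h⟩ := hx
  have ha : a ≠ 0 := by
    intro h0
    rw [h0, map_zero] at h
    rcases mul_eq_zero.mp h with h1 | h1
    · exact hx0 h1
    · exact hs ((redO_iota_eq_zero ℓ).mp h1)
  obtain ⟨m, a', ha', rfl⟩ := redO_exists_factor ℓ a ha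
  obtain ⟨k, s', hs', rfl⟩ := redO_exists_factor ℓ s hs
  have hℓ := redO_natCast_ne_zero ℓ
  have hιs' := redO_iota_ne_zero_of_red ℓ hs'
  rw [map_mul, map_mul, redO_iota_natCast_pow, redO_iota_natCast_pow] at h
  have hu : redO_iota ℓ a' / redO_iota ℓ s' ∈ redO ℓ :=
    ⟨a', s', hs', by field_simp⟩
  refine ⟨(m : ℤ) - k, ⟨_, hu⟩, ?_, ?_⟩
  · rw [redO_rho_eq ℓ ⟨_, hu⟩ a' s' hs' (by show redO_iota ℓ a' / redO_iota ℓ s' * _ = _; field_simp)]
    exact div_ne_zero ha' hs'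
  · show x = ((ℓ : ℕ) : LaurentSeries ℚ) ^ ((m : ℤ) - k) * (redO_iota ℓ a' / redO_iota ℓ s')
    rw [zpow_sub₀ hℓ, zpow_natCast, zpow_natCast]
    have hk : ((ℓ : ℕ) : LaurentSeries ℚ) ^ k ≠ 0 := pow_ne_zero _ hℓ
    field_simp
    linear_combination h

/-- (O5) for quotients of `ℓ`-integral Laurent series. -/
theorem redO_mem_or_of_isFrac (x : LaurentSeries ℚ) (hx : redO_IsFrac ℓ x) :
    x ∈ redO ℓ ∨ ∃ h : x⁻¹ ∈ redO ℓ, redO_rho ℓ ⟨x⁻¹, h⟩ = 0 := by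
  by_cases hx0 : x = 0
  · left; rw [hx0]; exact zero_mem _
  obtain ⟨e, u, hu, rfl⟩ := redO_exists_pow_of_isFrac ℓ x hx hx0
  have hℓ := redO_natCast_ne_zero ℓ
  rcases le_or_gt 0 e with he | he
  · left
    obtain ⟨n, rfl⟩ := Int.eq_ofNat_of_zero_le he
    rw [zpow_natCast]
    exact mul_mem (pow_mem (redO_natCast_mem ℓ ℓ) n) u.2
  · right
    obtain ⟨n, hn⟩ : ∃ n : ℕ, e = -((n : ℤ) + 1) := ⟨(-e - 1).toNat, by omega⟩
    have hinv : (((ℓ : ℕ) : LaurentSeries ℚ) ^ e * (u : LaurentSeries ℚ))⁻¹ =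
        ((ℓ : ℕ) : LaurentSeries ℚ) ^ (n + 1) * (u : LaurentSeries ℚ)⁻¹ := by
      rw [mul_inv, ← zpow_neg, hn, neg_neg]
      norm_cast
    have hmem : (((ℓ : ℕ) : LaurentSeries ℚ) ^ e * (u : LaurentSeries ℚ))⁻¹ ∈ redO ℓ := by
      rw [hinv]
      exact mul_mem (pow_mem (redO_natCast_mem ℓ ℓ) _) (redO_inv_mem ℓ u hu)
    refine ⟨hmem, ?_⟩
    have heq : (⟨_, hmem⟩ : ↥(redO ℓ)) =
        ⟨((ℓ : ℕ) : LaurentSeries ℚ), redO_natCast_mem ℓ ℓ⟩ ^ (n + 1) *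
          ⟨(u : LaurentSeries ℚ)⁻¹, redO_inv_mem ℓ u hu⟩ := Subtype.ext hinv
    rw [heq, map_mul, map_pow, redO_rho_natCast_self, pow_succ, mul_zero, zero_mul]

/-- Every nonzero element of the function field is `ℓ^e` times a unit of `O`. -/
theorem redO_exists_pow (N : ℕ) [NeZero N] (x : LaurentSeries ℚ)
    (hx : x ∈ modularFunctionFieldFull N) (hx0 : x ≠ 0) :
    ∃ (e : ℤ) (u : ↥(redO ℓ)), redO_rho ℓ u ≠ 0 ∧
      x = ((ℓ : ℕ) : LaurentSeries ℚ) ^ e * (u : LaurentSeries ℚ) :=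
  redO_exists_pow_of_isFrac ℓ x (redO_isFrac_of_mem N x hx) hx0

/-- (O5) The valuation-ring dichotomy on the function field: `x ∈ O` or `x⁻¹ ∈ ℓ O`. -/
theorem redO_mem_or (N : ℕ) [NeZero N] (x : LaurentSeries ℚ)
    (hx : x ∈ modularFunctionFieldFull N) :
    x ∈ redO ℓ ∨ ∃ h : x⁻¹ ∈ redO ℓ, redO_rho ℓ ⟨x⁻¹, h⟩ = 0 :=
  redO_mem_or_of_isFrac ℓ x (redO_isFrac_of_mem N x hx)

end Val

end Fermat.Agent.S28
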