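import Mathlib
import Fermat.Prelude.Def_ModularCurve_X0
import Fermat.Prelude.Def_ModularCurve_LaurentCoeff

/-!
# S28, package [TR], formal part: twists of Laurent series and coefficient subrings

* `twL_twist ζ : LaurentSeries R →+* LaurentSeries R` multiplies the coefficient of `q ^ n` by
  `ζ ^ n` (`ζ` a unit): this is the formal counterpart of `z ↦ z + r`, `ζ = exp (2 π i r)`.
* `twL_coeffRing A : Subring (LaurentSeries R)`: the Laurent series all of whose coefficients lie
  in the subring `A`.  It is stable under `twL_twist ζ` (for `ζ, ζ⁻¹ ∈ A`), under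
  `ModularCurve.qExpand`, and under inversion of series whose leading coefficient is a unit of `A`.
-/

set_option autoImplicit false

noncomputable section

namespace Fermat.Agent.S28

open HahnSeries

section Twist

variable {R : Type*} [CommRing R]

/-- The twist of a Laurent series by a unit: the coefficient of `q ^ n` is multiplied by
`ζ ^ n`. -/
def twL_twistFun (ζ : Rˣ) (s : LaurentSeries R) : LaurentSeries R where
  coeff n := ((ζ ^ n : Rˣ) : R) * s.coeff n
  isPWO_support' := s.isPWO_support.mono fun n hn => by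
    simp only [Function.mem_support, ne_eq] at hn ⊢
    intro h
    exact hn (by rw [h, mul_zero])

theorem twL_twistFun_coeff (ζ : Rˣ) (s : LaurentSeries R) (n : ℤ) :
    (twL_twistFun ζ s).coeff n = ((ζ ^ n : Rˣ) : R) * s.coeff n := rfl

theorem twL_twistFun_support (ζ : Rˣ) (s : LaurentSeries R) :
    (twL_twistFun ζ s).support = s.support := by
  ext n
  simp only [HahnSeries.mem_support, twL_twistFun_coeff, ne_eq]
  rw [Units.mul_right_eq_zero]

theorem twL_twistFun_mul (ζ : Rˣ) (x y : LaurentSeries R) :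
    twL_twistFun ζ (x * y) = twL_twistFun ζ x * twL_twistFun ζ y := by
  ext n
  rw [twL_twistFun_coeff, HahnSeries.coeff_mul,
    HahnSeries.coeff_mul_left' (x := twL_twistFun ζ x) (s := x.support) x.isPWO_support
      (twL_twistFun_support ζ x).le]
  rw [Finset.mul_sum]
  have key : ∀ ij ∈ Finset.antidiagonal x.isPWO_support y.isPWO_support n,
      ((ζ ^ n : Rˣ) : R) * (x.coeff ij.1 * y.coeff ij.2) =
        (twL_twistFun ζ x).coeff ij.1 * (twL_twistFun ζ y).coeff ij.2 := by
    intro ij hij
    rw [Finset.mem_antidiagonal] at hij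
    rw [twL_twistFun_coeff, twL_twistFun_coeff, ← hij.2.2, zpow_add, Units.val_mul]
    ring
  rw [Finset.sum_congr rfl key]
  refine Finset.sum_subset_zero_on_sdiff ?_ ?_ fun _ _ => rfl
  · intro ij hij
    rw [Finset.mem_antidiagonal] at hij ⊢
    refine ⟨hij.1, ?_, hij.2.2⟩
    rw [twL_twistFun_support]
    exact hij.2.1
  · intro ij hij
    rw [Finset.mem_sdiff, Finset.mem_antidiagonal, Finset.mem_antidiagonal] at hij
    have : ij.2 ∉ y.support := fun h => hij.2 ⟨hij.1.1, h, hij.1.2.2⟩
    rw [HahnSeries.mem_support, not_not] at this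
    rw [twL_twistFun_coeff ζ y, this, mul_zero, mul_zero]

/-- The twist by a unit as a ring homomorphism. -/
def twL_twist (ζ : Rˣ) : LaurentSeries R →+* LaurentSeries R where
  toFun := twL_twistFun ζ
  map_zero' := by
    ext n
    simp [twL_twistFun_coeff]
  map_one' := by
    ext n
    rw [twL_twistFun_coeff, HahnSeries.coeff_one]
    split_ifs with h
    · subst h
      simp
    · simp
  map_add' x y := by
    ext n
    simp only [twL_twistFun_coeff, HahnSeries.coeff_add]
    ring
  map_mul' := twL_twistFun_mul ζ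

@[simp]
theorem twL_twist_coeff (ζ : Rˣ) (s : LaurentSeries R) (n : ℤ) :
    (twL_twist ζ s).coeff n = ((ζ ^ n : Rˣ) : R) * s.coeff n := rfl

theorem twL_twist_support (ζ : Rˣ) (s : LaurentSeries R) :
    (twL_twist ζ s).support = s.support := twL_twistFun_support ζ s

theorem twL_twist_one (s : LaurentSeries R) : twL_twist (1 : Rˣ) s = s := by
  ext n
  simp

theorem twL_twist_mul (ζ ξ : Rˣ) (s : LaurentSeries R) :
    twL_twist (ζ * ξ) s = twL_twist ζ (twL_twist ξ s) := by
  ext n
  simp only [twL_twist_coeff, mul_zpow, Units.val_mul]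
  ring

theorem twL_twist_single (ζ : Rˣ) (k : ℤ) (r : R) :
    twL_twist ζ (HahnSeries.single k r) = HahnSeries.single k (((ζ ^ k : Rˣ) : R) * r) := by
  ext n
  rw [twL_twist_coeff]
  rcases eq_or_ne n k with rfl | hn
  · rw [HahnSeries.coeff_single_same, HahnSeries.coeff_single_same]
  · rw [HahnSeries.coeff_single_of_ne hn, HahnSeries.coeff_single_of_ne hn, mul_zero]

theorem twL_twist_C (ζ : Rˣ) (r : R) : twL_twist ζ (HahnSeries.C r) = HahnSeries.C r := by
  have := twL_twist_single ζ 0 r
  simpa using this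

theorem twL_twist_injective (ζ : Rˣ) : Function.Injective (twL_twist ζ) := by
  intro x y h
  have h1 := congrArg (twL_twist ζ⁻¹) h
  rwa [← twL_twist_mul, ← twL_twist_mul, inv_mul_cancel, twL_twist_one, twL_twist_one] at h1

theorem twL_twist_eq_zero (ζ : Rˣ) {s : LaurentSeries R} : twL_twist ζ s = 0 ↔ s = 0 :=
  ⟨fun h => twL_twist_injective ζ (h.trans (map_zero _).symm), fun h => by rw [h, map_zero]⟩

theorem twL_twist_orderTop (ζ : Rˣ) (s : LaurentSeries R) :
    (twL_twist ζ s).orderTop = s.orderTop := by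
  by_cases hs : s = 0
  · rw [hs, map_zero]
  · have hs' : twL_twist ζ s ≠ 0 := fun h => hs ((twL_twist_eq_zero ζ).mp h)
    rw [HahnSeries.orderTop_of_ne_zero hs, HahnSeries.orderTop_of_ne_zero hs']
    congr 1
    simp only [twL_twist_support]

theorem twL_twist_order (ζ : Rˣ) (s : LaurentSeries R) :
    (twL_twist ζ s).order = s.order := by
  by_cases hs : s = 0
  · rw [hs, map_zero]
  · have hs' : twL_twist ζ s ≠ 0 := fun h => hs ((twL_twist_eq_zero ζ).mp h)
    have := twL_twist_orderTop ζ s
    rw [← HahnSeries.order_eq_orderTop_of_ne_zero hs,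
      ← HahnSeries.order_eq_orderTop_of_ne_zero hs'] at this
    exact_mod_cast this

theorem twL_twist_leadingCoeff (ζ : Rˣ) (s : LaurentSeries R) :
    (twL_twist ζ s).leadingCoeff = ((ζ ^ s.order : Rˣ) : R) * s.leadingCoeff := by
  rw [HahnSeries.leadingCoeff_eq, HahnSeries.leadingCoeff_eq, twL_twist_order, twL_twist_coeff]

theorem twL_twist_qExpand (ζ : Rˣ) (m : ℕ) [NeZero m] (s : LaurentSeries R) :
    twL_twist ζ (ModularCurve.qExpand R m s) =
      ModularCurve.qExpand R m (twL_twist (ζ ^ m) s) := by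
  ext k
  by_cases hk : (m : ℤ) ∣ k
  · obtain ⟨l, rfl⟩ := hk
    rw [twL_twist_coeff, ModularCurve.qExpand_coeff_mul, ModularCurve.qExpand_coeff_mul,
      twL_twist_coeff, zpow_mul, zpow_natCast]
  · rw [twL_twist_coeff, ModularCurve.qExpand_coeff_of_not_dvd m _ hk,
      ModularCurve.qExpand_coeff_of_not_dvd m _ hk, mul_zero]

theorem twL_coeffMap_twist {S : Type*} [CommRing S] (φ : R →+* S) (ζ : Rˣ)
    (s : LaurentSeries R) :
    ModularCurve.coeffMap φ (twL_twist ζ s) =
      twL_twist (Units.map (φ : R →* S) ζ) (ModularCurve.coeffMap φ s) := by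
  ext n
  rw [ModularCurve.coeffMap_coeff, twL_twist_coeff, twL_twist_coeff, ModularCurve.coeffMap_coeff,
    map_mul, ← map_zpow]
  rfl

end Twist

/-! ### Laurent series with coefficients in a subring -/

section CoeffRing

variable {R : Type*} [CommRing R]

/-- The Laurent series all of whose coefficients lie in the subring `A`. -/
def twL_coeffRing (A : Subring R) : Subring (LaurentSeries R) :=
  (ModularCurve.coeffMap A.subtype).range

/-- The Laurent series over `A` with prescribed coefficients in `A`. -/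
def twL_lift (A : Subring R) (s : LaurentSeries R) (h : ∀ n, s.coeff n ∈ A) :
    LaurentSeries A where
  coeff n := ⟨s.coeff n, h n⟩
  isPWO_support' := s.isPWO_support.mono fun n hn => by
    simp only [Function.mem_support, ne_eq] at hn ⊢
    intro h0
    exact hn (Subtype.ext h0)

theorem twL_coeffMap_lift (A : Subring R) (s : LaurentSeries R) (h : ∀ n, s.coeff n ∈ A) :
    ModularCurve.coeffMap A.subtype (twL_lift A s h) = s := by
  ext n
  rfl

theorem twL_mem_coeffRing {A : Subring R} {s : LaurentSeries R} :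
    s ∈ twL_coeffRing A ↔ ∀ n, s.coeff n ∈ A := by
  constructor
  · rintro ⟨t, rfl⟩ n
    rw [ModularCurve.coeffMap_coeff]
    exact (t.coeff n).2
  · intro h
    exact ⟨twL_lift A s h, twL_coeffMap_lift A s h⟩

theorem twL_coeffRing_mono {A B : Subring R} (h : A ≤ B) : twL_coeffRing A ≤ twL_coeffRing B :=
  fun _ hs => twL_mem_coeffRing.mpr fun n => h (twL_mem_coeffRing.mp hs n)

theorem twL_single_mem {A : Subring R} {r : R} (hr : r ∈ A) (k : ℤ) :
    HahnSeries.single k r ∈ twL_coeffRing A := by
  rw [twL_mem_coeffRing]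
  intro n
  rcases eq_or_ne n k with rfl | hn
  · rwa [HahnSeries.coeff_single_same]
  · rw [HahnSeries.coeff_single_of_ne hn]
    exact A.zero_mem

theorem twL_C_mem {A : Subring R} {r : R} (hr : r ∈ A) :
    HahnSeries.C r ∈ twL_coeffRing A :=
  twL_single_mem hr 0

theorem twL_coeffMap_mem {S : Type*} [CommRing S] (φ : S →+* R) (A : Subring R)
    (hφ : ∀ x, φ x ∈ A) (s : LaurentSeries S) :
    ModularCurve.coeffMap φ s ∈ twL_coeffRing A := by
  rw [twL_mem_coeffRing]
  intro n
  rw [ModularCurve.coeffMap_coeff]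
  exact hφ _

theorem twL_coeffMap_int_mem (A : Subring R) (s : LaurentSeries ℤ) :
    ModularCurve.coeffMap (Int.castRingHom R) s ∈ twL_coeffRing A :=
  twL_coeffMap_mem _ A (fun x => by simp) s

theorem twL_ofPowerSeries_mem {A : Subring R} {P : PowerSeries R}
    (hP : ∀ n, PowerSeries.coeff n P ∈ A) :
    HahnSeries.ofPowerSeries ℤ R P ∈ twL_coeffRing A := by
  rw [twL_mem_coeffRing]
  intro n
  rcases lt_or_ge n 0 with hn | hn
  · rw [ModularCurve.ofPowerSeries_coeff_of_neg _ hn]
    exact A.zero_mem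
  · obtain ⟨k, rfl⟩ := Int.eq_ofNat_of_zero_le hn
    rw [HahnSeries.ofPowerSeries_apply_coeff]
    exact hP k

theorem twL_twist_mem {A : Subring R} (ζ : Rˣ) (hζ : (ζ : R) ∈ A) (hζ' : ((ζ⁻¹ : Rˣ) : R) ∈ A)
    {s : LaurentSeries R} (hs : s ∈ twL_coeffRing A) : twL_twist ζ s ∈ twL_coeffRing A := by
  rw [twL_mem_coeffRing] at hs ⊢
  intro n
  rw [twL_twist_coeff]
  refine A.mul_mem ?_ (hs n)
  rcases Int.le_total 0 n with hn | hn
  · obtain ⟨k, rfl⟩ := Int.eq_ofNat_of_zero_le hn
    rw [zpow_natCast, Units.val_pow_eq_pow_val]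
    exact A.pow_mem hζ k
  · obtain ⟨k, hk⟩ := Int.eq_ofNat_of_zero_le (neg_nonneg.mpr hn)
    have : n = -(k : ℤ) := by omega
    rw [this, zpow_neg, zpow_natCast, ← inv_pow, Units.val_pow_eq_pow_val]
    exact A.pow_mem hζ' k

theorem twL_qExpand_mem {A : Subring R} (m : ℕ) [NeZero m]
    {s : LaurentSeries R} (hs : s ∈ twL_coeffRing A) :
    ModularCurve.qExpand R m s ∈ twL_coeffRing A := by
  rw [twL_mem_coeffRing] at hs ⊢
  intro k
  by_cases hk : (m : ℤ) ∣ k
  · obtain ⟨l, rfl⟩ := hk
    rw [ModularCurve.qExpand_coeff_mul]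
    exact hs l
  · rw [ModularCurve.qExpand_coeff_of_not_dvd m _ hk]
    exact A.zero_mem

theorem twL_leadingCoeff_mem {A : Subring R} {s : LaurentSeries R} (hs : s ∈ twL_coeffRing A) :
    s.leadingCoeff ∈ A := by
  rw [HahnSeries.leadingCoeff_eq]
  exact twL_mem_coeffRing.mp hs _

end CoeffRing

section CoeffRingInv

variable {K : Type*} [Field K]

theorem twL_lift_eq_zero {A : Subring K} {s : LaurentSeries K} (h : ∀ n, s.coeff n ∈ A) :
    twL_lift A s h = 0 ↔ s = 0 := by
  constructor
  · intro h0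
    rw [← twL_coeffMap_lift A s h, h0, map_zero]
  · intro h0
    ext n
    show s.coeff n = 0
    rw [h0, HahnSeries.coeff_zero]

theorem twL_lift_order {A : Subring K} {s : LaurentSeries K} (h : ∀ n, s.coeff n ∈ A) :
    (twL_lift A s h).order = s.order := by
  by_cases hs : s = 0
  · have : twL_lift A s h = 0 := (twL_lift_eq_zero h).mpr hs
    rw [this, hs, HahnSeries.order_zero, HahnSeries.order_zero]
  · have hs' : twL_lift A s h ≠ 0 := fun h0 => hs ((twL_lift_eq_zero h).mp h0)
    rw [HahnSeries.order_of_ne hs, HahnSeries.order_of_ne hs']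
    congr 1
    ext n
    simp only [HahnSeries.mem_support, ne_eq]
    show ¬ (⟨s.coeff n, h n⟩ : A) = 0 ↔ _
    rw [Subtype.ext_iff]
    rfl

/-- A nonzero Laurent series with coefficients in `A` whose leading coefficient is a unit of `A`
has its inverse in `A((q))`. -/
theorem twL_inv_mem {A : Subring K} {s : LaurentSeries K} (hs : s ∈ twL_coeffRing A)
    (hlead : s.leadingCoeff⁻¹ ∈ A) (hs0 : s ≠ 0) : s⁻¹ ∈ twL_coeffRing A := by
  have h := twL_mem_coeffRing.mp hs
  set s' := twL_lift A s h with hs'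
  have hlc : s'.leadingCoeff = ⟨s.leadingCoeff, twL_leadingCoeff_mem hs⟩ := by
    rw [HahnSeries.leadingCoeff_eq, twL_lift_order h]
    apply Subtype.ext
    show s.coeff s.order = s.leadingCoeff
    rw [HahnSeries.leadingCoeff_eq]
  have hunit : IsUnit s'.leadingCoeff := by
    rw [hlc]
    refine IsUnit.of_mul_eq_one ⟨s.leadingCoeff⁻¹, hlead⟩ ?_
    apply Subtype.ext
    show s.leadingCoeff * s.leadingCoeff⁻¹ = 1
    exact mul_inv_cancel₀ (HahnSeries.leadingCoeff_ne_zero.mpr hs0)
  have hu : IsUnit s' :=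
    HahnSeries.isUnit_of_isUnit_leadingCoeff_AddUnitOrder hunit (AddGroup.isAddUnit _)
  obtain ⟨t, ht⟩ := hu.exists_right_inv
  have h1 : s * ModularCurve.coeffMap A.subtype t = 1 := by
    have := congrArg (ModularCurve.coeffMap A.subtype) ht
    rwa [map_mul, map_one, twL_coeffMap_lift] at this
  have h2 : s⁻¹ = ModularCurve.coeffMap A.subtype t :=
    inv_eq_of_mul_eq_one_right h1
  rw [h2]
  exact ⟨t, rfl⟩

theorem twL_zpow_mem {A : Subring K} {s : LaurentSeries K} (hs : s ∈ twL_coeffRing A)
    (hlead : s.leadingCoeff⁻¹ ∈ A) (hs0 : s ≠ 0) (e : ℤ) : s ^ e ∈ twL_coeffRing A := by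
  rcases Int.le_total 0 e with he | he
  · obtain ⟨k, rfl⟩ := Int.eq_ofNat_of_zero_le he
    rw [zpow_natCast]
    exact (twL_coeffRing A).pow_mem hs k
  · obtain ⟨k, hk⟩ := Int.eq_ofNat_of_zero_le (neg_nonneg.mpr he)
    have : e = -(k : ℤ) := by omega
    rw [this, zpow_neg, zpow_natCast, ← inv_pow]
    exact (twL_coeffRing A).pow_mem (twL_inv_mem hs hlead hs0) k

end CoeffRingInv

/-! ### `Δ`-quotients as formal Laurent series -/

section Quot

variable (R : Type*) [CommRing R]

/-- `q ↦ q ^ d` on Laurent series, as a total function of `d` (the identity for `d = 0`). -/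
def twL_qE (d : ℕ) : LaurentSeries R →+* LaurentSeries R :=
  if h : d = 0 then RingHom.id _ else @ModularCurve.qExpand R _ d ⟨h⟩

theorem twL_qE_eq (d : ℕ) [NeZero d] : twL_qE R d = ModularCurve.qExpand R d := by
  unfold twL_qE
  rw [dif_neg (NeZero.ne d)]

theorem twL_qE_zero : twL_qE R 0 = RingHom.id _ := by
  unfold twL_qE
  rw [dif_pos rfl]

theorem twL_qE_one (x : LaurentSeries R) : twL_qE R 1 x = x := by
  rw [twL_qE_eq, ModularCurve.qExpand_one_apply]

/-- The formal `q`-expansion `q ∏ (1 - q ^ n) ^ 24` of `Δ` over a commutative ring. -/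
def twL_delta : LaurentSeries R :=
  HahnSeries.single (1 : ℤ) (1 : R) *
    HahnSeries.ofPowerSeries ℤ R (ModularCurve.dedekindEtaUnit.map (Int.castRingHom R))

/-- The inverse of the formal `q`-expansion of `Δ`. -/
def twL_deltaInv : LaurentSeries R :=
  HahnSeries.single (-1 : ℤ) (1 : R) *
    HahnSeries.ofPowerSeries ℤ R (ModularCurve.dedekindEtaUnitInv.map (Int.castRingHom R))

theorem twL_delta_mul_inv : twL_delta R * twL_deltaInv R = 1 := by
  have h1 : HahnSeries.ofPowerSeries ℤ R (ModularCurve.dedekindEtaUnit.map (Int.castRingHom R)) *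
      HahnSeries.ofPowerSeries ℤ R (ModularCurve.dedekindEtaUnitInv.map (Int.castRingHom R)) =
        1 := by
    rw [← map_mul, ← map_mul, ModularCurve.dedekindEtaUnit_mul_inv, map_one, map_one]
  have h2 : HahnSeries.single (1 : ℤ) (1 : R) * HahnSeries.single (-1 : ℤ) (1 : R) = 1 := by
    rw [HahnSeries.single_mul_single, one_mul]
    rfl
  calc twL_delta R * twL_deltaInv R
      = (HahnSeries.single (1 : ℤ) (1 : R) * HahnSeries.single (-1 : ℤ) (1 : R)) *
          (HahnSeries.ofPowerSeries ℤ R (ModularCurve.dedekindEtaUnit.map (Int.castRingHom R)) *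
            HahnSeries.ofPowerSeries ℤ R
              (ModularCurve.dedekindEtaUnitInv.map (Int.castRingHom R))) := by
        rw [twL_delta, twL_deltaInv]
        ring
    _ = 1 := by rw [h1, h2, mul_one]

/-- The formal `q`-expansion of `Δ` as a unit of the ring of Laurent series. -/
def twL_deltaUnit : (LaurentSeries R)ˣ :=
  ⟨twL_delta R, twL_deltaInv R, twL_delta_mul_inv R,
    (mul_comm _ _).trans (twL_delta_mul_inv R)⟩

@[simp]
theorem twL_deltaUnit_val : ((twL_deltaUnit R : (LaurentSeries R)ˣ) : LaurentSeries R) =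
    twL_delta R := rfl

/-- The formal `Δ`-quotient `∏_{d ∣ N} Δ(q ^ d) ^ (r d)` as a unit. -/
def twL_quotU (N : ℕ) (r : ℕ → ℤ) : (LaurentSeries R)ˣ :=
  ∏ d ∈ N.divisors, (Units.map (twL_qE R d : LaurentSeries R →* LaurentSeries R)
    (twL_deltaUnit R)) ^ (r d)

/-- The formal `Δ`-quotient `∏_{d ∣ N} Δ(q ^ d) ^ (r d)`. -/
def twL_quot (N : ℕ) (r : ℕ → ℤ) : LaurentSeries R := (twL_quotU R N r : LaurentSeries R)

theorem twL_quot_def (N : ℕ) (r : ℕ → ℤ) :
    twL_quot R N r = ((twL_quotU R N r : (LaurentSeries R)ˣ) : LaurentSeries R) := rfl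

variable {R}

theorem twL_coeffMap_ofPowerSeries {S : Type*} [CommRing S] (φ : R →+* S) (P : PowerSeries R) :
    ModularCurve.coeffMap φ (HahnSeries.ofPowerSeries ℤ R P) =
      HahnSeries.ofPowerSeries ℤ S (P.map φ) := by
  ext k
  rw [ModularCurve.coeffMap_coeff]
  rcases lt_or_ge k 0 with hl | hl
  · rw [ModularCurve.ofPowerSeries_coeff_of_neg _ hl,
      ModularCurve.ofPowerSeries_coeff_of_neg _ hl, map_zero]
  · obtain ⟨n, rfl⟩ := Int.eq_ofNat_of_zero_le hl
    rw [HahnSeries.ofPowerSeries_apply_coeff, HahnSeries.ofPowerSeries_apply_coeff,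
      PowerSeries.coeff_map]

theorem twL_coeffMap_qExpand {S : Type*} [CommRing S] (φ : R →+* S) (d : ℕ) [NeZero d]
    (x : LaurentSeries R) :
    ModularCurve.coeffMap φ (ModularCurve.qExpand R d x) =
      ModularCurve.qExpand S d (ModularCurve.coeffMap φ x) := by
  ext k
  by_cases hk : (d : ℤ) ∣ k
  · obtain ⟨l, rfl⟩ := hk
    rw [ModularCurve.coeffMap_coeff, ModularCurve.qExpand_coeff_mul,
      ModularCurve.qExpand_coeff_mul, ModularCurve.coeffMap_coeff]
  · rw [ModularCurve.coeffMap_coeff, ModularCurve.qExpand_coeff_of_not_dvd d _ hk,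
      ModularCurve.qExpand_coeff_of_not_dvd d _ hk, map_zero]

theorem twL_coeffMap_qE {S : Type*} [CommRing S] (φ : R →+* S) (d : ℕ) (x : LaurentSeries R) :
    ModularCurve.coeffMap φ (twL_qE R d x) = twL_qE S d (ModularCurve.coeffMap φ x) := by
  rcases Nat.eq_zero_or_pos d with rfl | hd
  · rw [twL_qE_zero, twL_qE_zero]
    rfl
  · have : NeZero d := ⟨hd.ne'⟩
    rw [twL_qE_eq, twL_qE_eq, twL_coeffMap_qExpand]

theorem twL_coeffMap_delta {S : Type*} [CommRing S] (φ : R →+* S) :
    ModularCurve.coeffMap φ (twL_delta R) = twL_delta S := by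
  rw [twL_delta, twL_delta, map_mul, ModularCurve.coeffMap_single, map_one,
    twL_coeffMap_ofPowerSeries]
  congr 2
  ext n
  simp only [PowerSeries.coeff_map]
  simp

theorem twL_map_deltaUnit {S : Type*} [CommRing S] (φ : R →+* S) :
    Units.map (ModularCurve.coeffMap φ : LaurentSeries R →* LaurentSeries S)
      (twL_deltaUnit R) = twL_deltaUnit S :=
  Units.ext (twL_coeffMap_delta φ)

theorem twL_map_quotU {S : Type*} [CommRing S] (φ : R →+* S) (N : ℕ) (r : ℕ → ℤ) :
    Units.map (ModularCurve.coeffMap φ : LaurentSeries R →* LaurentSeries S)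
      (twL_quotU R N r) = twL_quotU S N r := by
  rw [twL_quotU, twL_quotU, map_prod]
  refine Finset.prod_congr rfl fun d _ => ?_
  rw [map_zpow]
  congr 1
  apply Units.ext
  show ModularCurve.coeffMap φ (twL_qE R d (twL_delta R)) = twL_qE S d (twL_delta S)
  rw [twL_coeffMap_qE, twL_coeffMap_delta]

/-- The formal `Δ`-quotients are compatible with every change of coefficients. -/
theorem twL_coeffMap_quot {S : Type*} [CommRing S] (φ : R →+* S) (N : ℕ) (r : ℕ → ℤ) :
    ModularCurve.coeffMap φ (twL_quot R N r) = twL_quot S N r := by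
  rw [twL_quot_def, twL_quot_def, ← twL_map_quotU φ]
  rfl

theorem twL_quot_ne_zero [Nontrivial R] (N : ℕ) (r : ℕ → ℤ) : twL_quot R N r ≠ 0 :=
  (twL_quotU R N r).ne_zero

end Quot

section QuotField

variable (K : Type*) [Field K]

/-- Over a field, the formal `Δ`-quotient is the product of the integer powers. -/
theorem twL_quot_eq_prod (N : ℕ) (r : ℕ → ℤ) :
    twL_quot K N r = ∏ d ∈ N.divisors, (twL_qE K d (twL_delta K)) ^ (r d) := by
  rw [twL_quot_def, twL_quotU, Units.coe_prod]
  refine Finset.prod_congr rfl fun d _ => ?_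
  rw [Units.val_zpow_eq_zpow_val]
  rfl

theorem twL_quot_eq_prod' (N : ℕ) (r : ℕ → ℤ) :
    twL_quot K N r =
      ∏ d ∈ N.divisors.attach,
        (@ModularCurve.qExpand K _ d.1 ⟨(Nat.pos_of_mem_divisors d.2).ne'⟩ (twL_delta K)) ^
          (r d.1) := by
  rw [twL_quot_eq_prod, ← Finset.prod_attach]
  refine Finset.prod_congr rfl fun d _ => ?_
  have : NeZero d.1 := ⟨(Nat.pos_of_mem_divisors d.2).ne'⟩
  rw [twL_qE_eq]

end QuotField

section QuotOrder

variable {R : Type*} [CommRing R] [IsDomain R]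

omit [IsDomain R] in
theorem twL_order_qExpand (d : ℕ) [NeZero d] (x : LaurentSeries R) :
    (ModularCurve.qExpand R d x).order = (d : ℤ) * x.order := by
  by_cases hx : x = 0
  · rw [hx, map_zero, HahnSeries.order_zero, mul_zero]
  · have hx' : ModularCurve.qExpand R d x ≠ 0 := fun h =>
      hx (ModularCurve.qExpand_injective d (h.trans (map_zero _).symm))
    have h1 : (ModularCurve.qExpand R d x).orderTop = ((d : ℤ) * x.order : ℤ) := by
      show (HahnSeries.embDomain _ x).orderTop = _
      rw [HahnSeries.orderTop_embDomain, HahnSeries.orderTop_of_ne_zero hx,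
        ← HahnSeries.order_of_ne hx]
      rfl
    rw [← HahnSeries.order_eq_orderTop_of_ne_zero hx'] at h1
    exact_mod_cast h1

omit [IsDomain R] in
theorem twL_leadingCoeff_qExpand (d : ℕ) [NeZero d] (x : LaurentSeries R) :
    (ModularCurve.qExpand R d x).leadingCoeff = x.leadingCoeff := by
  rw [HahnSeries.leadingCoeff_eq, HahnSeries.leadingCoeff_eq, twL_order_qExpand,
    ModularCurve.qExpand_coeff_mul]

omit [IsDomain R] in
theorem twL_order_qE (d : ℕ) (hd : d ≠ 0) (x : LaurentSeries R) :
    (twL_qE R d x).order = (d : ℤ) * x.order := by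
  have : NeZero d := ⟨hd⟩
  rw [twL_qE_eq, twL_order_qExpand]

omit [IsDomain R] in
theorem twL_leadingCoeff_qE (d : ℕ) (x : LaurentSeries R) :
    (twL_qE R d x).leadingCoeff = x.leadingCoeff := by
  rcases Nat.eq_zero_or_pos d with rfl | hd
  · rw [twL_qE_zero]
    rfl
  · have : NeZero d := ⟨hd.ne'⟩
    rw [twL_qE_eq, twL_leadingCoeff_qExpand]

theorem twL_ofPowerSeries_order_leadingCoeff {P : PowerSeries R}
    (hP : PowerSeries.constantCoeff P = 1) :
    (HahnSeries.ofPowerSeries ℤ R P).order = 0 ∧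
      (HahnSeries.ofPowerSeries ℤ R P).leadingCoeff = 1 := by
  have h0 : (HahnSeries.ofPowerSeries ℤ R P).coeff 0 = 1 := by
    have := HahnSeries.ofPowerSeries_apply_coeff (Γ := ℤ) P 0
    rw [Nat.cast_zero] at this
    rw [this, PowerSeries.coeff_zero_eq_constantCoeff_apply, hP]
  have hne : HahnSeries.ofPowerSeries ℤ R P ≠ 0 := by
    intro h
    rw [h, HahnSeries.coeff_zero] at h0
    exact zero_ne_one h0
  have hord : (HahnSeries.ofPowerSeries ℤ R P).order = 0 := by
    apply le_antisymm
    · exact HahnSeries.order_le_of_coeff_ne_zero (by rw [h0]; exact one_ne_zero)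
    · by_contra hlt
      rw [not_le] at hlt
      have := ModularCurve.ofPowerSeries_coeff_of_neg P hlt
      exact HahnSeries.coeff_order_eq_zero.not.mpr hne this
  exact ⟨hord, by rw [HahnSeries.leadingCoeff_eq, hord, h0]⟩

theorem twL_delta_order : (twL_delta R).order = 1 := by
  have h := twL_ofPowerSeries_order_leadingCoeff (R := R)
    (P := ModularCurve.dedekindEtaUnit.map (Int.castRingHom R)) (by
      rw [← PowerSeries.coeff_zero_eq_constantCoeff_apply, PowerSeries.coeff_map,
        PowerSeries.coeff_zero_eq_constantCoeff_apply, ModularCurve.constantCoeff_dedekindEtaUnit,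
        map_one])
  rw [twL_delta, HahnSeries.order_mul_of_ne_zero, HahnSeries.order_single one_ne_zero, h.1,
    add_zero]
  rw [HahnSeries.leadingCoeff_of_single, h.2, one_mul]
  exact one_ne_zero

theorem twL_delta_leadingCoeff : (twL_delta R).leadingCoeff = 1 := by
  have h := twL_ofPowerSeries_order_leadingCoeff (R := R)
    (P := ModularCurve.dedekindEtaUnit.map (Int.castRingHom R)) (by
      rw [← PowerSeries.coeff_zero_eq_constantCoeff_apply, PowerSeries.coeff_map,
        PowerSeries.coeff_zero_eq_constantCoeff_apply, ModularCurve.constantCoeff_dedekindEtaUnit,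
        map_one])
  rw [twL_delta, HahnSeries.leadingCoeff_mul, HahnSeries.leadingCoeff_of_single, h.2, one_mul]

/-- The order of a unit of the ring of Laurent series, as a group homomorphism. -/
def twL_ordHom : (LaurentSeries R)ˣ →* Multiplicative ℤ where
  toFun u := Multiplicative.ofAdd (u : LaurentSeries R).order
  map_one' := by
    rw [Units.val_one, HahnSeries.order_one]
    rfl
  map_mul' u v := by
    rw [Units.val_mul, HahnSeries.order_mul u.ne_zero v.ne_zero]
    rfl

/-- The leading coefficient of a unit of the ring of Laurent series, as a group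
homomorphism. -/
def twL_lcHom : (LaurentSeries R)ˣ →* Rˣ :=
  Units.map
    { toFun := fun x : LaurentSeries R => x.leadingCoeff
      map_one' := HahnSeries.leadingCoeff_one
      map_mul' := fun x y => HahnSeries.leadingCoeff_mul x y }

theorem twL_lcHom_val (u : (LaurentSeries R)ˣ) :
    ((twL_lcHom u : Rˣ) : R) = (u : LaurentSeries R).leadingCoeff := rfl

theorem twL_ordHom_apply (u : (LaurentSeries R)ˣ) :
    Multiplicative.toAdd (twL_ordHom u) = (u : LaurentSeries R).order := rfl

/-- The order of the formal `Δ`-quotient. -/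
theorem twL_quot_order (N : ℕ) (r : ℕ → ℤ) :
    (twL_quot R N r).order = ∑ d ∈ N.divisors, r d * (d : ℤ) := by
  rw [twL_quot_def, ← twL_ordHom_apply (R := R), twL_quotU, map_prod, toAdd_prod]
  refine Finset.sum_congr rfl fun d hd => ?_
  rw [map_zpow, toAdd_zpow, twL_ordHom_apply, smul_eq_mul]
  congr 1
  show (twL_qE R d (twL_delta R)).order = d
  rw [twL_order_qE d (Nat.pos_of_mem_divisors hd).ne', twL_delta_order, mul_one]

/-- The leading coefficient of the formal `Δ`-quotient is `1`. -/
theorem twL_quot_leadingCoeff (N : ℕ) (r : ℕ → ℤ) :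
    (twL_quot R N r).leadingCoeff = 1 := by
  rw [twL_quot_def, ← twL_lcHom_val (R := R), twL_quotU, map_prod]
  have : ∀ d ∈ N.divisors, twL_lcHom ((Units.map (twL_qE R d : LaurentSeries R →* LaurentSeries R)
      (twL_deltaUnit R)) ^ (r d)) = 1 := by
    intro d _
    rw [map_zpow]
    have h1 : twL_lcHom (Units.map (twL_qE R d : LaurentSeries R →* LaurentSeries R)
        (twL_deltaUnit R)) = 1 := by
      apply Units.ext
      rw [twL_lcHom_val]
      show (twL_qE R d (twL_delta R)).leadingCoeff = 1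
      rw [twL_leadingCoeff_qE, twL_delta_leadingCoeff]
    rw [h1, one_zpow]
  rw [Finset.prod_congr rfl this, Finset.prod_const_one]
  rfl

theorem twL_quot_coeff_order (N : ℕ) (r : ℕ → ℤ) :
    (twL_quot R N r).coeff (∑ d ∈ N.divisors, r d * (d : ℤ)) = 1 := by
  rw [← twL_quot_order (R := R), ← HahnSeries.leadingCoeff_eq, twL_quot_leadingCoeff]

end QuotOrder

end Fermat.Agent.S28
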