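/-
S28, package [MEM] (owner: helper14), part 3: products of modular units.

* `umem_deltaQ_ne_zero`, `umem_unit_mul_deltaQ`
* `umem_prod_zpow_mem` : for exponents `r d` (`d ∣ N`) with `∑ r d = 0`, the `Δ`-quotient
    `∏_{d ∣ N} Δ(q^d) ^ (r d)` lies in `modularFunctionFieldFull N`
* `umem_unit_order`, `umem_unit_ne_zero`
-/
import Mathlib
import Fermat.Agent.S28.UnitMem

set_option autoImplicit false

noncomputable section

namespace Fermat.Agent.S28

open ModularCurve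

theorem umem_deltaQ_ne_zero : umem_deltaQ ≠ 0 := by
  intro h
  have h1 := umem_coeffEmb_deltaQ
  rw [h, map_zero] at h1
  have h2 := umem_deltaC_mul_inv
  rw [← h1, zero_mul] at h2
  exact zero_ne_one h2

theorem umem_qExpand_deltaQ_ne_zero (d : ℕ) [NeZero d] : qExpand ℚ d umem_deltaQ ≠ 0 := by
  intro h
  exact umem_deltaQ_ne_zero (qExpand_injective (R := ℚ) d (by rw [h, map_zero]))

theorem umem_unit_ne_zero (d : ℕ) [NeZero d] : umem_unit d ≠ 0 :=
  mul_ne_zero (umem_qExpand_deltaQ_ne_zero d) (inv_ne_zero umem_deltaQ_ne_zero)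

theorem umem_unit_mul_deltaQ (d : ℕ) [NeZero d] :
    umem_unit d * umem_deltaQ = qExpand ℚ d umem_deltaQ := by
  rw [umem_unit, mul_assoc, inv_mul_cancel₀ umem_deltaQ_ne_zero, mul_one]

theorem umem_unit_one : umem_unit 1 = 1 := by
  rw [umem_unit, qExpand_one_apply, mul_inv_cancel₀ umem_deltaQ_ne_zero]

theorem umem_prod_zpow_const {ι : Type*} (s : Finset ι) (r : ι → ℤ) {a : LaurentSeries ℚ}
    (ha : a ≠ 0) : ∏ i ∈ s, a ^ r i = a ^ (∑ i ∈ s, r i) := by
  classical
  induction s using Finset.induction_on with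
  | empty => simp
  | insert i s hi ih =>
    rw [Finset.prod_insert hi, Finset.sum_insert hi, ih, zpow_add₀ ha]

/-- **[MEM], product form.** For exponents `r d` (`d ∣ N`) with `∑_{d ∣ N} r d = 0`, the
`Δ`-quotient `∏_{d ∣ N} Δ(q^d) ^ (r d)` lies in `modularFunctionFieldFull N`.  The family `D`
is any family of series with `D d = Δ(q^d)` for the divisors `d` of `N`. -/
theorem umem_prod_zpow_mem (N : ℕ) [NeZero N] (r : ℕ → ℤ) (hr : ∑ d ∈ N.divisors, r d = 0)
    (D : ℕ → LaurentSeries ℚ)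
    (hD : ∀ (d : ℕ) [NeZero d], d ∣ N → D d = qExpand ℚ d umem_deltaQ) :
    ∏ d ∈ N.divisors, D d ^ r d ∈ modularFunctionFieldFull N := by
  classical
  have h1 : ∀ d ∈ N.divisors, ∃ u : LaurentSeries ℚ, u ∈ modularFunctionFieldFull N ∧
      D d = u * umem_deltaQ := by
    intro d hd
    have : NeZero d := ⟨(Nat.pos_of_mem_divisors hd).ne'⟩
    refine ⟨umem_unit d, umem_unit_mem N d (Nat.dvd_of_mem_divisors hd), ?_⟩
    rw [hD d (Nat.dvd_of_mem_divisors hd), umem_unit_mul_deltaQ]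
  have h2 : ∏ d ∈ N.divisors, D d ^ r d =
      ∏ d ∈ N.divisors, (D d * umem_deltaQ⁻¹) ^ r d := by
    have h3 : ∏ d ∈ N.divisors, (D d * umem_deltaQ⁻¹) ^ r d =
        (∏ d ∈ N.divisors, D d ^ r d) * ∏ d ∈ N.divisors, (umem_deltaQ⁻¹) ^ r d := by
      rw [← Finset.prod_mul_distrib]
      exact Finset.prod_congr rfl fun d _ => mul_zpow _ _ _
    rw [h3, umem_prod_zpow_const _ _ (inv_ne_zero umem_deltaQ_ne_zero), hr, zpow_zero, mul_one]
  rw [h2]
  refine prod_mem fun d hd => zpow_mem ?_ _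
  obtain ⟨u, hu, hDu⟩ := h1 d hd
  rw [hDu, mul_assoc, mul_inv_cancel₀ umem_deltaQ_ne_zero, mul_one]
  exact hu

/-- The same for a series given with integer coefficients. -/
theorem umem_coeffMap_mem_of_eq_prod (N : ℕ) [NeZero N] (r : ℕ → ℤ)
    (hr : ∑ d ∈ N.divisors, r d = 0) (D : ℕ → LaurentSeries ℚ)
    (hD : ∀ (d : ℕ) [NeZero d], d ∣ N → D d = qExpand ℚ d umem_deltaQ)
    (g : LaurentSeries ℤ)
    (hg : coeffMap (Int.castRingHom ℚ) g = ∏ d ∈ N.divisors, D d ^ r d) :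
    coeffMap (Int.castRingHom ℚ) g ∈ modularFunctionFieldFull N := by
  rw [hg]
  exact umem_prod_zpow_mem N r hr D hD

end Fermat.Agent.S28

end
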