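import Mathlib

/-!
# S28, package [TR], part 0: definitions

* `tr_R N`    : the subring of `ℂ` of numbers integral over `ℤ[1/N]`;
* `tr_pt d z` : the point `d z` of the upper half-plane;
* `tr_quot N r` : the `Δ`-quotient `∏_{d ∣ N} Δ(d z) ^ (r d)`.
-/

set_option autoImplicit false

open UpperHalfPlane
open scoped MatrixGroups Manifold

noncomputable section

namespace Fermat.Agent.S28

/-- Complex numbers integral over `ℤ[1/N]`. -/
def tr_R (N : ℕ) : Subring ℂ where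
  carrier := {x | ∃ k : ℕ, IsIntegral ℤ ((N : ℂ) ^ k * x)}
  mul_mem' := by
    rintro x y ⟨k, hk⟩ ⟨l, hl⟩
    refine ⟨k + l, ?_⟩
    have : (N : ℂ) ^ (k + l) * (x * y) = ((N : ℂ) ^ k * x) * ((N : ℂ) ^ l * y) := by
      rw [pow_add]; ring
    rw [this]
    exact hk.mul hl
  one_mem' := ⟨0, by simpa using isIntegral_one⟩
  add_mem' := by
    rintro x y ⟨k, hk⟩ ⟨l, hl⟩
    refine ⟨k + l, ?_⟩
    have hN : ∀ m : ℕ, IsIntegral ℤ ((N : ℂ) ^ m) := fun m => by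
      have h := (isIntegral_algebraMap (R := ℤ) (A := ℂ) (x := (N : ℤ))).pow m
      simpa using h
    have : (N : ℂ) ^ (k + l) * (x + y)
        = (N : ℂ) ^ l * ((N : ℂ) ^ k * x) + (N : ℂ) ^ k * ((N : ℂ) ^ l * y) := by
      rw [pow_add]; ring
    rw [this]
    exact ((hN l).mul hk).add ((hN k).mul hl)
  zero_mem' := ⟨0, by simpa using isIntegral_zero⟩
  neg_mem' := by
    rintro x ⟨k, hk⟩
    refine ⟨k, ?_⟩
    rw [mul_neg]
    exact hk.neg

theorem tr_R_mem_iff {N : ℕ} {x : ℂ} :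
    x ∈ tr_R N ↔ ∃ k : ℕ, IsIntegral ℤ ((N : ℂ) ^ k * x) := Iff.rfl

theorem tr_R_of_isIntegral (N : ℕ) {x : ℂ} (h : IsIntegral ℤ x) : x ∈ tr_R N :=
  ⟨0, by simpa using h⟩

/-- `1 / D ∈ ℤ[1/N]` for `D ∣ N`. -/
theorem tr_R_inv_natCast (N : ℕ) {D : ℕ} (hD : D ∣ N) : ((D : ℂ))⁻¹ ∈ tr_R N := by
  rcases Nat.eq_zero_or_pos D with h0 | hpos
  · subst h0
    simp
  · obtain ⟨M, rfl⟩ := hD
    refine ⟨1, ?_⟩
    have hD0 : (D : ℂ) ≠ 0 := Nat.cast_ne_zero.mpr hpos.ne'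
    have : ((D * M : ℕ) : ℂ) ^ 1 * ((D : ℂ))⁻¹ = ((M : ℤ) : ℂ) := by
      push_cast
      field_simp
    rw [this]
    exact isIntegral_algebraMap (R := ℤ) (A := ℂ) (x := (M : ℤ))

/-- Roots of unity are integral. -/
theorem tr_isIntegral_of_pow_eq_one {ζ : ℂ} {n : ℕ} (hn : 0 < n) (h : ζ ^ n = 1) :
    IsIntegral ℤ ζ :=
  ⟨Polynomial.X ^ n - 1, Polynomial.monic_X_pow_sub_C (1 : ℤ) hn.ne', by simp [h]⟩

theorem tr_R_of_pow_eq_one (N : ℕ) {ζ : ℂ} {n : ℕ} (hn : 0 < n) (h : ζ ^ n = 1) :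
    ζ ∈ tr_R N :=
  tr_R_of_isIntegral N (tr_isIntegral_of_pow_eq_one hn h)

theorem tr_R_inv_of_pow_eq_one (N : ℕ) {ζ : ℂ} {n : ℕ} (hn : 0 < n) (h : ζ ^ n = 1) :
    ζ⁻¹ ∈ tr_R N :=
  tr_R_of_pow_eq_one N hn (by rw [inv_pow, h, inv_one])

/-- The point `d z` of the upper half-plane (junk for `d = 0`). -/
def tr_pt (d : ℕ) (z : ℍ) : ℍ := ofComplex ((d : ℂ) * (z : ℂ))

theorem tr_pt_im_pos {d : ℕ} (hd : 0 < d) (z : ℍ) : 0 < ((d : ℂ) * (z : ℂ)).im := by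
  have : ((d : ℂ) * (z : ℂ)).im = (d : ℝ) * z.im := by
    simp [Complex.mul_im]
  rw [this]
  exact mul_pos (Nat.cast_pos.mpr hd) z.im_pos

@[simp] theorem tr_pt_coe {d : ℕ} (hd : 0 < d) (z : ℍ) :
    ((tr_pt d z : ℍ) : ℂ) = (d : ℂ) * (z : ℂ) := by
  unfold tr_pt
  rw [ofComplex_apply_of_im_pos (tr_pt_im_pos hd z)]

@[simp] theorem tr_pt_one (z : ℍ) : tr_pt 1 z = z := by
  apply UpperHalfPlane.ext
  rw [tr_pt_coe one_pos]
  simp

theorem tr_pt_mul {d e : ℕ} (hd : 0 < d) (he : 0 < e) (z : ℍ) :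
    tr_pt d (tr_pt e z) = tr_pt (d * e) z := by
  apply UpperHalfPlane.ext
  rw [tr_pt_coe hd, tr_pt_coe he, tr_pt_coe (Nat.mul_pos hd he)]
  push_cast
  ring

theorem tr_pt_im {d : ℕ} (hd : 0 < d) (z : ℍ) : (tr_pt d z).im = (d : ℝ) * z.im := by
  have h := congrArg Complex.im (tr_pt_coe hd z)
  simpa [Complex.mul_im] using h

local notation "Δ" => ModularForm.discriminant

/-- `z ↦ f (d z)` is holomorphic if `f` is. -/
theorem tr_mdiff_comp_pt {f : ℍ → ℂ} (hf : MDiff f) {d : ℕ} (hd : 0 < d) :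
    MDiff (fun z => f (tr_pt d z)) := by
  rw [UpperHalfPlane.mdifferentiable_iff] at hf ⊢
  have hmaps : Set.MapsTo (fun w : ℂ => (d : ℂ) * w) {w : ℂ | 0 < w.im} {w : ℂ | 0 < w.im} := by
    intro w hw
    have : ((d : ℂ) * w).im = (d : ℝ) * w.im := by simp [Complex.mul_im]
    simp only [Set.mem_ofPred_eq] at hw ⊢
    rw [this]
    exact mul_pos (Nat.cast_pos.mpr hd) hw
  have h1 : DifferentiableOn ℂ ((f ∘ ofComplex) ∘ fun w : ℂ => (d : ℂ) * w) {w : ℂ | 0 < w.im} :=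
    hf.comp ((differentiable_id.const_mul (d : ℂ)).differentiableOn) hmaps
  refine h1.congr ?_
  intro w hw
  simp only [Function.comp_apply]
  congr 1
  apply UpperHalfPlane.ext
  rw [tr_pt_coe hd, ofComplex_apply_of_im_pos hw, ofComplex_apply_of_im_pos (hmaps hw)]

/-- The `Δ`-quotient `∏_{d ∣ N} Δ(d z) ^ (r d)`. -/
def tr_quot (N : ℕ) (r : ℕ → ℤ) (z : ℍ) : ℂ :=
  ∏ d ∈ N.divisors, (Δ (tr_pt d z)) ^ (r d)

theorem tr_quot_def (N : ℕ) (r : ℕ → ℤ) (z : ℍ) :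
    tr_quot N r z = ∏ d ∈ N.divisors, (Δ (tr_pt d z)) ^ (r d) := rfl

theorem tr_quot_ne_zero (N : ℕ) (r : ℕ → ℤ) (z : ℍ) : tr_quot N r z ≠ 0 := by
  unfold tr_quot
  rw [Finset.prod_ne_zero_iff]
  intro d _
  exact zpow_ne_zero _ (ModularForm.discriminant_ne_zero _)

theorem tr_quot_neg (N : ℕ) (r : ℕ → ℤ) (z : ℍ) :
    tr_quot N (fun d => - r d) z = (tr_quot N r z)⁻¹ := by
  unfold tr_quot
  rw [← Finset.prod_inv_distrib]
  exact Finset.prod_congr rfl fun d _ => zpow_neg _ _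

theorem tr_quot_add (N : ℕ) (r s : ℕ → ℤ) (z : ℍ) :
    tr_quot N (fun d => r d + s d) z = tr_quot N r z * tr_quot N s z := by
  unfold tr_quot
  rw [← Finset.prod_mul_distrib]
  exact Finset.prod_congr rfl fun d _ => zpow_add₀ (ModularForm.discriminant_ne_zero _) _ _

theorem tr_mdiff_discriminant : MDiff (fun z : ℍ => Δ z) :=
  ModularFormClass.holo CuspForm.discriminant

theorem tr_mdiff_zpow {f : ℍ → ℂ} (hf : MDiff f) (hne : ∀ z, f z ≠ 0) (n : ℤ) :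
    MDiff (fun z => f z ^ n) := by
  rw [UpperHalfPlane.mdifferentiable_iff] at hf ⊢
  intro w hw
  have h1 := hf w hw
  have h2 : DifferentiableAt ℂ (fun x : ℂ => x ^ n) ((f ∘ ofComplex) w) :=
    differentiableAt_zpow.mpr (Or.inl (hne _))
  exact (h2.comp_differentiableWithinAt w h1)

theorem tr_mdiff_prod {ι : Type*} (s : Finset ι) {F : ι → ℍ → ℂ} (hF : ∀ i ∈ s, MDiff (F i)) :
    MDiff (fun z => ∏ i ∈ s, F i z) := by
  classical
  induction s using Finset.induction_on with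
  | empty =>
    simp only [Finset.prod_empty]
    exact mdifferentiable_const
  | insert a s ha ih =>
    have h1 : MDiff (F a) := hF a (Finset.mem_insert_self a s)
    have h2 := ih fun i hi => hF i (Finset.mem_insert_of_mem hi)
    have : (fun z => ∏ i ∈ insert a s, F i z) = F a * fun z => ∏ i ∈ s, F i z := by
      funext z
      rw [Finset.prod_insert ha]
      rfl
    rw [this]
    exact h1.mul h2

theorem tr_quot_mdiff (N : ℕ) (r : ℕ → ℤ) : MDiff (tr_quot N r) := by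
  unfold tr_quot
  refine tr_mdiff_prod _ ?_
  intro d hd
  have hd0 : 0 < d := Nat.pos_of_mem_divisors hd
  exact tr_mdiff_zpow (tr_mdiff_comp_pt tr_mdiff_discriminant hd0)
    (fun z => ModularForm.discriminant_ne_zero _) (r d)

end Fermat.Agent.S28
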