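import Mathlib
import Fermat.Prelude.Def_ModularCurve_X0
import Fermat.Prelude.Def_ModularCurve_LaurentCoeff
import Fermat.Prelude.Def_ModularCurve_X0ModL
import Fermat.Prelude.Def_GaloisRep_Flat
import Fermat.Agent.S28.TrDefs

/-!
# S28 [CHI], part 1: coefficient rings and coefficient descent

* `s28c_rat_mem_ratLocalizedAt`: a rational number in `tr_R N` lies in `ℤ_(ℓ)` for `ℓ ∤ N`.
* `s28c_coeffRing R`: Laurent series all of whose coefficients lie in the subring `R`.
* `s28c_coeff_aeval_top`, `s28c_coeff_aeval_lt`: the lowest coefficients of `P(J)` when `J` is a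
  Laurent series with leading term `q ^ (-D)`.
* `s28c_descent_mem`: if `P(J)` has coefficients in `R` (and `J` has), then `P ∈ R[X]`.
* `s28c_lead_of`, `s28c_prod_lead`: order and leading coefficient of products.
-/

set_option autoImplicit false

open Polynomial

noncomputable section

namespace Fermat.Agent.S28

/-! ### Rational numbers integral over `ℤ[1/N]` -/

/-- A rational number which is integral over `ℤ[1/N]` is in `ℤ[1/N]`. -/
theorem s28c_rat_mem {N : ℕ} {r : ℚ} (h : (r : ℂ) ∈ tr_R N) :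
    ∃ (a : ℕ) (t : ℤ), (N : ℚ) ^ a * r = t := by
  obtain ⟨a, ha⟩ := h
  refine ⟨a, ?_⟩
  have h1 : IsIntegral ℤ (algebraMap ℚ ℂ ((N : ℚ) ^ a * r)) := by
    have : algebraMap ℚ ℂ ((N : ℚ) ^ a * r) = (N : ℂ) ^ a * (r : ℂ) := by
      simp
    rw [this]
    exact ha
  have h2 : IsIntegral ℤ ((N : ℚ) ^ a * r) :=
    (isIntegral_algebraMap_iff (algebraMap ℚ ℂ).injective).1 h1
  obtain ⟨t, ht⟩ := IsIntegrallyClosed.isIntegral_iff.1 h2
  exact ⟨t, by rw [← ht]; simp⟩

/-- For a prime `ℓ ∤ N`, a rational number integral over `ℤ[1/N]` is `ℓ`-integral. -/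
theorem s28c_rat_mem_ratLocalizedAt {N ℓ : ℕ} (hℓ : ℓ.Prime) (hℓN : ¬ ℓ ∣ N) {r : ℚ}
    (h : (r : ℂ) ∈ tr_R N) : r ∈ GaloisRep.ratLocalizedAt ℓ := by
  obtain ⟨a, t, hat⟩ := s28c_rat_mem h
  have hN0 : N ≠ 0 := fun h0 => hℓN (h0 ▸ dvd_zero ℓ)
  have hr : r = (t : ℚ) / ((N ^ a : ℕ) : ℚ) := by
    rw [eq_div_iff (by exact_mod_cast pow_ne_zero a hN0)]
    push_cast
    rw [mul_comm]
    exact hat
  show r.den.Coprime ℓ
  have hden : r.den ∣ N ^ a := by
    rw [hr]
    have := Rat.den_dvd t ((N ^ a : ℕ) : ℤ)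
    have h2 : ((t : ℚ) / ((N ^ a : ℕ) : ℚ)) = Rat.divInt t ((N ^ a : ℕ) : ℤ) := by
      rw [Rat.divInt_eq_div]
      push_cast
      rfl
    rw [h2]
    exact_mod_cast this
  have hcop : (N ^ a).Coprime ℓ :=
    Nat.Coprime.pow_left a ((Nat.coprime_comm.1 ((Nat.Prime.coprime_iff_not_dvd hℓ).2 hℓN)))
  exact Nat.Coprime.coprime_dvd_left hden hcop

/-! ### Series with coefficients in a subring -/

section CoeffRing

variable {S : Type*} [CommRing S]

theorem s28c_algebraMap_eq_C (c : S) :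
    algebraMap S (LaurentSeries S) c = HahnSeries.C c := by
  have h1 : algebraMap S (PowerSeries S) c = PowerSeries.C c := by
    simp
  rw [HahnSeries.algebraMap_apply', h1, HahnSeries.ofPowerSeries_C]

/-- The Laurent series all of whose coefficients lie in the subring `R`. -/
def s28c_coeffRing (R : Subring S) : Subring (LaurentSeries S) where
  carrier := {s | ∀ k, s.coeff k ∈ R}
  mul_mem' := by
    intro s t hs ht k
    rw [HahnSeries.coeff_mul]
    exact Subring.sum_mem _ fun ij _ => R.mul_mem (hs _) (ht _)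
  one_mem' := by
    intro k
    rw [HahnSeries.coeff_one]
    split_ifs
    · exact R.one_mem
    · exact R.zero_mem
  add_mem' := fun {s t} hs ht k => by
    rw [HahnSeries.coeff_add]
    exact R.add_mem (hs k) (ht k)
  zero_mem' := fun k => by
    rw [HahnSeries.coeff_zero]
    exact R.zero_mem
  neg_mem' := fun {s} hs k => by
    rw [HahnSeries.coeff_neg]
    exact R.neg_mem (hs k)

theorem s28c_mem_coeffRing {R : Subring S} {s : LaurentSeries S} :
    s ∈ s28c_coeffRing R ↔ ∀ k, s.coeff k ∈ R := Iff.rfl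

theorem s28c_single_mem (R : Subring S) (a : ℤ) {c : S} (hc : c ∈ R) :
    HahnSeries.single a c ∈ s28c_coeffRing R := by
  intro k
  rw [HahnSeries.coeff_single]
  split_ifs
  · exact hc
  · exact R.zero_mem

theorem s28c_C_mem (R : Subring S) {c : S} (hc : c ∈ R) :
    (HahnSeries.C c : LaurentSeries S) ∈ s28c_coeffRing R :=
  s28c_single_mem R 0 hc

theorem s28c_ofPowerSeries_mem (R : Subring S) {P : PowerSeries S}
    (hP : ∀ n, PowerSeries.coeff n P ∈ R) :
    HahnSeries.ofPowerSeries ℤ S P ∈ s28c_coeffRing R := by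
  intro k
  rcases lt_or_ge k 0 with hk | hk
  · rw [ModularCurve.ofPowerSeries_coeff_of_neg _ hk]
    exact R.zero_mem
  · obtain ⟨n, rfl⟩ := Int.eq_ofNat_of_zero_le hk
    rw [HahnSeries.ofPowerSeries_apply_coeff]
    exact hP n

theorem s28c_qExpand_mem (R : Subring S) (N : ℕ) [NeZero N] {s : LaurentSeries S}
    (hs : s ∈ s28c_coeffRing R) : ModularCurve.qExpand S N s ∈ s28c_coeffRing R := by
  intro k
  by_cases hk : (N : ℤ) ∣ k
  · obtain ⟨l, rfl⟩ := hk
    rw [ModularCurve.qExpand_coeff_mul]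
    exact hs l
  · rw [ModularCurve.qExpand_coeff_of_not_dvd N _ hk]
    exact R.zero_mem

theorem s28c_coeffMap_mem {T : Type*} [CommRing T] (φ : T →+* S) (R : Subring S)
    (hφ : ∀ t, φ t ∈ R) (s : LaurentSeries T) :
    ModularCurve.coeffMap φ s ∈ s28c_coeffRing R := by
  intro k
  rw [ModularCurve.coeffMap_coeff]
  exact hφ _

theorem s28c_jqModC_mem (R : Subring S) : ModularCurve.jqModC S ∈ s28c_coeffRing R := by
  rw [← ModularCurve.coeffMap_jqModC (Int.castRingHom S)]
  exact s28c_coeffMap_mem _ R (fun t => by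
    rw [eq_intCast]
    exact intCast_mem R t) _

/-! ### Polynomials in a Laurent series with a pole of order `D` -/

/-- `P(J)` as a finite sum. -/
theorem s28c_aeval_eq_sum (J : LaurentSeries S) (P : S[X]) :
    Polynomial.aeval J P = ∑ i ∈ Finset.range (P.natDegree + 1),
      HahnSeries.C (P.coeff i) * J ^ i := by
  rw [Polynomial.aeval_eq_sum_range]
  refine Finset.sum_congr rfl fun i _ => ?_
  rw [Algebra.smul_def, s28c_algebraMap_eq_C]

/-- Coefficients of `P(J)` as a finite sum. -/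
theorem s28c_coeff_aeval (J : LaurentSeries S) (P : S[X]) (k : ℤ) :
    (Polynomial.aeval J P).coeff k = ∑ i ∈ Finset.range (P.natDegree + 1),
      P.coeff i * (J ^ i).coeff k := by
  rw [s28c_aeval_eq_sum, HahnSeries.coeff_sum]
  refine Finset.sum_congr rfl fun i _ => ?_
  rw [HahnSeries.C_apply, HahnSeries.coeff_single_mul, sub_zero]

variable (J : LaurentSeries S) (D : ℕ)

/-- The coefficient of `q ^ (-D n)` in `P(J)` for `n = natDegree P`. -/
theorem s28c_coeff_aeval_top
    (hJ1 : ∀ n : ℕ, (J ^ n).coeff (-((D : ℤ) * n)) = 1)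
    (hJ0 : ∀ (n : ℕ) (k : ℤ), k < -((D : ℤ) * n) → (J ^ n).coeff k = 0) (hD : 0 < D)
    (P : S[X]) :
    (Polynomial.aeval J P).coeff (-((D : ℤ) * P.natDegree)) = P.leadingCoeff := by
  rw [s28c_coeff_aeval, Finset.sum_range_succ, hJ1, mul_one]
  rw [Finset.sum_eq_zero, zero_add]
  · rfl
  · intro i hi
    rw [Finset.mem_range] at hi
    rw [hJ0 i, mul_zero]
    have hD' : (0 : ℤ) < D := by exact_mod_cast hD
    have hi' : (i : ℤ) < P.natDegree := by exact_mod_cast hi
    nlinarith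

/-- The coefficients of `P(J)` below `q ^ (-D n)` vanish when `natDegree P ≤ n`. -/
theorem s28c_coeff_aeval_lt
    (hJ0 : ∀ (n : ℕ) (k : ℤ), k < -((D : ℤ) * n) → (J ^ n).coeff k = 0)
    (P : S[X]) {n : ℕ} (hn : P.natDegree ≤ n) {k : ℤ} (hk : k < -((D : ℤ) * n)) :
    (Polynomial.aeval J P).coeff k = 0 := by
  rw [s28c_coeff_aeval]
  refine Finset.sum_eq_zero fun i hi => ?_
  rw [Finset.mem_range] at hi
  rw [hJ0 i, mul_zero]
  have hi' : (i : ℤ) ≤ n := by exact_mod_cast (Nat.lt_succ_iff.1 hi).trans hn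
  have hD' : (0 : ℤ) ≤ D := by exact_mod_cast Nat.zero_le D
  nlinarith

/-- If `P(J)` has no coefficients below `q ^ (-D n)`, then `natDegree P ≤ n`. -/
theorem s28c_natDegree_le_of_coeff
    (hJ1 : ∀ n : ℕ, (J ^ n).coeff (-((D : ℤ) * n)) = 1)
    (hJ0 : ∀ (n : ℕ) (k : ℤ), k < -((D : ℤ) * n) → (J ^ n).coeff k = 0) (hD : 0 < D)
    (P : S[X]) {n : ℕ} (h : ∀ k : ℤ, k < -((D : ℤ) * n) → (Polynomial.aeval J P).coeff k = 0) :
    P.natDegree ≤ n := by
  by_contra hlt
  rw [not_le] at hlt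
  have h1 := s28c_coeff_aeval_top J D hJ1 hJ0 hD P
  have hD' : (0 : ℤ) < D := by exact_mod_cast hD
  have hlt' : (n : ℤ) < P.natDegree := by exact_mod_cast hlt
  rw [h _ (by nlinarith)] at h1
  have hP : P ≠ 0 := by
    rintro rfl
    simp at hlt
  exact Polynomial.leadingCoeff_ne_zero.2 hP h1.symm

/-- **Coefficient descent.** If `J` and `P(J)` have coefficients in the subring `R`, and `J` has
leading term `q ^ (-D)`, then `P` has coefficients in `R`. -/
theorem s28c_descent_mem (R : Subring S)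
    (hJ1 : ∀ n : ℕ, (J ^ n).coeff (-((D : ℤ) * n)) = 1)
    (hJ0 : ∀ (n : ℕ) (k : ℤ), k < -((D : ℤ) * n) → (J ^ n).coeff k = 0) (hD : 0 < D)
    (hJR : J ∈ s28c_coeffRing R) (P : S[X]) (h : Polynomial.aeval J P ∈ s28c_coeffRing R) :
    ∀ i, P.coeff i ∈ R := by
  induction' hn : P.natDegree using Nat.strong_induction_on with n ih generalizing P
  have hlc : P.leadingCoeff ∈ R := by
    rw [← s28c_coeff_aeval_top J D hJ1 hJ0 hD P]
    exact h _
  have hE : Polynomial.aeval J P.eraseLead ∈ s28c_coeffRing R := by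
    have e : P.eraseLead = P - C P.leadingCoeff * X ^ P.natDegree := by
      rw [eq_sub_iff_add_eq]
      exact Polynomial.eraseLead_add_C_mul_X_pow P
    rw [e, map_sub, map_mul, aeval_C, map_pow, aeval_X, s28c_algebraMap_eq_C]
    exact Subring.sub_mem _ h (Subring.mul_mem _ (s28c_C_mem R hlc) (Subring.pow_mem _ hJR _))
  intro i
  by_cases hi : i = P.natDegree
  · rw [hi]
    exact hlc
  · rw [← Polynomial.eraseLead_coeff_of_ne i hi]
    rcases Polynomial.eraseLead_natDegree_lt_or_eraseLead_eq_zero P with h1 | h1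
    · exact ih _ (hn ▸ h1) P.eraseLead hE rfl i
    · rw [h1, Polynomial.coeff_zero]
      exact R.zero_mem

end CoeffRing

/-! ### The modular invariant at level `N` -/

section JN

variable (S : Type*) [CommRing S] (N : ℕ) [NeZero N]

theorem s28c_jqN_pow_coeff_self (n : ℕ) :
    ((ModularCurve.qExpand S N (ModularCurve.jqModC S)) ^ n).coeff (-((N : ℤ) * n)) = 1 := by
  rw [← map_pow, show -((N : ℤ) * n) = (N : ℤ) * (-(n : ℤ)) by ring,
    ModularCurve.qExpand_coeff_mul, ModularCurve.coeff_jqModC_pow_self]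

theorem s28c_jqN_pow_coeff_lt (n : ℕ) (k : ℤ) (hk : k < -((N : ℤ) * n)) :
    ((ModularCurve.qExpand S N (ModularCurve.jqModC S)) ^ n).coeff k = 0 := by
  rw [← map_pow]
  by_cases hd : (N : ℤ) ∣ k
  · obtain ⟨l, rfl⟩ := hd
    rw [ModularCurve.qExpand_coeff_mul]
    apply ModularCurve.coeff_jqModC_pow_of_lt
    have hN : (0 : ℤ) < N := by exact_mod_cast Nat.pos_of_ne_zero (NeZero.ne N)
    nlinarith
  · exact ModularCurve.qExpand_coeff_of_not_dvd N _ hd

theorem s28c_jq_pow_coeff_self (n : ℕ) :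
    ((ModularCurve.jqModC S) ^ n).coeff (-(((1 : ℕ) : ℤ) * n)) = 1 := by
  rw [show -(((1 : ℕ) : ℤ) * n) = -(n : ℤ) by push_cast; ring]
  exact ModularCurve.coeff_jqModC_pow_self S n

theorem s28c_jq_pow_coeff_lt (n : ℕ) (k : ℤ) (hk : k < -(((1 : ℕ) : ℤ) * n)) :
    ((ModularCurve.jqModC S) ^ n).coeff k = 0 := by
  apply ModularCurve.coeff_jqModC_pow_of_lt
  rw [show -(((1 : ℕ) : ℤ) * n) = -(n : ℤ) by push_cast; ring] at hk
  exact hk

end JN

/-! ### Orders and leading coefficients -/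

section Lead

variable {K : Type*} [Field K]

/-- A series which vanishes below `q ^ a` and has coefficient `c ≠ 0` at `q ^ a`. -/
theorem s28c_lead_of {s : LaurentSeries K} {a : ℤ} {c : K} (hc : c ≠ 0)
    (h0 : ∀ k < a, s.coeff k = 0) (h1 : s.coeff a = c) :
    s ≠ 0 ∧ s.order = a ∧ s.leadingCoeff = c := by
  have hs : s ≠ 0 := by
    rintro rfl
    rw [HahnSeries.coeff_zero] at h1
    exact hc h1.symm
  have h2 : s.order = a := by
    apply le_antisymm
    · exact HahnSeries.order_le_of_coeff_ne_zero (by rw [h1]; exact hc)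
    · by_contra hlt
      rw [not_le] at hlt
      exact hs (HahnSeries.coeff_order_eq_zero.1 (h0 _ hlt))
  exact ⟨hs, h2, by rw [HahnSeries.leadingCoeff_eq, h2, h1]⟩

/-- The normal form `c q^a (1 + O(q))`. -/
theorem s28c_lead_normal {c : K} (hc : c ≠ 0) (a : ℤ) {P : PowerSeries K}
    (hP : PowerSeries.constantCoeff P = 1) :
    (HahnSeries.C c * HahnSeries.single a (1 : K) * HahnSeries.ofPowerSeries ℤ K P) ≠ 0 ∧
    (HahnSeries.C c * HahnSeries.single a (1 : K) * HahnSeries.ofPowerSeries ℤ K P).order = a ∧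
    (HahnSeries.C c * HahnSeries.single a (1 : K) *
      HahnSeries.ofPowerSeries ℤ K P).leadingCoeff = c := by
  have e : HahnSeries.C c * HahnSeries.single a (1 : K) = HahnSeries.single a c := by
    rw [HahnSeries.C_apply, HahnSeries.single_mul_single, zero_add, mul_one]
  rw [e]
  apply s28c_lead_of hc
  · intro k hk
    rw [HahnSeries.coeff_single_mul, ModularCurve.ofPowerSeries_coeff_of_neg _ (by omega),
      mul_zero]
  · rw [HahnSeries.coeff_single_mul, sub_self,
      show (0 : ℤ) = ((0 : ℕ) : ℤ) by rfl, HahnSeries.ofPowerSeries_apply_coeff,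
      PowerSeries.coeff_zero_eq_constantCoeff_apply, hP, mul_one]

/-- Order and leading coefficient of a finite product. -/
theorem s28c_prod_lead {ι : Type*} (t : Finset ι) (s : ι → LaurentSeries K)
    (hs : ∀ x ∈ t, s x ≠ 0) :
    (∏ x ∈ t, s x) ≠ 0 ∧ (∏ x ∈ t, s x).order = ∑ x ∈ t, (s x).order ∧
      (∏ x ∈ t, s x).leadingCoeff = ∏ x ∈ t, (s x).leadingCoeff := by
  classical
  induction t using Finset.induction_on with
  | empty =>
    simp only [Finset.prod_empty, Finset.sum_empty]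
    exact ⟨one_ne_zero, HahnSeries.order_one, HahnSeries.leadingCoeff_one⟩
  | insert a t ha ih =>
    obtain ⟨h1, h2, h3⟩ := ih fun x hx => hs x (Finset.mem_insert_of_mem hx)
    have h0 := hs a (Finset.mem_insert_self a t)
    rw [Finset.prod_insert ha, Finset.sum_insert ha, Finset.prod_insert ha]
    exact ⟨mul_ne_zero h0 h1, by rw [HahnSeries.order_mul h0 h1, h2],
      by rw [HahnSeries.leadingCoeff_mul, h3]⟩

end Lead

end Fermat.Agent.S28

end
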