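import Mathlib
import Fermat.Agent.S24.BridgeLaurent
import Fermat.Agent.S24.CharPoly
import Fermat.Agent.S28.TrDefs
import Fermat.Agent.S28.ChiCoeff

/-!
# S28 [CHI], part 3: the characteristic polynomial of a permuted family, analytic side

For a finite family `F x` (`x : X`) of holomorphic functions of moderate growth on `ℍ` which is
permuted by `SL(2,ℤ)` and whose members have Laurent expansions `s x` in `q` after the
substitution `z ↦ N z`, the elementary symmetric functions are polynomials `P k` in `j`, and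
`(P k)(j(q^N)) = e_k(s)`.
-/

set_option autoImplicit false

open UpperHalfPlane ModularForm Polynomial
open scoped MatrixGroups Manifold

noncomputable section

namespace Fermat.Agent.S28

open Fermat.Agent.S24

local notation "HL" => Fermat.Agent.S24.anA_HasLaurent

/-! ### Additional calculus for `anA_HasLaurent` -/

theorem s28c_hl_congr {s : LaurentSeries ℂ} {f g : ℍ → ℂ} (h : HL s f) (e : ∀ z, f z = g z) :
    HL s g := by
  have : f = g := funext e
  rwa [← this]

theorem s28c_hl_pow {s : LaurentSeries ℂ} {f : ℍ → ℂ} (h : HL s f) (n : ℕ) :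
    HL (s ^ n) (f ^ n) := by
  induction n with
  | zero =>
    rw [pow_zero, pow_zero]
    exact anA_HasLaurent.one
  | succ n ih =>
    rw [pow_succ, pow_succ]
    exact ih.mul h

theorem s28c_hl_prod {ι : Type*} (t : Finset ι) {σ : ι → LaurentSeries ℂ} {F : ι → ℍ → ℂ}
    (h : ∀ i ∈ t, HL (σ i) (F i)) : HL (∏ i ∈ t, σ i) (∏ i ∈ t, F i) := by
  classical
  induction t using Finset.induction_on with
  | empty =>
    rw [Finset.prod_empty, Finset.prod_empty]
    exact anA_HasLaurent.one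
  | insert a t ha ih =>
    rw [Finset.prod_insert ha, Finset.prod_insert ha]
    exact (h a (Finset.mem_insert_self a t)).mul
      (ih fun i hi => h i (Finset.mem_insert_of_mem hi))

theorem s28c_hl_aeval {s : LaurentSeries ℂ} {f : ℍ → ℂ} (h : HL s f) (P : ℂ[X]) :
    HL (Polynomial.aeval s P) (fun z => P.eval (f z)) := by
  rw [s28c_aeval_eq_sum]
  have h1 : HL (∑ i ∈ Finset.range (P.natDegree + 1), HahnSeries.C (P.coeff i) * s ^ i)
      (∑ i ∈ Finset.range (P.natDegree + 1), fun z => P.coeff i * (f ^ i) z) :=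
    anA_HasLaurent.sum _ fun i _ => (s28c_hl_pow h i).smul (P.coeff i)
  refine s28c_hl_congr h1 fun z => ?_
  rw [Finset.sum_apply, Polynomial.eval_eq_sum_range]
  rfl

/-! ### The `j`-function -/

theorem s28c_heckeDiag_smul (N : ℕ) [NeZero N] (z : ℍ) : heckeDiagMatrix N • z = tr_pt N z := by
  apply UpperHalfPlane.ext
  rw [coe_heckeDiagMatrix_smul (NeZero.ne N), tr_pt_coe (Nat.pos_of_ne_zero (NeZero.ne N))]

theorem s28c_hl_jN (N : ℕ) [NeZero N] :
    HL (ModularCurve.qExpand ℂ N (ModularCurve.jqModC ℂ)) (fun z => jfun (tr_pt N z)) :=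
  s28c_hl_congr (anA_hasLaurent_jd N) fun z => by rw [s28c_heckeDiag_smul]

theorem s28c_hl_j : HL (ModularCurve.jqModC ℂ) jfun := by
  have h := s28c_hl_jN 1
  rw [ModularCurve.qExpand_one_apply] at h
  exact s28c_hl_congr h fun z => by rw [tr_pt_one]

/-! ### Elementary symmetric functions of the family -/

section Family

variable {X : Type} [Fintype X] (F : X → ℍ → ℂ) (N : ℕ)

/-- The formal `k`-th elementary symmetric function of a family of series. -/
def s28c_esymm (s : X → LaurentSeries ℂ) (k : ℕ) : LaurentSeries ℂ :=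
  ∑ t ∈ Finset.powersetCard k (Finset.univ : Finset X), ∏ x ∈ t, s x

theorem s28c_hl_esymm (s : X → LaurentSeries ℂ)
    (hs : ∀ x, HL (s x) (fun z => F x (tr_pt N z))) (k : ℕ) :
    HL (s28c_esymm s k) (fun z => anD_esymm F k (tr_pt N z)) := by
  have h1 : HL (s28c_esymm s k)
      (∑ t ∈ Finset.powersetCard k (Finset.univ : Finset X),
        ∏ x ∈ t, fun z => F x (tr_pt N z)) :=
    anA_HasLaurent.sum _ fun t _ => s28c_hl_prod t fun x _ => hs x
  refine s28c_hl_congr h1 fun z => ?_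
  rw [Finset.sum_apply, anD_esymm]
  refine Finset.sum_congr rfl fun t _ => ?_
  rw [Finset.prod_apply]

/-- `(P k)(j(q^N)) = e_k(s)`. -/
theorem s28c_aeval_eq_esymm [NeZero N] (s : X → LaurentSeries ℂ)
    (hs : ∀ x, HL (s x) (fun z => F x (tr_pt N z))) (k : ℕ) (P : ℂ[X])
    (hP : ∀ z : ℍ, anD_esymm F k z = P.eval (jfun z)) :
    Polynomial.aeval (ModularCurve.qExpand ℂ N (ModularCurve.jqModC ℂ)) P = s28c_esymm s k := by
  have h1 := s28c_hl_aeval (s28c_hl_jN N) P
  have h2 := s28c_hl_esymm F N s hs k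
  exact h1.unique_series (s28c_hl_congr h2 fun z => hP _)

/-- The relation satisfied by `F x₀`, as an identity of Laurent series in `q`. -/
theorem s28c_relation (x₀ : X) (G : LaurentSeries ℂ) (hG : HL G (F x₀)) (P : ℕ → ℂ[X])
    (hP : ∀ (z : ℍ), ∑ k ∈ Finset.range (Fintype.card X + 1),
        (-1) ^ k * ((P k).eval (jfun z) * F x₀ z ^ (Fintype.card X - k)) = 0) :
    ∑ k ∈ Finset.range (Fintype.card X + 1),
      (-1) ^ k * (Polynomial.aeval (ModularCurve.jqModC ℂ) (P k) *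
        G ^ (Fintype.card X - k)) = 0 := by
  have h1 : HL (∑ k ∈ Finset.range (Fintype.card X + 1),
      (-1) ^ k * (Polynomial.aeval (ModularCurve.jqModC ℂ) (P k) * G ^ (Fintype.card X - k)))
      (∑ k ∈ Finset.range (Fintype.card X + 1),
        (fun _ => (-1 : ℂ)) ^ k * ((fun z => (P k).eval (jfun z)) *
          (F x₀) ^ (Fintype.card X - k))) := by
    refine anA_HasLaurent.sum _ fun k _ => ?_
    have h2 : HL ((-1 : LaurentSeries ℂ) ^ k) ((fun _ => (-1 : ℂ)) ^ k) := by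
      have h3 := s28c_hl_pow (anA_HasLaurent.const (-1)) k
      rwa [map_neg, map_one] at h3
    exact h2.mul ((s28c_hl_aeval s28c_hl_j (P k)).mul (s28c_hl_pow hG _))
  have h0 : (∑ k ∈ Finset.range (Fintype.card X + 1),
        (fun _ => (-1 : ℂ)) ^ k * ((fun z => (P k).eval (jfun z)) *
          (F x₀) ^ (Fintype.card X - k))) = 0 := by
    funext z
    rw [Finset.sum_apply]
    simpa using hP z
  rw [h0] at h1
  exact h1.series_eq_zero

end Family

/-! ### Orders: the combinatorial input -/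

section Orders

variable {X : Type} [Fintype X] [DecidableEq X]

/-- If `∑ a = 0` and `a x < 0` for all `x ≠ x₀`, then among all subsets `t` of `X` the sum
`∑_{x ∈ t} a x` is minimal exactly for `t = X ∖ {x₀}`. -/
theorem s28c_sum_gt (x₀ : X) (a : X → ℤ) (ha0 : ∑ x, a x = 0)
    (haneg : ∀ x, x ≠ x₀ → a x < 0) (hX : ∃ x, x ≠ x₀)
    (t : Finset X) (ht : t ≠ Finset.univ.erase x₀) :
    ∑ x ∈ Finset.univ.erase x₀, a x < ∑ x ∈ t, a x := by
  have hU : ∀ x ∈ Finset.univ.erase x₀, a x < 0 := fun x hx =>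
    haneg x (Finset.ne_of_mem_erase hx)
  have hA : a x₀ + ∑ x ∈ Finset.univ.erase x₀, a x = 0 := by
    rw [Finset.add_sum_erase _ _ (Finset.mem_univ x₀), ha0]
  have hAneg : ∑ x ∈ Finset.univ.erase x₀, a x < 0 := by
    obtain ⟨x, hx⟩ := hX
    exact Finset.sum_neg hU ⟨x, Finset.mem_erase.2 ⟨hx, Finset.mem_univ x⟩⟩
  by_cases hx₀ : x₀ ∈ t
  · have h1 : a x₀ + ∑ x ∈ t.erase x₀, a x = ∑ x ∈ t, a x := Finset.add_sum_erase _ _ hx₀
    have hsub : t.erase x₀ ⊆ Finset.univ.erase x₀ :=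
      Finset.erase_subset_erase x₀ (Finset.subset_univ t)
    have h2 := Finset.sum_sdiff (f := a) hsub
    have h3 : ∑ x ∈ Finset.univ.erase x₀ \ t.erase x₀, a x ≤ 0 :=
      Finset.sum_nonpos fun x hx => (hU x (Finset.mem_sdiff.1 hx).1).le
    linarith
  · have hsub : t ⊆ Finset.univ.erase x₀ := fun x hx =>
      Finset.mem_erase.2 ⟨fun h => hx₀ (h ▸ hx), Finset.mem_univ x⟩
    have h2 := Finset.sum_sdiff (f := a) hsub
    have hne : (Finset.univ.erase x₀ \ t).Nonempty := by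
      rw [Finset.sdiff_nonempty]
      intro h
      exact ht (Finset.Subset.antisymm hsub h)
    have h3 : ∑ x ∈ Finset.univ.erase x₀ \ t, a x < 0 :=
      Finset.sum_neg (fun x hx => hU x (Finset.mem_sdiff.1 hx).1) hne
    linarith

variable (x₀ : X) (a : X → ℤ) (c : X → ℂ) (s : X → LaurentSeries ℂ)

/-- Below `q ^ A`, `A = ∑_{x ≠ x₀} a x`, all elementary symmetric functions vanish. -/
theorem s28c_esymm_coeff_lt (ha0 : ∑ x, a x = 0)
    (haneg : ∀ x, x ≠ x₀ → a x < 0) (hX : ∃ x, x ≠ x₀)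
    (hlead : ∀ x, s x ≠ 0 ∧ (s x).order = a x ∧ (s x).leadingCoeff = c x)
    (k : ℕ) (i : ℤ) (hi : i < ∑ x ∈ Finset.univ.erase x₀, a x) :
    (s28c_esymm s k).coeff i = 0 := by
  rw [s28c_esymm, HahnSeries.coeff_sum]
  refine Finset.sum_eq_zero fun t _ => ?_
  obtain ⟨-, h2, -⟩ := s28c_prod_lead t s fun x _ => (hlead x).1
  apply HahnSeries.coeff_eq_zero_of_lt_order
  rw [h2, Finset.sum_congr rfl fun x _ => (hlead x).2.1]
  by_cases ht : t = Finset.univ.erase x₀
  · rw [ht]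
    exact hi
  · exact hi.trans (s28c_sum_gt x₀ a ha0 haneg hX t ht)

/-- At `q ^ A` the elementary symmetric functions `e_k`, `k ≠ n - 1`, vanish. -/
theorem s28c_esymm_coeff_eq_zero (ha0 : ∑ x, a x = 0)
    (haneg : ∀ x, x ≠ x₀ → a x < 0) (hX : ∃ x, x ≠ x₀)
    (hlead : ∀ x, s x ≠ 0 ∧ (s x).order = a x ∧ (s x).leadingCoeff = c x)
    (k : ℕ) (hk : k ≠ Fintype.card X - 1) :
    (s28c_esymm s k).coeff (∑ x ∈ Finset.univ.erase x₀, a x) = 0 := by
  rw [s28c_esymm, HahnSeries.coeff_sum]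
  refine Finset.sum_eq_zero fun t ht0 => ?_
  obtain ⟨-, h2, -⟩ := s28c_prod_lead t s fun x _ => (hlead x).1
  apply HahnSeries.coeff_eq_zero_of_lt_order
  rw [h2, Finset.sum_congr rfl fun x _ => (hlead x).2.1]
  apply s28c_sum_gt x₀ a ha0 haneg hX t
  rintro rfl
  rw [Finset.mem_powersetCard, Finset.card_erase_of_mem (Finset.mem_univ x₀),
    Finset.card_univ] at ht0
  exact hk ht0.2.symm

/-- At `q ^ A` the elementary symmetric function `e_{n-1}` has the coefficient
`∏_{x ≠ x₀} c x`. -/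
theorem s28c_esymm_coeff_eq (ha0 : ∑ x, a x = 0)
    (haneg : ∀ x, x ≠ x₀ → a x < 0) (hX : ∃ x, x ≠ x₀)
    (hlead : ∀ x, s x ≠ 0 ∧ (s x).order = a x ∧ (s x).leadingCoeff = c x) :
    (s28c_esymm s (Fintype.card X - 1)).coeff (∑ x ∈ Finset.univ.erase x₀, a x) =
      ∏ x ∈ Finset.univ.erase x₀, c x := by
  rw [s28c_esymm, HahnSeries.coeff_sum, Finset.sum_eq_single (Finset.univ.erase x₀)]
  · obtain ⟨-, h2, h3⟩ := s28c_prod_lead (Finset.univ.erase x₀) s fun x _ => (hlead x).1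
    rw [Finset.sum_congr rfl fun x _ => (hlead x).2.1] at h2
    rw [Finset.prod_congr rfl fun x _ => (hlead x).2.2] at h3
    rw [← h3, HahnSeries.leadingCoeff_eq, h2]
  · intro t _ ht
    obtain ⟨-, h2, -⟩ := s28c_prod_lead t s fun x _ => (hlead x).1
    apply HahnSeries.coeff_eq_zero_of_lt_order
    rw [h2, Finset.sum_congr rfl fun x _ => (hlead x).2.1]
    exact s28c_sum_gt x₀ a ha0 haneg hX t ht
  · intro h
    exfalso
    apply h
    rw [Finset.mem_powersetCard]
    exact ⟨Finset.subset_univ _, by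
      rw [Finset.card_erase_of_mem (Finset.mem_univ x₀), Finset.card_univ]⟩

/-- The top elementary symmetric function: vanishing below `q ^ 0`. -/
theorem s28c_esymm_top_coeff_lt (ha0 : ∑ x, a x = 0)
    (hlead : ∀ x, s x ≠ 0 ∧ (s x).order = a x ∧ (s x).leadingCoeff = c x)
    (i : ℤ) (hi : i < 0) : (s28c_esymm s (Fintype.card X)).coeff i = 0 := by
  rw [s28c_esymm, ← Finset.card_univ, Finset.powersetCard_self, Finset.sum_singleton]
  obtain ⟨-, h2, -⟩ := s28c_prod_lead Finset.univ s fun x _ => (hlead x).1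
  apply HahnSeries.coeff_eq_zero_of_lt_order
  rw [h2, Finset.sum_congr rfl fun x _ => (hlead x).2.1, ha0]
  exact hi

/-- The top elementary symmetric function: the constant coefficient. -/
theorem s28c_esymm_top_coeff_zero (ha0 : ∑ x, a x = 0)
    (hlead : ∀ x, s x ≠ 0 ∧ (s x).order = a x ∧ (s x).leadingCoeff = c x) :
    (s28c_esymm s (Fintype.card X)).coeff 0 = ∏ x, c x := by
  rw [s28c_esymm, ← Finset.card_univ, Finset.powersetCard_self, Finset.sum_singleton]
  obtain ⟨-, h2, h3⟩ := s28c_prod_lead Finset.univ s fun x _ => (hlead x).1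
  rw [Finset.sum_congr rfl fun x _ => (hlead x).2.1, ha0] at h2
  rw [Finset.prod_congr rfl fun x _ => (hlead x).2.2] at h3
  rw [← h3, HahnSeries.leadingCoeff_eq, h2]

theorem s28c_sum_erase_neg (haneg : ∀ x, x ≠ x₀ → a x < 0) (hX : ∃ x, x ≠ x₀) :
    ∑ x ∈ Finset.univ.erase x₀, a x < 0 := by
  obtain ⟨x, hx⟩ := hX
  exact Finset.sum_neg (fun y hy => haneg y (Finset.ne_of_mem_erase hy))
    ⟨x, Finset.mem_erase.2 ⟨hx, Finset.mem_univ x⟩⟩

/-- Integrality of the coefficients. -/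
theorem s28c_coeff_mem (N : ℕ) [NeZero N] (R : Subring ℂ)
    (hs : ∀ x, s x ∈ s28c_coeffRing R) (P : ℂ[X]) (k : ℕ)
    (hP : Polynomial.aeval (ModularCurve.qExpand ℂ N (ModularCurve.jqModC ℂ)) P =
      s28c_esymm s k) : ∀ i, P.coeff i ∈ R := by
  refine s28c_descent_mem _ N R (s28c_jqN_pow_coeff_self ℂ N) (s28c_jqN_pow_coeff_lt ℂ N)
    (Nat.pos_of_ne_zero (NeZero.ne N)) (s28c_qExpand_mem R N (s28c_jqModC_mem R)) P ?_
  rw [hP, s28c_esymm]
  exact Subring.sum_mem _ fun t _ => Subring.prod_mem _ fun x _ => hs x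

/-- **Degrees of the coefficients of the characteristic polynomial.** -/
theorem s28c_degrees (N : ℕ) [NeZero N] (ha0 : ∑ x, a x = 0)
    (haneg : ∀ x, x ≠ x₀ → a x < 0) (hX : ∃ x, x ≠ x₀)
    (hlead : ∀ x, s x ≠ 0 ∧ (s x).order = a x ∧ (s x).leadingCoeff = c x)
    (hc : ∀ x, c x ≠ 0) (P : ℕ → ℂ[X])
    (hP : ∀ k, Polynomial.aeval (ModularCurve.qExpand ℂ N (ModularCurve.jqModC ℂ)) (P k) =
      s28c_esymm s k) :
    P (Fintype.card X) = C (∏ x, c x) ∧
    (P (Fintype.card X - 1)).leadingCoeff = ∏ x ∈ Finset.univ.erase x₀, c x ∧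
    ∀ k, k ≠ Fintype.card X - 1 →
      (P k).natDegree < (P (Fintype.card X - 1)).natDegree := by
  have hJ1 := s28c_jqN_pow_coeff_self ℂ N
  have hJ0 := s28c_jqN_pow_coeff_lt ℂ N
  have hN : 0 < N := Nat.pos_of_ne_zero (NeZero.ne N)
  have hN' : (0 : ℤ) < N := by exact_mod_cast hN
  have hAneg := s28c_sum_erase_neg x₀ a haneg hX
  set A := ∑ x ∈ Finset.univ.erase x₀, a x with hA
  have hc1 : ∏ x ∈ Finset.univ.erase x₀, c x ≠ 0 :=
    Finset.prod_ne_zero_iff.2 fun x _ => hc x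
  set m := (P (Fintype.card X - 1)).natDegree with hm
  have hcoeffA : (Polynomial.aeval (ModularCurve.qExpand ℂ N (ModularCurve.jqModC ℂ))
      (P (Fintype.card X - 1))).coeff A = ∏ x ∈ Finset.univ.erase x₀, c x := by
    rw [hP]
    exact s28c_esymm_coeff_eq x₀ a c s ha0 haneg hX hlead
  have hne : P (Fintype.card X - 1) ≠ 0 := by
    intro h0
    rw [h0, map_zero, HahnSeries.coeff_zero] at hcoeffA
    exact hc1 hcoeffA.symm
  have htop := s28c_coeff_aeval_top _ N hJ1 hJ0 hN (P (Fintype.card X - 1))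
  -- Claim 1
  have hNm : -((N : ℤ) * m) = A := by
    rcases lt_trichotomy (-((N : ℤ) * m)) A with h | h | h
    · exfalso
      rw [hP, s28c_esymm_coeff_lt x₀ a c s ha0 haneg hX hlead _ _ h] at htop
      exact Polynomial.leadingCoeff_ne_zero.2 hne htop.symm
    · exact h
    · exfalso
      rw [s28c_coeff_aeval_lt _ N hJ0 (P (Fintype.card X - 1)) (le_refl _) h] at hcoeffA
      exact hc1 hcoeffA.symm
  have hmpos : 0 < m := by
    by_contra h0
    rw [not_lt, Nat.le_zero] at h0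
    rw [h0] at hNm
    simp at hNm
    omega
  refine ⟨?_, ?_, ?_⟩
  · -- the top coefficient
    have hdeg0 : (P (Fintype.card X)).natDegree ≤ 0 := by
      apply s28c_natDegree_le_of_coeff _ N hJ1 hJ0 hN
      intro k hk
      rw [hP]
      apply s28c_esymm_top_coeff_lt a c s ha0 hlead
      simpa using hk
    have h1 := Polynomial.eq_C_of_natDegree_le_zero hdeg0
    have h2 := s28c_coeff_aeval_top _ N hJ1 hJ0 hN (P (Fintype.card X))
    rw [Nat.le_zero.1 hdeg0, hP] at h2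
    simp only [Nat.cast_zero, mul_zero, neg_zero] at h2
    rw [s28c_esymm_top_coeff_zero a c s ha0 hlead] at h2
    have h3 : (P (Fintype.card X)).leadingCoeff = (P (Fintype.card X)).coeff 0 := by
      rw [Polynomial.leadingCoeff, Nat.le_zero.1 hdeg0]
    rw [h2, h3]
    exact h1
  · rw [← htop, hNm, hcoeffA]
  · intro k hk
    by_cases hPk : P k = 0
    · rw [hPk, Polynomial.natDegree_zero]
      exact hmpos
    · by_contra hle
      rw [not_lt] at hle
      have h1 := s28c_coeff_aeval_top _ N hJ1 hJ0 hN (P k)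
      have hle' : (m : ℤ) ≤ (P k).natDegree := by exact_mod_cast hle
      have h2 : -((N : ℤ) * (P k).natDegree) ≤ A := by
        rw [← hNm]
        nlinarith
      rcases lt_or_eq_of_le h2 with h3 | h3
      · rw [hP, s28c_esymm_coeff_lt x₀ a c s ha0 haneg hX hlead _ _ h3] at h1
        exact Polynomial.leadingCoeff_ne_zero.2 hPk h1.symm
      · rw [hP, h3, s28c_esymm_coeff_eq_zero x₀ a c s ha0 haneg hX hlead k hk] at h1
        exact Polynomial.leadingCoeff_ne_zero.2 hPk h1.symm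

end Orders

/-! ### The abstract family theorem -/

/-- **[CHI-ABS].** Let `F x` (`x : X`) be a finite family of holomorphic functions of moderate
growth on `ℍ`, permuted by `SL(2,ℤ)`.  Assume that `z ↦ F x (N z)` has a Laurent expansion
`c_x q^(a x) (1 + O(q))` with `c_x` a unit of the subring `R ⊆ ℂ` and all coefficients in `R`,
that `∑ a x = 0` and `a x < 0` for all `x ≠ x₀`.  Then the coefficients
`P k` of the characteristic polynomial `∏ (T - F x) = ∑ (-1)^k (P k)(j) T^(n-k)` are polynomials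
in `j` with coefficients in `R`, `P n` is a constant unit, `P (n-1)` has unit leading
coefficient and all other `P k` have smaller degree than `P (n-1)`; and the Laurent expansion
`G` of `F x₀` is a root. -/
theorem s28c_chi_abs (N : ℕ) [NeZero N] {X : Type} [Fintype X] [DecidableEq X] (x₀ : X)
    (hX : ∃ x, x ≠ x₀) (F : X → ℍ → ℂ) (hF : ∀ x, MDiff (F x))
    (hgr : ∀ x, anD_ModGrowth (F x))
    (hperm : ∀ γ : SL(2, ℤ), ∃ σ : Equiv.Perm X, ∀ x z, F x (γ • z) = F (σ x) z)
    (G : LaurentSeries ℂ) (hG : HL G (F x₀)) (R : Subring ℂ)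
    (a : X → ℤ) (ha0 : ∑ x, a x = 0) (haneg : ∀ x, x ≠ x₀ → a x < 0)
    (hexp : ∀ x, ∃ (c : ℂ) (P : PowerSeries ℂ), c ∈ R ∧ c⁻¹ ∈ R ∧ c ≠ 0 ∧
      PowerSeries.constantCoeff P = 1 ∧ (∀ n, PowerSeries.coeff n P ∈ R) ∧
      HL (HahnSeries.C c * HahnSeries.single (a x) (1 : ℂ) * HahnSeries.ofPowerSeries ℤ ℂ P)
        (fun z => F x (tr_pt N z))) :
    ∃ P : ℕ → ℂ[X], P 0 = 1 ∧ (∀ k i, (P k).coeff i ∈ R) ∧
      (∃ c₀ : ℂ, c₀ ≠ 0 ∧ c₀⁻¹ ∈ R ∧ P (Fintype.card X) = C c₀) ∧
      (∀ k, k ≠ Fintype.card X - 1 →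
        (P k).natDegree < (P (Fintype.card X - 1)).natDegree) ∧
      ((P (Fintype.card X - 1)).leadingCoeff)⁻¹ ∈ R ∧
      ∑ k ∈ Finset.range (Fintype.card X + 1),
        (-1) ^ k * (Polynomial.aeval (ModularCurve.jqModC ℂ) (P k) *
          G ^ (Fintype.card X - k)) = 0 := by
  obtain ⟨P, hP0, hP1, hP2⟩ := anD_exists_charPoly F hF hgr hperm
  choose c Pw hcR hcinvR hc0 hPw1 hPwR hHL using hexp
  set s : X → LaurentSeries ℂ := fun x =>
    HahnSeries.C (c x) * HahnSeries.single (a x) (1 : ℂ) * HahnSeries.ofPowerSeries ℤ ℂ (Pw x)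
    with hs
  have hlead : ∀ x, s x ≠ 0 ∧ (s x).order = a x ∧ (s x).leadingCoeff = c x := fun x =>
    s28c_lead_normal (hc0 x) (a x) (hPw1 x)
  have hsR : ∀ x, s x ∈ s28c_coeffRing R := fun x =>
    Subring.mul_mem _ (Subring.mul_mem _ (s28c_C_mem R (hcR x))
      (s28c_single_mem R _ R.one_mem)) (s28c_ofPowerSeries_mem R (hPwR x))
  have hE : ∀ k, Polynomial.aeval (ModularCurve.qExpand ℂ N (ModularCurve.jqModC ℂ)) (P k) =
      s28c_esymm s k := fun k =>
    s28c_aeval_eq_esymm F N s hHL k (P k) fun z => hP1 k z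
  obtain ⟨h1, h2, h3⟩ := s28c_degrees x₀ a c s N ha0 haneg hX hlead hc0 P hE
  refine ⟨P, hP0, fun k => s28c_coeff_mem s N R hsR (P k) k (hE k),
    ⟨∏ x, c x, Finset.prod_ne_zero_iff.2 fun x _ => hc0 x, ?_, h1⟩, h3, ?_,
    s28c_relation F x₀ G hG P (hP2 x₀)⟩
  · rw [← Finset.prod_inv_distrib]
    exact Subring.prod_mem _ fun x _ => hcinvR x
  · rw [h2, ← Finset.prod_inv_distrib]
    exact Subring.prod_mem _ fun x _ => hcinvR x

end Fermat.Agent.S28

end
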