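import Mathlib
import Fermat.Agent.S28.EsymOrd

/-!
# S28 [CHI] hedge, slice B: the characteristic polynomial in (K1) shape

`chiHd_chi n P = ∑_{j ≤ n} (-1)^j P_j X^(n-j) ∈ k[T][X]` and the translation of the order
statements of `EsymOrd` into the hypotheses of the irreducibility criterion (K1).
-/

set_option autoImplicit false

open Polynomial

namespace Fermat.Agent.S28

/-- The polynomial `∑_{j ≤ n} (-1)^j P_j X^(n-j) ∈ k[T][X]`. -/
noncomputable def chiHd_chi {k : Type*} [CommRing k] (n : ℕ) (P : ℕ → k[X]) : k[X][X] :=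
  ∑ j ∈ Finset.range (n + 1), Polynomial.C ((-1) ^ j * P j) * Polynomial.X ^ (n - j)

theorem chiHd_coeff_aux {k : Type*} [CommRing k] (n : ℕ) (P : ℕ → k[X]) (i : ℕ) :
    (chiHd_chi n P).coeff i = if i ≤ n then (-1) ^ (n - i) * P (n - i) else 0 := by
  rw [chiHd_chi, ← Finset.sum_range_reflect, finsetSum_coeff]
  have h : ∀ j ∈ Finset.range (n + 1),
      (Polynomial.C ((-1) ^ (n + 1 - 1 - j) * P (n + 1 - 1 - j)) *
        Polynomial.X ^ (n - (n + 1 - 1 - j)) : k[X][X]).coeff i =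
      if i = j then (-1) ^ (n - j) * P (n - j) else 0 := by
    intro j hj
    have hj' : j ≤ n := Nat.lt_succ_iff.1 (Finset.mem_range.1 hj)
    have e1 : n + 1 - 1 - j = n - j := by omega
    have e2 : n - (n - j) = j := by omega
    rw [e1, e2, coeff_C_mul_X_pow]
  rw [Finset.sum_congr rfl h, Finset.sum_ite_eq]
  simp only [Finset.mem_range, Nat.lt_succ_iff]

theorem chiHd_coeff {k : Type*} [CommRing k] (n : ℕ) (P : ℕ → k[X]) (i : ℕ) (hi : i ≤ n) :
    (chiHd_chi n P).coeff i = (-1) ^ (n - i) * P (n - i) := by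
  rw [chiHd_coeff_aux, if_pos hi]

theorem chiHd_coeff_of_lt {k : Type*} [CommRing k] (n : ℕ) (P : ℕ → k[X]) (i : ℕ)
    (hi : n < i) : (chiHd_chi n P).coeff i = 0 := by
  rw [chiHd_coeff_aux, if_neg (not_le.2 hi)]

theorem chiHd_natDegree_le {k : Type*} [CommRing k] (n : ℕ) (P : ℕ → k[X]) :
    (chiHd_chi n P).natDegree ≤ n := by
  rw [natDegree_le_iff_coeff_eq_zero]
  intro i hi
  exact chiHd_coeff_of_lt n P i hi

theorem chiHd_monic {k : Type*} [CommRing k] (n : ℕ) (P : ℕ → k[X]) (hP0 : P 0 = 1) :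
    (chiHd_chi n P).Monic := by
  refine monic_of_natDegree_le_of_coeff_eq_one n (chiHd_natDegree_le n P) ?_
  rw [chiHd_coeff n P n le_rfl, Nat.sub_self, pow_zero, one_mul, hP0]

theorem chiHd_natDegree {k : Type*} [CommRing k] [Nontrivial k] (n : ℕ) (P : ℕ → k[X])
    (hP0 : P 0 = 1) : (chiHd_chi n P).natDegree = n := by
  refine natDegree_eq_of_le_of_coeff_ne_zero (chiHd_natDegree_le n P) ?_
  rw [chiHd_coeff n P n le_rfl, Nat.sub_self, pow_zero, one_mul, hP0]
  exact one_ne_zero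

theorem chiHd_eval_map {k : Type*} [CommRing k] (n : ℕ) (P : ℕ → k[X]) {A : Type*}
    [CommRing A] (φ : k[X] →+* A) (y : A) :
    ((chiHd_chi n P).map φ).eval y =
      ∑ j ∈ Finset.range (n + 1), (-1) ^ j * (φ (P j) * y ^ (n - j)) := by
  rw [chiHd_chi, Polynomial.map_sum, eval_finsetSum]
  refine Finset.sum_congr rfl fun j _ => ?_
  rw [Polynomial.map_mul, Polynomial.map_C, Polynomial.map_pow, Polynomial.map_X, eval_mul,
    eval_C, eval_pow, eval_X, map_mul, map_pow, map_neg, map_one, mul_assoc]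

theorem chiHd_natDegree_neg_one_pow_mul {k : Type*} [Field k] (m : ℕ) (Q : k[X]) :
    ((-1) ^ m * Q).natDegree = Q.natDegree := by
  rcases neg_one_pow_eq_or k[X] m with h | h
  · rw [h, one_mul]
  · rw [h, neg_one_mul, natDegree_neg]

theorem chiHd_leadingCoeff_neg_one_pow_mul {k : Type*} [Field k] (m : ℕ) (Q : k[X]) :
    ((-1) ^ m * Q).leadingCoeff = (-1) ^ m * Q.leadingCoeff := by
  rw [leadingCoeff_mul, leadingCoeff_pow, leadingCoeff_neg, leadingCoeff_one]

theorem chiHd_K1 {k : Type*} [Field k] {X : Type} [Fintype X] [DecidableEq X]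
    (S : X → LaurentSeries k) (x₀ : X) (hpos : 0 ≤ (S x₀).order)
    (hneg : ∀ x, x ≠ x₀ → (S x).order < 0) (hS : ∀ x, S x ≠ 0)
    (hsum : ∑ x, (S x).order = 0) (hcard : 2 ≤ Fintype.card X) (t : LaurentSeries k)
    (ht : t.order < 0) (P : ℕ → k[X]) (hP0 : P 0 = 1)
    (hP : ∀ j, aeval t (P j) =
      ∑ s ∈ Finset.powersetCard j (Finset.univ : Finset X), ∏ x ∈ s, S x) :
    (chiHd_chi (Fintype.card X) P).coeff 0 =
        Polynomial.C ((-1) ^ Fintype.card X * ∏ x, (S x).leadingCoeff) ∧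
      (∏ x, (S x).leadingCoeff) ≠ 0 ∧
      (∀ i, i ≠ 1 → ((chiHd_chi (Fintype.card X) P).coeff i).natDegree <
        ((chiHd_chi (Fintype.card X) P).coeff 1).natDegree) ∧
      ((chiHd_chi (Fintype.card X) P).coeff 1).leadingCoeff *
          t.leadingCoeff ^ ((chiHd_chi (Fintype.card X) P).coeff 1).natDegree =
        (-1) ^ (Fintype.card X - 1) *
          ∏ x ∈ (Finset.univ : Finset X).erase x₀, (S x).leadingCoeff := by
  have _ := hP0
  have hPn : aeval t (P (Fintype.card X)) = ∏ x, S x := by rw [hP, esymO_top]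
  obtain ⟨hconst, hne⟩ := esymO_top_const S hS hsum t ht _ hPn
  have h0 : (chiHd_chi (Fintype.card X) P).coeff 0 =
      Polynomial.C ((-1) ^ Fintype.card X * ∏ x, (S x).leadingCoeff) := by
    rw [chiHd_coeff _ _ 0 (Nat.zero_le _), Nat.sub_zero, hconst, map_mul, map_pow, map_neg,
      map_one]
  have h1 : (chiHd_chi (Fintype.card X) P).coeff 1 =
      (-1) ^ (Fintype.card X - 1) * P (Fintype.card X - 1) :=
    chiHd_coeff _ _ 1 (by omega)
  have hpos1 : 0 < (P (Fintype.card X - 1)).natDegree :=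
    esymO_pred_natDegree_pos S x₀ hpos hneg hcard t ht _ (hP _)
  refine ⟨h0, hne, ?_, ?_⟩
  · intro i hi
    rw [h1, chiHd_natDegree_neg_one_pow_mul]
    rcases Nat.lt_or_ge (Fintype.card X) i with hlt | hle
    · rw [chiHd_coeff_of_lt _ _ i hlt, natDegree_zero]
      exact hpos1
    · rcases Nat.eq_zero_or_pos i with hi0 | hi0
      · subst hi0
        rw [h0, natDegree_C]
        exact hpos1
      · rw [chiHd_coeff _ _ i hle, chiHd_natDegree_neg_one_pow_mul]
        have hi2 : 2 ≤ i := by omega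
        exact esymO_natDegree_lt S x₀ hpos hneg t ht P hP (Fintype.card X - i) (by omega)
  · rw [h1, chiHd_natDegree_neg_one_pow_mul, chiHd_leadingCoeff_neg_one_pow_mul, mul_assoc,
      esymO_pred_poly_leadingCoeff S x₀ hpos hneg t ht _ (hP (Fintype.card X - 1))]

end Fermat.Agent.S28
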