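import Mathlib
import Fermat.Agent.S28.EsymOrd

/-!
# S28 [ESYM-CHI]: the characteristic polynomial of a family of Laurent series, in (K1) shape

Formal packaging on top of `EsymOrd`.  Let `S : X → k((q))` be a finite family with
`0 ≤ ord (S x₀)`, `ord (S x) < 0` for `x ≠ x₀`, total order `0`, let `t` be a series of
negative order and leading coefficient `1`, and let `P j ∈ k[T]` be polynomials with
`P_j(t) = e_j(S)`.  Then `χ = esymO_chi n P = ∑_{i ≤ n} (-1)^(n-i) P_(n-i) X^i ∈ k[T][X]`
(`n = card X`) satisfies the hypotheses of the irreducibility criterion (K1) and of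
`keyR_key_subring`:

* `esymO_chi_monic`, `esymO_chi_natDegree`, `esymO_chi_coeff`;
* `esymO_chi_coeff_zero` : `χ.coeff 0 = C c` with `c = (-1)^n ∏ₓ leadingCoeff (S x)`;
* `esymO_chi_hdeg` : `natDegree (χ.coeff i) < natDegree (χ.coeff 1)` for `i ≠ 1`;
* `esymO_chi_leadingCoeff_one` : the leading coefficient of `χ.coeff 1`;
* `esymO_descent`, `esymO_chi_coeff_mem` : all coefficients lie in a subring `B` as soon as the
  coefficients of the `S x` and of `t` do (coefficient descent);
* `esymO_chi_root` : every `S x` is a root of `χ(t, X)`;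
* `esymO_root_descend` : descent of a root identity along an injective ring endomorphism
  (e.g. `q ↦ q^N`).
* `esymO_chi_K1` : summary.
-/

set_option autoImplicit false

open Finset Polynomial

namespace Fermat.Agent.S28

section Descent

variable {k : Type*} [Field k]

theorem esymO_leadingCoeff_mem (B : Subring k) (s : LaurentSeries k)
    (hs : ∀ n, s.coeff n ∈ B) : s.leadingCoeff ∈ B := by
  rw [HahnSeries.leadingCoeff_eq]
  exact hs _

theorem esymO_C_mem_coeffSubring (B : Subring k) {c : k} (hc : c ∈ B) :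
    (HahnSeries.C c : LaurentSeries k) ∈ esymO_coeffSubring B := by
  intro n
  rw [HahnSeries.C_apply, HahnSeries.coeff_single]
  split_ifs
  · exact hc
  · exact B.zero_mem

/-- The leading coefficient of `P` lies in `B` if the coefficients of `P(t)` do, `t` has
negative order and the inverse of its leading coefficient lies in `B`. -/
theorem esymO_poly_leadingCoeff_mem (B : Subring k) (t : LaurentSeries k) (ht : t.order < 0)
    (hlc : (t.leadingCoeff)⁻¹ ∈ B) (P : k[X])
    (hP : ∀ n, (aeval t P).coeff n ∈ B) : P.leadingCoeff ∈ B := by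
  have ht0 : t ≠ 0 := by
    intro h
    rw [h, HahnSeries.order_zero] at ht
    exact lt_irrefl _ ht
  have hlc0 : t.leadingCoeff ≠ 0 := HahnSeries.leadingCoeff_ne_zero.2 ht0
  have h := esymO_aeval_leadingCoeff t ht P
  have h2 : P.leadingCoeff = (aeval t P).leadingCoeff * (t.leadingCoeff)⁻¹ ^ P.natDegree := by
    rw [h, mul_assoc, ← mul_pow, mul_inv_cancel₀ hlc0, one_pow, mul_one]
  rw [h2]
  exact B.mul_mem (esymO_leadingCoeff_mem B _ hP) (B.pow_mem hlc _)

/-- **Coefficient descent.**  If `t` has negative order, coefficients in the subring `B` and a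
leading coefficient which is a unit of `B`, and all coefficients of `P(t)` lie in `B`, then all
coefficients of `P` lie in `B`. -/
theorem esymO_descent (B : Subring k) (t : LaurentSeries k) (ht : t.order < 0)
    (htB : ∀ n, t.coeff n ∈ B) (hlc : (t.leadingCoeff)⁻¹ ∈ B) (P : k[X])
    (hP : ∀ n, (aeval t P).coeff n ∈ B) : ∀ i, P.coeff i ∈ B := by
  induction hc : P.support.card using Nat.strong_induction_on generalizing P with
  | _ c ih =>
    by_cases hP0 : P = 0
    · subst hP0
      intro i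
      simp [B.zero_mem]
    have hlcP : P.leadingCoeff ∈ B := esymO_poly_leadingCoeff_mem B t ht hlc P hP
    have hsplit : aeval t P.eraseLead =
        aeval t P - HahnSeries.C P.leadingCoeff * t ^ P.natDegree := by
      have h := congrArg (aeval t) (eraseLead_add_C_mul_X_pow P)
      rw [map_add, map_mul, map_pow, aeval_X, aeval_C, esymO_algebraMap_eq_C] at h
      rw [← h]
      ring
    have hQ : ∀ n, (aeval t P.eraseLead).coeff n ∈ B := by
      have hmem : aeval t P.eraseLead ∈ esymO_coeffSubring B := by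
        rw [hsplit]
        exact Subring.sub_mem _ hP
          (Subring.mul_mem _ (esymO_C_mem_coeffSubring B hlcP)
            (Subring.pow_mem (esymO_coeffSubring B) (show t ∈ esymO_coeffSubring B from htB) _))
      exact hmem
    have hQ' := ih _ (by rw [← hc]; exact eraseLead_support_card_lt hP0) P.eraseLead hQ rfl
    intro i
    by_cases hi : i = P.natDegree
    · subst hi
      exact hlcP
    · rw [← eraseLead_coeff_of_ne i hi]
      exact hQ' i

end Descent

section Chi

variable {k : Type*} [Field k]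

/-- The polynomial `∑_{i ≤ n} (-1)^(n-i) P_(n-i) X^i ∈ k[T][X]`. -/
noncomputable def esymO_chi (n : ℕ) (P : ℕ → k[X]) : k[X][X] :=
  ∑ i ∈ range (n + 1), C ((-1) ^ (n - i) * P (n - i)) * X ^ i

theorem esymO_chi_coeff (n : ℕ) (P : ℕ → k[X]) (i : ℕ) :
    (esymO_chi n P).coeff i = if i ≤ n then (-1) ^ (n - i) * P (n - i) else 0 := by
  rw [esymO_chi, finsetSum_coeff]
  simp only [coeff_C_mul_X_pow]
  rw [Finset.sum_ite_eq]
  simp only [Finset.mem_range, Nat.lt_succ_iff]

theorem esymO_chi_coeff_of_le (n : ℕ) (P : ℕ → k[X]) {i : ℕ} (hi : i ≤ n) :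
    (esymO_chi n P).coeff i = (-1) ^ (n - i) * P (n - i) := by
  rw [esymO_chi_coeff, if_pos hi]

theorem esymO_chi_coeff_of_lt (n : ℕ) (P : ℕ → k[X]) {i : ℕ} (hi : n < i) :
    (esymO_chi n P).coeff i = 0 := by
  rw [esymO_chi_coeff, if_neg (not_le.2 hi)]

theorem esymO_chi_natDegree_le (n : ℕ) (P : ℕ → k[X]) : (esymO_chi n P).natDegree ≤ n := by
  rw [natDegree_le_iff_coeff_eq_zero]
  intro i hi
  exact esymO_chi_coeff_of_lt n P hi

theorem esymO_chi_monic (n : ℕ) (P : ℕ → k[X]) (h0 : P 0 = 1) : (esymO_chi n P).Monic := by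
  refine monic_of_natDegree_le_of_coeff_eq_one n (esymO_chi_natDegree_le n P) ?_
  rw [esymO_chi_coeff_of_le n P le_rfl, Nat.sub_self, pow_zero, one_mul, h0]

theorem esymO_chi_natDegree (n : ℕ) (P : ℕ → k[X]) (h0 : P 0 = 1) :
    (esymO_chi n P).natDegree = n := by
  refine natDegree_eq_of_le_of_coeff_ne_zero (esymO_chi_natDegree_le n P) ?_
  rw [esymO_chi_coeff_of_le n P le_rfl, Nat.sub_self, pow_zero, one_mul, h0]
  exact one_ne_zero

theorem esymO_natDegree_neg_one_pow_mul (m : ℕ) (Q : k[X]) :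
    ((-1) ^ m * Q).natDegree = Q.natDegree := by
  rcases neg_one_pow_eq_or k[X] m with h | h
  · rw [h, one_mul]
  · rw [h, neg_one_mul, natDegree_neg]

theorem esymO_leadingCoeff_neg_one_pow_mul (m : ℕ) (Q : k[X]) :
    ((-1) ^ m * Q).leadingCoeff = (-1) ^ m * Q.leadingCoeff := by
  rw [leadingCoeff_mul, leadingCoeff_pow, leadingCoeff_neg, leadingCoeff_one]

/-- Evaluation of `χ(t, X)` at a series `s`. -/
theorem esymO_chi_eval (n : ℕ) (P : ℕ → k[X]) (t s : LaurentSeries k) :
    ((esymO_chi n P).map (aeval t).toRingHom).eval s =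
      ∑ i ∈ range (n + 1), (-1) ^ (n - i) * aeval t (P (n - i)) * s ^ i := by
  rw [esymO_chi, Polynomial.map_sum, eval_finsetSum]
  refine Finset.sum_congr rfl fun i _ => ?_
  rw [Polynomial.map_mul, Polynomial.map_C, Polynomial.map_pow, Polynomial.map_X, eval_mul,
    eval_C, eval_pow, eval_X, AlgHom.toRingHom_eq_coe, RingHom.coe_coe, map_mul, map_pow,
    map_neg, map_one]

end Chi

section Vieta

variable {k : Type*} [Field k] {X : Type*} [Fintype X]

/-- Vieta for a family of series: `∏ₓ (s - S x) = ∑_{i ≤ n} (-1)^(n-i) e_(n-i)(S) s^i`. -/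
theorem esymO_prod_sub (S : X → LaurentSeries k) (s : LaurentSeries k) :
    ∏ x, (s - S x) = ∑ i ∈ range (Fintype.card X + 1),
      (-1) ^ (Fintype.card X - i) *
        (∑ u ∈ powersetCard (Fintype.card X - i) (univ : Finset X), ∏ x ∈ u, S x) * s ^ i := by
  have h := Multiset.prod_X_sub_X_eq_sum_esymm ((univ : Finset X).val.map S)
  rw [Multiset.map_map, Multiset.card_map] at h
  have hcard : Multiset.card (univ : Finset X).val = Fintype.card X := rfl
  rw [hcard] at h
  have h2 := congrArg (Polynomial.eval s) h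
  rw [Polynomial.eval_finsetSum] at h2
  have h3 : Polynomial.eval s (Multiset.map ((fun t => Polynomial.X - Polynomial.C t) ∘ S)
      (univ : Finset X).val).prod = ∏ x, (s - S x) := by
    rw [Polynomial.eval_multiset_prod, Multiset.map_map]
    simp only [Function.comp_apply, eval_sub, eval_X, eval_C]
    rfl
  rw [h3] at h2
  rw [h2, ← Finset.sum_range_reflect]
  refine Finset.sum_congr rfl fun i hi => ?_
  have hi' : i ≤ Fintype.card X := Nat.lt_succ_iff.1 (Finset.mem_range.1 hi)
  have e1 : Fintype.card X + 1 - 1 - i = Fintype.card X - i := by omega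
  have e2 : Fintype.card X - (Fintype.card X - i) = i := by omega
  rw [e1, Finset.esymm_map_val]
  simp only [eval_mul, eval_pow, eval_neg, eval_one, eval_C, eval_X, e2]
  ring

/-- Every member of the family is a root of `χ(t, X)`. -/
theorem esymO_chi_root (S : X → LaurentSeries k) (t : LaurentSeries k) (P : ℕ → k[X])
    (hP : ∀ j, aeval t (P j) = ∑ u ∈ powersetCard j (univ : Finset X), ∏ x ∈ u, S x) (x : X) :
    ((esymO_chi (Fintype.card X) P).map (aeval t).toRingHom).eval (S x) = 0 := by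
  rw [esymO_chi_eval]
  have h := esymO_prod_sub S (S x)
  rw [Finset.prod_eq_zero (Finset.mem_univ x) (sub_self _)] at h
  rw [h]
  refine Finset.sum_congr rfl fun i _ => ?_
  rw [hP]

end Vieta

section Root

variable {k : Type*} [Field k]

/-- Descent of a root identity along an injective ring endomorphism of `k((q))` fixing the
constants (e.g. `q ↦ q^N`). -/
theorem esymO_root_descend (φ : LaurentSeries k →+* LaurentSeries k)
    (hinj : Function.Injective φ)
    (hφ : ∀ c : k, φ (algebraMap k (LaurentSeries k) c) = algebraMap k (LaurentSeries k) c)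
    (t₀ g₀ : LaurentSeries k) (χ : k[X][X])
    (h : (χ.map (aeval (φ t₀)).toRingHom).eval (φ g₀) = 0) :
    (χ.map (aeval t₀).toRingHom).eval g₀ = 0 := by
  apply hinj
  rw [map_zero, ← h]
  have hcomp : φ.comp (aeval t₀ : k[X] →ₐ[k] LaurentSeries k).toRingHom =
      (aeval (φ t₀) : k[X] →ₐ[k] LaurentSeries k).toRingHom := by
    apply Polynomial.ringHom_ext
    · intro c
      simp only [RingHom.comp_apply, AlgHom.toRingHom_eq_coe, RingHom.coe_coe, aeval_C]
      exact hφ c
    · simp only [RingHom.comp_apply, AlgHom.toRingHom_eq_coe, RingHom.coe_coe, aeval_X]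
  rw [Polynomial.eval_map, Polynomial.eval_map, Polynomial.hom_eval₂, hcomp]

end Root

section K1

variable {k : Type*} [Field k] {X : Type*} [Fintype X] [DecidableEq X]

omit [DecidableEq X] in
theorem esymO_P_zero (S : X → LaurentSeries k) (t : LaurentSeries k) (ht : t.order < 0)
    (P : ℕ → k[X])
    (hP : ∀ j, aeval t (P j) = ∑ u ∈ powersetCard j (univ : Finset X), ∏ x ∈ u, S x) :
    P 0 = 1 := by
  have h := hP 0
  rw [Finset.powersetCard_zero, Finset.sum_singleton, Finset.prod_empty] at h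
  by_contra hne
  have h1 : aeval t (P 0 - 1) = 0 := by rw [map_sub, h, map_one, sub_self]
  exact esymO_aeval_ne_zero t ht (P 0 - 1) (sub_ne_zero.2 hne) h1

omit [DecidableEq X] in
/-- `χ.coeff 0 = C ((-1)^n ∏ₓ leadingCoeff (S x))`. -/
theorem esymO_chi_coeff_zero (S : X → LaurentSeries k) (hS : ∀ x, S x ≠ 0)
    (hsum : ∑ x, (S x).order = 0) (t : LaurentSeries k) (ht : t.order < 0) (P : ℕ → k[X])
    (hP : ∀ j, aeval t (P j) = ∑ u ∈ powersetCard j (univ : Finset X), ∏ x ∈ u, S x) :
    (esymO_chi (Fintype.card X) P).coeff 0 =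
      C ((-1) ^ Fintype.card X * ∏ x, (S x).leadingCoeff) := by
  have hPn : aeval t (P (Fintype.card X)) = ∏ x, S x := by rw [hP, esymO_top]
  obtain ⟨h1, -⟩ := esymO_top_const S hS hsum t ht _ hPn
  rw [esymO_chi_coeff_of_le _ _ (Nat.zero_le _), Nat.sub_zero, h1, map_mul, map_pow, map_neg,
    map_one]

/-- (K1) degree condition for `χ`. -/
theorem esymO_chi_hdeg (S : X → LaurentSeries k) (x₀ : X) (hcard : 2 ≤ Fintype.card X)
    (hpos : 0 ≤ (S x₀).order) (hneg : ∀ x, x ≠ x₀ → (S x).order < 0) (hS₀ : S x₀ ≠ 0)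
    (hsum : ∑ x, (S x).order = 0) (t : LaurentSeries k) (ht : t.order < 0) (P : ℕ → k[X])
    (hP : ∀ j, aeval t (P j) = ∑ u ∈ powersetCard j (univ : Finset X), ∏ x ∈ u, S x)
    (i : ℕ) (hi : i ≠ 1) :
    ((esymO_chi (Fintype.card X) P).coeff i).natDegree <
      ((esymO_chi (Fintype.card X) P).coeff 1).natDegree := by
  have hS : ∀ x, S x ≠ 0 := fun x => by
    by_cases hx : x = x₀
    · rw [hx]; exact hS₀
    · exact esymO_ne_zero_of_neg S x₀ hneg x hx
  have h1 : ((esymO_chi (Fintype.card X) P).coeff 1).natDegree =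
      (P (Fintype.card X - 1)).natDegree := by
    rw [esymO_chi_coeff_of_le _ _ (by omega : 1 ≤ Fintype.card X),
      esymO_natDegree_neg_one_pow_mul]
  have hpos1 : 0 < (P (Fintype.card X - 1)).natDegree :=
    esymO_pred_natDegree_pos S x₀ hpos hneg hcard t ht _ (hP _)
  rw [h1]
  rcases Nat.lt_or_ge (Fintype.card X) i with hlt | hle
  · rw [esymO_chi_coeff_of_lt _ _ hlt, natDegree_zero]
    exact hpos1
  · rcases Nat.eq_zero_or_pos i with h0 | h0
    · subst h0
      rw [esymO_chi_coeff_zero S hS hsum t ht P hP, natDegree_C]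
      exact hpos1
    · rw [esymO_chi_coeff_of_le _ _ hle, esymO_natDegree_neg_one_pow_mul]
      have hi2 : 2 ≤ i := by omega
      exact esymO_natDegree_lt S x₀ hpos hneg t ht P hP (Fintype.card X - i) (by omega)

/-- The leading coefficient of `χ.coeff 1` (for `leadingCoeff t = 1`). -/
theorem esymO_chi_leadingCoeff_one (S : X → LaurentSeries k) (x₀ : X)
    (hcard : 2 ≤ Fintype.card X)
    (hpos : 0 ≤ (S x₀).order) (hneg : ∀ x, x ≠ x₀ → (S x).order < 0)
    (t : LaurentSeries k) (ht : t.order < 0) (htlc : t.leadingCoeff = 1) (P : ℕ → k[X])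
    (hP : ∀ j, aeval t (P j) = ∑ u ∈ powersetCard j (univ : Finset X), ∏ x ∈ u, S x) :
    ((esymO_chi (Fintype.card X) P).coeff 1).leadingCoeff =
      (-1) ^ (Fintype.card X - 1) * ∏ x ∈ (univ : Finset X).erase x₀, (S x).leadingCoeff := by
  rw [esymO_chi_coeff_of_le _ _ (by omega : 1 ≤ Fintype.card X),
    esymO_leadingCoeff_neg_one_pow_mul]
  have h := esymO_pred_poly_leadingCoeff S x₀ hpos hneg t ht _ (hP (Fintype.card X - 1))
  rw [htlc, one_pow, mul_one] at h
  rw [h]

omit [DecidableEq X] in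
/-- All coefficients of `χ` lie in the subring `B`. -/
theorem esymO_chi_coeff_mem (B : Subring k) (S : X → LaurentSeries k)
    (hSB : ∀ x n, (S x).coeff n ∈ B)
    (t : LaurentSeries k) (ht : t.order < 0) (htB : ∀ n, t.coeff n ∈ B)
    (hlc : (t.leadingCoeff)⁻¹ ∈ B) (P : ℕ → k[X])
    (hP : ∀ j, aeval t (P j) = ∑ u ∈ powersetCard j (univ : Finset X), ∏ x ∈ u, S x)
    (i j : ℕ) : ((esymO_chi (Fintype.card X) P).coeff i).coeff j ∈ B := by
  have hPj : ∀ m j, (P m).coeff j ∈ B := fun m =>
    esymO_descent B t ht htB hlc (P m) fun n => by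
      rw [hP]
      exact esymO_coeff_mem B S hSB m n
  rw [esymO_chi_coeff]
  split_ifs with h
  · rcases neg_one_pow_eq_or k[X] (Fintype.card X - i) with h1 | h1
    · rw [h1, one_mul]
      exact hPj _ _
    · rw [h1, neg_one_mul, coeff_neg]
      exact B.neg_mem (hPj _ _)
  · rw [coeff_zero]
    exact B.zero_mem

/-- **Summary ([CHI-ABS], formal part).**  The polynomial `χ = esymO_chi (card X) P` satisfies
all hypotheses of `keyR_key_subring` (with `R₀ = B`), with both distinguished coefficients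
units of `B`, and every `S x` is a root of `χ(t, X)`. -/
theorem esymO_chi_K1 (B : Subring k) (S : X → LaurentSeries k) (x₀ : X)
    (hcard : 2 ≤ Fintype.card X)
    (hpos : 0 ≤ (S x₀).order) (hneg : ∀ x, x ≠ x₀ → (S x).order < 0) (hS₀ : S x₀ ≠ 0)
    (hsum : ∑ x, (S x).order = 0)
    (hSB : ∀ x n, (S x).coeff n ∈ B) (hlcB : ∀ x, ((S x).leadingCoeff)⁻¹ ∈ B)
    (t : LaurentSeries k) (ht : t.order < 0) (htB : ∀ n, t.coeff n ∈ B)
    (htlc : t.leadingCoeff = 1) (P : ℕ → k[X])
    (hP : ∀ j, aeval t (P j) = ∑ u ∈ powersetCard j (univ : Finset X), ∏ x ∈ u, S x) :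
    (esymO_chi (Fintype.card X) P).Monic ∧
    (esymO_chi (Fintype.card X) P).natDegree = Fintype.card X ∧
    (∀ i j, ((esymO_chi (Fintype.card X) P).coeff i).coeff j ∈ B) ∧
    (∃ c : k, c ∈ B ∧ c⁻¹ ∈ B ∧ c ≠ 0 ∧ (esymO_chi (Fintype.card X) P).coeff 0 = C c) ∧
    (∀ i, i ≠ 1 → ((esymO_chi (Fintype.card X) P).coeff i).natDegree <
      ((esymO_chi (Fintype.card X) P).coeff 1).natDegree) ∧
    (((esymO_chi (Fintype.card X) P).coeff 1).leadingCoeff ∈ B ∧
      (((esymO_chi (Fintype.card X) P).coeff 1).leadingCoeff)⁻¹ ∈ B ∧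
      ((esymO_chi (Fintype.card X) P).coeff 1).leadingCoeff ≠ 0) ∧
    ∀ x, ((esymO_chi (Fintype.card X) P).map (aeval t).toRingHom).eval (S x) = 0 := by
  have hS : ∀ x, S x ≠ 0 := fun x => by
    by_cases hx : x = x₀
    · rw [hx]; exact hS₀
    · exact esymO_ne_zero_of_neg S x₀ hneg x hx
  have hlcS : ∀ x, (S x).leadingCoeff ∈ B := fun x => esymO_leadingCoeff_mem B _ (hSB x)
  have hlcS0 : ∀ x, (S x).leadingCoeff ≠ 0 := fun x => HahnSeries.leadingCoeff_ne_zero.2 (hS x)
  have hP0 := esymO_P_zero S t ht P hP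
  have hone : (-1 : k) ∈ B := B.neg_mem B.one_mem
  have hunit : ∀ (m : ℕ) (u : Finset X),
      ((-1) ^ m * ∏ x ∈ u, (S x).leadingCoeff) ∈ B ∧
      ((-1) ^ m * ∏ x ∈ u, (S x).leadingCoeff)⁻¹ ∈ B ∧
      ((-1) ^ m * ∏ x ∈ u, (S x).leadingCoeff) ≠ 0 := by
    intro m u
    refine ⟨B.mul_mem (B.pow_mem hone m) (B.prod_mem fun x _ => hlcS x), ?_, ?_⟩
    · rw [mul_inv, ← inv_pow, inv_neg, inv_one, ← Finset.prod_inv_distrib]
      exact B.mul_mem (B.pow_mem hone m) (B.prod_mem fun x _ => hlcB x)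
    · exact mul_ne_zero (pow_ne_zero _ (neg_ne_zero.2 one_ne_zero))
        (Finset.prod_ne_zero_iff.2 fun x _ => hlcS0 x)
  refine ⟨esymO_chi_monic _ P hP0, esymO_chi_natDegree _ P hP0,
    esymO_chi_coeff_mem B S hSB t ht htB (by rw [htlc, inv_one]; exact B.one_mem) P hP,
    ⟨_, (hunit _ _).1, (hunit _ _).2.1, (hunit _ _).2.2,
      esymO_chi_coeff_zero S hS hsum t ht P hP⟩,
    esymO_chi_hdeg S x₀ hcard hpos hneg hS₀ hsum t ht P hP, ?_,
    esymO_chi_root S t P hP⟩
  rw [esymO_chi_leadingCoeff_one S x₀ hcard hpos hneg t ht htlc P hP]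
  exact hunit _ _

end K1

end Fermat.Agent.S28
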