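import Mathlib
import Fermat.Prelude.Def_ModularCurve_IgusaScheme

/-!
# S28 (Igusa), package (R1-SCHEME): the scheme-theoretic wrapper

The base change of the Igusa model to a field `K` is covered by the spectra of
`chartAlgFin ⊗ K` and `chartAlgInf ⊗ K`, glued along the spectrum of `chartAlgMid ⊗ K`.
Hence it is integral as soon as the first two rings are domains and the third is non-trivial.
-/

set_option autoImplicit false

open AlgebraicGeometry CategoryTheory CategoryTheory.Limits ModularCurve ModularCurve.IgusaScheme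
open scoped TensorProduct

noncomputable section

namespace Fermat.Agent.S28

/-- A space covered by two irreducible open subsets with non-empty intersection is
irreducible. -/
theorem wrap_irreducibleSpace_of_two_opens {X : Type*} [TopologicalSpace X] (U V : Set X)
    (hU : IsOpen U) (hUi : IsIrreducible U) (hVi : IsIrreducible V)
    (hUV : (U ∩ V).Nonempty) (hcov : ∀ x : X, x ∈ U ∨ x ∈ V) : IrreducibleSpace X := by
  have hU' := hUi.isPreirreducible
  have hV' := hVi.isPreirreducible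
  -- every non-empty open set meets `U`
  have key : ∀ A : Set X, IsOpen A → A.Nonempty → (U ∩ A).Nonempty := by
    intro A hA ⟨a, ha⟩
    rcases hcov a with haU | haV
    · exact ⟨a, haU, ha⟩
    · obtain ⟨x, -, hxA, hxU⟩ :=
        hV' A U hA hU ⟨a, haV, ha⟩ (by rwa [Set.inter_comm] at hUV)
      exact ⟨x, hxU, hxA⟩
  have hpre : IsPreirreducible (Set.univ : Set X) := by
    intro A B hA hB hAne hBne
    rw [Set.univ_inter] at hAne hBne ⊢
    obtain ⟨x, -, hx⟩ := hU' A B hA hB (key A hA hAne) (key B hB hBne)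
    exact ⟨x, hx⟩
  obtain ⟨x, -⟩ := hUV
  exact { toPreirreducibleSpace := ⟨hpre⟩, toNonempty := ⟨x⟩ }

/-- Integrality is invariant under isomorphisms of schemes. -/
theorem wrap_isIntegral_of_iso {X Y : Scheme.{0}} (e : X ≅ Y) [IsIntegral Y] : IsIntegral X := by
  have hne : Nonempty X := by
    obtain ⟨y⟩ := (inferInstance : Nonempty Y)
    exact ⟨e.inv.base y⟩
  exact isIntegral_of_isOpenImmersion e.hom

section

variable (N : ℕ) [NeZero N] (ℓ : ℕ) [Fact ℓ.Prime] (K : Type) [Field K]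
  [Algebra ↥(GaloisRep.ratLocalizedAt ℓ) K]

/-- The base-change morphism `Spec K ⟶ Spec ℤ_(ℓ)`. -/
abbrev wrap_g : Spec (CommRingCat.of K) ⟶ Spec (CommRingCat.of ↥(GaloisRep.ratLocalizedAt ℓ)) :=
  Spec.map (CommRingCat.ofHom (algebraMap ↥(GaloisRep.ratLocalizedAt ℓ) K))

/-- The two standard charts of the Igusa model, as an open cover. -/
def wrap_cover : (ModularCurve.IgusaScheme N ℓ).OpenCover :=
  Scheme.Cover.mkOfCovers Bool (fun b => match b with | true => XFin N ℓ | false => XInf N ℓ)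
    (fun b => match b with | true => ιFin N ℓ | false => ιInf N ℓ)
    (by
      intro x
      rcases mem_range_ιFin_or_mem_range_ιInf N ℓ x with ⟨y, hy⟩ | ⟨y, hy⟩
      · exact ⟨true, y, hy⟩
      · exact ⟨false, y, hy⟩)
    (by
      intro b
      cases b
      · exact isOpenImmersion_ιInf N ℓ
      · exact isOpenImmersion_ιFin N ℓ)

/-- The base change of the finite chart is the spectrum of `chartAlgFin ⊗ K`. -/
def wrap_pieceFinIso :
    pullback (ιFin N ℓ ≫ igusaTo N ℓ) (wrap_g ℓ K) ≅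
      Spec (CommRingCat.of (↥(chartAlgFin N ℓ) ⊗[↥(GaloisRep.ratLocalizedAt ℓ)] K)) :=
  pullback.congrHom (ιFin_igusaTo N ℓ) rfl ≪≫
    pullbackSpecIso ↥(GaloisRep.ratLocalizedAt ℓ) ↥(chartAlgFin N ℓ) K

/-- The base change of the chart at infinity is the spectrum of `chartAlgInf ⊗ K`. -/
def wrap_pieceInfIso :
    pullback (ιInf N ℓ ≫ igusaTo N ℓ) (wrap_g ℓ K) ≅
      Spec (CommRingCat.of (↥(chartAlgInf N ℓ) ⊗[↥(GaloisRep.ratLocalizedAt ℓ)] K)) :=
  pullback.congrHom (ιInf_igusaTo N ℓ) rfl ≪≫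
    pullbackSpecIso ↥(GaloisRep.ratLocalizedAt ℓ) ↥(chartAlgInf N ℓ) K

/-- The induced open cover of the base change. -/
def wrap_pullbackCover : (pullback (igusaTo N ℓ) (wrap_g ℓ K)).OpenCover :=
  Scheme.Pullback.openCoverOfLeft (wrap_cover N ℓ) (igusaTo N ℓ) (wrap_g ℓ K)

theorem wrap_isIntegral_piece
    (hFin : IsDomain (↥(chartAlgFin N ℓ) ⊗[↥(GaloisRep.ratLocalizedAt ℓ)] K))
    (hInf : IsDomain (↥(chartAlgInf N ℓ) ⊗[↥(GaloisRep.ratLocalizedAt ℓ)] K)) (b : Bool) :
    IsIntegral ((wrap_pullbackCover N ℓ K).X b) := by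
  cases b
  · exact wrap_isIntegral_of_iso (wrap_pieceInfIso N ℓ K)
  · exact wrap_isIntegral_of_iso (wrap_pieceFinIso N ℓ K)

/-- The spectrum of `chartAlgMid ⊗ K`. -/
abbrev wrap_M : Scheme.{0} :=
  Spec (CommRingCat.of (↥(chartAlgMid N ℓ) ⊗[↥(GaloisRep.ratLocalizedAt ℓ)] K))

/-- The projection of `Spec (chartAlgMid ⊗ K)` to the middle chart. -/
abbrev wrap_toMid : wrap_M N ℓ K ⟶ XMid N ℓ :=
  Spec.map (CommRingCat.ofHom
    (Algebra.TensorProduct.includeLeftRingHom :
      ↥(chartAlgMid N ℓ) →+* ↥(chartAlgMid N ℓ) ⊗[↥(GaloisRep.ratLocalizedAt ℓ)] K))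

/-- The projection of `Spec (chartAlgMid ⊗ K)` to `Spec K`. -/
abbrev wrap_toK : wrap_M N ℓ K ⟶ Spec (CommRingCat.of K) :=
  Spec.map (CommRingCat.ofHom
    ((Algebra.TensorProduct.includeRight :
      K →ₐ[↥(GaloisRep.ratLocalizedAt ℓ)]
        ↥(chartAlgMid N ℓ) ⊗[↥(GaloisRep.ratLocalizedAt ℓ)] K).toRingHom))

theorem wrap_toMid_comp :
    wrap_toMid N ℓ K ≫ fFin N ℓ ≫
        Spec.map (CommRingCat.ofHom (algebraMap ↥(GaloisRep.ratLocalizedAt ℓ) (chartAlgFin N ℓ))) =
      wrap_toK N ℓ K ≫ wrap_g ℓ K := by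
  simp only [← Spec.map_comp, ← CommRingCat.ofHom_comp]
  congr 2
  ext a
  simp only [RingHom.coe_comp, Function.comp_apply, AlgHom.toRingHom_eq_coe,
    RingHom.coe_coe, Algebra.TensorProduct.includeLeftRingHom_apply,
    Algebra.TensorProduct.includeRight_apply]
  rw [AlgHom.commutes, Algebra.algebraMap_eq_smul_one, Algebra.algebraMap_eq_smul_one,
    TensorProduct.smul_tmul]

/-- `Spec (chartAlgMid ⊗ K)` maps to the base change of the finite chart. -/
def wrap_φFin : wrap_M N ℓ K ⟶ pullback (ιFin N ℓ ≫ igusaTo N ℓ) (wrap_g ℓ K) :=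
  pullback.lift (wrap_toMid N ℓ K ≫ fFin N ℓ) (wrap_toK N ℓ K) (by
    rw [Category.assoc, ιFin_igusaTo]
    exact wrap_toMid_comp N ℓ K)

/-- `Spec (chartAlgMid ⊗ K)` maps to the base change of the chart at infinity. -/
def wrap_φInf : wrap_M N ℓ K ⟶ pullback (ιInf N ℓ ≫ igusaTo N ℓ) (wrap_g ℓ K) :=
  pullback.lift (wrap_toMid N ℓ K ≫ fInf N ℓ) (wrap_toK N ℓ K) (by
    rw [Category.assoc, ιInf_igusaTo, ← fFin_toBase_eq_fInf_toBase]
    exact wrap_toMid_comp N ℓ K)

/-- The open immersion of the base change of the finite chart. -/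
def wrap_jFin :
    pullback (ιFin N ℓ ≫ igusaTo N ℓ) (wrap_g ℓ K) ⟶ pullback (igusaTo N ℓ) (wrap_g ℓ K) :=
  pullback.map (ιFin N ℓ ≫ igusaTo N ℓ) (wrap_g ℓ K) (igusaTo N ℓ) (wrap_g ℓ K) (ιFin N ℓ)
    (𝟙 _) (𝟙 _) (by simp) (by simp)

/-- The open immersion of the base change of the chart at infinity. -/
def wrap_jInf :
    pullback (ιInf N ℓ ≫ igusaTo N ℓ) (wrap_g ℓ K) ⟶ pullback (igusaTo N ℓ) (wrap_g ℓ K) :=
  pullback.map (ιInf N ℓ ≫ igusaTo N ℓ) (wrap_g ℓ K) (igusaTo N ℓ) (wrap_g ℓ K) (ιInf N ℓ)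
    (𝟙 _) (𝟙 _) (by simp) (by simp)

theorem wrap_cover_f_true : (wrap_pullbackCover N ℓ K).f true = wrap_jFin N ℓ K := rfl

theorem wrap_cover_f_false : (wrap_pullbackCover N ℓ K).f false = wrap_jInf N ℓ K := rfl

instance wrap_isOpenImmersion_jFin : IsOpenImmersion (wrap_jFin N ℓ K) :=
  (wrap_pullbackCover N ℓ K).map_prop true

instance wrap_isOpenImmersion_jInf : IsOpenImmersion (wrap_jInf N ℓ K) :=
  (wrap_pullbackCover N ℓ K).map_prop false

theorem wrap_φ_comm :
    wrap_φFin N ℓ K ≫ wrap_jFin N ℓ K = wrap_φInf N ℓ K ≫ wrap_jInf N ℓ K := by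
  apply pullback.hom_ext
  · simp only [wrap_jFin, wrap_jInf, wrap_φFin, wrap_φInf, Category.assoc, pullback.map,
      pullback.lift_fst, pullback.lift_fst_assoc]
    rw [glue_condition]
  · simp only [wrap_jFin, wrap_jInf, wrap_φFin, wrap_φInf, Category.assoc, pullback.map,
      pullback.lift_snd, pullback.lift_snd_assoc]

/-- **(R1-SCHEME)** The base change of the Igusa model to `K` is integral as soon as the
base changes of the two charts are domains and the base change of the middle chart is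
non-trivial. -/
theorem wrap_isIntegral_pullback
    (hFin : IsDomain (↥(chartAlgFin N ℓ) ⊗[↥(GaloisRep.ratLocalizedAt ℓ)] K))
    (hInf : IsDomain (↥(chartAlgInf N ℓ) ⊗[↥(GaloisRep.ratLocalizedAt ℓ)] K))
    (hMid : Nontrivial (↥(chartAlgMid N ℓ) ⊗[↥(GaloisRep.ratLocalizedAt ℓ)] K)) :
    IsIntegral ↑(pullback (igusaTo N ℓ)
      (Spec.map (CommRingCat.ofHom (algebraMap ↥(GaloisRep.ratLocalizedAt ℓ) K)))) := by
  have hpiece : ∀ b, IsIntegral ((wrap_pullbackCover N ℓ K).X b) :=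
    wrap_isIntegral_piece N ℓ K hFin hInf
  have hpF : IsIntegral (pullback (ιFin N ℓ ≫ igusaTo N ℓ) (wrap_g ℓ K)) := hpiece true
  have hpI : IsIntegral (pullback (ιInf N ℓ ≫ igusaTo N ℓ) (wrap_g ℓ K)) := hpiece false
  have hred : IsReduced ↑(pullback (igusaTo N ℓ) (wrap_g ℓ K)) :=
    IsReduced.of_openCover _ (wrap_pullbackCover N ℓ K)
  have hirr : IrreducibleSpace ↑(pullback (igusaTo N ℓ) (wrap_g ℓ K)) := by
    refine wrap_irreducibleSpace_of_two_opens
      (Set.range (wrap_jFin N ℓ K).base) (Set.range (wrap_jInf N ℓ K).base) ?_ ?_ ?_ ?_ ?_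
    · exact (wrap_jFin N ℓ K).isOpenEmbedding.isOpen_range
    · rw [← Set.image_univ]
      exact (IrreducibleSpace.isIrreducible_univ _).image _
        (wrap_jFin N ℓ K).continuous.continuousOn
    · rw [← Set.image_univ]
      exact (IrreducibleSpace.isIrreducible_univ _).image _
        (wrap_jInf N ℓ K).continuous.continuousOn
    · obtain ⟨m⟩ : Nonempty (wrap_M N ℓ K) :=
        inferInstanceAs (Nonempty (PrimeSpectrum
          (↥(chartAlgMid N ℓ) ⊗[↥(GaloisRep.ratLocalizedAt ℓ)] K)))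
      refine ⟨((wrap_φFin N ℓ K) ≫ wrap_jFin N ℓ K).base m, ?_, ?_⟩
      · exact ⟨(wrap_φFin N ℓ K).base m, rfl⟩
      · rw [wrap_φ_comm]
        exact ⟨(wrap_φInf N ℓ K).base m, rfl⟩
    · intro x
      obtain ⟨b, y, hy⟩ := (wrap_pullbackCover N ℓ K).exists_eq x
      have hb : ∀ (b : Bool) (y : (wrap_pullbackCover N ℓ K).X b),
          ((wrap_pullbackCover N ℓ K).f b).base y = x →
          x ∈ Set.range (wrap_jFin N ℓ K).base ∨ x ∈ Set.range (wrap_jInf N ℓ K).base := by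
        intro b
        cases b
        · intro y hy; exact Or.inr ⟨y, hy⟩
        · intro y hy; exact Or.inl ⟨y, hy⟩
      exact hb b y hy
  exact isIntegral_of_irreducibleSpace_of_isReduced _

end

end Fermat.Agent.S28
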