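import Mathlib
import Fermat.Prelude.Def_ModularCurve_IgusaScheme
import Fermat.Prelude.Def_ModularCurve_LaurentCoeff
import Fermat.Agent.S28.SchemeWrap

/-!
# S28 (Igusa): algebra glue between the scheme wrapper and the reduction maps

* `wrapT_isDomain_tensor`: if a `ℤ_(ℓ)`-algebra `B` has a ring homomorphism `ρ` into Laurent
  series over the prime field `𝔽_ℓ` whose kernel is contained in `ℓ B`, then `B ⊗ K` is a
  domain for every field `K` of characteristic `ℓ`.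
* `wrapT_nontrivial_mid`: non-triviality of `chartAlgMid ⊗ K`.
* `wrapT_isIntegral_of_reductions`: the final reduction of S28 to the two reduction maps.
-/

set_option autoImplicit false

open AlgebraicGeometry CategoryTheory CategoryTheory.Limits ModularCurve ModularCurve.IgusaScheme
open scoped TensorProduct

noncomputable section

namespace Fermat.Agent.S28

section Core

/-- Normal form of the elements of `B ⊗[R] K` with respect to a basis of `K` over a field `k`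
whose scalars lift to `R`. -/
theorem wrapT_tensor_repr {R : Type*} [CommRing R] {B : Type*} [CommRing B] [Algebra R B]
    {K : Type*} [CommRing K] [Algebra R K] {k : Type*} [Field k] [Algebra k K]
    (lift : k → R) (hlift0 : lift 0 = 0) (hlift : ∀ (z : k) (c : K), (lift z) • c = z • c)
    {ι : Type*} (e : Module.Basis ι k K) (x : B ⊗[R] K) :
    ∃ b : ι →₀ B, x = b.sum (fun i v => v ⊗ₜ[R] e i) := by
  classical
  induction x using TensorProduct.induction_on with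
  | zero => exact ⟨0, by simp⟩
  | tmul b c =>
    refine ⟨(e.repr c).mapRange (fun z => lift z • b) (by rw [hlift0, zero_smul]), ?_⟩
    rw [Finsupp.sum_mapRange_index (h := fun i v => v ⊗ₜ[R] e i)
      (fun i => TensorProduct.zero_tmul _ _)]
    have h1 : ((e.repr c).sum fun i z => (lift z • b) ⊗ₜ[R] e i) =
        (e.repr c).sum fun i z => b ⊗ₜ[R] (z • e i) := by
      refine Finsupp.sum_congr fun i _ => ?_
      rw [TensorProduct.smul_tmul, hlift]
    rw [h1, Finsupp.sum, ← TensorProduct.tmul_sum]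
    congr 1
    have := e.linearCombination_repr c
    rw [Finsupp.linearCombination_apply, Finsupp.sum] at this
    exact this.symm
  | add x y hx hy =>
    obtain ⟨bx, rfl⟩ := hx
    obtain ⟨by', rfl⟩ := hy
    refine ⟨bx + by', ?_⟩
    rw [Finsupp.sum_add_index']
    · intro i; exact TensorProduct.zero_tmul _ _
    · intro i v w; exact TensorProduct.add_tmul _ _ _

/-- Abstract injectivity: a ring homomorphism `Φ : B ⊗[R] K → K((q))` of the shape
`b ⊗ c ↦ c · ρ(b)`, with `ρ : B → k((q))` and `k ⊆ K` a subfield whose scalars lift to `R`, is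
injective as soon as the kernel of `ρ` dies in `B ⊗[R] K`. -/
theorem wrapT_tensor_injective {R : Type*} [CommRing R] {B : Type*} [CommRing B] [Algebra R B]
    {K : Type*} [Field K] [Algebra R K] {k : Type*} [Field k] [Algebra k K]
    (lift : k → R) (hlift0 : lift 0 = 0) (hlift : ∀ (z : k) (c : K), (lift z) • c = z • c)
    (ρ : B →+* LaurentSeries k)
    (hker : ∀ b, ρ b = 0 → ∀ c : K, b ⊗ₜ[R] c = 0)
    (Φ : B ⊗[R] K →+* LaurentSeries K)
    (hΦ : ∀ b c, Φ (b ⊗ₜ[R] c) = HahnSeries.C c * coeffMap (algebraMap k K) (ρ b)) :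
    Function.Injective Φ := by
  classical
  rw [injective_iff_map_eq_zero]
  intro x hx
  set e := Module.Basis.ofVectorSpace k K with he
  obtain ⟨b, rfl⟩ := wrapT_tensor_repr lift hlift0 hlift e x
  rw [Finsupp.sum, map_sum] at hx
  have hcoef : ∀ n : ℤ, ∑ i ∈ b.support, ((ρ (b i)).coeff n) • e i = 0 := by
    intro n
    have h := congrArg (fun s : LaurentSeries K => s.coeff n) hx
    simp only [HahnSeries.coeff_sum, HahnSeries.coeff_zero] at h
    rw [← h]
    refine Finset.sum_congr rfl fun i _ => ?_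
    rw [hΦ, HahnSeries.C_mul_eq_smul, HahnSeries.coeff_smul, coeffMap_coeff, Algebra.smul_def,
      smul_eq_mul, mul_comm]
  have hzero : ∀ i ∈ b.support, ρ (b i) = 0 := by
    intro i hi
    ext n
    rw [HahnSeries.coeff_zero]
    exact linearIndependent_iff'.mp e.linearIndependent b.support
      (fun i => (ρ (b i)).coeff n) (hcoef n) i hi
  rw [Finsupp.sum]
  exact Finset.sum_eq_zero fun i hi => hker _ (hzero i hi) _

end Core

section Unique

variable (ℓ : ℕ)

/-- In `ℤ_(ℓ)`, `den * x = num`. -/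
theorem wrapT_den_mul (x : ↥(GaloisRep.ratLocalizedAt ℓ)) :
    ((x : ℚ).den : ↥(GaloisRep.ratLocalizedAt ℓ)) * x =
      ((x : ℚ).num : ↥(GaloisRep.ratLocalizedAt ℓ)) := by
  apply Subtype.ext
  push_cast
  rw [mul_comm]
  exact Rat.mul_den_eq_num _

variable [Fact ℓ.Prime]

/-- Two ring homomorphisms from `ℤ_(ℓ)` to a domain of characteristic `ℓ` agree. -/
theorem wrapT_ringHom_ext {Ω : Type*} [CommRing Ω] [IsDomain Ω] [CharP Ω ℓ]
    (φ ψ : ↥(GaloisRep.ratLocalizedAt ℓ) →+* Ω) : φ = ψ := by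
  ext x
  have h1 := congrArg φ (wrapT_den_mul ℓ x)
  have h2 := congrArg ψ (wrapT_den_mul ℓ x)
  rw [map_mul, map_natCast, map_intCast] at h1 h2
  have hden : ((x : ℚ).den : Ω) ≠ 0 := by
    intro h0
    rw [CharP.cast_eq_zero_iff Ω ℓ] at h0
    have hcop : (x : ℚ).den.Coprime ℓ := x.2
    have := Nat.Coprime.eq_one_of_dvd hcop.symm h0
    exact (Fact.out : ℓ.Prime).one_lt.ne' this
  exact mul_left_cancel₀ hden (h1.trans h2.symm)

/-- Every ring homomorphism from a `ℤ_(ℓ)`-algebra to a `ℤ_(ℓ)`-algebra which is a domain of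
characteristic `ℓ` is a `ℤ_(ℓ)`-algebra homomorphism. -/
def wrapT_algHom {A : Type*} [CommRing A] [Algebra ↥(GaloisRep.ratLocalizedAt ℓ) A]
    {Ω : Type*} [CommRing Ω] [IsDomain Ω] [CharP Ω ℓ] [Algebra ↥(GaloisRep.ratLocalizedAt ℓ) Ω]
    (φ : A →+* Ω) : A →ₐ[↥(GaloisRep.ratLocalizedAt ℓ)] Ω :=
  { φ with
    commutes' := fun r => congrArg (fun f : ↥(GaloisRep.ratLocalizedAt ℓ) →+* Ω => f r)
      (wrapT_ringHom_ext ℓ (φ.comp (algebraMap ↥(GaloisRep.ratLocalizedAt ℓ) A))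
        (algebraMap ↥(GaloisRep.ratLocalizedAt ℓ) Ω)) }

@[simp] theorem wrapT_algHom_apply {A : Type*} [CommRing A]
    [Algebra ↥(GaloisRep.ratLocalizedAt ℓ) A]
    {Ω : Type*} [CommRing Ω] [IsDomain Ω] [CharP Ω ℓ] [Algebra ↥(GaloisRep.ratLocalizedAt ℓ) Ω]
    (φ : A →+* Ω) (a : A) : wrapT_algHom ℓ φ a = φ a := rfl

end Unique

section Tensor

variable (ℓ : ℕ) [Fact ℓ.Prime]

/-- Laurent series over a field of characteristic `ℓ` have characteristic `ℓ`. -/
theorem wrapT_charP_laurent (ℓ : ℕ) (K : Type*) [Field K] [CharP K ℓ] :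
    CharP (LaurentSeries K) ℓ :=
  charP_of_injective_ringHom (f := (HahnSeries.C : K →+* LaurentSeries K))
    HahnSeries.C_injective ℓ

/-- The comparison map `B ⊗ K → K((q))`, `b ⊗ c ↦ ρ(b) · c`. -/
def wrapT_Φ (B : Type*) [CommRing B] [Algebra ↥(GaloisRep.ratLocalizedAt ℓ) B]
    (K : Type*) [Field K] [Algebra ↥(GaloisRep.ratLocalizedAt ℓ) K] [CharP K ℓ]
    (ρ : B →+* LaurentSeries (ZMod ℓ)) :
    B ⊗[↥(GaloisRep.ratLocalizedAt ℓ)] K →+* LaurentSeries K :=
  letI : Algebra ↥(GaloisRep.ratLocalizedAt ℓ) (LaurentSeries K) := HahnSeries.instAlgebra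
  haveI := wrapT_charP_laurent ℓ K
  (Algebra.TensorProduct.lift
    (wrapT_algHom ℓ ((coeffMap (ZMod.castHom (dvd_refl ℓ) K)).comp ρ))
    (wrapT_algHom ℓ (HahnSeries.C : K →+* LaurentSeries K))
    (fun _ _ => Commute.all _ _)).toRingHom

theorem wrapT_Φ_tmul (B : Type*) [CommRing B] [Algebra ↥(GaloisRep.ratLocalizedAt ℓ) B]
    (K : Type*) [Field K] [Algebra ↥(GaloisRep.ratLocalizedAt ℓ) K] [CharP K ℓ]
    (ρ : B →+* LaurentSeries (ZMod ℓ)) (b : B) (c : K) :
    wrapT_Φ ℓ B K ρ (b ⊗ₜ c) =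
      coeffMap (ZMod.castHom (dvd_refl ℓ) K) (ρ b) * HahnSeries.C c := by
  letI : Algebra ↥(GaloisRep.ratLocalizedAt ℓ) (LaurentSeries K) := HahnSeries.instAlgebra
  haveI := wrapT_charP_laurent ℓ K
  exact Algebra.TensorProduct.lift_tmul
    (wrapT_algHom ℓ ((coeffMap (ZMod.castHom (dvd_refl ℓ) K)).comp ρ))
    (wrapT_algHom ℓ (HahnSeries.C : K →+* LaurentSeries K))
    (fun _ _ => Commute.all _ _) b c

omit [Fact ℓ.Prime] in
/-- The kernel of the reduction dies in the tensor product. -/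
theorem wrapT_tmul_eq_zero (B : Type*) [CommRing B] [Algebra ↥(GaloisRep.ratLocalizedAt ℓ) B]
    (K : Type*) [Field K] [Algebra ↥(GaloisRep.ratLocalizedAt ℓ) K] [CharP K ℓ]
    (b' : B) (c : K) : ((ℓ : B) * b') ⊗ₜ[↥(GaloisRep.ratLocalizedAt ℓ)] c = 0 := by
  have h1 : (ℓ : B) * b' = (ℓ : ↥(GaloisRep.ratLocalizedAt ℓ)) • b' := by
    rw [Algebra.smul_def, map_natCast]
  have h2 : (ℓ : ↥(GaloisRep.ratLocalizedAt ℓ)) • c = 0 := by
    rw [Algebra.smul_def, map_natCast, CharP.cast_eq_zero K ℓ, zero_mul]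
  rw [h1, TensorProduct.smul_tmul, h2, TensorProduct.tmul_zero]

/-- The comparison map is injective when the kernel of `ρ` is contained in `ℓ B`. -/
theorem wrapT_Φ_injective (B : Type*) [CommRing B] [Algebra ↥(GaloisRep.ratLocalizedAt ℓ) B]
    (K : Type*) [Field K] [Algebra ↥(GaloisRep.ratLocalizedAt ℓ) K] [CharP K ℓ]
    (ρ : B →+* LaurentSeries (ZMod ℓ))
    (hker : ∀ b, ρ b = 0 → ∃ b', b = (ℓ : B) * b') :
    Function.Injective (wrapT_Φ ℓ B K ρ) := by
  letI : Algebra (ZMod ℓ) K := (ZMod.castHom (dvd_refl ℓ) K).toAlgebra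
  refine wrapT_tensor_injective (R := ↥(GaloisRep.ratLocalizedAt ℓ)) (k := ZMod ℓ)
    (fun z => (z.val : ↥(GaloisRep.ratLocalizedAt ℓ))) ?_ ?_ ρ ?_
    (wrapT_Φ ℓ B K ρ) ?_
  · simp
  · intro z c
    rw [Algebra.smul_def, map_natCast, Algebra.smul_def, RingHom.algebraMap_toAlgebra,
      ZMod.castHom_apply, ZMod.natCast_val]
  · intro b hb c
    obtain ⟨b', rfl⟩ := hker b hb
    exact wrapT_tmul_eq_zero ℓ B K b' c
  · intro b c
    rw [mul_comm]
    exact wrapT_Φ_tmul ℓ B K ρ b c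

/-- **(R1-TENSOR)** If the `ℤ_(ℓ)`-algebra `B` has a ring homomorphism to `𝔽_ℓ((q))` whose
kernel is contained in `ℓ B`, then `B ⊗ K` is a domain for every field `K` of characteristic
`ℓ`. -/
theorem wrapT_isDomain_tensor (B : Type*) [CommRing B] [Algebra ↥(GaloisRep.ratLocalizedAt ℓ) B]
    (K : Type*) [Field K] [Algebra ↥(GaloisRep.ratLocalizedAt ℓ) K] [CharP K ℓ]
    (ρ : B →+* LaurentSeries (ZMod ℓ))
    (hker : ∀ b, ρ b = 0 → ∃ b', b = (ℓ : B) * b') :
    IsDomain (B ⊗[↥(GaloisRep.ratLocalizedAt ℓ)] K) :=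
  Function.Injective.isDomain (wrapT_Φ ℓ B K ρ) (wrapT_Φ_injective ℓ B K ρ hker)

/-- Variant of `wrapT_isDomain_tensor` with the kernel condition in scalar form. -/
theorem wrapT_isDomain_tensor' (B : Type*) [CommRing B]
    [Algebra ↥(GaloisRep.ratLocalizedAt ℓ) B]
    (K : Type*) [Field K] [Algebra ↥(GaloisRep.ratLocalizedAt ℓ) K] [CharP K ℓ]
    (ρ : B →+* LaurentSeries (ZMod ℓ))
    (hker : ∀ b, ρ b = 0 → ∃ b', b = (ℓ : ↥(GaloisRep.ratLocalizedAt ℓ)) • b') :
    IsDomain (B ⊗[↥(GaloisRep.ratLocalizedAt ℓ)] K) := by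
  refine wrapT_isDomain_tensor ℓ B K ρ fun b hb => ?_
  obtain ⟨b', hb'⟩ := hker b hb
  exact ⟨b', by rw [hb', Algebra.smul_def, map_natCast]⟩

/-- Any ring homomorphism `B → 𝔽_ℓ((q))` makes `B ⊗ K` non-trivial. -/
theorem wrapT_nontrivial_tensor (B : Type*) [CommRing B]
    [Algebra ↥(GaloisRep.ratLocalizedAt ℓ) B]
    (K : Type*) [Field K] [Algebra ↥(GaloisRep.ratLocalizedAt ℓ) K] [CharP K ℓ]
    (ρ : B →+* LaurentSeries (ZMod ℓ)) :
    Nontrivial (B ⊗[↥(GaloisRep.ratLocalizedAt ℓ)] K) :=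
  RingHom.domain_nontrivial (wrapT_Φ ℓ B K ρ)

end Tensor

section Igusa

variable (N : ℕ) [NeZero N] (ℓ : ℕ) [Fact ℓ.Prime]

/-- A reduction map on the finite chart which does not kill `j` extends to the overlap. -/
def wrapT_ρMid (ρFin : ↥(chartAlgFin N ℓ) →+* LaurentSeries (ZMod ℓ))
    (hj : ρFin (jChartFin N ℓ) ≠ 0) : ↥(chartAlgMid N ℓ) →+* LaurentSeries (ZMod ℓ) :=
  letI := (inclFin N ℓ).toRingHom.toAlgebra
  haveI := isLocalization_away_inclFin N ℓ
  IsLocalization.Away.lift (jChartFin N ℓ) (g := ρFin) (IsUnit.mk0 _ hj)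

theorem wrapT_ρMid_inclFin (ρFin : ↥(chartAlgFin N ℓ) →+* LaurentSeries (ZMod ℓ))
    (hj : ρFin (jChartFin N ℓ) ≠ 0) (x : ↥(chartAlgFin N ℓ)) :
    wrapT_ρMid N ℓ ρFin hj (inclFin N ℓ x) = ρFin x := by
  letI := (inclFin N ℓ).toRingHom.toAlgebra
  haveI := isLocalization_away_inclFin N ℓ
  exact IsLocalization.Away.lift_eq (jChartFin N ℓ) (g := ρFin) (IsUnit.mk0 _ hj) x

/-- The overlap chart is non-trivial after base change, given a reduction map on the finite
chart which does not kill `j`. -/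
theorem wrapT_nontrivial_mid (K : Type*) [Field K] [Algebra ↥(GaloisRep.ratLocalizedAt ℓ) K]
    [CharP K ℓ] (ρFin : ↥(chartAlgFin N ℓ) →+* LaurentSeries (ZMod ℓ))
    (hj : ρFin (jChartFin N ℓ) ≠ 0) :
    Nontrivial (↥(chartAlgMid N ℓ) ⊗[↥(GaloisRep.ratLocalizedAt ℓ)] K) :=
  wrapT_nontrivial_tensor ℓ _ K (wrapT_ρMid N ℓ ρFin hj)

/-- **Final reduction of S28.**  The base change of the Igusa model to a field `K` of
characteristic `ℓ` is integral as soon as both charts have a reduction map to `𝔽_ℓ((q))` whose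
kernel is contained in `ℓ ·` (the chart), and the reduction of `j` is non-zero. -/
theorem wrapT_isIntegral_of_reductions (K : Type) [Field K]
    [Algebra ↥(GaloisRep.ratLocalizedAt ℓ) K] [CharP K ℓ]
    (ρFin : ↥(chartAlgFin N ℓ) →+* LaurentSeries (ZMod ℓ))
    (hFin : ∀ b, ρFin b = 0 → ∃ b', b = (ℓ : ↥(chartAlgFin N ℓ)) * b')
    (hj : ρFin (jChartFin N ℓ) ≠ 0)
    (ρInf : ↥(chartAlgInf N ℓ) →+* LaurentSeries (ZMod ℓ))
    (hInf : ∀ b, ρInf b = 0 → ∃ b', b = (ℓ : ↥(chartAlgInf N ℓ)) * b') :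
    IsIntegral ↑(pullback (igusaTo N ℓ)
      (Spec.map (CommRingCat.ofHom (algebraMap ↥(GaloisRep.ratLocalizedAt ℓ) K)))) :=
  wrap_isIntegral_pullback N ℓ K
    (wrapT_isDomain_tensor ℓ _ K ρFin hFin)
    (wrapT_isDomain_tensor ℓ _ K ρInf hInf)
    (wrapT_nontrivial_mid N ℓ K ρFin hj)

/-- Variant of `wrapT_isIntegral_of_reductions` with the kernel conditions in scalar form
(`x = ℓ • y`) and a reduction map on the overlap instead of the condition on `j`. -/
theorem wrapT_isIntegral_of_reductions' (K : Type) [Field K]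
    [Algebra ↥(GaloisRep.ratLocalizedAt ℓ) K] [CharP K ℓ]
    (ρFin : ↥(chartAlgFin N ℓ) →+* LaurentSeries (ZMod ℓ))
    (hFin : ∀ b, ρFin b = 0 → ∃ b', b = (ℓ : ↥(GaloisRep.ratLocalizedAt ℓ)) • b')
    (ρInf : ↥(chartAlgInf N ℓ) →+* LaurentSeries (ZMod ℓ))
    (hInf : ∀ b, ρInf b = 0 → ∃ b', b = (ℓ : ↥(GaloisRep.ratLocalizedAt ℓ)) • b')
    (ρMid : ↥(chartAlgMid N ℓ) →+* LaurentSeries (ZMod ℓ)) :
    IsIntegral ↑(pullback (igusaTo N ℓ)
      (Spec.map (CommRingCat.ofHom (algebraMap ↥(GaloisRep.ratLocalizedAt ℓ) K)))) :=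
  wrap_isIntegral_pullback N ℓ K
    (wrapT_isDomain_tensor' ℓ _ K ρFin hFin)
    (wrapT_isDomain_tensor' ℓ _ K ρInf hInf)
    (wrapT_nontrivial_tensor ℓ _ K ρMid)

end Igusa

end Fermat.Agent.S28
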