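import Mathlib
import Fermat.Prelude.Def_ModularCurve_IgusaScheme
import Fermat.Prelude.Def_ModularCurve_X0ModL
import Fermat.Agent.S28.TensorDomain

/-!
# S28 (Igusa): the frozen package interfaces and their composition

Route: the one-unit route.

```
S28.result  ⟸  wrapT_isIntegral_of_reductions        (TensorDomain.lean, landed)
            ⟸  `RedStatement`  (reduction maps on the two charts with kernel `ℓ · chart`)
            ⟸  `DegQStatement` (char 0: `[ℚ(X₀(N)) : ℚ(j)] ≤ [SL₂(ℤ) : Γ₀(N)]`)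
              + `KeyStatement`  (char ℓ: the powers of the reduction of one modular unit are
                                 linearly independent over `𝔽_ℓ[j̄]`)
```

* `s28_KeyAt N ℓ n`: there is `g ∈ ℤ((q))` lying in the function field `ℚ(X₀(N))` such that
  no non-zero `Q ∈ 𝔽_ℓ[T][X]` of `X`-degree `< n` vanishes at `(j̄, ḡ)`.
* `s28_RedAt N ℓ`: reduction maps `ρFin`, `ρInf` as consumed by
  `wrapT_isIntegral_of_reductions`.
* `s28_result_of`: the composition.
-/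

set_option autoImplicit false

open AlgebraicGeometry CategoryTheory CategoryTheory.Limits ModularCurve ModularCurve.IgusaScheme
open Polynomial IntermediateField
open scoped MatrixGroups

noncomputable section

namespace Fermat.Agent.S28

/-- **KEY at level `N`, prime `ℓ`, degree `n`.** -/
def s28_KeyAt (N ℓ : ℕ) [NeZero N] [Fact ℓ.Prime] (n : ℕ) : Prop :=
  ∃ g : LaurentSeries ℤ,
    coeffMap (Int.castRingHom ℚ) g ∈ modularFunctionFieldFull N ∧
    ∀ Q : (ZMod ℓ)[X][X], Q ≠ 0 → Q.natDegree < n →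
      (Q.map (aeval (jqModC (ZMod ℓ))).toRingHom).eval
        (coeffMap (Int.castRingHom (ZMod ℓ)) g) ≠ 0

/-- **KEY** (char-0 analytic input + Newton polygon criterion + reduction mod `ℓ`). -/
def s28_KeyStatement : Prop :=
  ∀ (N ℓ : ℕ) [NeZero N] [Fact ℓ.Prime], ¬ ℓ ∣ N →
    s28_KeyAt N ℓ (Nat.card (SL(2, ℤ) ⧸ CongruenceSubgroup.Gamma0 N))

/-- **DEG-Q**: the degree of `ℚ(X₀(N))` over `ℚ(j)` is at most the index of `Γ₀(N)`. -/
def s28_DegQStatement : Prop :=
  ∀ (N : ℕ) [NeZero N],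
    FiniteDimensional ↥(ℚ⟮IgusaScheme.jFull N⟯) ↥(modularFunctionFieldFull N) ∧
    Module.finrank ↥(ℚ⟮IgusaScheme.jFull N⟯) ↥(modularFunctionFieldFull N)
      ≤ Nat.card (SL(2, ℤ) ⧸ CongruenceSubgroup.Gamma0 N)

/-- The reduction maps on the two charts, in the shape consumed by
`wrapT_isIntegral_of_reductions`. -/
def s28_RedAt (N ℓ : ℕ) [NeZero N] [Fact ℓ.Prime] : Prop :=
  ∃ (ρFin : ↥(chartAlgFin N ℓ) →+* LaurentSeries (ZMod ℓ))
    (ρInf : ↥(chartAlgInf N ℓ) →+* LaurentSeries (ZMod ℓ)),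
    (∀ b, ρFin b = 0 → ∃ b', b = (ℓ : ↥(chartAlgFin N ℓ)) * b') ∧
    ρFin (jChartFin N ℓ) ≠ 0 ∧
    (∀ b, ρInf b = 0 → ∃ b', b = (ℓ : ↥(chartAlgInf N ℓ)) * b')

/-- **RED** (q-expansion principle for the charts): DEG-Q and KEY at a common `n` give the
reduction maps. -/
def s28_RedStatement : Prop :=
  ∀ (N ℓ : ℕ) [NeZero N] [Fact ℓ.Prime] (n : ℕ),
    FiniteDimensional ↥(ℚ⟮IgusaScheme.jFull N⟯) ↥(modularFunctionFieldFull N) →
    Module.finrank ↥(ℚ⟮IgusaScheme.jFull N⟯) ↥(modularFunctionFieldFull N) ≤ n →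
    s28_KeyAt N ℓ n → s28_RedAt N ℓ

/-- The composition: S28 from DEG-Q, KEY and RED. -/
theorem s28_result_of (hdeg : s28_DegQStatement) (hkey : s28_KeyStatement)
    (hred : s28_RedStatement)
    (N : ℕ) [NeZero N] (ℓ : ℕ) [Fact ℓ.Prime] (hℓN : ¬ ℓ ∣ N)
    (K : Type) [Field K] [CharP K ℓ] [Algebra ↥(GaloisRep.ratLocalizedAt ℓ) K] :
    IsIntegral ↑(pullback (igusaTo N ℓ)
      (Spec.map (CommRingCat.ofHom (algebraMap ↥(GaloisRep.ratLocalizedAt ℓ) K)))) := by
  obtain ⟨ρFin, ρInf, hFin, hj, hInf⟩ :=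
    hred N ℓ _ (hdeg N).1 (hdeg N).2 (hkey N ℓ hℓN)
  exact wrapT_isIntegral_of_reductions N ℓ K ρFin hFin hj ρInf hInf

end Fermat.Agent.S28
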