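/-
S28 (DEG-Q): the degree of the function field of `X₀(N)` over `ℚ(j)`.
* `degQ_finrank_bar`  : `[Q̄(X₀(N)) : Q̄(j)] = [SL(2,ℤ) : Γ₀(N)]`   (from the S24 count);
* `degQ_transcendental`: `j` is transcendental over `ℚ`;
* `degQ_linearIndependent_bar` : linear disjointness of `ℚ(X₀(N))` and `Q̄(j)` over `ℚ(j)`;
* `degQ_finite`, `degQ_finrank_le` : `[ℚ(X₀(N)) : ℚ(j)] ≤ [SL(2,ℤ) : Γ₀(N)]`.
Owner: helper22.
-/
import Fermat.Agent.S24.Final
import Fermat.Agent.S24.FFIdentity
import Fermat.Agent.S24.SymFinal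
import Fermat.Agent.S24.SymFrac
import Fermat.Agent.S24.SymPoint
import Fermat.Agent.S24.SymCuspOrd
import Fermat.Agent.S28.DegQLin
import Fermat.Prelude.Def_ModularCurve_IgusaScheme

set_option autoImplicit false

noncomputable section

namespace Fermat.Agent.S28

open Polynomial ModularCurve IntermediateField Fermat.Agent.S24
open scoped MatrixGroups

theorem degQ_pointDvd : PointDvdStatement := by
  intro N _ _ Θ₀ π hΘ c z₀ hz₀ P hP g hint hvan a b hb hg Pk hPk
  exact anD_point_dvd pointPlace hΘ c z₀ hz₀ P hP g hint hvan a b hb hg Pk hPk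

/-- (DEG-Q 1) `[Q̄(X₀(N)) : Q̄(j)] = [SL(2,ℤ) : Γ₀(N)]`. -/
theorem degQ_finrank_bar (N : ℕ) [NeZero N] :
    Module.finrank QBar⟮jF N⟯ (FunField N)
      = Nat.card (SL(2, ℤ) ⧸ CongruenceSubgroup.Gamma0 N) := by
  obtain ⟨P, hP⟩ :=
    glue_uniformizedRho bridge pointFamily ramRho (symF_point symFr_frac degQ_pointDvd) N
  exact (count_main ff_fundamentalIdentity (final_jCoordinate N) hP
    (final_degreeLowerBound N)).2.2.2

/-- The canonical map `ℚ(X₀(N)) → Q̄(X₀(N))` (extension of the coefficients). -/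
def degQ_toBar (N : ℕ) : ↥(modularFunctionFieldFull N) →+* FunField N where
  toFun x := ⟨coeffEmb QBar (x : LaurentSeries ℚ), coeffEmb_mem_laurentBaseChange QBar x.2⟩
  map_zero' := Subtype.ext (map_zero _)
  map_one' := Subtype.ext (map_one _)
  map_add' _ _ := Subtype.ext (map_add _ _ _)
  map_mul' _ _ := Subtype.ext (map_mul _ _ _)

@[simp] theorem degQ_coe_toBar (N : ℕ) (x : ↥(modularFunctionFieldFull N)) :
    ((degQ_toBar N x : FunField N) : LaurentSeries QBar) = coeffEmb QBar (x : LaurentSeries ℚ) :=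
  rfl

theorem degQ_toBar_jFull (N : ℕ) [NeZero N] :
    degQ_toBar N (IgusaScheme.jFull N) = jF N := by
  apply Subtype.ext
  change coeffEmb QBar jq = coeffEmb QBar (qExpand ℚ 1 jq)
  rw [qExpand_one_apply]

theorem degQ_coe_jF (N : ℕ) [NeZero N] :
    ((jF N : FunField N) : LaurentSeries QBar) = coeffEmb QBar jq := by
  rw [← degQ_toBar_jFull]
  rfl

/-- `j` is transcendental over `ℚ`. -/
theorem degQ_transcendental_jq : Transcendental ℚ jq := by
  rw [transcendental_iff]
  intro p hp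
  have h1 : aeval (coeffEmb QBar jq) (p.map (algebraMap ℚ QBar)) = 0 := by
    rw [degQ_coeffEmb_aeval, hp, map_zero]
  have h2 : Transcendental QBar (coeffEmb QBar jq) := by
    have := coord_transcendental_jLaurent
    unfold jLaurent at this
    rwa [qExpand_one_apply] at this
  have h3 := (transcendental_iff.mp h2) _ h1
  exact (Polynomial.map_eq_zero_iff (algebraMap ℚ QBar).injective).mp h3

/-- The inclusion `ℚ(X₀(N)) → ℚ((q))` as a `ℚ`-algebra homomorphism (for the ambient
`ℚ`-algebra structures). -/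
def degQ_incl (N : ℕ) : ↥(modularFunctionFieldFull N) →ₐ[ℚ] LaurentSeries ℚ :=
  ((modularFunctionFieldFull N).val : ↥(modularFunctionFieldFull N) →+* LaurentSeries ℚ).toRatAlgHom

theorem degQ_incl_apply (N : ℕ) (x : ↥(modularFunctionFieldFull N)) :
    degQ_incl N x = (x : LaurentSeries ℚ) := rfl

theorem degQ_incl_injective (N : ℕ) : Function.Injective (degQ_incl N) :=
  fun _ _ h => Subtype.ext h

theorem degQ_transcendental (N : ℕ) [NeZero N] : Transcendental ℚ (IgusaScheme.jFull N) := by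
  rw [transcendental_iff]
  intro p hp
  refine (transcendental_iff.mp degQ_transcendental_jq) p ?_
  have h1 := congrArg (degQ_incl N) hp
  rw [← Polynomial.aeval_algHom_apply, map_zero] at h1
  exact h1

/-- (DEG-Q 2) **Linear disjointness**: a family of `ℚ(X₀(N))` which is linearly independent
over `ℚ(j)` stays linearly independent over `Q̄(j)` in `Q̄(X₀(N))`. -/
theorem degQ_linearIndependent_bar (N : ℕ) [NeZero N] {ι : Type*}
    (x : ι → ↥(modularFunctionFieldFull N))
    (hx : LinearIndependent ↥(ℚ⟮IgusaScheme.jFull N⟯) x) :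
    LinearIndependent ↥(QBar⟮jF N⟯) (fun i => degQ_toBar N (x i)) := by
  have h1 : degQ_PolyIndep ℚ (IgusaScheme.jFull N) x := by
    have h0 := @degQ_polyIndep_of_linearIndependent ℚ ↥(modularFunctionFieldFull N) _ _ _ ι
      (IgusaScheme.jFull N) (degQ_transcendental N) x
    exact h0 hx
  have h2 : degQ_PolyIndep ℚ jq (fun i => ((x i : ↥(modularFunctionFieldFull N)) :
      LaurentSeries ℚ)) := by
    have h0 := degQ_polyIndep_comp (degQ_incl N) (degQ_incl_injective N) _ _ h1
    exact h0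
  have h3 := degQ_polyIndep_coeffEmb QBar jq _ h2
  have h4 : degQ_PolyIndep QBar (jF N) (fun i => degQ_toBar N (x i)) := by
    refine degQ_polyIndep_of_comp (modularFunctionFieldBar N).val _ _ ?_
    have h5 : (modularFunctionFieldBar N).val (jF N) = coeffEmb QBar jq := degQ_coe_jF N
    rw [h5]
    exact h3
  exact degQ_linearIndependent_of_polyIndep _ _ h4

/-- Every finite `ℚ(j)`-linearly independent family in `ℚ(X₀(N))` has at most
`[SL(2,ℤ) : Γ₀(N)]` elements. -/
theorem degQ_card_le (N : ℕ) [NeZero N] (s : Finset ↥(modularFunctionFieldFull N))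
    (hs : LinearIndependent ↥(ℚ⟮IgusaScheme.jFull N⟯)
      (fun i : s => (i : ↥(modularFunctionFieldFull N)))) :
    s.card ≤ Nat.card (SL(2, ℤ) ⧸ CongruenceSubgroup.Gamma0 N) := by
  have hfd : FiniteDimensional ↥(QBar⟮jF N⟯) (FunField N) := (final_jCoordinate N).finite
  have h1 := degQ_linearIndependent_bar N _ hs
  have h2 := h1.fintype_card_le_finrank
  rw [degQ_finrank_bar N, Fintype.card_coe] at h2
  exact h2

theorem degQ_rank_le (N : ℕ) [NeZero N] :
    Module.rank ↥(ℚ⟮IgusaScheme.jFull N⟯) ↥(modularFunctionFieldFull N)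
      ≤ (Nat.card (SL(2, ℤ) ⧸ CongruenceSubgroup.Gamma0 N) : Cardinal) :=
  rank_le (degQ_card_le N)

/-- (DEG-Q 3a) `ℚ(X₀(N))` is finite over `ℚ(j)`. -/
theorem degQ_finite (N : ℕ) [NeZero N] :
    FiniteDimensional ↥(ℚ⟮IgusaScheme.jFull N⟯) ↥(modularFunctionFieldFull N) := by
  refine Module.rank_lt_aleph0_iff.mp ?_
  exact lt_of_le_of_lt (degQ_rank_le N) Cardinal.natCast_lt_aleph0

/-- (DEG-Q 3b) `[ℚ(X₀(N)) : ℚ(j)] ≤ [SL(2,ℤ) : Γ₀(N)]`. -/
theorem degQ_finrank_le (N : ℕ) [NeZero N] :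
    Module.finrank ↥(ℚ⟮IgusaScheme.jFull N⟯) ↥(modularFunctionFieldFull N)
      ≤ Nat.card (SL(2, ℤ) ⧸ CongruenceSubgroup.Gamma0 N) := by
  have hfd := degQ_finite N
  have h := degQ_rank_le N
  rw [← Module.finrank_eq_rank] at h
  exact_mod_cast h

end Fermat.Agent.S28
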