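import Mathlib

/-!
# S28 (K1): an irreducibility criterion for two-variable polynomials

Let `k` be a field and `χ ∈ k[j][X]` (inner variable `j`, outer variable `X`) such that

* the constant coefficient `χ.coeff 0` is a nonzero constant `c ∈ k`, and
* `natDegree (χ.coeff i) < natDegree (χ.coeff 1)` for every `i ≠ 1`.

Then `χ` is irreducible in `k[j][X]` (`s28k_irreducible`), and if `χ` is moreover monic then it
stays irreducible over every fraction field of `k[j]` (`s28k_irreducible_map`), e.g. over
`RatFunc k`.

This is the Newton polygon at `j = ∞` of the characteristic polynomial of a modular unit having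
positive order at exactly one coset (the cusp `∞`) and negative order at all the others.

The proof swaps the two variables: the leading coefficient (in `j`) of `χ` is `a • X` with
`a ≠ 0`, which is irreducible in `k[X]`, and the value at `X = 0` is a nonzero constant.
-/

set_option autoImplicit false

open Polynomial

noncomputable section

namespace Fermat.Agent.S28

variable {k : Type*} [Field k]

/-- Coefficients of the swapped polynomial. -/
theorem s28k_coeff_swap (p : k[X][X]) (m n : ℕ) :
    ((Polynomial.Bivariate.swap p).coeff m).coeff n = (p.coeff n).coeff m := by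
  induction p using Polynomial.induction_on' with
  | add p q hp hq => simp only [map_add, coeff_add, hp, hq]
  | monomial i a =>
    induction a using Polynomial.induction_on' with
    | add a b ha hb =>
      simp only [map_add, coeff_add, ha, hb]
    | monomial l r =>
      rw [Polynomial.Bivariate.swap_monomial_monomial]
      by_cases h1 : l = m <;> by_cases h2 : i = n <;> simp [coeff_monomial, h1, h2]

/-- The criterion in swapped form: leading coefficient `a • X`, value at `X = 0` a nonzero
constant. -/
theorem s28k_irreducible_of_leadingCoeff (q : k[X][X]) {a c : k} (ha : a ≠ 0) (hc : c ≠ 0)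
    (hlead : q.leadingCoeff = C a * X) (hev : q.map (evalRingHom (0 : k)) = C c) :
    Irreducible q := by
  have hCa : IsUnit (C a : k[X]) := Polynomial.isUnit_C.2 (isUnit_iff_ne_zero.2 ha)
  have hirr : Irreducible (C a * X : k[X]) :=
    (irreducible_isUnit_mul hCa).2 Polynomial.irreducible_X
  -- key step: a factor with unit leading coefficient is a unit
  have key : ∀ A B : k[X][X], q = A * B → IsUnit B.leadingCoeff → IsUnit B := by
    intro A B hAB hB
    have hmap : A.map (evalRingHom (0 : k)) * B.map (evalRingHom (0 : k)) = C c := by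
      rw [← Polynomial.map_mul, ← hAB, hev]
    have hBne : evalRingHom (0 : k) B.leadingCoeff ≠ 0 :=
      (hB.map (evalRingHom (0 : k))).ne_zero
    have hdegB : (B.map (evalRingHom (0 : k))).natDegree = B.natDegree :=
      Polynomial.natDegree_map_of_leadingCoeff_ne_zero _ hBne
    have hne : A.map (evalRingHom (0 : k)) * B.map (evalRingHom (0 : k)) ≠ 0 := by
      rw [hmap]; exact fun h => hc (Polynomial.C_eq_zero.1 h)
    have hA0 : A.map (evalRingHom (0 : k)) ≠ 0 := left_ne_zero_of_mul hne
    have hB0 : B.map (evalRingHom (0 : k)) ≠ 0 := right_ne_zero_of_mul hne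
    have hdeg := Polynomial.natDegree_mul hA0 hB0
    rw [hmap, Polynomial.natDegree_C] at hdeg
    have hB' : B.natDegree = 0 := by omega
    rw [Polynomial.eq_C_of_natDegree_eq_zero hB']
    have : B.leadingCoeff = B.coeff 0 := by
      rw [Polynomial.leadingCoeff, hB']
    rw [← this]
    exact Polynomial.isUnit_C.2 hB
  refine ⟨?_, ?_⟩
  · intro hq
    obtain ⟨r, hr, hrq⟩ := Polynomial.isUnit_iff.1 hq
    have : q.leadingCoeff = r := by rw [← hrq, Polynomial.leadingCoeff_C]
    rw [hlead] at this
    exact hirr.not_isUnit (this ▸ hr)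
  · intro A B hAB
    have hl : A.leadingCoeff * B.leadingCoeff = C a * X := by
      rw [← Polynomial.leadingCoeff_mul, ← hAB, hlead]
    rcases hirr.isUnit_or_isUnit hl.symm with h | h
    · exact Or.inl (key B A (by rw [hAB, mul_comm]) h)
    · exact Or.inr (key A B hAB h)

/-- **(K1)** Irreducibility criterion in `k[j][X]`. -/
theorem s28k_irreducible (χ : k[X][X]) {c : k} (hc : c ≠ 0) (h0 : χ.coeff 0 = C c)
    (hdeg : ∀ i, i ≠ 1 → (χ.coeff i).natDegree < (χ.coeff 1).natDegree) :
    Irreducible χ := by
  set q := Polynomial.Bivariate.swap χ with hq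
  set M := (χ.coeff 1).natDegree with hM
  have hMpos : 0 < M := lt_of_le_of_lt (Nat.zero_le _) (hdeg 0 (by norm_num))
  have h1ne : χ.coeff 1 ≠ 0 := by
    intro h
    rw [hM, h, Polynomial.natDegree_zero] at hMpos
    exact lt_irrefl _ hMpos
  set a := (χ.coeff 1).leadingCoeff with ha
  have ha0 : a ≠ 0 := Polynomial.leadingCoeff_ne_zero.2 h1ne
  -- the coefficient of `j ^ M` in `q`
  have hcoeffM : q.coeff M = C a * X := by
    ext n
    rw [hq, s28k_coeff_swap, Polynomial.coeff_C_mul, Polynomial.coeff_X]
    by_cases hn : n = 1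
    · subst hn
      rw [if_pos rfl, mul_one]
      rfl
    · rw [if_neg (fun h => hn h.symm), mul_zero]
      exact Polynomial.coeff_eq_zero_of_natDegree_lt (hdeg n hn)
  have hcoeff_gt : ∀ m, M < m → q.coeff m = 0 := by
    intro m hm
    ext n
    rw [hq, s28k_coeff_swap, Polynomial.coeff_zero]
    by_cases hn : n = 1
    · subst hn
      exact Polynomial.coeff_eq_zero_of_natDegree_lt hm
    · exact Polynomial.coeff_eq_zero_of_natDegree_lt ((hdeg n hn).trans hm)
  have hXne : (C a * X : k[X]) ≠ 0 :=
    mul_ne_zero (fun h => ha0 (Polynomial.C_eq_zero.1 h)) Polynomial.X_ne_zero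
  have hnat : q.natDegree = M := by
    apply le_antisymm
    · rw [Polynomial.natDegree_le_iff_coeff_eq_zero]
      exact hcoeff_gt
    · exact Polynomial.le_natDegree_of_ne_zero (by rw [hcoeffM]; exact hXne)
  have hlead : q.leadingCoeff = C a * X := by
    rw [Polynomial.leadingCoeff, hnat, hcoeffM]
  have hev : q.map (evalRingHom (0 : k)) = C c := by
    ext m
    rw [Polynomial.coeff_map, Polynomial.coe_evalRingHom, ← Polynomial.coeff_zero_eq_eval_zero,
      hq, s28k_coeff_swap, h0]
  have hirr := s28k_irreducible_of_leadingCoeff q ha0 hc hlead hev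
  exact (MulEquiv.irreducible_iff
    (Polynomial.Bivariate.swap (R := k)).toMulEquiv).1 hirr

/-- **(K1), over the fraction field.** If moreover `χ` is monic, then it is irreducible over any
fraction field `K` of `k[j]`. -/
theorem s28k_irreducible_map (χ : k[X][X]) (hmonic : χ.Monic) {c : k} (hc : c ≠ 0)
    (h0 : χ.coeff 0 = C c)
    (hdeg : ∀ i, i ≠ 1 → (χ.coeff i).natDegree < (χ.coeff 1).natDegree)
    (K : Type*) [Field K] [Algebra k[X] K] [IsFractionRing k[X] K] :
    Irreducible (χ.map (algebraMap k[X] K)) :=
  (hmonic.irreducible_iff_irreducible_map_fraction_map (K := K)).1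
    (s28k_irreducible χ hc h0 hdeg)

/-- **(K1), minimal polynomial form.** Let `L` be a field containing a fraction field `K` of
`k[j]`, and let `g ∈ L` be a root of a monic `χ` as in (K1). Then the minimal polynomial of `g`
over `K` is `χ`, so it has degree `χ.natDegree`. -/
theorem s28k_minpoly_eq (χ : k[X][X]) (hmonic : χ.Monic) {c : k} (hc : c ≠ 0)
    (h0 : χ.coeff 0 = C c)
    (hdeg : ∀ i, i ≠ 1 → (χ.coeff i).natDegree < (χ.coeff 1).natDegree)
    (K : Type*) [Field K] [Algebra k[X] K] [IsFractionRing k[X] K]
    {L : Type*} [Field L] [Algebra K L] (g : L)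
    (hroot : Polynomial.aeval g (χ.map (algebraMap k[X] K)) = 0) :
    minpoly K g = χ.map (algebraMap k[X] K) :=
  (minpoly.eq_of_irreducible_of_monic (s28k_irreducible_map χ hmonic hc h0 hdeg K) hroot
    (hmonic.map _)).symm

theorem s28k_natDegree_minpoly (χ : k[X][X]) (hmonic : χ.Monic) {c : k} (hc : c ≠ 0)
    (h0 : χ.coeff 0 = C c)
    (hdeg : ∀ i, i ≠ 1 → (χ.coeff i).natDegree < (χ.coeff 1).natDegree)
    (K : Type*) [Field K] [Algebra k[X] K] [IsFractionRing k[X] K]
    {L : Type*} [Field L] [Algebra K L] (g : L)
    (hroot : Polynomial.aeval g (χ.map (algebraMap k[X] K)) = 0) :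
    (minpoly K g).natDegree = χ.natDegree := by
  rw [s28k_minpoly_eq χ hmonic hc h0 hdeg K g hroot, hmonic.natDegree_map]

end Fermat.Agent.S28

end
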