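import Mathlib
import Fermat.Prelude.Def_ModularCurve_X0

/-!
# S28 (R2-LOC): formal local analysis over a Laurent series field

Shape-independent lemmas about `LaurentSeries k` (`k` a field) and the substitution
`qExpand k p : q ↦ q ^ p` of the prelude:

* `locO_order_qExpand`: `ord (f(q^p)) = p * ord f`;
* `locO_sum_ne_zero`: a finite sum of nonzero series with pairwise distinct orders is nonzero;
* `locO_eval_ne_zero`, `locO_le_natDegree`, `locO_le_natDegree_of_range`: a series `α` whose
  order is prime to `p` has degree at least `p` over the subfield `k((q^p))`;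
* `locO_not_mem_range`: such an `α` is not a series in `q^p` (`p ≥ 2`);
* `locO_order_aeval`, `locO_unit_trick`: a polynomial of degree `n` in a series `t` of order
  `-1` has order `-n`; an element of `k(t)` integral over `k[t]` with positive order is zero;
* `locO_factor_dichotomy`: the factorisation dichotomy used at prime level.
-/

set_option autoImplicit false
open ModularCurve Polynomial

namespace Fermat.Agent.S28

variable {k : Type*} [Field k]

section Order

variable (p : ℕ) [NeZero p]

theorem locO_qExpand_ne_zero {f : LaurentSeries k} (hf : f ≠ 0) : qExpand k p f ≠ 0 :=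
  (map_ne_zero_iff _ (qExpand_injective p)).mpr hf

theorem locO_orderTop_qExpand (f : LaurentSeries k) :
    (qExpand k p f).orderTop = WithTop.map (fun n : ℤ => (p : ℤ) * n) f.orderTop := by
  unfold qExpand
  exact HahnSeries.orderTop_embDomain

theorem locO_order_qExpand (f : LaurentSeries k) (hf : f ≠ 0) :
    (qExpand k p f).order = (p : ℤ) * f.order := by
  have h1 := locO_orderTop_qExpand p f
  rw [← HahnSeries.order_eq_orderTop_of_ne_zero hf,
    ← HahnSeries.order_eq_orderTop_of_ne_zero (locO_qExpand_ne_zero p hf)] at h1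
  rw [WithTop.map_coe] at h1
  exact WithTop.coe_injective h1

end Order

section Sum

/-- A finite sum of nonzero Laurent series with pairwise distinct orders is nonzero. -/
theorem locO_sum_ne_zero {ι : Type*} (s : Finset ι) (hs : s.Nonempty) (T : ι → LaurentSeries k)
    (hT : ∀ i ∈ s, T i ≠ 0) (hinj : Set.InjOn (fun i => (T i).order) (s : Set ι)) :
    ∑ i ∈ s, T i ≠ 0 := by
  classical
  obtain ⟨i₀, hi₀, hmin⟩ := s.exists_min_image (fun i => (T i).order) hs
  intro h0
  have hc : (∑ i ∈ s, T i).coeff (T i₀).order = (T i₀).coeff (T i₀).order := by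
    rw [HahnSeries.coeff_sum]
    refine Finset.sum_eq_single_of_mem i₀ hi₀ ?_
    intro j hj hne
    apply HahnSeries.coeff_eq_zero_of_lt_order
    exact lt_of_le_of_ne (hmin j hj) (fun h => hne (hinj hj hi₀ h.symm))
  rw [h0, HahnSeries.coeff_zero] at hc
  exact hT i₀ hi₀ (HahnSeries.coeff_order_eq_zero.mp hc.symm)

/-- The order of such a sum is the minimum of the orders. -/
theorem locO_order_sum {ι : Type*} (s : Finset ι) (T : ι → LaurentSeries k)
    (hT : ∀ i ∈ s, T i ≠ 0) (hinj : Set.InjOn (fun i => (T i).order) (s : Set ι))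
    (i₀ : ι) (hi₀ : i₀ ∈ s) (hmin : ∀ j ∈ s, (T i₀).order ≤ (T j).order) :
    (∑ i ∈ s, T i).order = (T i₀).order := by
  classical
  have hne : ∑ i ∈ s, T i ≠ 0 := locO_sum_ne_zero s ⟨i₀, hi₀⟩ T hT hinj
  have hc : (∑ i ∈ s, T i).coeff (T i₀).order = (T i₀).coeff (T i₀).order := by
    rw [HahnSeries.coeff_sum]
    refine Finset.sum_eq_single_of_mem i₀ hi₀ ?_
    intro j hj hne
    apply HahnSeries.coeff_eq_zero_of_lt_order
    exact lt_of_le_of_ne (hmin j hj) (fun h => hne (hinj hj hi₀ h.symm))
  apply le_antisymm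
  · apply HahnSeries.order_le_of_coeff_ne_zero
    rw [hc]
    exact fun h => hT i₀ hi₀ (HahnSeries.coeff_order_eq_zero.mp h)
  · rw [HahnSeries.le_order_iff_forall hne]
    intro n hn
    rw [HahnSeries.coeff_sum]
    refine Finset.sum_eq_zero fun j hj => ?_
    exact HahnSeries.coeff_eq_zero_of_lt_order (lt_of_lt_of_le hn (hmin j hj))

end Sum

section Local

variable (p : ℕ) [NeZero p]

theorem locO_order_term (α : LaurentSeries k) (hα : α ≠ 0) (c : LaurentSeries k) (hc : c ≠ 0)
    (i : ℕ) : (qExpand k p c * α ^ i).order = (p : ℤ) * c.order + (i : ℤ) * α.order := by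
  rw [HahnSeries.order_mul (locO_qExpand_ne_zero p hc) (pow_ne_zero _ hα),
    locO_order_qExpand p c hc, HahnSeries.order_pow, nsmul_eq_mul]

/-- A Laurent series `α` whose order is prime to `p` is not a root of any nonzero polynomial of
degree `< p` with coefficients in `k((q^p))`. -/
theorem locO_eval_ne_zero (α : LaurentSeries k) (hα : α ≠ 0) (hcop : IsCoprime α.order (p : ℤ))
    (g : (LaurentSeries k)[X]) (hg : g ≠ 0) (hdeg : g.natDegree < p) :
    (g.map (qExpand k p)).eval α ≠ 0 := by
  rw [Polynomial.eval_map, Polynomial.eval₂_eq_sum, Polynomial.sum_def]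
  have hsupp : ∀ i ∈ g.support, g.coeff i ≠ 0 := fun i hi => Polynomial.mem_support_iff.mp hi
  refine locO_sum_ne_zero g.support (Polynomial.nonempty_support_iff.mpr hg) _ ?_ ?_
  · intro i hi
    exact mul_ne_zero (locO_qExpand_ne_zero p (hsupp i hi)) (pow_ne_zero _ hα)
  · intro i hi j hj hij
    simp only at hij
    rw [locO_order_term p α hα _ (hsupp i hi), locO_order_term p α hα _ (hsupp j hj)] at hij
    have hi' : i < p := lt_of_le_of_lt (Polynomial.le_natDegree_of_mem_supp _ hi) hdeg
    have hj' : j < p := lt_of_le_of_lt (Polynomial.le_natDegree_of_mem_supp _ hj) hdeg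
    have hdvd : (p : ℤ) ∣ ((i : ℤ) - j) * α.order := by
      refine ⟨(g.coeff j).order - (g.coeff i).order, ?_⟩
      linear_combination hij
    have hdvd' : (p : ℤ) ∣ (i : ℤ) - j := (hcop.symm).dvd_of_dvd_mul_right hdvd
    have h0 : (i : ℤ) - j = 0 := by
      apply Int.eq_zero_of_abs_lt_dvd hdvd'
      rw [abs_lt]
      constructor <;> omega
    exact_mod_cast sub_eq_zero.mp h0

theorem locO_le_natDegree (α : LaurentSeries k) (hα : α ≠ 0) (hcop : IsCoprime α.order (p : ℤ))
    (g : (LaurentSeries k)[X]) (hg : g ≠ 0) (h0 : (g.map (qExpand k p)).eval α = 0) :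
    p ≤ g.natDegree := by
  by_contra hlt
  exact locO_eval_ne_zero p α hα hcop g hg (not_le.mp hlt) h0

/-- The same for a polynomial whose coefficients are series in `q^p`. -/
theorem locO_le_natDegree_of_range (α : LaurentSeries k) (hα : α ≠ 0)
    (hcop : IsCoprime α.order (p : ℤ)) (G : (LaurentSeries k)[X]) (hG : G ≠ 0)
    (hc : ∀ i, G.coeff i ∈ (qExpand k p).range) (h0 : G.eval α = 0) : p ≤ G.natDegree := by
  have hlift : G ∈ Polynomial.lifts (qExpand k p) :=
    (Polynomial.lifts_iff_coeff_lifts G).mpr fun i => by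
      obtain ⟨c, hc⟩ := hc i
      exact ⟨c, hc⟩
  obtain ⟨g, rfl⟩ := (Polynomial.mem_lifts G).mp hlift
  have hg : g ≠ 0 := fun h => hG (by rw [h, Polynomial.map_zero])
  rw [Polynomial.natDegree_map_eq_of_injective (qExpand_injective p)]
  exact locO_le_natDegree p α hα hcop g hg h0

/-- A series whose order is prime to `p ≥ 2` is not a series in `q^p`. -/
theorem locO_not_mem_range (α : LaurentSeries k) (hα : α ≠ 0) (hcop : IsCoprime α.order (p : ℤ))
    (hp : 2 ≤ p) : α ∉ (qExpand k p).range := by
  rintro ⟨β, rfl⟩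
  have hβ : β ≠ 0 := fun h => hα (by rw [h, map_zero])
  rw [locO_order_qExpand p β hβ] at hcop
  have h1 : IsUnit (p : ℤ) := by
    have : IsCoprime (p : ℤ) (p : ℤ) := (IsCoprime.of_mul_left_left hcop)
    exact isCoprime_self.mp this
  rw [Int.isUnit_iff] at h1
  omega

end Local

section Unit

theorem locO_algebraMap_ne_zero {c : k} (hc : c ≠ 0) :
    algebraMap k (LaurentSeries k) c ≠ 0 :=
  (map_ne_zero_iff _ (algebraMap k (LaurentSeries k)).injective).mpr hc

theorem locO_order_algebraMap (c : k) : (algebraMap k (LaurentSeries k) c).order = 0 := by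
  have h : algebraMap k (LaurentSeries k) c = HahnSeries.C c := by
    have h1 : algebraMap k (PowerSeries k) c = PowerSeries.C c := by simp
    rw [HahnSeries.algebraMap_apply', h1, HahnSeries.ofPowerSeries_C]
  rw [h]
  exact HahnSeries.order_C

theorem locO_order_monomial_term (t : LaurentSeries k) (ht0 : t ≠ 0) {c : k} (hc : c ≠ 0)
    (i : ℕ) : (algebraMap k (LaurentSeries k) c * t ^ i).order = (i : ℤ) * t.order := by
  rw [HahnSeries.order_mul (locO_algebraMap_ne_zero hc) (pow_ne_zero _ ht0),
    locO_order_algebraMap, HahnSeries.order_pow, nsmul_eq_mul, zero_add]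

/-- A series of nonzero order is transcendental over the constants. -/
theorem locO_aeval_ne_zero (t : LaurentSeries k) (ht : t.order ≠ 0) (P : k[X]) (hP : P ≠ 0) :
    Polynomial.aeval t P ≠ 0 := by
  have ht0 : t ≠ 0 := fun h => ht (by rw [h, HahnSeries.order_zero])
  rw [Polynomial.aeval_def, Polynomial.eval₂_eq_sum, Polynomial.sum_def]
  have hsupp : ∀ i ∈ P.support, P.coeff i ≠ 0 := fun i hi => Polynomial.mem_support_iff.mp hi
  refine locO_sum_ne_zero P.support (Polynomial.nonempty_support_iff.mpr hP) _ ?_ ?_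
  · intro i hi
    exact mul_ne_zero (locO_algebraMap_ne_zero (hsupp i hi)) (pow_ne_zero _ ht0)
  · intro i hi j hj hij
    simp only at hij
    rw [locO_order_monomial_term t ht0 (hsupp i hi), locO_order_monomial_term t ht0 (hsupp j hj)]
      at hij
    exact_mod_cast mul_right_cancel₀ ht hij

theorem locO_aeval_injective (t : LaurentSeries k) (ht : t.order ≠ 0) :
    Function.Injective (Polynomial.aeval t : k[X] →ₐ[k] LaurentSeries k) := by
  rw [injective_iff_map_eq_zero]
  intro P hP
  by_contra hne
  exact locO_aeval_ne_zero t ht P hne hP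

theorem locO_transcendental (t : LaurentSeries k) (ht : t.order ≠ 0) : Transcendental k t :=
  transcendental_iff_injective.mpr (locO_aeval_injective t ht)

/-- The order of a polynomial of degree `n` in a series `t` of negative order is `n * ord t`. -/
theorem locO_order_aeval (t : LaurentSeries k) (ht : t.order < 0) (P : k[X]) (hP : P ≠ 0) :
    (Polynomial.aeval t P).order = (P.natDegree : ℤ) * t.order := by
  have ht0 : t ≠ 0 := fun h => ht.ne (by rw [h, HahnSeries.order_zero])
  rw [Polynomial.aeval_def, Polynomial.eval₂_eq_sum, Polynomial.sum_def]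
  have hsupp : ∀ i ∈ P.support, P.coeff i ≠ 0 := fun i hi => Polynomial.mem_support_iff.mp hi
  have hmem : P.natDegree ∈ P.support := Polynomial.natDegree_mem_support_of_nonzero hP
  rw [locO_order_sum P.support (fun i => algebraMap k (LaurentSeries k) (P.coeff i) * t ^ i)
    ?_ ?_ P.natDegree hmem ?_]
  · exact locO_order_monomial_term t ht0 (hsupp _ hmem) _
  · intro i hi
    exact mul_ne_zero (locO_algebraMap_ne_zero (hsupp i hi)) (pow_ne_zero _ ht0)
  · intro i hi j hj hij
    simp only at hij
    rw [locO_order_monomial_term t ht0 (hsupp i hi), locO_order_monomial_term t ht0 (hsupp j hj)]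
      at hij
    exact_mod_cast mul_right_cancel₀ ht.ne hij
  · intro j hj
    rw [locO_order_monomial_term t ht0 (hsupp _ hmem), locO_order_monomial_term t ht0 (hsupp j hj)]
    have hle : (j : ℤ) ≤ P.natDegree := by exact_mod_cast Polynomial.le_natDegree_of_mem_supp _ hj
    nlinarith

theorem locO_order_aeval_le (t : LaurentSeries k) (ht : t.order < 0) (P : k[X]) (hP : P ≠ 0) :
    (Polynomial.aeval t P).order ≤ 0 := by
  rw [locO_order_aeval t ht P hP]
  have : (0 : ℤ) ≤ P.natDegree := Int.natCast_nonneg _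
  nlinarith

/-- **Unit trick**, ring-hom form: an element `u` of `k(t)` (`t` of negative order) which is
integral over `k[t]` is a polynomial in `t`. -/
theorem locO_mem_range_of_integral (t u : LaurentSeries k) (ht : t.order < 0)
    (hmem : u ∈ IntermediateField.adjoin k {t})
    (hint : (Polynomial.aeval t : k[X] →ₐ[k] LaurentSeries k).toRingHom.IsIntegralElem u) :
    ∃ P : k[X], Polynomial.aeval t P = u := by
  classical
  have hinj := locO_aeval_injective t ht.ne
  let _ : Algebra k[X] (LaurentSeries k) :=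
    (Polynomial.aeval t : k[X] →ₐ[k] LaurentSeries k).toRingHom.toAlgebra
  have halg : ∀ P : k[X], algebraMap k[X] (LaurentSeries k) P = Polynomial.aeval t P :=
    fun _ => rfl
  have hinj' : Function.Injective (Algebra.ofId k[X] (LaurentSeries k)) := hinj
  let φ : RatFunc k →ₐ[k[X]] LaurentSeries k := IsFractionRing.liftAlgHom hinj'
  obtain ⟨r, s, hu⟩ := (IntermediateField.mem_adjoin_simple_iff k u).mp hmem
  by_cases hs : s = 0
  · refine ⟨0, ?_⟩
    rw [hu, hs, map_zero, div_zero]
  have hs' : algebraMap k[X] (RatFunc k) s ≠ 0 :=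
    (map_ne_zero_iff _ (IsFractionRing.injective k[X] (RatFunc k))).mpr hs
  have hφ : φ (algebraMap k[X] (RatFunc k) r / algebraMap k[X] (RatFunc k) s) = u := by
    rw [map_div₀, AlgHom.commutes, AlgHom.commutes, halg, halg, hu]
  have hint' : IsIntegral k[X] u := hint
  rw [← hφ, isIntegral_algHom_iff φ φ.injective] at hint'
  obtain ⟨P, hP⟩ := IsIntegrallyClosed.isIntegral_iff.mp hint'
  refine ⟨P, ?_⟩
  rw [← hφ, ← hP, AlgHom.commutes, halg]

/-- **Unit trick**: a nonzero element of `k(t)` (`t` of negative order) which is integral over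
`k[t]` cannot have positive order. -/
theorem locO_unit_trick_elem (t u : LaurentSeries k) (ht : t.order < 0) (hu0 : u ≠ 0)
    (hu : 0 < u.order) (hmem : u ∈ IntermediateField.adjoin k {t})
    (hint : (Polynomial.aeval t : k[X] →ₐ[k] LaurentSeries k).toRingHom.IsIntegralElem u) :
    False := by
  obtain ⟨P, rfl⟩ := locO_mem_range_of_integral t u ht hmem hint
  have hP : P ≠ 0 := fun h => hu0 (by rw [h, map_zero])
  exact absurd (locO_order_aeval_le t ht P hP) (not_le.mpr hu)

/-- **Unit trick**, subalgebra form. -/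
theorem locO_unit_trick (t u : LaurentSeries k) (ht : t.order < 0) (hu0 : u ≠ 0)
    (hu : 0 < u.order) (hmem : u ∈ IntermediateField.adjoin k {t})
    (hint : IsIntegral (Algebra.adjoin k {t}) u) : False := by
  refine locO_unit_trick_elem t u ht hu0 hu hmem ?_
  have hinj := locO_aeval_injective t ht.ne
  obtain ⟨Q, hQ, hroot⟩ := hint
  have hA : Algebra.adjoin k {t} = (Polynomial.aeval t : k[X] →ₐ[k] LaurentSeries k).range :=
    Algebra.adjoin_singleton_eq_range_aeval k t
  let e : k[X] ≃ₐ[k] (Polynomial.aeval t : k[X] →ₐ[k] LaurentSeries k).range :=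
    AlgEquiv.ofInjective _ hinj
  let ψ : Algebra.adjoin k {t} →+* k[X] :=
    (e.symm.toAlgHom.comp (Subalgebra.equivOfEq _ _ hA).toAlgHom).toRingHom
  refine ⟨Q.map ψ, hQ.map ψ, ?_⟩
  rw [Polynomial.eval₂_map]
  have hcomp : ((Polynomial.aeval t : k[X] →ₐ[k] LaurentSeries k).toRingHom.comp ψ) =
      algebraMap (Algebra.adjoin k {t}) (LaurentSeries k) := by
    refine RingHom.ext fun a => ?_
    have h1 : ((e (e.symm (Subalgebra.equivOfEq _ _ hA a)) :
        (Polynomial.aeval t : k[X] →ₐ[k] LaurentSeries k).range) : LaurentSeries k) = a := by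
      rw [AlgEquiv.apply_symm_apply]
      rfl
    exact h1
  rw [hcomp]
  exact hroot

end Unit

section Factor

variable (p : ℕ) [NeZero p]

/-- A monic non-constant divisor of `∏ b, (X - w b)` (all `w b` of order prime to `p`) with
coefficients in `k((q^p))` has degree at least `p`. -/
theorem locO_le_natDegree_of_dvd_prod {ι : Type*} (s : Finset ι) (w : ι → LaurentSeries k)
    (hw0 : ∀ b ∈ s, w b ≠ 0) (hw : ∀ b ∈ s, IsCoprime (w b).order (p : ℤ))
    (h : (LaurentSeries k)[X]) (hdeg : h.natDegree ≠ 0)
    (hdvd : h.map (qExpand k p) ∣ ∏ b ∈ s, (X - C (w b))) : p ≤ h.natDegree := by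
  have hprod0 : (∏ b ∈ s, (X - C (w b)) : (LaurentSeries k)[X]) ≠ 0 :=
    Finset.prod_ne_zero_iff.mpr fun b _ => Polynomial.X_sub_C_ne_zero _
  have hsplit : (h.map (qExpand k p)).Splits :=
    (Polynomial.Splits.prod fun b _ => Polynomial.Splits.X_sub_C (w b)).of_dvd hprod0 hdvd
  have hdeg' : (h.map (qExpand k p)).degree ≠ 0 := by
    rw [Polynomial.degree_map_eq_of_injective (qExpand_injective p)]
    intro h0
    exact hdeg (Polynomial.natDegree_eq_zero_iff_degree_le_zero.mpr h0.le)
  obtain ⟨r, hr⟩ := hsplit.exists_eval_eq_zero hdeg'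
  obtain ⟨c, hc⟩ := hdvd
  have hr' : (∏ b ∈ s, (X - C (w b)) : (LaurentSeries k)[X]).eval r = 0 := by
    rw [hc, Polynomial.eval_mul, hr, zero_mul]
  rw [Polynomial.eval_prod, Finset.prod_eq_zero_iff] at hr'
  obtain ⟨b, hb, hb0⟩ := hr'
  rw [Polynomial.eval_sub, Polynomial.eval_X, Polynomial.eval_C, sub_eq_zero] at hb0
  subst hb0
  have hh0 : h ≠ 0 := fun h0 => hdeg (by rw [h0, Polynomial.natDegree_zero])
  exact locO_le_natDegree p (w b) (hw0 b hb) (hw b hb) h hh0 hr

/-- **Factor dichotomy** (local analysis at the cusp): let `χ` be a polynomial over `k((q))` which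
over `k((q^{1/p}))` (i.e. after `q ↦ q^p`) factors as `(X - u) ∏_{b} (X - w b)`, with `p` series
`w b` of order prime to `p`.  Then a monic divisor `g` of `χ` with `g(u) = 0` is `X - u` or `χ`. -/
theorem locO_factor_dichotomy {ι : Type*} [Fintype ι] (hcard : Fintype.card ι = p)
    (χ : (LaurentSeries k)[X]) (u : LaurentSeries k) (w : ι → LaurentSeries k)
    (hw0 : ∀ b, w b ≠ 0) (hw : ∀ b, IsCoprime (w b).order (p : ℤ))
    (hχ : χ.map (qExpand k p) = (X - C (qExpand k p u)) * ∏ b, (X - C (w b)))
    (g : (LaurentSeries k)[X]) (hg : g.Monic) (hdvd : g ∣ χ) (hroot : g.eval u = 0) :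
    g = X - C u ∨ g = χ := by
  classical
  have hinj := qExpand_injective (R := k) p
  have hprodmonic : (∏ b : ι, (X - C (w b)) : (LaurentSeries k)[X]).Monic :=
    Polynomial.monic_prod_of_monic _ _ fun b _ => Polynomial.monic_X_sub_C _
  have hχmapmonic : (χ.map (qExpand k p)).Monic := by
    rw [hχ]
    exact (Polynomial.monic_X_sub_C _).mul hprodmonic
  have hχmonic : χ.Monic := by
    have h1 : (χ.map (qExpand k p)).leadingCoeff = 1 := hχmapmonic
    rw [Polynomial.leadingCoeff_map_of_injective hinj] at h1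
    exact hinj (by rw [h1, map_one])
  obtain ⟨h, rfl⟩ : (X - C u) ∣ g := Polynomial.dvd_iff_isRoot.mpr hroot
  have hhmonic : h.Monic := (Polynomial.monic_X_sub_C u).of_mul_monic_left hg
  obtain ⟨c, hc⟩ := hdvd
  have hcmonic : c.Monic := hg.of_mul_monic_left (hc ▸ hχmonic)
  have hmap : h.map (qExpand k p) * c.map (qExpand k p) = ∏ b : ι, (X - C (w b)) := by
    have h1 := hχ
    rw [hc, Polynomial.map_mul, Polynomial.map_mul, Polynomial.map_sub, Polynomial.map_X,
      Polynomial.map_C, mul_assoc] at h1
    exact mul_left_cancel₀ (Polynomial.X_sub_C_ne_zero _) h1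
  have hdegsum : h.natDegree + c.natDegree = p := by
    have h1 := congrArg Polynomial.natDegree hmap
    rw [Polynomial.natDegree_mul ((hhmonic.map _).ne_zero) ((hcmonic.map _).ne_zero),
      Polynomial.natDegree_map_eq_of_injective hinj, Polynomial.natDegree_map_eq_of_injective hinj,
      Polynomial.natDegree_prod_of_monic _ _ fun b _ => Polynomial.monic_X_sub_C _] at h1
    simpa [hcard] using h1
  by_cases hdeg : h.natDegree = 0
  · left
    rw [hhmonic.natDegree_eq_zero.mp hdeg, mul_one]
  · right
    have hle : p ≤ h.natDegree :=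
      locO_le_natDegree_of_dvd_prod p Finset.univ w (fun b _ => hw0 b) (fun b _ => hw b) h hdeg
        ⟨c.map (qExpand k p), hmap.symm⟩
    have hc0 : c.natDegree = 0 := by omega
    rw [hc, hcmonic.natDegree_eq_zero.mp hc0, mul_one]

end Factor

end Fermat.Agent.S28
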