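import Mathlib
import Fermat.Prelude.Def_ModularCurve_X0ModL
import Fermat.Agent.S28.IrredCrit
import Fermat.Agent.S28.LocalOrder

/-!
# S28 (K4-RED): reduction bookkeeping

From a characteristic polynomial `χ ∈ R[j][X]` (over any coefficient ring `R`, e.g. the ring of
numbers integral over `ℤ[1/N]`) having the Newton-polygon shape of (K1) modulo a ring
homomorphism `ρ : R → k'` into a field of characteristic `ℓ`, and from a root `g` of `χ(j, X)`
with integral `q`-expansion, we deduce the statement `KEY`: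

  `1, ḡ, …, ḡ^(n-1)` are linearly independent over `𝔽_ℓ[j̄]` inside `𝔽_ℓ((q))`,

in the shape `∀ Q : (ZMod ℓ)[X][X], Q ≠ 0 → Q.natDegree < n → Q(j̄, ḡ) ≠ 0`.
-/

set_option autoImplicit false

open Polynomial ModularCurve

noncomputable section

namespace Fermat.Agent.S28

section Naturality

variable {R S : Type*} [CommRing R] [CommRing S]

/-- The constant Laurent series. -/
theorem keyR_algebraMap_eq_single (r : R) :
    algebraMap R (LaurentSeries R) r = HahnSeries.single 0 r := by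
  have h1 : algebraMap R (PowerSeries R) r = PowerSeries.C r := by
    simp
  rw [HahnSeries.algebraMap_apply', h1, HahnSeries.ofPowerSeries_C]
  rfl

theorem keyR_coeffMap_algebraMap (f : R →+* S) (r : R) :
    coeffMap f (algebraMap R (LaurentSeries R) r) = algebraMap S (LaurentSeries S) (f r) := by
  rw [keyR_algebraMap_eq_single, keyR_algebraMap_eq_single, coeffMap_single]

/-- Two-variable evaluation `R[T][X] → R((q))`, `T ↦ t`, `X ↦ g`. -/
def keyR_eval (t g : LaurentSeries R) : R[X][X] →+* LaurentSeries R :=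
  Polynomial.eval₂RingHom ((Polynomial.aeval t : R[X] →ₐ[R] LaurentSeries R) : R[X] →+* _) g

theorem keyR_eval_apply (t g : LaurentSeries R) (χ : R[X][X]) :
    keyR_eval t g χ = χ.eval₂ (Polynomial.aeval t : R[X] →ₐ[R] LaurentSeries R).toRingHom g :=
  rfl

theorem keyR_eval_eq_eval_map (t g : LaurentSeries R) (χ : R[X][X]) :
    keyR_eval t g χ =
      (χ.map (Polynomial.aeval t : R[X] →ₐ[R] LaurentSeries R).toRingHom).eval g := by
  rw [keyR_eval_apply, Polynomial.eval₂_eq_eval_map]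

theorem keyR_eval_eq_sum (t g : LaurentSeries R) (χ : R[X][X]) :
    keyR_eval t g χ = ∑ i ∈ Finset.range (χ.natDegree + 1),
      Polynomial.aeval t (χ.coeff i) * g ^ i := by
  rw [keyR_eval_apply, Polynomial.eval₂_eq_sum_range]
  rfl

/-- Coefficientwise maps commute with one-variable evaluation. -/
theorem keyR_coeffMap_aeval (f : R →+* S) (t : LaurentSeries R) (P : R[X]) :
    coeffMap f (Polynomial.aeval t P) = Polynomial.aeval (coeffMap f t) (P.map f) := by
  induction P using Polynomial.induction_on' with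
  | add p q hp hq => simp only [map_add, Polynomial.map_add, hp, hq]
  | monomial n a =>
    rw [Polynomial.map_monomial, Polynomial.aeval_monomial, Polynomial.aeval_monomial, map_mul,
      map_pow, keyR_coeffMap_algebraMap]

/-- Coefficientwise maps commute with two-variable evaluation. -/
theorem keyR_coeffMap_eval (f : R →+* S) (t g : LaurentSeries R) (χ : R[X][X]) :
    coeffMap f (keyR_eval t g χ) =
      keyR_eval (coeffMap f t) (coeffMap f g) (χ.map (Polynomial.mapRingHom f)) := by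
  induction χ using Polynomial.induction_on' with
  | add p q hp hq => simp only [map_add, Polynomial.map_add, hp, hq]
  | monomial n a =>
    rw [Polynomial.map_monomial, keyR_eval_apply, keyR_eval_apply, Polynomial.eval₂_monomial,
      Polynomial.eval₂_monomial, map_mul, map_pow]
    congr 1
    exact keyR_coeffMap_aeval f t a

theorem keyR_coeffMap_injective {f : R →+* S} (hf : Function.Injective f) :
    Function.Injective (coeffMap f) := by
  intro x y h
  ext n
  apply hf
  have := congrArg (fun z => HahnSeries.coeff z n) h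
  simpa using this

/-- Pull an identity back along an injective coefficient map. -/
theorem keyR_eval_eq_zero_of_map {f : R →+* S} (hf : Function.Injective f)
    (t g : LaurentSeries R) (χ : R[X][X])
    (h : keyR_eval (coeffMap f t) (coeffMap f g) (χ.map (Polynomial.mapRingHom f)) = 0) :
    keyR_eval t g χ = 0 := by
  apply keyR_coeffMap_injective hf
  rw [keyR_coeffMap_eval, h, map_zero]

end Naturality

section Field

variable {k : Type*} [Field k]

/-- **Linear independence from irreducibility.**  If `χ ∈ k[T][X]` is monic and irreducible,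
`t ∈ k((q))` has nonzero order (so is transcendental) and `χ(t, g) = 0`, then no nonzero
`Q ∈ k[T][X]` of `X`-degree `< deg χ` vanishes at `(t, g)`. -/
theorem keyR_ne_zero_of_irreducible (t g : LaurentSeries k) (ht : t.order ≠ 0)
    (χ : k[X][X]) (hmon : χ.Monic) (hirr : Irreducible χ) (hroot : keyR_eval t g χ = 0)
    (Q : k[X][X]) (hQ : Q ≠ 0) (hdeg : Q.natDegree < χ.natDegree) :
    keyR_eval t g Q ≠ 0 := by
  intro hQ0
  set φ₀ : k[X] →+* LaurentSeries k :=
    ((Polynomial.aeval t : k[X] →ₐ[k] LaurentSeries k) : k[X] →+* LaurentSeries k) with hφ₀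
  have hinj : Function.Injective φ₀ := locO_aeval_injective t ht
  set φ : RatFunc k →+* LaurentSeries k := IsFractionRing.lift hinj with hφ
  have hφa : ∀ P : k[X], φ (algebraMap k[X] (RatFunc k) P) = φ₀ P :=
    fun P => IsFractionRing.lift_algebraMap hinj P
  have hcomp : φ.comp (algebraMap k[X] (RatFunc k)) = φ₀ := RingHom.ext hφa
  set χ' := χ.map (algebraMap k[X] (RatFunc k)) with hχ'
  set Q' := Q.map (algebraMap k[X] (RatFunc k)) with hQ'
  have hirr' : Irreducible χ' :=
    (hmon.irreducible_iff_irreducible_map_fraction_map (K := RatFunc k)).1 hirr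
  have hainj : Function.Injective (algebraMap k[X] (RatFunc k)) :=
    IsFractionRing.injective k[X] (RatFunc k)
  have hQ'0 : Q' ≠ 0 := (Polynomial.map_ne_zero_iff hainj).2 hQ
  have hQ'deg : Q'.natDegree < χ'.natDegree := by
    rw [hχ', hmon.natDegree_map, hQ', Polynomial.natDegree_map_eq_of_injective hainj]
    exact hdeg
  have hndvd : ¬ χ' ∣ Q' := fun hd =>
    hQ'0 (Polynomial.eq_zero_of_dvd_of_natDegree_lt hd hQ'deg)
  obtain ⟨a, b, hab⟩ := (hirr'.coprime_iff_not_dvd.2 hndvd)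
  have e1 : Polynomial.eval₂ φ g χ' = 0 := by
    rw [hχ', Polynomial.eval₂_map, hcomp]
    exact hroot
  have e2 : Polynomial.eval₂ φ g Q' = 0 := by
    rw [hQ', Polynomial.eval₂_map, hcomp]
    exact hQ0
  have := congrArg (Polynomial.eval₂ φ g) hab
  rw [Polynomial.eval₂_add, Polynomial.eval₂_mul, Polynomial.eval₂_mul, e1, e2, mul_zero,
    mul_zero, add_zero, Polynomial.eval₂_one] at this
  exact zero_ne_one this

/-- **(K1) ⇒ linear independence.** -/
theorem keyR_ne_zero_of_K1 (t g : LaurentSeries k) (ht : t.order ≠ 0)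
    (χ : k[X][X]) (hmon : χ.Monic) {c : k} (hc : c ≠ 0) (h0 : χ.coeff 0 = C c)
    (hdeg : ∀ i, i ≠ 1 → (χ.coeff i).natDegree < (χ.coeff 1).natDegree)
    (hroot : keyR_eval t g χ = 0)
    (Q : k[X][X]) (hQ : Q ≠ 0) (hQdeg : Q.natDegree < χ.natDegree) :
    keyR_eval t g Q ≠ 0 :=
  keyR_ne_zero_of_irreducible t g ht χ hmon (s28k_irreducible χ hc h0 hdeg) hroot Q hQ hQdeg

/-- Descent of `KEY` along a field extension: independence over `k'[t]` implies independence
over `k[t]`. -/
theorem keyR_descend {k' : Type*} [Field k'] (f : k →+* k') (t g : LaurentSeries k) (n : ℕ)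
    (h : ∀ Q' : k'[X][X], Q' ≠ 0 → Q'.natDegree < n →
      keyR_eval (coeffMap f t) (coeffMap f g) Q' ≠ 0)
    (Q : k[X][X]) (hQ : Q ≠ 0) (hdeg : Q.natDegree < n) :
    keyR_eval t g Q ≠ 0 := by
  intro h0
  have hinj : Function.Injective (Polynomial.mapRingHom f) :=
    Polynomial.map_injective f f.injective
  refine h (Q.map (Polynomial.mapRingHom f)) ((Polynomial.map_ne_zero_iff hinj).2 hQ) ?_ ?_
  · rw [Polynomial.natDegree_map_eq_of_injective hinj]
    exact hdeg
  · rw [← keyR_coeffMap_eval, h0, map_zero]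

theorem keyR_order_jqModC : (jqModC k).order = -1 := by
  have hne : jqModC k ≠ 0 := jqModC_ne_zero_of_nontrivial k
  refine le_antisymm (HahnSeries.order_le_of_coeff_ne_zero ?_) ?_
  · rw [coeff_jqModC_neg_one]
    exact one_ne_zero
  · by_contra hlt
    rw [not_le] at hlt
    exact HahnSeries.coeff_order_eq_zero.not.mpr hne (coeff_jqModC_of_lt k hlt)

end Field

section Reduction

variable {R : Type*} [CommRing R] {k' : Type*} [Field k']

/-- The (K1) shape is preserved by a reduction map that keeps the two relevant leading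
coefficients nonzero. -/
theorem keyR_K1_map (ρ : R →+* k') (χ : R[X][X]) {c : R} (h0 : χ.coeff 0 = C c)
    (hdeg : ∀ i, i ≠ 1 → (χ.coeff i).natDegree < (χ.coeff 1).natDegree)
    (hlead : ρ (χ.coeff 1).leadingCoeff ≠ 0) :
    (χ.map (Polynomial.mapRingHom ρ)).coeff 0 = C (ρ c) ∧
    ∀ i, i ≠ 1 → ((χ.map (Polynomial.mapRingHom ρ)).coeff i).natDegree <
      ((χ.map (Polynomial.mapRingHom ρ)).coeff 1).natDegree := by
  refine ⟨?_, fun i hi => ?_⟩
  · rw [Polynomial.coeff_map, h0, Polynomial.coe_mapRingHom, Polynomial.map_C]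
  · rw [Polynomial.coeff_map, Polynomial.coeff_map, Polynomial.coe_mapRingHom,
      Polynomial.natDegree_map_of_leadingCoeff_ne_zero ρ hlead]
    exact lt_of_le_of_lt Polynomial.natDegree_map_le (hdeg i hi)

/-- **KEY over the residue field `k'`.**  `χ ∈ R[j][X]` monic with `χ(j, g) = 0` in `R((q))`
(`g` with integer coefficients), of the (K1) shape modulo `ρ : R → k'`.  Then no nonzero
`Q ∈ k'[j][X]` of degree `< deg χ` vanishes at `(j̄, ḡ)`. -/
theorem keyR_key_field (ρ : R →+* k') (χ : R[X][X]) (hmon : χ.Monic) {c : R} (hc : ρ c ≠ 0)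
    (h0 : χ.coeff 0 = C c)
    (hdeg : ∀ i, i ≠ 1 → (χ.coeff i).natDegree < (χ.coeff 1).natDegree)
    (hlead : ρ (χ.coeff 1).leadingCoeff ≠ 0)
    (g : LaurentSeries ℤ)
    (hroot : keyR_eval (jqModC R) (coeffMap (Int.castRingHom R) g) χ = 0)
    (Q : k'[X][X]) (hQ : Q ≠ 0) (hQdeg : Q.natDegree < χ.natDegree) :
    keyR_eval (jqModC k') (coeffMap (Int.castRingHom k') g) Q ≠ 0 := by
  obtain ⟨h0', hdeg'⟩ := keyR_K1_map ρ χ h0 hdeg hlead
  have hmon' : (χ.map (Polynomial.mapRingHom ρ)).Monic := hmon.map _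
  have hg : coeffMap ρ (coeffMap (Int.castRingHom R) g) = coeffMap (Int.castRingHom k') g := by
    rw [coeffMap_coeffMap]
    exact coeffMap_congr (RingHom.ext_int _ _) g
  have hroot' : keyR_eval (jqModC k') (coeffMap (Int.castRingHom k') g)
      (χ.map (Polynomial.mapRingHom ρ)) = 0 := by
    have := congrArg (coeffMap ρ) hroot
    rw [keyR_coeffMap_eval, coeffMap_jqModC, hg, map_zero] at this
    exact this
  have hord : (jqModC k').order ≠ 0 := by
    rw [keyR_order_jqModC]; norm_num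
  refine keyR_ne_zero_of_K1 _ _ hord _ hmon' hc h0' hdeg' hroot' Q hQ ?_
  rw [hmon.natDegree_map]
  exact hQdeg

/-- **KEY over the prime field.**  Same hypotheses, `k'` of characteristic `ℓ`: then
`1, ḡ, …, ḡ^(n-1)` are linearly independent over `𝔽_ℓ[j̄]` inside `𝔽_ℓ((q))`, `n = deg χ`. -/
theorem keyR_key (ℓ : ℕ) [Fact ℓ.Prime] [CharP k' ℓ]
    (ρ : R →+* k') (χ : R[X][X]) (hmon : χ.Monic) {c : R} (hc : ρ c ≠ 0)
    (h0 : χ.coeff 0 = C c)
    (hdeg : ∀ i, i ≠ 1 → (χ.coeff i).natDegree < (χ.coeff 1).natDegree)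
    (hlead : ρ (χ.coeff 1).leadingCoeff ≠ 0)
    (g : LaurentSeries ℤ)
    (hroot : keyR_eval (jqModC R) (coeffMap (Int.castRingHom R) g) χ = 0)
    (Q : (ZMod ℓ)[X][X]) (hQ : Q ≠ 0) (hQdeg : Q.natDegree < χ.natDegree) :
    keyR_eval (jqModC (ZMod ℓ)) (coeffMap (Int.castRingHom (ZMod ℓ)) g) Q ≠ 0 := by
  refine keyR_descend (ZMod.castHom (dvd_refl ℓ) k') _ _ χ.natDegree ?_ Q hQ hQdeg
  intro Q' hQ' hQ'deg
  rw [coeffMap_jqModC, coeffMap_coeffMap,
    coeffMap_congr (RingHom.ext_int ((ZMod.castHom (dvd_refl ℓ) k').comp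
      (Int.castRingHom (ZMod ℓ))) (Int.castRingHom k')) g]
  exact keyR_key_field ρ χ hmon hc h0 hdeg hlead g hroot Q' hQ' hQ'deg

/-- The same statement with `Polynomial.eval₂` spelled out. -/
theorem keyR_key_eval₂ (ℓ : ℕ) [Fact ℓ.Prime] [CharP k' ℓ]
    (ρ : R →+* k') (χ : R[X][X]) (hmon : χ.Monic) {c : R} (hc : ρ c ≠ 0)
    (h0 : χ.coeff 0 = C c)
    (hdeg : ∀ i, i ≠ 1 → (χ.coeff i).natDegree < (χ.coeff 1).natDegree)
    (hlead : ρ (χ.coeff 1).leadingCoeff ≠ 0)
    (g : LaurentSeries ℤ)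
    (hroot : χ.eval₂ (Polynomial.aeval (jqModC R) : R[X] →ₐ[R] LaurentSeries R).toRingHom
      (coeffMap (Int.castRingHom R) g) = 0)
    (Q : (ZMod ℓ)[X][X]) (hQ : Q ≠ 0) (hQdeg : Q.natDegree < χ.natDegree) :
    Q.eval₂ (Polynomial.aeval (jqModC (ZMod ℓ)) :
        (ZMod ℓ)[X] →ₐ[ZMod ℓ] LaurentSeries (ZMod ℓ)).toRingHom
      (coeffMap (Int.castRingHom (ZMod ℓ)) g) ≠ 0 :=
  keyR_key ℓ ρ χ hmon hc h0 hdeg hlead g hroot Q hQ hQdeg

/-- `KEY` in the shape fixed by the S28 plan (`(Q.map _).eval _ ≠ 0`). -/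
theorem keyR_key_eval_map (ℓ : ℕ) [Fact ℓ.Prime] [CharP k' ℓ]
    (ρ : R →+* k') (χ : R[X][X]) (hmon : χ.Monic) {c : R} (hc : ρ c ≠ 0)
    (h0 : χ.coeff 0 = C c)
    (hdeg : ∀ i, i ≠ 1 → (χ.coeff i).natDegree < (χ.coeff 1).natDegree)
    (hlead : ρ (χ.coeff 1).leadingCoeff ≠ 0)
    (g : LaurentSeries ℤ)
    (hroot : (χ.map (Polynomial.aeval (jqModC R) : R[X] →ₐ[R] LaurentSeries R).toRingHom).eval
      (coeffMap (Int.castRingHom R) g) = 0)
    (Q : (ZMod ℓ)[X][X]) (hQ : Q ≠ 0) (hQdeg : Q.natDegree < χ.natDegree) :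
    (Q.map (Polynomial.aeval (jqModC (ZMod ℓ)) :
        (ZMod ℓ)[X] →ₐ[ZMod ℓ] LaurentSeries (ZMod ℓ)).toRingHom).eval
      (coeffMap (Int.castRingHom (ZMod ℓ)) g) ≠ 0 := by
  rw [← keyR_eval_eq_eval_map]
  rw [← keyR_eval_eq_eval_map] at hroot
  exact keyR_key ℓ ρ χ hmon hc h0 hdeg hlead g hroot Q hQ hQdeg

end Reduction

section Subring

variable {S : Type*} [CommRing S] {k' : Type*} [Field k']

/-- Lift a two-variable polynomial all of whose coefficients lie in a subring. -/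
theorem keyR_exists_lift (R₀ : Subring S) (χ : S[X][X])
    (hcoef : ∀ i j, (χ.coeff i).coeff j ∈ R₀) :
    ∃ χ₀ : (↥R₀)[X][X], χ₀.map (Polynomial.mapRingHom R₀.subtype) = χ := by
  have h1 : ∀ i, χ.coeff i ∈ Polynomial.lifts R₀.subtype := by
    intro i
    rw [Polynomial.lifts_iff_coeff_lifts]
    intro j
    exact ⟨⟨_, hcoef i j⟩, rfl⟩
  have h2 : χ ∈ Polynomial.lifts (Polynomial.mapRingHom R₀.subtype) := by
    rw [Polynomial.lifts_iff_coeff_lifts]
    intro i
    obtain ⟨P, hP⟩ := (Polynomial.mem_lifts _).1 (h1 i)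
    exact ⟨P, hP⟩
  exact (Polynomial.mem_lifts _).1 h2

/-- **KEY, subring form.**  `χ ∈ S[j][X]` (e.g. `S = ℂ`) monic with all coefficients in a subring
`R₀ ⊆ S` (e.g. the numbers integral over `ℤ[1/N]`), `χ(j, g) = 0` in `S((q))`, and the (K1)
shape survives the reduction `ρ : R₀ → k'`, `k'` a field of characteristic `ℓ`.  Then
`1, ḡ, …, ḡ^(n-1)` are linearly independent over `𝔽_ℓ[j̄]`. -/
theorem keyR_key_subring (ℓ : ℕ) [Fact ℓ.Prime] [CharP k' ℓ] (R₀ : Subring S)
    (ρ : ↥R₀ →+* k') (χ : S[X][X]) (hmon : χ.Monic)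
    (hcoef : ∀ i j, (χ.coeff i).coeff j ∈ R₀)
    {c : S} (hcR : c ∈ R₀) (hc : ρ ⟨c, hcR⟩ ≠ 0) (h0 : χ.coeff 0 = C c)
    (hdeg : ∀ i, i ≠ 1 → (χ.coeff i).natDegree < (χ.coeff 1).natDegree)
    (hlead : ρ ⟨(χ.coeff 1).leadingCoeff, hcoef 1 _⟩ ≠ 0)
    (g : LaurentSeries ℤ)
    (hroot : (χ.map (Polynomial.aeval (jqModC S) : S[X] →ₐ[S] LaurentSeries S).toRingHom).eval
      (coeffMap (Int.castRingHom S) g) = 0)
    (Q : (ZMod ℓ)[X][X]) (hQ : Q ≠ 0) (hQdeg : Q.natDegree < χ.natDegree) :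
    (Q.map (Polynomial.aeval (jqModC (ZMod ℓ)) :
        (ZMod ℓ)[X] →ₐ[ZMod ℓ] LaurentSeries (ZMod ℓ)).toRingHom).eval
      (coeffMap (Int.castRingHom (ZMod ℓ)) g) ≠ 0 := by
  obtain ⟨χ₀, hχ₀⟩ := keyR_exists_lift R₀ χ hcoef
  have hsub : Function.Injective R₀.subtype := Subtype.val_injective
  have hinj : Function.Injective (Polynomial.mapRingHom R₀.subtype) :=
    Polynomial.map_injective _ hsub
  have hinj2 : Function.Injective (Polynomial.map (Polynomial.mapRingHom R₀.subtype)) :=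
    Polynomial.map_injective _ hinj
  have hcoeff : ∀ i, (χ₀.coeff i).map R₀.subtype = χ.coeff i := by
    intro i
    rw [← hχ₀, Polynomial.coeff_map, Polynomial.coe_mapRingHom]
  have hnd : ∀ i, (χ₀.coeff i).natDegree = (χ.coeff i).natDegree := by
    intro i
    rw [← hcoeff i, Polynomial.natDegree_map_eq_of_injective hsub]
  have hmon₀ : χ₀.Monic := by
    have : (χ₀.map (Polynomial.mapRingHom R₀.subtype)).Monic := by rw [hχ₀]; exact hmon
    exact Polynomial.monic_of_injective hinj this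
  have hndχ : χ₀.natDegree = χ.natDegree := by
    rw [← hχ₀, Polynomial.natDegree_map_eq_of_injective hinj]
  have h0₀ : χ₀.coeff 0 = C (⟨c, hcR⟩ : ↥R₀) := by
    apply Polynomial.map_injective _ hsub
    rw [hcoeff 0, h0, Polynomial.map_C]
    rfl
  have hlc : (χ₀.coeff 1).leadingCoeff = ⟨(χ.coeff 1).leadingCoeff, hcoef 1 _⟩ := by
    apply hsub
    rw [← Polynomial.leadingCoeff_map_of_injective hsub, hcoeff 1]
    rfl
  have hroot₀ : keyR_eval (jqModC ↥R₀) (coeffMap (Int.castRingHom ↥R₀) g) χ₀ = 0 := by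
    apply keyR_eval_eq_zero_of_map hsub
    rw [coeffMap_jqModC, coeffMap_coeffMap,
      coeffMap_congr (RingHom.ext_int (R₀.subtype.comp (Int.castRingHom ↥R₀))
        (Int.castRingHom S)) g, hχ₀, keyR_eval_eq_eval_map]
    exact hroot
  rw [← keyR_eval_eq_eval_map]
  refine keyR_key ℓ ρ χ₀ hmon₀ hc h0₀ (fun i hi => ?_) ?_ g hroot₀ Q hQ ?_
  · rw [hnd i, hnd 1]
    exact hdeg i hi
  · rw [hlc]
    exact hlead
  · rw [hndχ]
    exact hQdeg

end Subring

end Fermat.Agent.S28

end
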