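/-
S28 [DRY-RUN] (helper6): type-level assembly of the S28 conclusion from the frozen interface
shapes of plan v1:

* `DryKeyStatement`  : the shape of KEY (`s28c_key`),
* `DryRedKStatement` : the shape of `redK_reductions`,
* `dry_isIntegral`   : KEY + REDK ⟹ the conclusion of S28 (via `degQ_finite`,
  `degQ_finrank_le` and `wrapT_isIntegral_of_reductions`, which are proved).

This file proves nothing new; it only checks that the three interfaces compose.
-/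
import Fermat.Agent.S28.TensorDomain
import Fermat.Agent.S28.DegQ
import Fermat.Agent.S28.KeyRed
import Fermat.Prelude.Def_ModularCurve_JqCoeff
import Fermat.Prelude.Def_ModularCurve_LaurentCoeff
import Fermat.Prelude.Def_ModularCurve_IgusaScheme

set_option autoImplicit false

open AlgebraicGeometry CategoryTheory CategoryTheory.Limits ModularCurve ModularCurve.IgusaScheme
open Polynomial IntermediateField
open scoped MatrixGroups

noncomputable section

namespace Fermat.Agent.S28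

/-- The independence half of KEY for a fixed integral series `g`, prime `ℓ` and bound `n`:
no nonzero `Q ∈ 𝔽_ℓ[j][X]` of `X`-degree `< n` kills `(j̄, ḡ)`. -/
def DryIndep (ℓ : ℕ) (n : ℕ) (g : LaurentSeries ℤ) : Prop :=
  ∀ Q : (ZMod ℓ)[X][X], Q ≠ 0 → Q.natDegree < n →
    (Q.map (Polynomial.aeval (jqModC (ZMod ℓ))).toRingHom).eval
      (coeffMap (Int.castRingHom (ZMod ℓ)) g) ≠ 0

/-- The hypothesis `hkey` of `redK_reductions`, for a level `N`, prime `ℓ` and bound `n`. -/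
def DryKeyAt (N : ℕ) [NeZero N] (ℓ : ℕ) (n : ℕ) : Prop :=
  ∃ g : LaurentSeries ℤ,
    coeffMap (Int.castRingHom ℚ) g ∈ modularFunctionFieldFull N ∧ DryIndep ℓ n g

/-- Frozen shape of KEY (`s28c_key`). -/
def DryKeyStatement : Prop :=
  ∀ (N ℓ : ℕ) [NeZero N] [Fact ℓ.Prime], ¬ ℓ ∣ N →
    DryKeyAt N ℓ (Nat.card (SL(2, ℤ) ⧸ CongruenceSubgroup.Gamma0 N))

/-- The conclusion of `redK_reductions` = the inputs of `wrapT_isIntegral_of_reductions`. -/
def DryReductions (N : ℕ) [NeZero N] (ℓ : ℕ) [Fact ℓ.Prime] : Prop :=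
  ∃ (ρFin : ↥(chartAlgFin N ℓ) →+* LaurentSeries (ZMod ℓ))
    (ρInf : ↥(chartAlgInf N ℓ) →+* LaurentSeries (ZMod ℓ)),
    (∀ b, ρFin b = 0 → ∃ b', b = (ℓ : ↥(chartAlgFin N ℓ)) * b') ∧
    ρFin (jChartFin N ℓ) ≠ 0 ∧
    (∀ b, ρInf b = 0 → ∃ b', b = (ℓ : ↥(chartAlgInf N ℓ)) * b')

/-- Frozen shape of `redK_reductions`. -/
def DryRedKStatement : Prop :=
  ∀ (N ℓ : ℕ) [NeZero N] [Fact ℓ.Prime] (n : ℕ)
    (_hfin : FiniteDimensional ↥(ℚ⟮jFull N⟯) ↥(modularFunctionFieldFull N))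
    (_hdeg : Module.finrank ↥(ℚ⟮jFull N⟯) ↥(modularFunctionFieldFull N) ≤ n)
    (_hkey : DryKeyAt N ℓ n), DryReductions N ℓ

/-- The two chart reductions give the S28 conclusion (restatement of
`wrapT_isIntegral_of_reductions` with the instance binders in the order of the frozen
statement). -/
theorem dry_isIntegral_of_reductions (N : ℕ) [NeZero N] (ℓ : ℕ) [Fact ℓ.Prime]
    (h : DryReductions N ℓ)
    (K : Type) [Field K] [CharP K ℓ] [Algebra ↥(GaloisRep.ratLocalizedAt ℓ) K] :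
    IsIntegral ↑(pullback (igusaTo N ℓ)
      (Spec.map (CommRingCat.ofHom (algebraMap ↥(GaloisRep.ratLocalizedAt ℓ) K)))) := by
  obtain ⟨ρFin, ρInf, hFin, hj, hInf⟩ := h
  exact wrapT_isIntegral_of_reductions N ℓ K ρFin hFin hj ρInf hInf

/-- KEY + REDK give the two chart reductions. -/
theorem dry_reductions (hKey : DryKeyStatement) (hRedK : DryRedKStatement)
    (N : ℕ) [NeZero N] (ℓ : ℕ) [Fact ℓ.Prime] (hℓN : ¬ ℓ ∣ N) : DryReductions N ℓ :=
  hRedK N ℓ _ (degQ_finite N) (degQ_finrank_le N) (hKey N ℓ hℓN)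

/-- [DRY-RUN] KEY + REDK ⟹ the statement of S28, with the binders of the frozen statement. -/
theorem dry_isIntegral (hKey : DryKeyStatement) (hRedK : DryRedKStatement)
    (N : ℕ) [NeZero N] (ℓ : ℕ) [Fact ℓ.Prime] (hℓN : ¬ ℓ ∣ N)
    (K : Type) [Field K] [CharP K ℓ] [Algebra ↥(GaloisRep.ratLocalizedAt ℓ) K] :
    IsIntegral ↑(pullback (igusaTo N ℓ)
      (Spec.map (CommRingCat.ofHom (algebraMap ↥(GaloisRep.ratLocalizedAt ℓ) K)))) :=
  dry_isIntegral_of_reductions N ℓ (dry_reductions hKey hRedK N ℓ hℓN) K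

/-- Interface check KeyRed → KEY: the conclusion of `keyR_key_subring` is literally
`DryIndep ℓ χ.natDegree g` (same algebra instances on both sides). -/
theorem dry_indep_of_keyR {S : Type*} [CommRing S] {k' : Type*} [Field k']
    (ℓ : ℕ) [Fact ℓ.Prime] [CharP k' ℓ] (R₀ : Subring S)
    (ρ : ↥R₀ →+* k') (χ : S[X][X]) (hmon : χ.Monic)
    (hcoef : ∀ i j, (χ.coeff i).coeff j ∈ R₀)
    {c : S} (hcR : c ∈ R₀) (hc : ρ ⟨c, hcR⟩ ≠ 0) (h0 : χ.coeff 0 = C c)
    (hdeg : ∀ i, i ≠ 1 → (χ.coeff i).natDegree < (χ.coeff 1).natDegree)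
    (hlead : ρ ⟨(χ.coeff 1).leadingCoeff, hcoef 1 _⟩ ≠ 0)
    (g : LaurentSeries ℤ)
    (hroot : (χ.map (Polynomial.aeval (jqModC S) : S[X] →ₐ[S] LaurentSeries S).toRingHom).eval
      (coeffMap (Int.castRingHom S) g) = 0) :
    DryIndep ℓ χ.natDegree g :=
  fun Q hQ hQdeg =>
    keyR_key_subring ℓ R₀ ρ χ hmon hcoef hcR hc h0 hdeg hlead g hroot Q hQ hQdeg

/-- KEY at `(N, ℓ)` from a K1-shaped `χ` of the right degree with root `(j, g)`, `g ∈ F`. -/
theorem dry_keyAt_of_keyR {S : Type*} [CommRing S] {k' : Type*} [Field k']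
    (N : ℕ) [NeZero N] (ℓ : ℕ) [Fact ℓ.Prime] [CharP k' ℓ] (R₀ : Subring S)
    (ρ : ↥R₀ →+* k') (χ : S[X][X]) (hmon : χ.Monic)
    (hcoef : ∀ i j, (χ.coeff i).coeff j ∈ R₀)
    {c : S} (hcR : c ∈ R₀) (hc : ρ ⟨c, hcR⟩ ≠ 0) (h0 : χ.coeff 0 = C c)
    (hdeg : ∀ i, i ≠ 1 → (χ.coeff i).natDegree < (χ.coeff 1).natDegree)
    (hlead : ρ ⟨(χ.coeff 1).leadingCoeff, hcoef 1 _⟩ ≠ 0)
    (g : LaurentSeries ℤ)
    (hmem : coeffMap (Int.castRingHom ℚ) g ∈ modularFunctionFieldFull N)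
    (hroot : (χ.map (Polynomial.aeval (jqModC S) : S[X] →ₐ[S] LaurentSeries S).toRingHom).eval
      (coeffMap (Int.castRingHom S) g) = 0)
    (n : ℕ) (hn : n ≤ χ.natDegree) :
    DryKeyAt N ℓ n :=
  ⟨g, hmem, fun Q hQ hQdeg =>
    dry_indep_of_keyR ℓ R₀ ρ χ hmon hcoef hcR hc h0 hdeg hlead g hroot Q hQ
      (lt_of_lt_of_le hQdeg hn)⟩

/-! ### The degenerate case `n = 1` (in particular level `N = 1`)

For `n = 1` the K1 shape is not available (`χ = X - g` has `deg P₀ = deg P₁ = 0`), but KEY is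
just the transcendence of `j̄` over `𝔽_ℓ`. -/

/-- For `n = 1` the independence statement holds for every `g`. -/
theorem dry_indep_one (ℓ : ℕ) [Fact ℓ.Prime] (g : LaurentSeries ℤ) : DryIndep ℓ 1 g := by
  intro Q hQ hdeg
  have h0 : Q.natDegree = 0 := by omega
  obtain ⟨P, rfl⟩ : ∃ P, Q = C P := ⟨Q.coeff 0, Polynomial.eq_C_of_natDegree_eq_zero h0⟩
  rw [Polynomial.map_C, Polynomial.eval_C]
  have hP : P ≠ 0 := by
    rintro rfl
    exact hQ (map_zero _)
  have hord : (jqModC (ZMod ℓ)).order ≠ 0 := by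
    rw [keyR_order_jqModC]
    decide
  exact locO_aeval_ne_zero _ hord P hP

/-- KEY with bound `n = 1`, for every level (take `g = 1`). -/
theorem dry_keyAt_one (N : ℕ) [NeZero N] (ℓ : ℕ) [Fact ℓ.Prime] : DryKeyAt N ℓ 1 := by
  refine ⟨1, ?_, dry_indep_one ℓ 1⟩
  rw [map_one]
  exact one_mem _

theorem dry_gamma0_one : CongruenceSubgroup.Gamma0 1 = ⊤ := by
  ext A
  simp only [CongruenceSubgroup.Gamma0_mem, Subgroup.mem_top, iff_true]
  exact Subsingleton.elim _ _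

theorem dry_card_gamma0_one :
    Nat.card (SL(2, ℤ) ⧸ CongruenceSubgroup.Gamma0 1) = 1 := by
  rw [dry_gamma0_one]
  exact Subgroup.index_top

/-- KEY at level one. -/
theorem dry_keyAt_level_one (ℓ : ℕ) [Fact ℓ.Prime] :
    DryKeyAt 1 ℓ (Nat.card (SL(2, ℤ) ⧸ CongruenceSubgroup.Gamma0 1)) := by
  rw [dry_card_gamma0_one]
  exact dry_keyAt_one 1 ℓ

/-- KEY for all levels follows from KEY for the levels `N ≥ 2`. -/
theorem dry_key_of_two_le
    (h : ∀ (N ℓ : ℕ) [NeZero N] [Fact ℓ.Prime], 2 ≤ N → ¬ ℓ ∣ N →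
      DryKeyAt N ℓ (Nat.card (SL(2, ℤ) ⧸ CongruenceSubgroup.Gamma0 N))) :
    DryKeyStatement := by
  intro N ℓ _ _ hℓN
  rcases Nat.lt_or_ge N 2 with hN | hN
  · have hN1 : N = 1 := by
      have := NeZero.ne N
      omega
    subst hN1
    exact dry_keyAt_level_one ℓ
  · exact h N ℓ hN hℓN

end Fermat.Agent.S28
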