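/-
S28 (helper6): bridges from `DryRun.lean` to the frozen interfaces of `Defs.lean`.

* `keyOne_keyAt_iff`, `keyOne_keyStatement_iff`, `keyOne_redStatement_iff`: the `Dry*` shapes are
  the `s28_*` shapes (by `Iff.rfl`);
* `keyOne_keyAt_one`, `keyOne_keyAt_level_one`, `keyOne_key_of_two_le`: KEY in the degenerate
  case `n = 1` (level one), where the K1 shape of the characteristic polynomial is not available;
* `keyOne_keyAt_of_keyR`: KEY at `(N, ℓ)` from a K1-shaped characteristic polynomial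
  (one application of `keyR_key_subring`);
* `keyOne_degQ`: DEG-Q in the shape of `Defs.lean`.
-/
import Fermat.Agent.S28.Defs
import Fermat.Agent.S28.DryRun

set_option autoImplicit false

open AlgebraicGeometry CategoryTheory CategoryTheory.Limits ModularCurve ModularCurve.IgusaScheme
open Polynomial IntermediateField
open scoped MatrixGroups

noncomputable section

namespace Fermat.Agent.S28

theorem keyOne_keyAt_iff (N ℓ : ℕ) [NeZero N] [Fact ℓ.Prime] (n : ℕ) :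
    s28_KeyAt N ℓ n ↔ DryKeyAt N ℓ n := Iff.rfl

theorem keyOne_keyStatement_iff : s28_KeyStatement ↔ DryKeyStatement := Iff.rfl

theorem keyOne_redAt_iff (N ℓ : ℕ) [NeZero N] [Fact ℓ.Prime] :
    s28_RedAt N ℓ ↔ DryReductions N ℓ := Iff.rfl

theorem keyOne_redStatement_iff : s28_RedStatement ↔ DryRedKStatement := Iff.rfl

/-- DEG-Q in the shape of `Defs.lean`. -/
theorem keyOne_degQ : s28_DegQStatement :=
  fun N _ => ⟨degQ_finite N, degQ_finrank_le N⟩

/-- KEY with bound `n = 1`, for every level. -/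
theorem keyOne_keyAt_one (N ℓ : ℕ) [NeZero N] [Fact ℓ.Prime] : s28_KeyAt N ℓ 1 :=
  dry_keyAt_one N ℓ

/-- KEY at level one. -/
theorem keyOne_keyAt_level_one (ℓ : ℕ) [Fact ℓ.Prime] :
    s28_KeyAt 1 ℓ (Nat.card (SL(2, ℤ) ⧸ CongruenceSubgroup.Gamma0 1)) :=
  dry_keyAt_level_one ℓ

/-- KEY for all levels follows from KEY for the levels `N ≥ 2`. -/
theorem keyOne_key_of_two_le
    (h : ∀ (N ℓ : ℕ) [NeZero N] [Fact ℓ.Prime], 2 ≤ N → ¬ ℓ ∣ N →
      s28_KeyAt N ℓ (Nat.card (SL(2, ℤ) ⧸ CongruenceSubgroup.Gamma0 N))) :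
    s28_KeyStatement :=
  dry_key_of_two_le h

/-- KEY at `(N, ℓ)` from a K1-shaped `χ` (coefficients in a subring `R₀ ⊆ S` with a reduction
`ρ : R₀ → k'`, `char k' = ℓ`) of degree `≥ n` with root `(j, g)`, `g ∈ ℚ(X₀(N))`. -/
theorem keyOne_keyAt_of_keyR {S : Type*} [CommRing S] {k' : Type*} [Field k']
    (N ℓ : ℕ) [NeZero N] [Fact ℓ.Prime] [CharP k' ℓ] (R₀ : Subring S)
    (ρ : ↥R₀ →+* k') (χ : S[X][X]) (hmon : χ.Monic)
    (hcoef : ∀ i j, (χ.coeff i).coeff j ∈ R₀)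
    {c : S} (hcR : c ∈ R₀) (hc : ρ ⟨c, hcR⟩ ≠ 0) (h0 : χ.coeff 0 = C c)
    (hdeg : ∀ i, i ≠ 1 → (χ.coeff i).natDegree < (χ.coeff 1).natDegree)
    (hlead : ρ ⟨(χ.coeff 1).leadingCoeff, hcoef 1 _⟩ ≠ 0)
    (g : LaurentSeries ℤ)
    (hmem : coeffMap (Int.castRingHom ℚ) g ∈ modularFunctionFieldFull N)
    (hroot : (χ.map (Polynomial.aeval (jqModC S) : S[X] →ₐ[S] LaurentSeries S).toRingHom).eval
      (coeffMap (Int.castRingHom S) g) = 0)
    (n : ℕ) (hn : n ≤ χ.natDegree) :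
    s28_KeyAt N ℓ n :=
  dry_keyAt_of_keyR N ℓ R₀ ρ χ hmon hcoef hcR hc h0 hdeg hlead g hmem hroot n hn

/-- The composition of `Defs.lean` with DEG-Q plugged in. -/
theorem keyOne_result_of (hkey : s28_KeyStatement) (hred : s28_RedStatement)
    (N : ℕ) [NeZero N] (ℓ : ℕ) [Fact ℓ.Prime] (hℓN : ¬ ℓ ∣ N)
    (K : Type) [Field K] [CharP K ℓ] [Algebra ↥(GaloisRep.ratLocalizedAt ℓ) K] :
    IsIntegral ↑(pullback (igusaTo N ℓ)
      (Spec.map (CommRingCat.ofHom (algebraMap ↥(GaloisRep.ratLocalizedAt ℓ) K)))) :=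
  s28_result_of keyOne_degQ hkey hred N ℓ hℓN K

end Fermat.Agent.S28
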