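/-
S28 (Igusa), package ORD-COMB (helper11): the arithmetic identity behind the orders of the
translates of the modular unit `g_N`.

For `N ≥ 1` and every integer `c`:
  `∑_{s ∣ N} μ(s) · gcd(N / s, c)² = J₂(N)` if `N ∣ c`, and `= 0` otherwise,
where `J₂(N) = ∑_{s ∣ N} μ(s) (N / s)² > 0` is Jordan's totient.
Mathlib only.
-/
import Mathlib

set_option autoImplicit false

namespace Fermat.Agent.S28

open ArithmeticFunction Finset

/-- Jordan's totient `J₂ = μ * n²` as an integer valued arithmetic function. -/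
noncomputable def ordC_J : ArithmeticFunction ℤ :=
  (moebius : ArithmeticFunction ℤ) *
    ((ArithmeticFunction.pow 2 : ArithmeticFunction ℕ) : ArithmeticFunction ℤ)

theorem ordC_zeta_mul_J : ((zeta : ArithmeticFunction ℕ) : ArithmeticFunction ℤ) * ordC_J =
    ((ArithmeticFunction.pow 2 : ArithmeticFunction ℕ) : ArithmeticFunction ℤ) := by
  have h : ((zeta : ArithmeticFunction ℕ) : ArithmeticFunction ℤ) *
      (moebius : ArithmeticFunction ℤ) = 1 := by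
    have := coe_zeta_mul_coe_moebius (R := ℤ)
    rwa [ArithmeticFunction.intCoe_int] at this
  rw [ordC_J, ← mul_assoc, h, one_mul]

/-- `∑_{e ∣ m} J₂(e) = m²`. -/
theorem ordC_sum_J_divisors (m : ℕ) : ∑ e ∈ m.divisors, ordC_J e = (m : ℤ) ^ 2 := by
  have h := congrArg (fun f : ArithmeticFunction ℤ => f m) ordC_zeta_mul_J
  rw [coe_zeta_mul_apply] at h
  rw [h]
  rcases Nat.eq_zero_or_pos m with rfl | hm
  · simp
  · simp [ArithmeticFunction.pow_apply, hm.ne']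

/-- `J₂(N) = ∑_{s ∣ N} μ(s) (N / s)²`. -/
theorem ordC_J_apply (N : ℕ) (hN : 0 < N) :
    ordC_J N = ∑ s ∈ N.divisors, (moebius s : ℤ) * ((N / s : ℕ) : ℤ) ^ 2 := by
  rw [ordC_J, ArithmeticFunction.mul_apply,
    Nat.sum_divisorsAntidiagonal (fun a b => (moebius : ArithmeticFunction ℤ) a *
      ((ArithmeticFunction.pow 2 : ArithmeticFunction ℕ) : ArithmeticFunction ℤ) b)]
  refine Finset.sum_congr rfl fun s hs => ?_
  have hs' : s ∣ N := Nat.dvd_of_mem_divisors hs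
  have hpos : 0 < N / s := Nat.div_pos (Nat.le_of_dvd hN hs') (Nat.pos_of_dvd_of_pos hs' hN)
  simp [ArithmeticFunction.pow_apply, hpos.ne']

/-- `∑_{e ∣ n, e ∣ c} J₂(e) = gcd(n, c)²`. -/
theorem ordC_sum_J_filter (n : ℕ) (hn : 0 < n) (c : ℤ) :
    ∑ e ∈ n.divisors, (if (e : ℤ) ∣ c then ordC_J e else 0) = ((Int.gcd (n : ℤ) c : ℕ) : ℤ) ^ 2 := by
  rw [← Finset.sum_filter]
  have hg : Int.gcd (n : ℤ) c ∣ n := by
    have := Int.gcd_dvd_left (n : ℤ) c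
    exact_mod_cast this
  have hfilter : (n.divisors.filter fun e : ℕ => (e : ℤ) ∣ c) = (Int.gcd (n : ℤ) c).divisors := by
    rw [← Nat.divisors_filter_dvd_of_dvd hn.ne' hg]
    refine Finset.filter_congr fun e he => ?_
    have he' : e ∣ n := Nat.dvd_of_mem_divisors he
    constructor
    · intro h
      have : (e : ℤ) ∣ ((Int.gcd (n : ℤ) c : ℕ) : ℤ) :=
        Int.dvd_coe_gcd (by exact_mod_cast he') h
      exact_mod_cast this
    · intro h
      have h1 : (e : ℤ) ∣ ((Int.gcd (n : ℤ) c : ℕ) : ℤ) := by exact_mod_cast h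
      exact h1.trans (Int.gcd_dvd_right (n : ℤ) c)
  rw [hfilter, ordC_sum_J_divisors]

/-- **ORD-COMB.**  `∑_{s ∣ N} μ(s) gcd(N / s, c)² = J₂(N)` if `N ∣ c`, and `0` otherwise. -/
theorem ordC_sum (N : ℕ) (hN : 0 < N) (c : ℤ) :
    ∑ s ∈ N.divisors, (moebius s : ℤ) * ((Int.gcd ((N / s : ℕ) : ℤ) c : ℕ) : ℤ) ^ 2 =
      if (N : ℤ) ∣ c then ordC_J N else 0 := by
  have key := (sum_eq_iff_sum_mul_moebius_eq
    (f := fun e : ℕ => if (e : ℤ) ∣ c then ordC_J e else 0)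
    (g := fun n : ℕ => ((Int.gcd (n : ℤ) c : ℕ) : ℤ) ^ 2)).mp
    (fun n hn => ordC_sum_J_filter n hn c) N hN
  simp only [Int.cast_id] at key
  rw [Nat.sum_divisorsAntidiagonal
    (fun a b => (moebius a : ℤ) * ((Int.gcd (b : ℤ) c : ℕ) : ℤ) ^ 2)] at key
  exact key

theorem ordC_sum_eq_zero (N : ℕ) (hN : 0 < N) (c : ℤ) (hc : ¬ (N : ℤ) ∣ c) :
    ∑ s ∈ N.divisors, (moebius s : ℤ) * ((Int.gcd ((N / s : ℕ) : ℤ) c : ℕ) : ℤ) ^ 2 = 0 := by
  rw [ordC_sum N hN c, if_neg hc]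

theorem ordC_sum_eq_J (N : ℕ) (hN : 0 < N) (c : ℤ) (hc : (N : ℤ) ∣ c) :
    ∑ s ∈ N.divisors, (moebius s : ℤ) * ((Int.gcd ((N / s : ℕ) : ℤ) c : ℕ) : ℤ) ^ 2 =
      ordC_J N := by
  rw [ordC_sum N hN c, if_pos hc]

theorem ordC_J_isMultiplicative : ordC_J.IsMultiplicative :=
  isMultiplicative_moebius.mul (isMultiplicative_pow.natCast)

/-- `J₂(p^(k+1)) = p^(2k+2) - p^(2k)`. -/
theorem ordC_J_prime_pow {p : ℕ} (hp : p.Prime) (k : ℕ) :
    ordC_J (p ^ (k + 1)) = (p : ℤ) ^ (2 * k + 2) - (p : ℤ) ^ (2 * k) := by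
  have h1 := ordC_sum_J_divisors (p ^ (k + 1))
  have h0 := ordC_sum_J_divisors (p ^ k)
  rw [Nat.sum_divisors_prime_pow hp] at h1 h0
  rw [Finset.sum_range_succ, h0] at h1
  push_cast at h1
  have : ordC_J (p ^ (k + 1)) = ((p : ℤ) ^ (k + 1)) ^ 2 - ((p : ℤ) ^ k) ^ 2 := by linarith
  rw [this]
  ring

theorem ordC_J_prime_pow_pos {p : ℕ} (hp : p.Prime) {k : ℕ} (hk : 0 < k) :
    0 < ordC_J (p ^ k) := by
  obtain ⟨m, rfl⟩ : ∃ m, k = m + 1 := ⟨k - 1, by omega⟩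
  rw [ordC_J_prime_pow hp m]
  have hp1 : (1 : ℤ) < p := by exact_mod_cast hp.one_lt
  have hpos : (0 : ℤ) < (p : ℤ) ^ (2 * m) := by positivity
  have hlt : (1 : ℤ) < (p : ℤ) ^ 2 := by nlinarith
  have : (p : ℤ) ^ (2 * m + 2) = (p : ℤ) ^ (2 * m) * (p : ℤ) ^ 2 := by ring
  rw [this]
  nlinarith

/-- Jordan's totient is positive. -/
theorem ordC_J_pos (N : ℕ) (hN : 0 < N) : 0 < ordC_J N := by
  rw [ordC_J_isMultiplicative.multiplicative_factorization ordC_J hN.ne', Finsupp.prod]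
  refine Finset.prod_pos fun p hp => ?_
  rw [Nat.support_factorization] at hp
  have hpp := Nat.prime_of_mem_primeFactors hp
  exact ordC_J_prime_pow_pos hpp (hpp.factorization_pos_of_dvd hN.ne' (Nat.dvd_of_mem_primeFactors hp))

theorem ordC_sum_pos (N : ℕ) (hN : 0 < N) (c : ℤ) (hc : (N : ℤ) ∣ c) :
    0 < ∑ s ∈ N.divisors, (moebius s : ℤ) * ((Int.gcd ((N / s : ℕ) : ℤ) c : ℕ) : ℤ) ^ 2 := by
  rw [ordC_sum_eq_J N hN c hc]
  exact ordC_J_pos N hN

end Fermat.Agent.S28
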