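import Mathlib
import Fermat.Agent.S24.InvPoly
import Fermat.Agent.S28.HermiteNF

/-!
# S28 [TR], package HERMITE (owner: helper21): translates of `Δ(d z)` under `SL(2,ℤ)`

* `hnf_delta` : for `γ ∈ SL(2,ℤ)` and `d ≥ 1` there are `A = gcd(d, c)`, `D = d / A`, `B` with
  `Δ(d (γ z)) = D⁻¹ ^ 12 * (c z + e) ^ 12 * Δ((A z + B) / D)` for all `z ∈ ℍ`.
* `hnf_delta_gamma0` : if `d ∣ c` there is `γ' ∈ SL(2,ℤ)` with `d (γ z) = γ' (d z)` and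
  `denom γ' (d z) = denom γ z`.
-/

set_option autoImplicit false

open UpperHalfPlane ModularForm Matrix Matrix.SpecialLinearGroup
open scoped MatrixGroups

noncomputable section

namespace Fermat.Agent.S28

local notation "Δ" => ModularForm.discriminant

/-- The point `(A z + B) / D` lies in the upper half plane for `A, D > 0`. -/
theorem hnf_im_pos {A D : ℤ} (B : ℤ) (hA : 0 < A) (hD : 0 < D) (z : ℍ) :
    0 < ((((A : ℂ) * (z : ℂ) + (B : ℂ)) / (D : ℂ)) : ℂ).im := by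
  have hAr : (0 : ℝ) < A := by exact_mod_cast hA
  have hDr : (0 : ℝ) < D := by exact_mod_cast hD
  have h1 : ((((A : ℂ) * (z : ℂ) + (B : ℂ)) / (D : ℂ)) : ℂ) =
      (((A : ℝ) * (z : ℂ) + (B : ℝ)) / (D : ℝ) : ℂ) := by push_cast; rfl
  have h2 : ((((A : ℝ) : ℂ) * (z : ℂ) + ((B : ℝ) : ℂ)) / ((D : ℝ) : ℂ)).im = (A : ℝ) * z.im / D := by
    rw [Complex.div_ofReal_im]
    simp
  rw [h1, h2]
  exact div_pos (mul_pos hAr z.im_pos) hDr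

/-- The point `d * z` lies in the upper half plane for `d > 0`. -/
theorem hnf_im_pos_mul {d : ℕ} (hd : 0 < d) (z : ℍ) : 0 < ((d : ℂ) * (z : ℂ)).im := by
  have hdr : (0 : ℝ) < d := by exact_mod_cast hd
  have h1 : ((d : ℂ) * (z : ℂ)) = (((d : ℝ) : ℂ) * (z : ℂ)) := by push_cast; rfl
  rw [h1, Complex.im_ofReal_mul]
  exact mul_pos hdr z.im_pos

/-- Entries of `γ ∈ SL(2,ℤ)` and the Möbius action, in the form used below. -/
theorem hnf_coe_smul (γ : SL(2, ℤ)) (z : ℍ) :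
    ((γ • z : ℍ) : ℂ) =
      ((γ 0 0 : ℂ) * z + (γ 0 1 : ℂ)) / ((γ 1 0 : ℂ) * z + (γ 1 1 : ℂ)) := by
  rw [UpperHalfPlane.coe_specialLinearGroup_apply]
  simp

/-- The denominator of `γ ∈ SL(2,ℤ)`, in the form used below. -/
theorem hnf_denom_eq (γ : SL(2, ℤ)) (z : ℍ) :
    denom γ z = (γ 1 0 : ℂ) * z + (γ 1 1 : ℂ) := by
  rw [ModularGroup.denom_apply]

/-- **Translates of `Δ(d z)`**: for `γ = [[a, b], [c, e]] ∈ SL(2,ℤ)`, with `A = gcd(d, c)`,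
`D = d / A` and a suitable `B`,
`Δ(d (γ z)) = D⁻¹ ^ 12 * (c z + e) ^ 12 * Δ((A z + B) / D)`.
(Version with the normalisation `0 ≤ B < D`.) -/
theorem hnf_delta' (d : ℕ) (hd : 0 < d) (γ : SL(2, ℤ)) :
    ∃ (A D : ℕ) (B : ℤ), 0 < A ∧ 0 < D ∧ A * D = d ∧ A = Int.gcd d (γ 1 0) ∧ 0 ≤ B ∧ B < D ∧
      ∀ z : ℍ,
        Δ (UpperHalfPlane.ofComplex ((d : ℂ) * ((γ • z : ℍ) : ℂ))) =
          ((D : ℂ)⁻¹) ^ 12 * UpperHalfPlane.denom γ z ^ 12 *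
            Δ (UpperHalfPlane.ofComplex (((A : ℂ) * z + B) / D)) := by
  obtain ⟨γ', A, B, D, hA, hD, hAD, hAg, hB0, hB1, h00, h01, h10, h11⟩ := hnf_exists d hd γ
  obtain ⟨A', rfl⟩ := Int.eq_ofNat_of_zero_le hA.le
  obtain ⟨D', rfl⟩ := Int.eq_ofNat_of_zero_le hD.le
  have hA' : 0 < A' := by exact_mod_cast hA
  have hD' : 0 < D' := by exact_mod_cast hD
  refine ⟨A', D', B, hA', hD', by exact_mod_cast hAD, by exact_mod_cast hAg, hB0, hB1, ?_⟩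
  intro z
  have hDc : ((D' : ℤ) : ℂ) ≠ 0 := by exact_mod_cast hD'.ne'
  -- the point `w = (A z + B) / D`
  have hw : 0 < (((((A' : ℤ) : ℂ)) * (z : ℂ) + (B : ℂ)) / ((D' : ℤ) : ℂ)).im :=
    hnf_im_pos B hA hD z
  set W : ℍ := ⟨((((A' : ℤ) : ℂ)) * (z : ℂ) + (B : ℂ)) / ((D' : ℤ) : ℂ), hw⟩ with hWdef
  have hWcoe : (W : ℂ) = ((((A' : ℤ) : ℂ)) * (z : ℂ) + (B : ℂ)) / ((D' : ℤ) : ℂ) := rfl
  have hofW : UpperHalfPlane.ofComplex (((A' : ℂ) * z + B) / D') = W := by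
    have : (((A' : ℂ) * (z : ℂ) + (B : ℂ)) / (D' : ℂ)) = (W : ℂ) := by
      rw [hWcoe]; push_cast; rfl
    rw [this, UpperHalfPlane.ofComplex_apply]
  -- denominators
  have hden : denom γ' W = denom γ z / ((D' : ℤ) : ℂ) := by
    rw [hnf_denom_eq, hnf_denom_eq, hWcoe]
    exact hnf_denom (by exact_mod_cast hD'.ne') h10 h11 (z : ℂ)
  have hdenz : denom γ z ≠ 0 := denom_ne_zero _ z
  -- the point `d (γ z) = γ' W`
  have hpt : (d : ℂ) * ((γ • z : ℍ) : ℂ) = ((γ' • W : ℍ) : ℂ) := by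
    rw [hnf_coe_smul γ' W, hnf_coe_smul γ z, hWcoe]
    rw [hnf_num (d := d) (by exact_mod_cast hD'.ne') h00 h01 (z : ℂ),
      hnf_denom (by exact_mod_cast hD'.ne') h10 h11 (z : ℂ)]
    have hz : ((γ 1 0 : ℂ)) * (z : ℂ) + (γ 1 1 : ℂ) ≠ 0 := by
      rw [← hnf_denom_eq]; exact hdenz
    field_simp
  rw [hpt, UpperHalfPlane.ofComplex_apply, hofW, Fermat.Agent.S24.anC_discriminant_smul, hden]
  have e12 : ((12 : ℕ) : ℤ) = (12 : ℤ) := rfl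
  rw [← e12, zpow_natCast, div_pow]
  have : ((D' : ℂ)) = (((D' : ℤ) : ℂ)) := by push_cast; rfl
  rw [this]
  field_simp

/-- **Translates of `Δ(d z)`** (consumer shape of `[TR]`). -/
theorem hnf_delta (d : ℕ) (hd : 0 < d) (γ : SL(2, ℤ)) :
    ∃ (A D : ℕ) (B : ℤ), A * D = d ∧ A = Int.gcd d (γ 1 0) ∧
      ∀ z : ℍ,
        Δ (UpperHalfPlane.ofComplex ((d : ℂ) * ((γ • z : ℍ) : ℂ))) =
          ((D : ℂ)⁻¹) ^ 12 * UpperHalfPlane.denom γ z ^ 12 *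
            Δ (UpperHalfPlane.ofComplex (((A : ℂ) * z + B) / D)) := by
  obtain ⟨A, D, B, -, -, hAD, hAg, -, -, h⟩ := hnf_delta' d hd γ
  exact ⟨A, D, B, hAD, hAg, h⟩

/-- **`Γ₀(d)`-invariance input**: if `d ∣ c` then `d (γ z) = γ' (d z)` for some `γ' ∈ SL(2,ℤ)`
with the same denominator. -/
theorem hnf_delta_gamma0 (d : ℕ) (hd : 0 < d) (γ : SL(2, ℤ)) (h : (d : ℤ) ∣ γ 1 0) :
    ∃ γ' : SL(2, ℤ), ∀ z : ℍ,
      UpperHalfPlane.ofComplex ((d : ℂ) * ((γ • z : ℍ) : ℂ)) =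
          γ' • UpperHalfPlane.ofComplex ((d : ℂ) * (z : ℂ)) ∧
        UpperHalfPlane.denom γ' (UpperHalfPlane.ofComplex ((d : ℂ) * (z : ℂ))) =
          UpperHalfPlane.denom γ z := by
  obtain ⟨γ', h00, h01, h10, h11⟩ := hnf_gamma0 d γ h
  refine ⟨γ', fun z => ?_⟩
  have hdc : (d : ℂ) ≠ 0 := by exact_mod_cast hd.ne'
  set W : ℍ := ⟨(d : ℂ) * (z : ℂ), hnf_im_pos_mul hd z⟩ with hWdef
  have hWcoe : (W : ℂ) = (d : ℂ) * (z : ℂ) := rfl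
  have hofW : UpperHalfPlane.ofComplex ((d : ℂ) * (z : ℂ)) = W := by
    rw [← hWcoe, UpperHalfPlane.ofComplex_apply]
  have e10 : ((γ' 1 0 : ℤ) : ℂ) * (d : ℂ) = ((γ 1 0 : ℤ) : ℂ) := by exact_mod_cast h10
  have hden : denom γ' W = denom γ z := by
    rw [hnf_denom_eq, hnf_denom_eq, hWcoe, h11, ← e10]
    ring
  have hdenz : denom γ z ≠ 0 := denom_ne_zero _ z
  have hpt : (d : ℂ) * ((γ • z : ℍ) : ℂ) = ((γ' • W : ℍ) : ℂ) := by
    rw [hnf_coe_smul γ' W, ← hnf_denom_eq γ' W, hden, hnf_coe_smul γ z, ← hnf_denom_eq γ z, hWcoe,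
      h00, h01]
    push_cast
    field_simp
  rw [hofW]
  refine ⟨?_, hden⟩
  rw [hpt, UpperHalfPlane.ofComplex_apply]

end Fermat.Agent.S28
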