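import Mathlib
import Fermat.Agent.S22.Nice
import Fermat.Agent.S24.BridgeEta
import Fermat.Agent.S24.BridgeLaurent

/-!
# S28, package [TR], part "twist": Laurent expansions of `z ↦ Δ (m z + B / D)`

For a function `g` holomorphic on the unit disc, `z ↦ g (ζ q ^ m)` (`q = exp (2 π i z)`,
`‖ζ‖ ≤ 1`, `0 < m`) is nice and its `q`-expansion is the twisted, dilated expansion of `g ∘ q`.
Applied to the eta product this gives the `q`-expansions of `z ↦ Δ (m z + B / D)` and of its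
inverse, with coefficients integral over `ℤ` and leading coefficient a root of unity.
-/

set_option autoImplicit false

noncomputable section

namespace Fermat.Agent.S28

open UpperHalfPlane ModularFormClass Function Filter Topology
open scoped Manifold

open Fermat.Agent.S22 Fermat.Agent.S24

local notation "𝕢" => Function.Periodic.qParam

/-! ### The generic twist lemma -/

theorem trT_twist_mem_ball {ζ : ℂ} (hζ : ‖ζ‖ ≤ 1) {m : ℕ} (hm : 0 < m) {q : ℂ}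
    (hq : q ∈ Metric.ball (0 : ℂ) 1) : ζ * q ^ m ∈ Metric.ball (0 : ℂ) 1 := by
  rw [mem_ball_zero_iff] at hq ⊢
  rw [norm_mul, norm_pow]
  have h1 : ‖q‖ ^ m < 1 := pow_lt_one₀ (norm_nonneg _) hq hm.ne'
  calc ‖ζ‖ * ‖q‖ ^ m ≤ 1 * ‖q‖ ^ m := by gcongr
    _ = ‖q‖ ^ m := one_mul _
    _ < 1 := h1

theorem trT_differentiableOn_twist {g : ℂ → ℂ}
    (hg : DifferentiableOn ℂ g (Metric.ball (0 : ℂ) 1)) {ζ : ℂ} (hζ : ‖ζ‖ ≤ 1) {m : ℕ}
    (hm : 0 < m) : DifferentiableOn ℂ (fun q : ℂ => g (ζ * q ^ m)) (Metric.ball (0 : ℂ) 1) := by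
  have h1 : DifferentiableOn ℂ (fun q : ℂ => ζ * q ^ m) (Metric.ball (0 : ℂ) 1) := by
    fun_prop
  exact hg.comp h1 fun q hq => trT_twist_mem_ball hζ hm hq

theorem trT_isNice_comp_twist {g : ℂ → ℂ}
    (hg : DifferentiableOn ℂ g (Metric.ball (0 : ℂ) 1)) {ζ : ℂ} (hζ : ‖ζ‖ ≤ 1) {m : ℕ}
    (hm : 0 < m) : IsNice (fun z : ℍ => g (ζ * 𝕢 1 (z : ℂ) ^ m)) :=
  anA_isNice_comp_qParam (g := fun q => g (ζ * q ^ m)) (trT_differentiableOn_twist hg hζ hm)

theorem trT_qExpansion_twist_coeff {g : ℂ → ℂ}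
    (hg : DifferentiableOn ℂ g (Metric.ball (0 : ℂ) 1)) {ζ : ℂ} (hζ : ‖ζ‖ ≤ 1) {m : ℕ}
    (hm : 0 < m) (k : ℕ) :
    (qExpansion 1 (fun z : ℍ => g (ζ * 𝕢 1 (z : ℂ) ^ m))).coeff k =
      if m ∣ k then ζ ^ (k / m) * (qExpansion 1 (fun z : ℍ => g (𝕢 1 (z : ℂ)))).coeff (k / m)
      else 0 := by
  set a : ℕ → ℂ := fun n => (n.factorial : ℂ)⁻¹ * iteratedDeriv n g 0 with ha
  have hcoeff : ∀ n, (qExpansion 1 (fun z : ℍ => g (𝕢 1 (z : ℂ)))).coeff n = a n := fun n =>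
    anA_qExpansion_comp_qParam_coeff hg n
  simp only [hcoeff]
  refine anA_qExpansion_coeff_unique
    (c := fun k => if m ∣ k then ζ ^ (k / m) * a (k / m) else 0)
    (trT_isNice_comp_twist hg hζ hm) (fun τ => ?_) k
  have hmem : ζ * 𝕢 1 (τ : ℂ) ^ m ∈ Metric.ball (0 : ℂ) 1 :=
    trT_twist_mem_ball hζ hm (anA_qParam_mem_ball τ)
  have h1 := Complex.hasSum_taylorSeries_on_ball hg hmem
  simp only [sub_zero, smul_eq_mul] at h1
  have hinj : Function.Injective (fun n : ℕ => m * n) := fun x y h =>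
    Nat.eq_of_mul_eq_mul_left hm h
  have h2 : HasSum ((fun k : ℕ => (if m ∣ k then ζ ^ (k / m) * a (k / m) else 0) *
      𝕢 1 (τ : ℂ) ^ k) ∘ fun n : ℕ => m * n) (g (ζ * 𝕢 1 (τ : ℂ) ^ m)) := by
    refine h1.congr_fun fun n => ?_
    simp only [comp_apply, dvd_mul_right, if_true, Nat.mul_div_cancel_left _ hm, ha]
    rw [mul_pow, pow_mul]
    ring
  have h3 := (hinj.hasSum_iff (f := fun k : ℕ =>
    (if m ∣ k then ζ ^ (k / m) * a (k / m) else 0) * 𝕢 1 (τ : ℂ) ^ k) ?_).mp h2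
  · exact h3
  · intro x hx
    have : ¬ m ∣ x := fun ⟨n, hn⟩ => hx ⟨n, hn.symm⟩
    simp [this]

/-! ### Laurent expansion of negative powers of `q` -/

theorem trT_hasLaurent_qfun_pow (m : ℕ) :
    anA_HasLaurent (HahnSeries.single (m : ℤ) (1 : ℂ)) (fun z : ℍ => anA_qfun z ^ m) := by
  have h := anA_HasLaurent.of_isNice (anA_isNice_qfun.pow m)
  rw [anA_isNice_qfun.qExpansion_pow, anA_qExpansion_qfun, anA_ofPowerSeries_X_pow] at h
  exact h

theorem trT_hasLaurent_qfun_pow_inv (m : ℕ) :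
    anA_HasLaurent (HahnSeries.single (-(m : ℤ)) (1 : ℂ)) (fun z : ℍ => (anA_qfun z ^ m)⁻¹) := by
  have e : anA_qfun ^ m * (fun z : ℍ => (anA_qfun z ^ m)⁻¹) = (1 : ℍ → ℂ) := by
    funext z
    simp only [Pi.mul_apply, Pi.pow_apply, Pi.one_apply]
    exact mul_inv_cancel₀ (pow_ne_zero _ (anA_qfun_ne_zero z))
  refine ⟨m, ?_, ?_⟩
  · rw [e]; exact IsNice.one
  · rw [e, qExpansion_one, map_one, anA_single_mul_single, add_neg_cancel]
    rfl

/-! ### The twisting root of unity -/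

/-- `ζ = exp (2 π i B / D)`. -/
def trT_zeta (B : ℤ) (D : ℕ) : ℂ :=
  Complex.exp (2 * (Real.pi : ℂ) * Complex.I * ((B : ℂ) / (D : ℂ)))

theorem trT_zeta_ne_zero (B : ℤ) (D : ℕ) : trT_zeta B D ≠ 0 := Complex.exp_ne_zero _

theorem trT_zeta_pow (B : ℤ) {D : ℕ} (hD : 0 < D) : trT_zeta B D ^ D = 1 := by
  have hD' : (D : ℂ) ≠ 0 := by exact_mod_cast hD.ne'
  rw [trT_zeta, ← Complex.exp_nat_mul]
  have : (D : ℂ) * (2 * (Real.pi : ℂ) * Complex.I * ((B : ℂ) / (D : ℂ))) =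
      (B : ℂ) * (2 * (Real.pi : ℂ) * Complex.I) := by
    field_simp
  rw [this]
  exact Complex.exp_int_mul_two_pi_mul_I B

theorem trT_norm_zeta (B : ℤ) (D : ℕ) : ‖trT_zeta B D‖ = 1 := by
  rw [trT_zeta, Complex.norm_exp]
  have : (2 * (Real.pi : ℂ) * Complex.I * ((B : ℂ) / (D : ℂ))).re = 0 := by
    have h : (2 * (Real.pi : ℂ) * Complex.I * ((B : ℂ) / (D : ℂ))) =
        (((2 * Real.pi * ((B : ℝ) / (D : ℝ)) : ℝ)) : ℂ) * Complex.I := by
      push_cast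
      ring
    rw [h, Complex.re_ofReal_mul, Complex.I_re, mul_zero]
  rw [this, Real.exp_zero]

theorem trT_isIntegral_zeta (B : ℤ) {D : ℕ} (hD : 0 < D) : IsIntegral ℤ (trT_zeta B D) := by
  refine IsIntegral.of_pow hD ?_
  rw [trT_zeta_pow B hD]
  exact isIntegral_one

theorem trT_zeta_inv (B : ℤ) (D : ℕ) : (trT_zeta B D)⁻¹ = trT_zeta (-B) D := by
  rw [trT_zeta, trT_zeta, ← Complex.exp_neg]
  congr 1
  push_cast
  ring

/-- The affine point `m z + B / D` of the upper half plane. -/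
theorem trT_im_pos {m : ℕ} (hm : 0 < m) (B : ℤ) (D : ℕ) (z : ℍ) :
    0 < ((m : ℂ) * (z : ℂ) + (B : ℂ) / (D : ℂ)).im := by
  have h1 : ((B : ℂ) / (D : ℂ)).im = 0 := by
    have : ((B : ℂ) / (D : ℂ)) = (((B : ℝ) / (D : ℝ) : ℝ) : ℂ) := by push_cast; rfl
    rw [this, Complex.ofReal_im]
  have h2 : ((m : ℂ) * (z : ℂ)).im = (m : ℝ) * z.im := by
    have : ((m : ℂ) * (z : ℂ)) = ((m : ℝ) : ℂ) * (z : ℂ) := by push_cast; rfl
    rw [this, Complex.im_ofReal_mul]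
    rfl
  rw [Complex.add_im, h1, h2, add_zero]
  exact mul_pos (by exact_mod_cast hm) z.im_pos

theorem trT_qParam_affine {m : ℕ} (B : ℤ) (D : ℕ) (z : ℍ) :
    𝕢 1 ((m : ℂ) * (z : ℂ) + (B : ℂ) / (D : ℂ)) = trT_zeta B D * 𝕢 1 (z : ℂ) ^ m := by
  simp only [Periodic.qParam, Complex.ofReal_one, div_one, trT_zeta]
  rw [← Complex.exp_nat_mul, ← Complex.exp_add]
  congr 1
  ring

/-- `Δ (m z + B / D) = ζ q ^ m ∏ (1 - (ζ q ^ m) ^ (n + 1)) ^ 24`. -/
theorem trT_discriminant_affine {m : ℕ} (hm : 0 < m) (B : ℤ) (D : ℕ) (z : ℍ) :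
    ModularForm.discriminant (ofComplex ((m : ℂ) * (z : ℂ) + (B : ℂ) / (D : ℂ))) =
      trT_zeta B D * anA_qfun z ^ m * anA_etaDisc (trT_zeta B D * 𝕢 1 (z : ℂ) ^ m) ^ 24 := by
  rw [anA_discriminant_eq]
  have hw := trT_im_pos hm B D z
  simp only [anA_qfun, anA_etaF, ofComplex_apply_of_im_pos hw, UpperHalfPlane.coe_mk]
  rw [trT_qParam_affine]

/-! ### The twisted eta powers -/

/-- `g(q) = ∏ (1 - q ^ (n + 1)) ^ 24` on the unit disc. -/
def trT_eta24 (q : ℂ) : ℂ := anA_etaDisc q ^ 24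

/-- `g(q)⁻¹`. -/
def trT_eta24Inv (q : ℂ) : ℂ := (anA_etaDisc q ^ 24)⁻¹

theorem trT_differentiableOn_eta24 : DifferentiableOn ℂ trT_eta24 (Metric.ball (0 : ℂ) 1) :=
  anA_differentiableOn_etaDisc.pow 24

theorem trT_differentiableOn_eta24Inv :
    DifferentiableOn ℂ trT_eta24Inv (Metric.ball (0 : ℂ) 1) :=
  DifferentiableOn.inv (anA_differentiableOn_etaDisc.pow 24) fun q hq =>
    pow_ne_zero _ (anA_etaDisc_ne_zero (by simpa using hq))

theorem trT_qExpansion_eta24 :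
    qExpansion 1 (fun z : ℍ => trT_eta24 (𝕢 1 (z : ℂ))) =
      ModularCurve.dedekindEtaUnit.map (Int.castRingHom ℂ) := by
  have e : (fun z : ℍ => trT_eta24 (𝕢 1 (z : ℂ))) = anA_etaF ^ 24 := rfl
  rw [e, anA_isNice_etaF.qExpansion_pow, anA_qExpansion_etaF, ModularCurve.dedekindEtaUnit,
    map_pow]

theorem trT_qExpansion_eta24Inv :
    qExpansion 1 (fun z : ℍ => trT_eta24Inv (𝕢 1 (z : ℂ))) =
      ModularCurve.dedekindEtaUnitInv.map (Int.castRingHom ℂ) := by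
  have e : (fun z : ℍ => trT_eta24Inv (𝕢 1 (z : ℂ))) = anA_etaInv := rfl
  rw [e, anA_qExpansion_etaInv]

/-- The twisted dilated series `∑ a_n ζ ^ n q ^ (m n)` of an integral power series. -/
def trT_twistSeries (ζ : ℂ) (m : ℕ) (A : PowerSeries ℤ) : PowerSeries ℂ :=
  PowerSeries.mk fun k => if m ∣ k then ζ ^ (k / m) * ((A.coeff (k / m) : ℤ) : ℂ) else 0

theorem trT_coeff_twistSeries (ζ : ℂ) (m : ℕ) (A : PowerSeries ℤ) (k : ℕ) :
    (trT_twistSeries ζ m A).coeff k =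
      if m ∣ k then ζ ^ (k / m) * ((A.coeff (k / m) : ℤ) : ℂ) else 0 := by
  rw [trT_twistSeries, PowerSeries.coeff_mk]

theorem trT_constantCoeff_twistSeries (ζ : ℂ) (m : ℕ) (A : PowerSeries ℤ)
    (hA : PowerSeries.constantCoeff A = 1) :
    PowerSeries.constantCoeff (trT_twistSeries ζ m A) = 1 := by
  rw [← PowerSeries.coeff_zero_eq_constantCoeff_apply, trT_coeff_twistSeries,
    if_pos (dvd_zero m), Nat.zero_div, pow_zero, one_mul,
    PowerSeries.coeff_zero_eq_constantCoeff_apply, hA, Int.cast_one]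

theorem trT_isIntegral_coeff_twistSeries {ζ : ℂ} (hζ : IsIntegral ℤ ζ) (m : ℕ)
    (A : PowerSeries ℤ) (k : ℕ) : IsIntegral ℤ ((trT_twistSeries ζ m A).coeff k) := by
  rw [trT_coeff_twistSeries]
  split_ifs
  · exact (hζ.pow _).mul isIntegral_algebraMap
  · exact isIntegral_zero

theorem trT_qExpansion_twist_eq {g : ℂ → ℂ}
    (hg : DifferentiableOn ℂ g (Metric.ball (0 : ℂ) 1)) {ζ : ℂ} (hζ : ‖ζ‖ ≤ 1) {m : ℕ}
    (hm : 0 < m) (A : PowerSeries ℤ)
    (hA : qExpansion 1 (fun z : ℍ => g (𝕢 1 (z : ℂ))) = A.map (Int.castRingHom ℂ)) :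
    qExpansion 1 (fun z : ℍ => g (ζ * 𝕢 1 (z : ℂ) ^ m)) = trT_twistSeries ζ m A := by
  ext k
  rw [trT_qExpansion_twist_coeff hg hζ hm, trT_coeff_twistSeries, hA, PowerSeries.coeff_map,
    eq_intCast]

/-! ### The main statements -/

/-- The `q`-expansion of `z ↦ Δ (m z + B / D)`, explicit form. -/
theorem trT_hasLaurent_delta_explicit {m : ℕ} (hm : 0 < m) (B : ℤ) (D : ℕ) :
    anA_HasLaurent
      (HahnSeries.C (trT_zeta B D) * HahnSeries.single (m : ℤ) (1 : ℂ) *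
        HahnSeries.ofPowerSeries ℤ ℂ
          (trT_twistSeries (trT_zeta B D) m ModularCurve.dedekindEtaUnit))
      (fun z : ℍ =>
        ModularForm.discriminant (ofComplex ((m : ℂ) * (z : ℂ) + (B : ℂ) / (D : ℂ)))) := by
  have hζ : ‖trT_zeta B D‖ ≤ 1 := (trT_norm_zeta B D).le
  have h1 := anA_HasLaurent.of_isNice
    (trT_isNice_comp_twist trT_differentiableOn_eta24 hζ hm)
  rw [trT_qExpansion_twist_eq trT_differentiableOn_eta24 hζ hm _ trT_qExpansion_eta24] at h1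
  have h2 := ((anA_HasLaurent.const (trT_zeta B D)).mul (trT_hasLaurent_qfun_pow m)).mul h1
  refine (congrArg _ ?_).mp h2
  funext z
  rw [trT_discriminant_affine hm]
  rfl

/-- The `q`-expansion of `z ↦ (Δ (m z + B / D))⁻¹`, explicit form. -/
theorem trT_hasLaurent_delta_inv_explicit {m : ℕ} (hm : 0 < m) (B : ℤ) (D : ℕ) :
    anA_HasLaurent
      (HahnSeries.C (trT_zeta B D)⁻¹ * HahnSeries.single (-(m : ℤ)) (1 : ℂ) *
        HahnSeries.ofPowerSeries ℤ ℂ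
          (trT_twistSeries (trT_zeta B D) m ModularCurve.dedekindEtaUnitInv))
      (fun z : ℍ =>
        (ModularForm.discriminant (ofComplex ((m : ℂ) * (z : ℂ) + (B : ℂ) / (D : ℂ))))⁻¹) := by
  have hζ : ‖trT_zeta B D‖ ≤ 1 := (trT_norm_zeta B D).le
  have h1 := anA_HasLaurent.of_isNice
    (trT_isNice_comp_twist trT_differentiableOn_eta24Inv hζ hm)
  rw [trT_qExpansion_twist_eq trT_differentiableOn_eta24Inv hζ hm _ trT_qExpansion_eta24Inv]
    at h1
  have h2 := ((anA_HasLaurent.const (trT_zeta B D)⁻¹).mul (trT_hasLaurent_qfun_pow_inv m)).mul h1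
  refine (congrArg _ ?_).mp h2
  funext z
  rw [trT_discriminant_affine hm]
  simp only [Pi.mul_apply, trT_eta24Inv, mul_inv]

/-- **Twist package.** The `q`-expansions of `z ↦ Δ (m z + B / D)` and of its inverse: leading
coefficient a `D`-th root of unity, all coefficients integral over `ℤ`. -/
theorem trT_hasLaurent_delta (m : ℕ) (hm : 0 < m) (B : ℤ) (D : ℕ) (hD : 0 < D) :
    ∃ (ζ : ℂ) (P P' : PowerSeries ℂ), ζ ^ D = 1 ∧
      PowerSeries.constantCoeff P = 1 ∧ PowerSeries.constantCoeff P' = 1 ∧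
      (∀ n, IsIntegral ℤ (PowerSeries.coeff n P)) ∧
      (∀ n, IsIntegral ℤ (PowerSeries.coeff n P')) ∧
      anA_HasLaurent
        (HahnSeries.C ζ * HahnSeries.single (m : ℤ) (1 : ℂ) * HahnSeries.ofPowerSeries ℤ ℂ P)
        (fun z : ℍ =>
          ModularForm.discriminant (ofComplex ((m : ℂ) * (z : ℂ) + (B : ℂ) / (D : ℂ)))) ∧
      anA_HasLaurent
        (HahnSeries.C ζ⁻¹ * HahnSeries.single (-(m : ℤ)) (1 : ℂ) *
          HahnSeries.ofPowerSeries ℤ ℂ P')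
        (fun z : ℍ =>
          (ModularForm.discriminant (ofComplex ((m : ℂ) * (z : ℂ) + (B : ℂ) / (D : ℂ))))⁻¹) :=
  ⟨trT_zeta B D, trT_twistSeries (trT_zeta B D) m ModularCurve.dedekindEtaUnit,
    trT_twistSeries (trT_zeta B D) m ModularCurve.dedekindEtaUnitInv,
    trT_zeta_pow B hD,
    trT_constantCoeff_twistSeries _ _ _ ModularCurve.constantCoeff_dedekindEtaUnit,
    trT_constantCoeff_twistSeries _ _ _ ModularCurve.constantCoeff_dedekindEtaUnitInv,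
    trT_isIntegral_coeff_twistSeries (trT_isIntegral_zeta B hD) _ _,
    trT_isIntegral_coeff_twistSeries (trT_isIntegral_zeta B hD) _ _,
    trT_hasLaurent_delta_explicit hm B D, trT_hasLaurent_delta_inv_explicit hm B D⟩

/-! ### Consumer shapes: the point `(A (N z) + B) / D` with `D ∣ N` -/

theorem trT_affine_eq {N A D : ℕ} (hD : 0 < D) (hDN : D ∣ N) (B : ℤ) (z : ℍ) :
    (((A : ℂ) * ((N : ℂ) * (z : ℂ)) + (B : ℂ)) / (D : ℂ)) =
      ((A * (N / D) : ℕ) : ℂ) * (z : ℂ) + (B : ℂ) / (D : ℂ) := by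
  have hD' : (D : ℂ) ≠ 0 := by exact_mod_cast hD.ne'
  obtain ⟨k, rfl⟩ := hDN
  rw [Nat.mul_div_cancel_left _ hD]
  push_cast
  field_simp

/-- The `q`-expansion of `z ↦ Δ ((A (N z) + B) / D)`, `D ∣ N`: leading coefficient a root of
unity (integral over `ℤ` together with its inverse), order `A * (N / D)`, all coefficients
integral over `ℤ`. -/
theorem trT_delta (N A D : ℕ) [NeZero N] (hA : 0 < A) (hD : 0 < D) (hDN : D ∣ N) (B : ℤ) :
    ∃ (c : ℂ) (P : PowerSeries ℂ), IsIntegral ℤ c ∧ IsIntegral ℤ c⁻¹ ∧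
      PowerSeries.constantCoeff P = 1 ∧ (∀ n, IsIntegral ℤ (PowerSeries.coeff n P)) ∧
      anA_HasLaurent
        (HahnSeries.C c * HahnSeries.single ((A * (N / D) : ℕ) : ℤ) (1 : ℂ) *
          HahnSeries.ofPowerSeries ℤ ℂ P)
        (fun z : ℍ => ModularForm.discriminant
          (ofComplex (((A : ℂ) * ((N : ℂ) * (z : ℂ)) + (B : ℂ)) / (D : ℂ)))) := by
  have hm : 0 < A * (N / D) :=
    Nat.mul_pos hA (Nat.div_pos (Nat.le_of_dvd (Nat.pos_of_ne_zero (NeZero.ne N)) hDN) hD)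
  refine ⟨trT_zeta B D, trT_twistSeries (trT_zeta B D) (A * (N / D)) ModularCurve.dedekindEtaUnit,
    trT_isIntegral_zeta B hD, ?_,
    trT_constantCoeff_twistSeries _ _ _ ModularCurve.constantCoeff_dedekindEtaUnit,
    trT_isIntegral_coeff_twistSeries (trT_isIntegral_zeta B hD) _ _, ?_⟩
  · rw [trT_zeta_inv]
    exact trT_isIntegral_zeta (-B) hD
  · have h := trT_hasLaurent_delta_explicit hm B D
    refine (congrArg _ ?_).mp h
    funext z
    rw [trT_affine_eq hD hDN]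

/-- The `q`-expansion of `z ↦ (Δ ((A (N z) + B) / D))⁻¹`, `D ∣ N`. -/
theorem trT_delta_inv (N A D : ℕ) [NeZero N] (hA : 0 < A) (hD : 0 < D) (hDN : D ∣ N) (B : ℤ) :
    ∃ (c : ℂ) (P : PowerSeries ℂ), IsIntegral ℤ c ∧ IsIntegral ℤ c⁻¹ ∧
      PowerSeries.constantCoeff P = 1 ∧ (∀ n, IsIntegral ℤ (PowerSeries.coeff n P)) ∧
      anA_HasLaurent
        (HahnSeries.C c * HahnSeries.single (-((A * (N / D) : ℕ) : ℤ)) (1 : ℂ) *
          HahnSeries.ofPowerSeries ℤ ℂ P)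
        (fun z : ℍ => (ModularForm.discriminant
          (ofComplex (((A : ℂ) * ((N : ℂ) * (z : ℂ)) + (B : ℂ)) / (D : ℂ))))⁻¹) := by
  have hm : 0 < A * (N / D) :=
    Nat.mul_pos hA (Nat.div_pos (Nat.le_of_dvd (Nat.pos_of_ne_zero (NeZero.ne N)) hDN) hD)
  refine ⟨(trT_zeta B D)⁻¹,
    trT_twistSeries (trT_zeta B D) (A * (N / D)) ModularCurve.dedekindEtaUnitInv, ?_, ?_,
    trT_constantCoeff_twistSeries _ _ _ ModularCurve.constantCoeff_dedekindEtaUnitInv,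
    trT_isIntegral_coeff_twistSeries (trT_isIntegral_zeta B hD) _ _, ?_⟩
  · rw [trT_zeta_inv]
    exact trT_isIntegral_zeta (-B) hD
  · rw [inv_inv]
    exact trT_isIntegral_zeta B hD
  · have h := trT_hasLaurent_delta_inv_explicit hm B D
    refine (congrArg _ ?_).mp h
    funext z
    rw [trT_affine_eq hD hDN]

end Fermat.Agent.S28
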