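import Mathlib
import Fermat.Agent.S24.BridgeLaurent
import Fermat.Agent.S28.TrDefs

/-!
# S28, package [TR], part 1: Laurent expansions with unit leading coefficient

`tr_UL R k f` : the function `f : ℍ → ℂ` has a Laurent expansion at `i∞` of the form
`c q^k P(q)` with `c` a unit of the subring `R ⊆ ℂ` and `P ∈ R⟦q⟧` with constant term `1`.
This relation is closed under products and (given the inverse) integer powers.  We also record
the growth estimate that follows from a Laurent expansion.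
-/

set_option autoImplicit false

noncomputable section

namespace Fermat.Agent.S28

open UpperHalfPlane Function Filter Topology Asymptotics
open Fermat.Agent.S22 Fermat.Agent.S24
open scoped MatrixGroups ModularForm Manifold Real

local notation "𝕢" => Function.Periodic.qParam

/-- The Laurent series `c q^k P(q)`. -/
def tr_ser (c : ℂ) (k : ℤ) (P : PowerSeries ℂ) : LaurentSeries ℂ :=
  HahnSeries.C c * HahnSeries.single k (1 : ℂ) * HahnSeries.ofPowerSeries ℤ ℂ P

theorem tr_ser_def (c : ℂ) (k : ℤ) (P : PowerSeries ℂ) :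
    tr_ser c k P =
      HahnSeries.C c * HahnSeries.single k (1 : ℂ) * HahnSeries.ofPowerSeries ℤ ℂ P := rfl

theorem tr_ser_mul (c c' : ℂ) (k k' : ℤ) (P P' : PowerSeries ℂ) :
    tr_ser c k P * tr_ser c' k' P' = tr_ser (c * c') (k + k') (P * P') := by
  unfold tr_ser
  rw [map_mul, map_mul, ← anA_single_mul_single]
  ring

theorem tr_ser_one : tr_ser 1 0 1 = 1 := by
  unfold tr_ser
  rw [show HahnSeries.single (0 : ℤ) (1 : ℂ) = 1 from rfl,
    map_one (HahnSeries.ofPowerSeries ℤ ℂ), map_one (HahnSeries.C (Γ := ℤ) (R := ℂ))]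
  ring

theorem tr_ser_const (c : ℂ) : tr_ser c 0 1 = HahnSeries.C c := by
  unfold tr_ser
  rw [show HahnSeries.single (0 : ℤ) (1 : ℂ) = 1 from rfl,
    map_one (HahnSeries.ofPowerSeries ℤ ℂ)]
  ring

theorem tr_coeff_mul_mem (R : Subring ℂ) {P Q : PowerSeries ℂ}
    (hP : ∀ n, PowerSeries.coeff n P ∈ R) (hQ : ∀ n, PowerSeries.coeff n Q ∈ R) (n : ℕ) :
    PowerSeries.coeff n (P * Q) ∈ R := by
  rw [PowerSeries.coeff_mul]
  exact Subring.sum_mem _ fun p _ => R.mul_mem (hP _) (hQ _)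

theorem tr_coeff_one_mem (R : Subring ℂ) (n : ℕ) :
    PowerSeries.coeff n (1 : PowerSeries ℂ) ∈ R := by
  rw [PowerSeries.coeff_one]
  split_ifs
  · exact R.one_mem
  · exact R.zero_mem

/-- `f` has a Laurent expansion `c q^k P(q)` with `c ∈ Rˣ`, `P ∈ 1 + q R⟦q⟧`. -/
def tr_UL (R : Subring ℂ) (k : ℤ) (f : ℍ → ℂ) : Prop :=
  ∃ (c : ℂ) (P : PowerSeries ℂ), c ∈ R ∧ c⁻¹ ∈ R ∧ c ≠ 0 ∧ PowerSeries.constantCoeff P = 1 ∧
    (∀ n, PowerSeries.coeff n P ∈ R) ∧ anA_HasLaurent (tr_ser c k P) f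

namespace tr_UL

variable {R : Subring ℂ} {k l : ℤ} {f g : ℍ → ℂ}

theorem congr (h : tr_UL R k f) (hfg : ∀ z, f z = g z) : tr_UL R k g := by
  have : f = g := funext hfg
  rwa [← this]

theorem congr_order (h : tr_UL R k f) (hk : k = l) : tr_UL R l f := hk ▸ h

theorem mono {R' : Subring ℂ} (hR : R ≤ R') (h : tr_UL R k f) : tr_UL R' k f := by
  obtain ⟨c, P, h1, h2, h3, h4, h5, h6⟩ := h
  exact ⟨c, P, hR h1, hR h2, h3, h4, fun n => hR (h5 n), h6⟩

theorem const {c : ℂ} (hc : c ∈ R) (hc' : c⁻¹ ∈ R) (h0 : c ≠ 0) :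
    tr_UL R 0 (fun _ : ℍ => c) :=
  ⟨c, 1, hc, hc', h0, by simp, tr_coeff_one_mem R, by
    rw [tr_ser_const]; exact anA_HasLaurent.const c⟩

theorem one : tr_UL R 0 (fun _ : ℍ => (1 : ℂ)) :=
  const R.one_mem (by simp) one_ne_zero

theorem mul (hf : tr_UL R k f) (hg : tr_UL R l g) : tr_UL R (k + l) (fun z => f z * g z) := by
  obtain ⟨c, P, h1, h2, h3, h4, h5, h6⟩ := hf
  obtain ⟨c', P', h1', h2', h3', h4', h5', h6'⟩ := hg
  refine ⟨c * c', P * P', R.mul_mem h1 h1', ?_, mul_ne_zero h3 h3', ?_,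
    tr_coeff_mul_mem R h5 h5', ?_⟩
  · rw [mul_inv]; exact R.mul_mem h2 h2'
  · rw [map_mul, h4, h4', one_mul]
  · rw [← tr_ser_mul]
    exact h6.mul h6'

theorem pow (hf : tr_UL R k f) (n : ℕ) : tr_UL R (n * k) (fun z => f z ^ n) := by
  induction n with
  | zero =>
    simp only [Nat.cast_zero, zero_mul, pow_zero]
    exact one
  | succ n ih =>
    have h := ih.mul hf
    refine (h.congr fun z => (pow_succ _ _).symm).congr_order ?_
    push_cast
    ring

theorem zpow (hf : tr_UL R k f) (hf' : tr_UL R (-k) (fun z => (f z)⁻¹)) (e : ℤ) :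
    tr_UL R (e * k) (fun z => f z ^ e) := by
  rcases Int.le_total 0 e with he | he
  · obtain ⟨n, rfl⟩ := Int.eq_ofNat_of_zero_le he
    exact (hf.pow n).congr fun z => (zpow_natCast _ _).symm
  · obtain ⟨n, hn⟩ := Int.eq_ofNat_of_zero_le (neg_nonneg.mpr he)
    have he' : e = -(n : ℤ) := by omega
    subst he'
    refine ((hf'.pow n).congr fun z => ?_).congr_order ?_
    · rw [zpow_neg, zpow_natCast, inv_pow]
    · ring

theorem prod {ι : Type*} (s : Finset ι) {F : ι → ℍ → ℂ} {K : ι → ℤ}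
    (h : ∀ i ∈ s, tr_UL R (K i) (F i)) :
    tr_UL R (∑ i ∈ s, K i) (fun z => ∏ i ∈ s, F i z) := by
  classical
  induction s using Finset.induction_on with
  | empty =>
    simp only [Finset.sum_empty, Finset.prod_empty]
    exact one
  | insert a s ha ih =>
    have h1 := h a (Finset.mem_insert_self a s)
    have h2 := ih fun i hi => h i (Finset.mem_insert_of_mem hi)
    refine ((h1.mul h2).congr fun z => ?_).congr_order ?_
    · rw [Finset.prod_insert ha]
    · rw [Finset.sum_insert ha]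

end tr_UL

/-! ### Growth estimates from Laurent expansions -/

/-- A nice function whose `q`-expansion starts in degree `≥ j` is `O(|q|^j)` at `i∞`. -/
theorem tr_isBigO_of_coeff_zero {G : ℍ → ℂ} (hG : IsNice G) (j : ℕ)
    (h : ∀ n < j, (qExpansion 1 G).coeff n = 0) :
    G =O[atImInfty] fun z : ℍ => ‖anA_qfun z‖ ^ j := by
  have h2 := hG.analyticAt.hasFPowerSeriesAt
  have h3 := h2.isBigO_sub_partialSum_pow j
  have hps : ∀ y : ℂ, (FormalMultilinearSeries.ofScalars ℂ fun n =>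
      iteratedDeriv n (cuspFunction 1 G) 0 / (n.factorial : ℂ)).partialSum j y = 0 := by
    intro y
    rw [FormalMultilinearSeries.partialSum]
    refine Finset.sum_eq_zero fun n hn => ?_
    have hn' : n < j := Finset.mem_range.mp hn
    have h4 := h n hn'
    rw [qExpansion_coeff] at h4
    have h5 : iteratedDeriv n (cuspFunction 1 G) 0 / (n.factorial : ℂ) = 0 := by
      rw [div_eq_inv_mul]; exact h4
    simp [FormalMultilinearSeries.ofScalars, h5]
  have h6 : (fun y : ℂ => cuspFunction 1 G (0 + y)) =O[𝓝 0] fun y : ℂ => ‖y‖ ^ j := by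
    refine h3.congr_left fun y => ?_
    rw [hps y, sub_zero]
  have h7 := h6.comp_tendsto (qParam_tendsto_atImInfty one_pos)
  refine h7.congr_left fun τ => ?_
  simp only [Function.comp_apply, zero_add]
  exact eq_cuspFunction τ one_ne_zero hG.per

theorem tr_norm_qfun (z : ℍ) : ‖anA_qfun z‖ = Real.exp (-2 * π * z.im) := by
  rw [anA_qfun, Periodic.norm_qParam]
  simp

/-- If the Laurent expansion of `f` has no terms of degree `< -M`, then
`f = O(exp (2 π M im z))`. -/
theorem tr_isBigO_of_hasLaurent {s : LaurentSeries ℂ} {f : ℍ → ℂ} (h : anA_HasLaurent s f)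
    (M : ℕ) (hs : ∀ n : ℤ, n < -(M : ℤ) → s.coeff n = 0) :
    f =O[atImInfty] fun z : ℍ => Real.exp (2 * π * M * z.im) := by
  obtain ⟨m, hmM, hnice, hexp⟩ := h.exists_ge M
  have hcoef : ∀ n < m - M, (qExpansion 1 (anA_qfun ^ m * f)).coeff n = 0 := by
    intro n hn
    have h1 := congrArg (fun t : LaurentSeries ℂ => t.coeff (n : ℤ)) hexp
    simp only [HahnSeries.ofPowerSeries_apply_coeff, HahnSeries.coeff_single_mul, one_mul] at h1
    rw [h1]
    apply hs
    omega
  have h2 := tr_isBigO_of_coeff_zero hnice (m - M) hcoef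
  have h3 : (fun z : ℍ => (anA_qfun z ^ m)⁻¹) =O[atImInfty]
      fun z : ℍ => (‖anA_qfun z‖ ^ m)⁻¹ := by
    refine IsBigO.of_bound 1 (Eventually.of_forall fun z => ?_)
    simp
  have h4 := h3.mul h2
  refine (h4.congr_left fun z => ?_).trans (IsBigO.of_bound 1 (Eventually.of_forall fun z => ?_))
  · simp only [Pi.mul_apply, Pi.pow_apply]
    have : anA_qfun z ^ m ≠ 0 := pow_ne_zero _ (anA_qfun_ne_zero z)
    field_simp
  · rw [tr_norm_qfun, one_mul, Real.norm_of_nonneg (by positivity),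
      Real.norm_of_nonneg (Real.exp_pos _).le, ← Real.exp_nat_mul, ← Real.exp_nat_mul,
      ← Real.exp_neg, ← Real.exp_add]
    apply le_of_eq
    congr 1
    rw [Nat.cast_sub hmM]
    ring

/-- `w ↦ w / N` tends to `i∞`. -/
theorem tr_tendsto_div (N : ℕ) (hN : 0 < N) :
    Tendsto (fun w : ℍ => ofComplex ((w : ℂ) / N)) atImInfty atImInfty := by
  rw [atImInfty, tendsto_comap_iff]
  have hpos : ∀ w : ℍ, 0 < ((w : ℂ) / N).im := fun w => by
    rw [Complex.div_natCast_im]
    exact div_pos w.im_pos (Nat.cast_pos.mpr hN)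
  have e : (im ∘ fun w : ℍ => ofComplex ((w : ℂ) / N)) = fun w : ℍ => w.im / N := by
    funext w
    simp only [Function.comp_apply]
    rw [← coe_im, ofComplex_apply_of_im_pos (hpos w), Complex.div_natCast_im]
    rfl
  rw [e]
  exact (tendsto_comap.atTop_div_const (Nat.cast_pos.mpr hN))

/-- Growth of `f` from growth of `z ↦ f (N z)`. -/
theorem tr_isBigO_of_dilate {f : ℍ → ℂ} {N : ℕ} (hN : 0 < N) {a : ℝ}
    (h : (fun z => f (tr_pt N z)) =O[atImInfty] fun z : ℍ => Real.exp (a * N * z.im)) :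
    f =O[atImInfty] fun z : ℍ => Real.exp (a * z.im) := by
  have hpos : ∀ w : ℍ, 0 < ((w : ℂ) / N).im := fun w => by
    rw [Complex.div_natCast_im]
    exact div_pos w.im_pos (Nat.cast_pos.mpr hN)
  have hN0 : (N : ℂ) ≠ 0 := Nat.cast_ne_zero.mpr hN.ne'
  have hN0' : (N : ℝ) ≠ 0 := Nat.cast_ne_zero.mpr hN.ne'
  have h1 := h.comp_tendsto (tr_tendsto_div N hN)
  refine (h1.congr_left fun w => ?_).congr_right fun w => ?_
  · simp only [Function.comp_apply]
    congr 1
    apply UpperHalfPlane.ext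
    rw [tr_pt_coe hN, ofComplex_apply_of_im_pos (hpos w)]
    field_simp
  · simp only [Function.comp_apply]
    congr 1
    rw [← coe_im, ofComplex_apply_of_im_pos (hpos w), Complex.div_natCast_im]
    have : (w : ℂ).im = w.im := rfl
    rw [this]
    field_simp

/-- Sharp growth of `f` from the Laurent expansion of `z ↦ f (N z)`. -/
theorem tr_isBigO_of_hasLaurent_dilate {s : LaurentSeries ℂ} {f : ℍ → ℂ} {N : ℕ} (hN : 0 < N)
    (h : anA_HasLaurent s (fun z => f (tr_pt N z))) (C : ℕ)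
    (hs : ∀ n : ℤ, n < -((C * N : ℕ) : ℤ) → s.coeff n = 0) :
    f =O[atImInfty] fun z : ℍ => Real.exp (2 * π * C * z.im) := by
  have h1 := tr_isBigO_of_hasLaurent h (C * N) hs
  apply tr_isBigO_of_dilate hN
  refine h1.congr_right fun z => ?_
  push_cast
  ring_nf

theorem tr_ser_coeff_of_lt (c : ℂ) (k : ℤ) (P : PowerSeries ℂ) {n : ℤ} (hn : n < k) :
    (tr_ser c k P).coeff n = 0 := by
  unfold tr_ser
  rw [mul_assoc, HahnSeries.C_mul_eq_smul, HahnSeries.coeff_smul, HahnSeries.coeff_single_mul,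
    ModularCurve.ofPowerSeries_coeff_of_neg _ (by omega)]
  simp

theorem tr_ser_coeff_self (c : ℂ) (k : ℤ) (P : PowerSeries ℂ) :
    (tr_ser c k P).coeff k = c * PowerSeries.constantCoeff P := by
  unfold tr_ser
  rw [mul_assoc, HahnSeries.C_mul_eq_smul, HahnSeries.coeff_smul, HahnSeries.coeff_single_mul,
    sub_self, show (0 : ℤ) = ((0 : ℕ) : ℤ) from rfl, HahnSeries.ofPowerSeries_apply_coeff]
  simp

theorem tr_ser_coeff_add (c : ℂ) (k : ℤ) (P : PowerSeries ℂ) (n : ℕ) :
    (tr_ser c k P).coeff (k + n) = c * PowerSeries.coeff n P := by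
  unfold tr_ser
  rw [mul_assoc, HahnSeries.C_mul_eq_smul, HahnSeries.coeff_smul, HahnSeries.coeff_single_mul,
    show k + (n : ℤ) - k = (n : ℤ) by ring, HahnSeries.ofPowerSeries_apply_coeff]
  simp

theorem tr_ser_coeff_mem (R : Subring ℂ) {c : ℂ} (hc : c ∈ R) (k : ℤ) {P : PowerSeries ℂ}
    (hP : ∀ n, PowerSeries.coeff n P ∈ R) (n : ℤ) : (tr_ser c k P).coeff n ∈ R := by
  rcases lt_or_ge n k with h | h
  · rw [tr_ser_coeff_of_lt c k P h]
    exact R.zero_mem
  · obtain ⟨m, hm⟩ := Int.eq_ofNat_of_zero_le (sub_nonneg.mpr h)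
    have : n = k + m := by omega
    rw [this, tr_ser_coeff_add]
    exact R.mul_mem hc (hP m)

theorem tr_ser_ne_zero {c : ℂ} (hc : c ≠ 0) (k : ℤ) {P : PowerSeries ℂ}
    (hP : PowerSeries.constantCoeff P = 1) : tr_ser c k P ≠ 0 := by
  intro h
  have := tr_ser_coeff_self c k P
  rw [h, hP, mul_one] at this
  exact hc this.symm

theorem tr_ser_order {c : ℂ} (hc : c ≠ 0) (k : ℤ) {P : PowerSeries ℂ}
    (hP : PowerSeries.constantCoeff P = 1) : (tr_ser c k P).order = k := by
  have hne := tr_ser_ne_zero hc k hP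
  apply le_antisymm
  · apply HahnSeries.order_le_of_coeff_ne_zero
    rw [tr_ser_coeff_self, hP, mul_one]
    exact hc
  · by_contra hlt
    rw [not_le] at hlt
    exact hne (HahnSeries.coeff_order_eq_zero.mp (tr_ser_coeff_of_lt c k P hlt))

/-- Sharp growth from a unit-leading expansion of the dilate. -/
theorem tr_UL.isBigO_of_dilate {R : Subring ℂ} {k : ℤ} {f : ℍ → ℂ} {N : ℕ} (hN : 0 < N)
    (h : tr_UL R k (fun z => f (tr_pt N z))) (C : ℕ) (hk : -((C * N : ℕ) : ℤ) ≤ k) :
    f =O[atImInfty] fun z : ℍ => Real.exp (2 * π * C * z.im) := by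
  obtain ⟨c, P, -, -, -, -, -, h6⟩ := h
  exact tr_isBigO_of_hasLaurent_dilate hN h6 C fun n hn =>
    tr_ser_coeff_of_lt c k P (lt_of_lt_of_le hn hk)

end Fermat.Agent.S28
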