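import Mathlib
import Fermat.Agent.S24.InvPoly
import Fermat.Agent.S24.Translate
import Fermat.Agent.S28.TrDefs
import Fermat.Agent.S28.TrUnit
import Fermat.Agent.S28.TrTwist
import Fermat.Agent.S28.HermiteDelta

/-!
# S28, package [TR], part 2: translates of `Δ`-quotients

For `r : ℕ → ℤ` with `∑_{d ∣ N} r d = 0` the `Δ`-quotient `tr_quot N r = ∏_{d ∣ N} Δ(d z)^(r d)`
is `Γ₀(N)`-invariant, and every `SL(2,ℤ)`-translate `z ↦ tr_quot N r (γ z)` has, after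
`z ↦ N z`, a `q`-expansion of the form `c q^k P(q)` with `c` a unit of `tr_R N` (numbers
integral over `ℤ[1/N]`), `P ∈ 1 + q (tr_R N)⟦q⟧` and
`k = ∑_{d ∣ N} r d * (N / d) * gcd (d, c_γ) ^ 2`.
-/

set_option autoImplicit false

noncomputable section

namespace Fermat.Agent.S28

open UpperHalfPlane Function Filter Topology Asymptotics CongruenceSubgroup
open Fermat.Agent.S22 Fermat.Agent.S24
open scoped MatrixGroups ModularForm Manifold Real

local notation "Δ" => ModularForm.discriminant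

theorem tr_prod_zpow_const (s : Finset ℕ) (r : ℕ → ℤ) {a : ℂ} (ha : a ≠ 0) :
    ∏ d ∈ s, a ^ (r d) = a ^ (∑ d ∈ s, r d) := by
  classical
  induction s using Finset.induction_on with
  | empty => simp
  | insert b s hb ih => rw [Finset.prod_insert hb, Finset.sum_insert hb, ih, zpow_add₀ ha]

/-- The transformation behaviour of `Δ(d z)` under `Γ₀(d)`. -/
theorem tr_disc_pt_smul {d : ℕ} (hd : 0 < d) {γ : SL(2, ℤ)} (h : (d : ℤ) ∣ γ 1 0) (z : ℍ) :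
    Δ (tr_pt d (γ • z)) = denom γ z ^ (12 : ℤ) * Δ (tr_pt d z) := by
  obtain ⟨γ', hγ'⟩ := hnf_delta_gamma0 d hd γ h
  obtain ⟨h1, h2⟩ := hγ' z
  have e1 : tr_pt d (γ • z) = γ' • tr_pt d z := h1
  rw [e1, anC_discriminant_smul]
  have e2 : denom γ' (tr_pt d z) = denom γ z := h2
  rw [e2]

/-- `Γ₀(N)`-invariance of the `Δ`-quotients of total exponent `0`. -/
theorem tr_quot_smul (N : ℕ) (r : ℕ → ℤ) (hr : ∑ d ∈ N.divisors, r d = 0) {γ : SL(2, ℤ)}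
    (hγ : γ ∈ Gamma0 N) (z : ℍ) : tr_quot N r (γ • z) = tr_quot N r z := by
  have hN : (N : ℤ) ∣ γ 1 0 := (ZMod.intCast_zmod_eq_zero_iff_dvd _ N).1 ((Gamma0_mem).1 hγ)
  have hden : denom γ z ^ (12 : ℤ) ≠ 0 := zpow_ne_zero _ (denom_ne_zero γ z)
  unfold tr_quot
  have h1 : ∀ d ∈ N.divisors, (Δ (tr_pt d (γ • z))) ^ (r d) =
      (denom γ z ^ (12 : ℤ)) ^ (r d) * (Δ (tr_pt d z)) ^ (r d) := by
    intro d hd
    have hdN : d ∣ N := Nat.dvd_of_mem_divisors hd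
    rw [tr_disc_pt_smul (Nat.pos_of_mem_divisors hd)
      ((Int.natCast_dvd_natCast.mpr hdN).trans hN), mul_zpow]
  rw [Finset.prod_congr rfl h1, Finset.prod_mul_distrib, tr_prod_zpow_const _ _ hden, hr,
    zpow_zero, one_mul]

/-- One factor of a translate. -/
theorem tr_translate_factor (N : ℕ) [NeZero N] {d : ℕ} (hd : d ∣ N) (γ : SL(2, ℤ)) :
    ∃ ψ : ℍ → ℂ,
      tr_UL (tr_R N) (((N / d : ℕ) : ℤ) * ((Int.gcd d (γ 1 0) : ℕ) : ℤ) ^ 2) ψ ∧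
      tr_UL (tr_R N) (-(((N / d : ℕ) : ℤ) * ((Int.gcd d (γ 1 0) : ℕ) : ℤ) ^ 2))
        (fun z => (ψ z)⁻¹) ∧
      ∀ z : ℍ, Δ (tr_pt d (γ • tr_pt N z)) = denom γ (tr_pt N z) ^ (12 : ℤ) * ψ z := by
  have hN0 : 0 < N := Nat.pos_of_ne_zero (NeZero.ne N)
  have hd0 : 0 < d := Nat.pos_of_dvd_of_pos hd hN0
  obtain ⟨A, D, B, hAD, hA, hΔ⟩ := hnf_delta d hd0 γ
  have hA0 : 0 < A := by
    rcases Nat.eq_zero_or_pos A with h | h
    · rw [h, zero_mul] at hAD; omega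
    · exact h
  have hD0 : 0 < D := by
    rcases Nat.eq_zero_or_pos D with h | h
    · rw [h, mul_zero] at hAD; omega
    · exact h
  have hDd : D ∣ d := ⟨A, by rw [← hAD, mul_comm]⟩
  have hDN : D ∣ N := hDd.trans hd
  -- the order
  have hord : ((A * (N / D) : ℕ) : ℤ) = ((N / d : ℕ) : ℤ) * ((Int.gcd d (γ 1 0) : ℕ) : ℤ) ^ 2 := by
    rw [← hA]
    obtain ⟨t, rfl⟩ := hd
    have h1 : d * t / D = A * t := by
      rw [← hAD, mul_comm A D, mul_assoc, Nat.mul_div_cancel_left _ hD0]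
    have h2 : d * t / d = t := Nat.mul_div_cancel_left _ hd0
    rw [h1, h2]
    push_cast
    ring
  obtain ⟨c, P, hc, hc', hP0, hP, hL⟩ := trT_delta N A D hA0 hD0 hDN B
  obtain ⟨c', P', hc2, hc2', hP0', hP', hL'⟩ := trT_delta_inv N A D hA0 hD0 hDN B
  have hcne : c ≠ 0 := by
    intro h
    rw [h] at hL
    have h1 : (HahnSeries.C (0 : ℂ) * HahnSeries.single ((A * (N / D) : ℕ) : ℤ) (1 : ℂ) *
        HahnSeries.ofPowerSeries ℤ ℂ P : LaurentSeries ℂ) = 0 := by simp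
    rw [h1] at hL
    have h2 := hL.eq_zero_of_zero
    have h3 := congrFun h2 (⟨Complex.I, by simp⟩ : ℍ)
    exact ModularForm.discriminant_ne_zero _ h3
  have hc'ne : c' ≠ 0 := by
    intro h
    rw [h] at hL'
    have h1 : (HahnSeries.C (0 : ℂ) * HahnSeries.single (-((A * (N / D) : ℕ) : ℤ)) (1 : ℂ) *
        HahnSeries.ofPowerSeries ℤ ℂ P' : LaurentSeries ℂ) = 0 := by simp
    rw [h1] at hL'
    have h2 := hL'.eq_zero_of_zero
    have h3 := congrFun h2 (⟨Complex.I, by simp⟩ : ℍ)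
    exact inv_ne_zero (ModularForm.discriminant_ne_zero _) h3
  have hDinv : ((D : ℂ)⁻¹) ^ 12 ∈ tr_R N := (tr_R N).pow_mem (tr_R_inv_natCast N hDN) 12
  have hDinv' : (((D : ℂ)⁻¹) ^ 12)⁻¹ ∈ tr_R N := by
    rw [← inv_pow, inv_inv]
    exact (tr_R N).pow_mem (natCast_mem _ D) 12
  have hDne : ((D : ℂ)⁻¹) ^ 12 ≠ 0 :=
    pow_ne_zero _ (inv_ne_zero (Nat.cast_ne_zero.mpr hD0.ne'))
  set φ : ℍ → ℂ := fun z : ℍ => Δ
    (ofComplex (((A : ℂ) * ((N : ℂ) * (z : ℂ)) + (B : ℂ)) / (D : ℂ))) with hφ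
  have hφUL : tr_UL (tr_R N) ((A * (N / D) : ℕ) : ℤ) φ :=
    ⟨c, P, tr_R_of_isIntegral N hc, tr_R_of_isIntegral N hc', hcne, hP0,
      fun n => tr_R_of_isIntegral N (hP n), hL⟩
  have hφUL' : tr_UL (tr_R N) (-((A * (N / D) : ℕ) : ℤ)) (fun z => (φ z)⁻¹) :=
    ⟨c', P', tr_R_of_isIntegral N hc2, tr_R_of_isIntegral N hc2', hc'ne, hP0',
      fun n => tr_R_of_isIntegral N (hP' n), hL'⟩
  refine ⟨fun z => ((D : ℂ)⁻¹) ^ 12 * φ z, ?_, ?_, ?_⟩
  · have h := (tr_UL.const (R := tr_R N) hDinv hDinv' hDne).mul hφUL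
    exact h.congr_order (by rw [zero_add, hord])
  · have h := (tr_UL.const (R := tr_R N) hDinv' (by rwa [inv_inv]) (inv_ne_zero hDne)).mul hφUL'
    refine (h.congr fun z => ?_).congr_order (by rw [zero_add, hord])
    rw [mul_inv]
  · intro z
    have h1 := hΔ (tr_pt N z)
    have e1 : tr_pt d (γ • tr_pt N z) =
        ofComplex ((d : ℂ) * ((γ • tr_pt N z : ℍ) : ℂ)) := rfl
    have e2 : φ z = Δ (ofComplex (((A : ℂ) * ((tr_pt N z : ℍ) : ℂ) + (B : ℂ)) / (D : ℂ))) := by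
      simp only [hφ]
      rw [tr_pt_coe hN0]
    beta_reduce
    rw [e1, h1, e2, zpow_ofNat]
    ring

/-- **Translates of `Δ`-quotients.** -/
theorem tr_translate_UL (N : ℕ) [NeZero N] (r : ℕ → ℤ) (hr : ∑ d ∈ N.divisors, r d = 0)
    (γ : SL(2, ℤ)) :
    tr_UL (tr_R N)
      (∑ d ∈ N.divisors, r d * ((N / d : ℕ) : ℤ) * ((Int.gcd d (γ 1 0) : ℕ) : ℤ) ^ 2)
      (fun z => tr_quot N r (γ • tr_pt N z)) := by
  choose! ψ hψ1 hψ2 hψ3 using fun (d : ℕ) (hd : d ∣ N) => tr_translate_factor N hd γ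
  have h1 : tr_UL (tr_R N)
      (∑ d ∈ N.divisors, r d * (((N / d : ℕ) : ℤ) * ((Int.gcd d (γ 1 0) : ℕ) : ℤ) ^ 2))
      (fun z => ∏ d ∈ N.divisors, (ψ d z) ^ (r d)) :=
    tr_UL.prod _ fun d hd =>
      (hψ1 d (Nat.dvd_of_mem_divisors hd)).zpow (hψ2 d (Nat.dvd_of_mem_divisors hd)) (r d)
  refine (h1.congr fun z => ?_).congr_order (Finset.sum_congr rfl fun d _ => by ring)
  have hden : denom γ (tr_pt N z) ^ (12 : ℤ) ≠ 0 := zpow_ne_zero _ (denom_ne_zero γ _)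
  unfold tr_quot
  have h2 : ∀ d ∈ N.divisors, (Δ (tr_pt d (γ • tr_pt N z))) ^ (r d) =
      (denom γ (tr_pt N z) ^ (12 : ℤ)) ^ (r d) * (ψ d z) ^ (r d) := by
    intro d hd
    rw [hψ3 d (Nat.dvd_of_mem_divisors hd), mul_zpow]
  rw [Finset.prod_congr rfl h2, Finset.prod_mul_distrib, tr_prod_zpow_const _ _ hden, hr,
    zpow_zero, one_mul]

/-- **Translates of `Δ`-quotients**, unfolded form: the `q`-expansion of
`z ↦ (g ∘ γ)(N z)`, i.e. the `q^(1/N)`-expansion of the translate `g ∘ γ`. -/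
theorem tr_hasLaurent (N : ℕ) [NeZero N] (r : ℕ → ℤ) (hr : ∑ d ∈ N.divisors, r d = 0)
    (γ : SL(2, ℤ)) :
    ∃ (c : ℂ) (P : PowerSeries ℂ), c ∈ tr_R N ∧ c⁻¹ ∈ tr_R N ∧ c ≠ 0 ∧
      PowerSeries.constantCoeff P = 1 ∧ (∀ n, PowerSeries.coeff n P ∈ tr_R N) ∧
      anA_HasLaurent
        (HahnSeries.C c *
          HahnSeries.single
            (∑ d ∈ N.divisors, r d * ((N / d : ℕ) : ℤ) * ((Int.gcd d (γ 1 0) : ℕ) : ℤ) ^ 2)
            (1 : ℂ) *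
          HahnSeries.ofPowerSeries ℤ ℂ P)
        (fun z => tr_quot N r (γ • tr_pt N z)) :=
  tr_translate_UL N r hr γ

/-- The inverse of a translate has an expansion of the same kind. -/
theorem tr_translate_UL_inv (N : ℕ) [NeZero N] (r : ℕ → ℤ) (hr : ∑ d ∈ N.divisors, r d = 0)
    (γ : SL(2, ℤ)) :
    tr_UL (tr_R N)
      (-∑ d ∈ N.divisors, r d * ((N / d : ℕ) : ℤ) * ((Int.gcd d (γ 1 0) : ℕ) : ℤ) ^ 2)
      (fun z => (tr_quot N r (γ • tr_pt N z))⁻¹) := by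
  have hr' : ∑ d ∈ N.divisors, (fun d => - r d) d = 0 := by
    rw [Finset.sum_neg_distrib, hr, neg_zero]
  have h := tr_translate_UL N (fun d => - r d) hr' γ
  refine (h.congr fun z => tr_quot_neg N r _).congr_order ?_
  rw [← Finset.sum_neg_distrib]
  exact Finset.sum_congr rfl fun d _ => by ring

/-- Every translate of a `Δ`-quotient has moderate growth. -/
theorem tr_growth (N : ℕ) [NeZero N] (r : ℕ → ℤ) (hr : ∑ d ∈ N.divisors, r d = 0)
    (γ : SL(2, ℤ)) : anB_Growth (fun z => tr_quot N r (γ • z)) := by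
  have hN0 : 0 < N := Nat.pos_of_ne_zero (NeZero.ne N)
  have h := tr_translate_UL N r hr γ
  set k := ∑ d ∈ N.divisors, r d * ((N / d : ℕ) : ℤ) * ((Int.gcd d (γ 1 0) : ℕ) : ℤ) ^ 2
  refine ⟨k.natAbs, ?_⟩
  refine tr_UL.isBigO_of_dilate (f := fun z => tr_quot N r (γ • z)) hN0 h k.natAbs ?_
  have h1 : (k.natAbs : ℤ) ≤ ((k.natAbs * N : ℕ) : ℤ) := by
    exact_mod_cast Nat.le_mul_of_pos_right _ hN0
  have h2 : -(k.natAbs : ℤ) ≤ k := by
    rw [Int.natCast_natAbs]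
    exact neg_abs_le k
  omega

/-- `Δ`-quotients of total exponent `0` are modular functions for `Γ₀(N)` in the sense of
`S24`. -/
theorem tr_quot_isModFun (N : ℕ) [NeZero N] (r : ℕ → ℤ) (hr : ∑ d ∈ N.divisors, r d = 0) :
    anB_IsModFun N (tr_quot N r) where
  holo := tr_quot_mdiff N r
  inv := fun _ hγ z => tr_quot_smul N r hr hγ z
  growth := fun γ => tr_growth N r hr γ

end Fermat.Agent.S28
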