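import Mathlib
import Fermat.Agent.S22.Nice
import Fermat.Agent.S24.BridgeEta
import Fermat.Agent.S24.BridgeLaurent
import Fermat.Agent.S28.TwistFormal
import Fermat.Agent.S28.TrDefs

/-!
# S28, package [TR]: calculus of Laurent expansions at `i∞`

Closure of `Fermat.Agent.S24.anA_HasLaurent` under

* inversion of nowhere vanishing functions (`twL_hasLaurent_inv`), integer powers
  (`twL_hasLaurent_zpow`) and finite products of integer powers (`twL_hasLaurent_prod_zpow`);
* `z ↦ d z` (`twL_hasLaurent_diag`);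

the expansion of `Δ` (`twL_hasLaurent_delta`) and of arbitrary `Δ`-quotients
`∏ d ∣ N, Δ (d z) ^ r d` on the identity coset (`twL_hasLaurent_quot`), with an explicit
integral model `twL_quotZ N r : LaurentSeries ℤ` of leading coefficient `1`.
-/

set_option autoImplicit false

noncomputable section

namespace Fermat.Agent.S28

open UpperHalfPlane ModularFormClass Function Filter Topology ModularForm
open scoped MatrixGroups ModularForm Manifold

open Fermat.Agent.S22 Fermat.Agent.S24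

local notation "𝕢" => Function.Periodic.qParam

/-! ### Inverses of nice functions -/

/-- A nowhere vanishing nice function is bounded below by a power of `q` near `i∞`: some
`q ^ k / h` is nice. -/
theorem twL_exists_isNice_div {h : ℍ → ℂ} (hh : IsNice h) (hne : ∀ z, h z ≠ 0) :
    ∃ k : ℕ, IsNice (fun z => anA_qfun z ^ k / h z) := by
  have hF := hh.analyticAt
  have hcomp : ∀ τ : ℍ, cuspFunction 1 h (𝕢 1 τ) = h τ := fun τ =>
    eq_cuspFunction τ one_ne_zero hh.per
  have hnz : ¬ ∀ᶠ q in 𝓝 (0 : ℂ), cuspFunction 1 h q = 0 := by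
    intro hev
    have h1 := (qParam_tendsto_atImInfty one_pos).eventually hev
    obtain ⟨τ, hτ⟩ := h1.exists
    exact hne τ (by rw [← hcomp τ]; exact hτ)
  obtain ⟨k, g, hg_an, hg_ne, hg_eq⟩ := hF.exists_eventuallyEq_pow_smul_nonzero_iff.mpr hnz
  refine ⟨k, ?_, ?_, ?_⟩
  · intro w
    have h2 := hh.per w
    have h3 := (anA_isNice_qfun.pow k).per w
    simp only [comp_apply, Pi.pow_apply] at h2 h3 ⊢
    rw [h2, h3]
  · exact (anA_isNice_qfun.pow k).holo.div hh.holo hne
  · have h1 : ∀ᶠ τ : ℍ in atImInfty, (g (𝕢 1 (τ : ℂ)))⁻¹ = anA_qfun τ ^ k / h τ := by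
      filter_upwards [(qParam_tendsto_atImInfty one_pos).eventually hg_eq] with τ hτ
      rw [← hcomp τ, hτ, sub_zero, smul_eq_mul, anA_qfun_apply]
      have hq : (𝕢 1 (τ : ℂ)) ^ k ≠ 0 := pow_ne_zero _ (Periodic.qParam_ne_zero _)
      have hg : g (𝕢 1 (τ : ℂ)) ≠ 0 := by
        intro h0
        apply hne τ
        rw [← hcomp τ, hτ, h0, smul_zero]
      field_simp
    have h2 : Tendsto (fun τ : ℍ => (g (𝕢 1 (τ : ℂ)))⁻¹) atImInfty (𝓝 (g 0)⁻¹) :=
      (hg_an.continuousAt.tendsto.comp (qParam_tendsto_atImInfty one_pos)).inv₀ hg_ne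
    exact (h2.congr' h1).isBigO_one ℝ

/-- The inverse of a nowhere vanishing function with a Laurent expansion at `i∞` has the inverse
Laurent expansion. -/
theorem twL_hasLaurent_inv {s : LaurentSeries ℂ} {f : ℍ → ℂ} (h : anA_HasLaurent s f)
    (hf : ∀ z, f z ≠ 0) : anA_HasLaurent s⁻¹ (fun z => (f z)⁻¹) := by
  obtain ⟨m, h1, h2⟩ := h
  have hne : ∀ z, (anA_qfun ^ m * f) z ≠ 0 := fun z => by
    simp only [Pi.mul_apply, Pi.pow_apply]
    exact mul_ne_zero (pow_ne_zero _ (anA_qfun_ne_zero z)) (hf z)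
  obtain ⟨k, hk⟩ := twL_exists_isNice_div h1 hne
  have e1 : anA_qfun ^ k * (fun z => (f z)⁻¹) =
      anA_qfun ^ m * fun z => anA_qfun z ^ k / (anA_qfun ^ m * f) z := by
    funext z
    simp only [Pi.mul_apply, Pi.pow_apply]
    have hq : anA_qfun z ^ m ≠ 0 := pow_ne_zero _ (anA_qfun_ne_zero z)
    have := hf z
    field_simp
  have hnice : IsNice (anA_qfun ^ k * fun z => (f z)⁻¹) := by
    rw [e1]
    exact (anA_isNice_qfun.pow m).mul hk
  have e2 : (anA_qfun ^ k * fun z => (f z)⁻¹) * (anA_qfun ^ m * f) = anA_qfun ^ (k + m) := by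
    funext z
    simp only [Pi.mul_apply, Pi.pow_apply]
    have := hf z
    rw [pow_add]
    field_simp
  have h3 := hnice.qExpansion_mul h1
  rw [e2, anA_isNice_qfun.qExpansion_pow, anA_qExpansion_qfun] at h3
  have h4 := congrArg (HahnSeries.ofPowerSeries ℤ ℂ) h3
  rw [map_mul, h2, anA_ofPowerSeries_X_pow] at h4
  have hs : s ≠ 0 := by
    rintro rfl
    rw [mul_zero, mul_zero] at h4
    exact HahnSeries.single_ne_zero one_ne_zero h4
  refine ⟨k, hnice, ?_⟩
  have hm : HahnSeries.single (m : ℤ) (1 : ℂ) ≠ 0 := HahnSeries.single_ne_zero one_ne_zero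
  have h5 : HahnSeries.single ((k + m : ℕ) : ℤ) (1 : ℂ) =
      HahnSeries.single (k : ℤ) 1 * HahnSeries.single (m : ℤ) 1 := by
    rw [anA_single_mul_single]
    push_cast
    rfl
  rw [h5] at h4
  have h6 : HahnSeries.single (k : ℤ) (1 : ℂ) * HahnSeries.single (m : ℤ) 1 * s⁻¹ =
      HahnSeries.ofPowerSeries ℤ ℂ (qExpansion 1 (anA_qfun ^ k * fun z => (f z)⁻¹)) *
        HahnSeries.single (m : ℤ) 1 := by
    rw [h4]
    field_simp
  have h7 := mul_right_cancel₀ hm (h6.symm.trans (by ring :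
    HahnSeries.single (k : ℤ) (1 : ℂ) * HahnSeries.single (m : ℤ) 1 * s⁻¹ =
      (HahnSeries.single (k : ℤ) (1 : ℂ) * s⁻¹) * HahnSeries.single (m : ℤ) 1))
  exact h7

/-! ### Powers and products -/

theorem twL_hasLaurent_pow {s : LaurentSeries ℂ} {f : ℍ → ℂ} (h : anA_HasLaurent s f) (n : ℕ) :
    anA_HasLaurent (s ^ n) (fun z => f z ^ n) := by
  induction n with
  | zero =>
    simp only [pow_zero]
    exact anA_HasLaurent.one
  | succ n ih =>
    have h1 := ih.mul h
    rw [← pow_succ] at h1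
    have e : (fun z => f z ^ (n + 1)) = (fun z => f z ^ n) * f := by
      funext z
      simp only [Pi.mul_apply]
      rw [pow_succ]
    rw [e]
    exact h1

theorem twL_hasLaurent_zpow {s : LaurentSeries ℂ} {f : ℍ → ℂ} (h : anA_HasLaurent s f)
    (hf : ∀ z, f z ≠ 0) (e : ℤ) : anA_HasLaurent (s ^ e) (fun z => f z ^ e) := by
  rcases Int.le_total 0 e with he | he
  · obtain ⟨k, rfl⟩ := Int.eq_ofNat_of_zero_le he
    simp only [zpow_natCast]
    exact twL_hasLaurent_pow h k
  · obtain ⟨k, hk⟩ := Int.eq_ofNat_of_zero_le (neg_nonneg.mpr he)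
    have : e = -(k : ℤ) := by omega
    subst this
    simp only [zpow_neg, zpow_natCast, ← inv_pow]
    exact twL_hasLaurent_pow (twL_hasLaurent_inv h hf) k

theorem twL_hasLaurent_prod {ι : Type*} (S : Finset ι) {σ : ι → LaurentSeries ℂ}
    {F : ι → ℍ → ℂ} (h : ∀ i ∈ S, anA_HasLaurent (σ i) (F i)) :
    anA_HasLaurent (∏ i ∈ S, σ i) (fun z => ∏ i ∈ S, F i z) := by
  classical
  induction S using Finset.induction_on with
  | empty =>
    simp only [Finset.prod_empty]
    exact anA_HasLaurent.one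
  | insert a S ha ih =>
    have h1 := (h a (Finset.mem_insert_self a S)).mul
      (ih fun i hi => h i (Finset.mem_insert_of_mem hi))
    rw [Finset.prod_insert ha]
    have e : (fun z => ∏ i ∈ insert a S, F i z) = F a * fun z => ∏ i ∈ S, F i z := by
      funext z
      simp only [Pi.mul_apply]
      rw [Finset.prod_insert ha]
    rw [e]
    exact h1

theorem twL_hasLaurent_prod_zpow {ι : Type*} (S : Finset ι) {σ : ι → LaurentSeries ℂ}
    {F : ι → ℍ → ℂ} (h : ∀ i ∈ S, anA_HasLaurent (σ i) (F i)) (hF : ∀ i ∈ S, ∀ z, F i z ≠ 0)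
    (e : ι → ℤ) :
    anA_HasLaurent (∏ i ∈ S, σ i ^ e i) (fun z => ∏ i ∈ S, F i z ^ e i) :=
  twL_hasLaurent_prod S fun i hi => twL_hasLaurent_zpow (h i hi) (hF i hi) (e i)

/-- A function with a nonzero Laurent expansion of order `≥ 0`... is in particular determined by
its series; here: the series of a nowhere vanishing function is nonzero. -/
theorem twL_series_ne_zero {s : LaurentSeries ℂ} {f : ℍ → ℂ} (h : anA_HasLaurent s f)
    (z₀ : ℍ) (hf : f z₀ ≠ 0) : s ≠ 0 := by
  rintro rfl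
  have := h.eq_zero_of_zero
  exact hf (by rw [this]; rfl)

/-! ### Composition with `z ↦ d z` -/

theorem twL_ofComplex_mul (d : ℕ) [NeZero d] (z : ℍ) :
    ofComplex ((d : ℂ) * (z : ℂ)) = heckeDiagMatrix d • z := by
  apply UpperHalfPlane.ext
  rw [coe_heckeDiagMatrix_smul (NeZero.ne d)]
  have hpos : 0 < ((d : ℂ) * (z : ℂ)).im := by
    have hd : (0 : ℝ) < d := by exact_mod_cast Nat.pos_of_ne_zero (NeZero.ne d)
    simpa using mul_pos hd z.im_pos
  rw [ofComplex_apply_of_im_pos hpos]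

theorem twL_hasLaurent_diag' {s : LaurentSeries ℂ} {f : ℍ → ℂ} (h : anA_HasLaurent s f)
    (d : ℕ) [NeZero d] :
    anA_HasLaurent (ModularCurve.qExpand ℂ d s) (fun z => f (heckeDiagMatrix d • z)) := by
  obtain ⟨m, h1, h2⟩ := h
  have e : anA_qfun ^ (d * m) * (fun z => f (heckeDiagMatrix d • z)) =
      fun z => (anA_qfun ^ m * f) (heckeDiagMatrix d • z) := by
    funext z
    simp only [Pi.mul_apply, Pi.pow_apply]
    rw [anA_qfun_diag, pow_mul]
  refine ⟨d * m, ?_, ?_⟩
  · rw [e]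
    exact anA_isNice_comp_diag h1 d
  · rw [e, anA_ofPowerSeries_comp_diag h1 d, h2, map_mul, ModularCurve.qExpand_single]
    push_cast
    rfl

/-- If `f` has the Laurent expansion `s`, then `z ↦ f (d z)` has the Laurent expansion
`s (q ^ d)`. -/
theorem twL_hasLaurent_diag {s : LaurentSeries ℂ} {f : ℍ → ℂ} (h : anA_HasLaurent s f)
    (d : ℕ) [NeZero d] :
    anA_HasLaurent (ModularCurve.qExpand ℂ d s) (fun z => f (ofComplex ((d : ℂ) * (z : ℂ)))) := by
  have h1 := twL_hasLaurent_diag' h d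
  have e : (fun z : ℍ => f (ofComplex ((d : ℂ) * (z : ℂ)))) =
      fun z => f (heckeDiagMatrix d • z) := by
    funext z
    rw [twL_ofComplex_mul]
  rw [e]
  exact h1

/-! ### The discriminant -/

/-- The formal `q`-expansion of `Δ` with complex coefficients. -/
abbrev twL_deltaC : LaurentSeries ℂ := twL_delta ℂ

theorem twL_isNice_discriminant : IsNice (fun z : ℍ => ModularForm.discriminant z) := by
  have : (fun z : ℍ => ModularForm.discriminant z) = anA_qfun * anA_etaF ^ 24 := by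
    funext z
    rw [anA_discriminant_eq]
    rfl
  rw [this]
  exact anA_isNice_qfun.mul (anA_isNice_etaF.pow 24)

theorem twL_qExpansion_discriminant :
    qExpansion 1 (fun z : ℍ => ModularForm.discriminant z) =
      PowerSeries.X * ModularCurve.dedekindEtaUnit.map (Int.castRingHom ℂ) := by
  have : (fun z : ℍ => ModularForm.discriminant z) = anA_qfun * anA_etaF ^ 24 := by
    funext z
    rw [anA_discriminant_eq]
    rfl
  rw [this, anA_isNice_qfun.qExpansion_mul (anA_isNice_etaF.pow 24), anA_qExpansion_qfun,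
    anA_isNice_etaF.qExpansion_pow, anA_qExpansion_etaF, ModularCurve.dedekindEtaUnit, map_pow]

theorem twL_hasLaurent_delta :
    anA_HasLaurent twL_deltaC (fun z : ℍ => ModularForm.discriminant z) := by
  have h := anA_HasLaurent.of_isNice twL_isNice_discriminant
  rw [twL_qExpansion_discriminant, map_mul, HahnSeries.ofPowerSeries_X] at h
  exact h

theorem twL_hasLaurent_delta' :
    anA_HasLaurent (twL_delta ℂ) (fun z : ℍ => ModularForm.discriminant z) :=
  twL_hasLaurent_delta

theorem twL_discriminant_ne_zero (z : ℍ) : ModularForm.discriminant z ≠ 0 := by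
  rw [anA_discriminant_eq]
  exact mul_ne_zero (anA_qfun_ne_zero z) (pow_ne_zero _ (anA_etaF_ne_zero z))

/-- The Laurent expansion of `z ↦ Δ (d z)`. -/
theorem twL_hasLaurent_delta_diag (d : ℕ) [NeZero d] :
    anA_HasLaurent (ModularCurve.qExpand ℂ d twL_deltaC)
      (fun z : ℍ => ModularForm.discriminant (ofComplex ((d : ℂ) * (z : ℂ)))) :=
  twL_hasLaurent_diag twL_hasLaurent_delta d

/-! ### `Δ`-quotients on the identity coset -/

/-- The `Δ`-quotient `z ↦ ∏_{d ∣ N} Δ (d z) ^ (r d)` as a function on the upper half plane. -/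
def twL_quotFun (N : ℕ) (r : ℕ → ℤ) : ℍ → ℂ := fun z =>
  ∏ d ∈ N.divisors, (ModularForm.discriminant (ofComplex ((d : ℂ) * (z : ℂ)))) ^ (r d)

theorem twL_quotFun_apply (N : ℕ) (r : ℕ → ℤ) (z : ℍ) :
    twL_quotFun N r z =
      ∏ d ∈ N.divisors, (ModularForm.discriminant (ofComplex ((d : ℂ) * (z : ℂ)))) ^ (r d) :=
  rfl

theorem twL_quotFun_ne_zero (N : ℕ) (r : ℕ → ℤ) (z : ℍ) : twL_quotFun N r z ≠ 0 := by
  rw [twL_quotFun_apply, Finset.prod_ne_zero_iff]
  intro d _
  exact zpow_ne_zero _ (twL_discriminant_ne_zero _)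

/-- **Identity coset.** The `Δ`-quotient `∏_{d ∣ N} Δ (d z) ^ (r d)` has the Laurent expansion
`twL_quot ℂ N r = ∏_{d ∣ N} Δ(q ^ d) ^ (r d)` at `i∞`. -/
theorem twL_hasLaurent_quot (N : ℕ) (r : ℕ → ℤ) :
    anA_HasLaurent (twL_quot ℂ N r)
      (fun z : ℍ => ∏ d ∈ N.divisors,
        (ModularForm.discriminant (ofComplex ((d : ℂ) * (z : ℂ)))) ^ (r d)) := by
  rw [twL_quot_eq_prod]
  refine twL_hasLaurent_prod_zpow N.divisors (fun d hd => ?_)
    (fun d _ z => twL_discriminant_ne_zero _) r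
  have : NeZero d := ⟨(Nat.pos_of_mem_divisors hd).ne'⟩
  rw [twL_qE_eq]
  exact twL_hasLaurent_delta_diag d

/-- The same with the integral model made explicit: the expansion is the image of
`twL_quot ℤ N r : LaurentSeries ℤ`, which has leading coefficient `1` (`twL_quot_leadingCoeff`)
and order `∑ d ∣ N, r d * d` (`twL_quot_order`). -/
theorem twL_hasLaurent_quot_int (N : ℕ) (r : ℕ → ℤ) :
    anA_HasLaurent (ModularCurve.coeffMap (Int.castRingHom ℂ) (twL_quot ℤ N r))
      (twL_quotFun N r) := by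
  rw [twL_coeffMap_quot]
  exact twL_hasLaurent_quot N r

/-- The same through `ℚ`. -/
theorem twL_hasLaurent_quot_rat (N : ℕ) (r : ℕ → ℤ) :
    anA_HasLaurent (ModularCurve.coeffMap (algebraMap ℚ ℂ) (twL_quot ℚ N r))
      (twL_quotFun N r) := by
  rw [twL_coeffMap_quot]
  exact twL_hasLaurent_quot N r

theorem twL_quotFun_mdiff (N : ℕ) (r : ℕ → ℤ) : MDiff (twL_quotFun N r) :=
  (twL_hasLaurent_quot N r).mdiff

theorem twL_quotFun_eq_tr_quot (N : ℕ) (r : ℕ → ℤ) : twL_quotFun N r = tr_quot N r := rfl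

/-- **Identity coset**, in terms of `tr_quot`: the `Δ`-quotient `tr_quot N r` has the Laurent
expansion `twL_quot ℂ N r`, the image of the integral series `twL_quot ℤ N r`. -/
theorem twL_hasLaurent_tr_quot (N : ℕ) (r : ℕ → ℤ) :
    anA_HasLaurent (twL_quot ℂ N r) (tr_quot N r) :=
  twL_hasLaurent_quot N r

theorem twL_hasLaurent_tr_quot_int (N : ℕ) (r : ℕ → ℤ) :
    anA_HasLaurent (ModularCurve.coeffMap (Int.castRingHom ℂ) (twL_quot ℤ N r))
      (tr_quot N r) :=
  twL_hasLaurent_quot_int N r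

end Fermat.Agent.S28
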