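import Mathlib
import Fermat.Agent.S28.TwistFormal
import Fermat.Agent.S28.UnitMem

/-!
# S28: the formal `Δ`-quotients of total exponent `0` lie in the function field

`twL_quot ℚ N r = ∏_{d ∣ N} Δ(q ^ d) ^ (r d)` with `∑ r d = 0` is the product of the powers
`(Δ(q ^ d) / Δ(q)) ^ (r d)` of the modular units `umem_unit d`, hence lies in
`modularFunctionFieldFull N` by `umem_unit_mem`.
-/

set_option autoImplicit false

noncomputable section

namespace Fermat.Agent.S28

open ModularCurve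

theorem twL_delta_rat_eq : twL_delta ℚ = umem_deltaQ := rfl

theorem twL_delta_rat_ne_zero : twL_delta ℚ ≠ 0 := (twL_deltaUnit ℚ).ne_zero

theorem twL_prod_zpow_const {K : Type*} [Field K] {ι : Type*} (s : Finset ι) (a : K)
    (ha : a ≠ 0) (r : ι → ℤ) : ∏ i ∈ s, a ^ (r i) = a ^ (∑ i ∈ s, r i) := by
  classical
  induction s using Finset.induction_on with
  | empty => simp
  | insert i s hi ih => rw [Finset.prod_insert hi, Finset.sum_insert hi, ih, zpow_add₀ ha]

/-- The product of the powers of the modular units. -/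
theorem twL_quot_eq_prod_unit (N : ℕ) (r : ℕ → ℤ) (hr : ∑ d ∈ N.divisors, r d = 0) :
    twL_quot ℚ N r =
      ∏ d ∈ N.divisors, (twL_qE ℚ d (twL_delta ℚ) * (twL_delta ℚ)⁻¹) ^ (r d) := by
  rw [twL_quot_eq_prod]
  have h0 := twL_delta_rat_ne_zero
  have h1 : ∀ d ∈ N.divisors, (twL_qE ℚ d (twL_delta ℚ) * (twL_delta ℚ)⁻¹) ^ (r d) =
      (twL_qE ℚ d (twL_delta ℚ)) ^ (r d) * ((twL_delta ℚ)⁻¹) ^ (r d) := fun d _ =>
    mul_zpow _ _ _
  rw [Finset.prod_congr rfl h1, Finset.prod_mul_distrib,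
    twL_prod_zpow_const _ _ (inv_ne_zero h0), hr, zpow_zero, mul_one]

/-- **[MEM] for `Δ`-quotients.** A `Δ`-quotient of level `N` and total exponent `0` lies in the
function field `ℚ(j(q ^ d) : d ∣ N)`. -/
theorem twL_quot_mem (N : ℕ) [NeZero N] (r : ℕ → ℤ) (hr : ∑ d ∈ N.divisors, r d = 0) :
    twL_quot ℚ N r ∈ modularFunctionFieldFull N := by
  rw [twL_quot_eq_prod_unit N r hr]
  refine prod_mem fun d hd => ?_
  have hd0 : NeZero d := ⟨(Nat.pos_of_mem_divisors hd).ne'⟩
  refine zpow_mem ?_ _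
  have := umem_unit_mem N d (Nat.dvd_of_mem_divisors hd)
  rw [umem_unit] at this
  rw [twL_qE_eq]
  exact this

/-- The same for the integral model. -/
theorem twL_quot_int_mem (N : ℕ) [NeZero N] (r : ℕ → ℤ) (hr : ∑ d ∈ N.divisors, r d = 0) :
    ModularCurve.coeffMap (Int.castRingHom ℚ) (twL_quot ℤ N r) ∈ modularFunctionFieldFull N := by
  rw [twL_coeffMap_quot]
  exact twL_quot_mem N r hr

end Fermat.Agent.S28
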