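import Mathlib
import Fermat.Prelude.Def_ModularCurve_X0
import Fermat.Agent.S24.Defs
import Fermat.Agent.S24.CombBasic
import Fermat.Agent.S24.CombPsi
import Fermat.Agent.S24.CombIndex
import Fermat.Agent.S24.Translate
import Fermat.Agent.S28.OrdComb
import Fermat.Agent.S28.TrDefs
import Fermat.Agent.S28.TrUnit
import Fermat.Agent.S28.TrQuot
import Fermat.Agent.S28.TwistFormal
import Fermat.Agent.S28.TwistLaurent
import Fermat.Agent.S28.TwistLink

/-!
# S28, package [TR], part 3: the modular unit `g_N`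

`g_N(z) = ∏_{d ∣ N} Δ(d z)^(d μ(N/d)) / Δ(z)^φ(N)` is a modular unit for `Γ₀(N)` whose
`q`-order is `φ(N) (ψ(N) - 1)` at the identity coset and `-φ(N)` at every other coset of
`Γ₀(N)` in `SL(2,ℤ)`.
-/

set_option autoImplicit false

noncomputable section

namespace Fermat.Agent.S28

open UpperHalfPlane Function Filter Topology Asymptotics CongruenceSubgroup
open Fermat.Agent.S22 Fermat.Agent.S24
open scoped MatrixGroups ModularForm Manifold Real

/-! ### Arithmetic -/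

/-- `∑_{d ∣ N} d μ(N / d) = φ(N)`. -/
theorem tr_sum_mul_moebius (N : ℕ) (hN : 0 < N) :
    ∑ d ∈ N.divisors, (d : ℤ) * (ArithmeticFunction.moebius (N / d) : ℤ) = (N.totient : ℤ) := by
  have key := (ArithmeticFunction.sum_eq_iff_sum_mul_moebius_eq
    (f := fun n : ℕ => (n.totient : ℤ)) (g := fun n : ℕ => (n : ℤ))).mp
    (fun n _ => by exact_mod_cast Nat.sum_totient n) N hN
  simp only [Int.cast_id] at key
  rw [Nat.sum_divisorsAntidiagonal'
    (fun a b => (ArithmeticFunction.moebius a : ℤ) * (b : ℤ))] at key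
  rw [← key]
  exact Finset.sum_congr rfl fun d _ => mul_comm _ _

/-- Jordan's totient is `φ ψ`. -/
theorem tr_J_eq (N : ℕ) (hN : 0 < N) :
    ordC_J N = (N.totient : ℤ) * (ModularCurve.dedekindPsi N : ℤ) := by
  induction N using Nat.recOnPosPrimePosCoprime with
  | prime_pow p n hp hn =>
    obtain ⟨e, rfl⟩ : ∃ e, n = e + 1 := ⟨n - 1, by omega⟩
    rw [ordC_J_prime_pow hp e, Nat.totient_prime_pow_succ hp, Comb.dedekindPsi_prime_pow hp]
    have h1 : ((p - 1 : ℕ) : ℤ) = (p : ℤ) - 1 := by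
      rw [Nat.cast_sub hp.one_le]; simp
    push_cast
    rw [h1]
    ring
  | zero => exact absurd hN (lt_irrefl 0)
  | one =>
    rw [ordC_J_isMultiplicative.map_one]
    simp
  | coprime a b ha hb hab iha ihb =>
    have ha0 : 0 < a := by omega
    have hb0 : 0 < b := by omega
    rw [ordC_J_isMultiplicative.map_mul_of_coprime hab, Nat.totient_mul hab,
      Comb.dedekindPsi_mul hab, iha ha0, ihb hb0]
    push_cast
    ring

/-- The exponents of the unit `g_N`: `r_d = d μ(N/d) - φ(N) [d = 1]`. -/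
def tr_rN (N d : ℕ) : ℤ :=
  (d : ℤ) * (ArithmeticFunction.moebius (N / d) : ℤ) - if d = 1 then (N.totient : ℤ) else 0

theorem tr_rN_sum (N : ℕ) (hN : 0 < N) : ∑ d ∈ N.divisors, tr_rN N d = 0 := by
  unfold tr_rN
  rw [Finset.sum_sub_distrib, tr_sum_mul_moebius N hN, Finset.sum_ite_eq' N.divisors 1,
    if_pos (Nat.one_mem_divisors.mpr hN.ne'), sub_self]

/-- The order of the translates of `g_N`. -/
theorem tr_rN_order (N : ℕ) (hN : 0 < N) (c : ℤ) :
    ∑ d ∈ N.divisors, tr_rN N d * ((N / d : ℕ) : ℤ) * ((Int.gcd d c : ℕ) : ℤ) ^ 2 =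
      (N : ℤ) * ((if (N : ℤ) ∣ c then ordC_J N else 0) - (N.totient : ℤ)) := by
  have h1 : ∀ d ∈ N.divisors, tr_rN N d * ((N / d : ℕ) : ℤ) * ((Int.gcd d c : ℕ) : ℤ) ^ 2 =
      (N : ℤ) * ((ArithmeticFunction.moebius (N / d) : ℤ) *
        ((Int.gcd ((N / (N / d) : ℕ) : ℤ) c : ℕ) : ℤ) ^ 2) -
      (if d = 1 then (N.totient : ℤ) * (N : ℤ) else 0) := by
    intro d hd
    have hdN : d ∣ N := Nat.dvd_of_mem_divisors hd
    have h2 : (d : ℤ) * ((N / d : ℕ) : ℤ) = (N : ℤ) := by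
      exact_mod_cast Nat.mul_div_cancel' hdN
    have h3 : N / (N / d) = d := Nat.div_div_self hdN hN.ne'
    rw [h3]
    unfold tr_rN
    by_cases h : d = 1
    · subst h
      simp only [if_true, Nat.div_one, Nat.cast_one, Int.gcd_one_left, one_pow, mul_one, one_mul]
      ring
    · simp only [if_neg h, sub_zero]
      calc (d : ℤ) * (ArithmeticFunction.moebius (N / d) : ℤ) * ((N / d : ℕ) : ℤ) *
            ((Int.gcd d c : ℕ) : ℤ) ^ 2
          = ((d : ℤ) * ((N / d : ℕ) : ℤ)) * ((ArithmeticFunction.moebius (N / d) : ℤ) *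
            ((Int.gcd d c : ℕ) : ℤ) ^ 2) := by ring
        _ = _ := by rw [h2]
  rw [Finset.sum_congr rfl h1, Finset.sum_sub_distrib, ← Finset.mul_sum,
    Nat.sum_div_divisors N (fun s => (ArithmeticFunction.moebius s : ℤ) *
      ((Int.gcd ((N / s : ℕ) : ℤ) c : ℕ) : ℤ) ^ 2),
    ordC_sum N hN c, Finset.sum_ite_eq' N.divisors 1,
    if_pos (Nat.one_mem_divisors.mpr hN.ne')]
  ring

/-! ### The unit `g_N` -/

/-- The modular unit `g_N = ∏_{d ∣ N} Δ(d z)^(d μ(N/d)) / Δ(z)^φ(N)`. -/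
def tr_gN (N : ℕ) : ℍ → ℂ := tr_quot N (tr_rN N)

theorem tr_gN_def (N : ℕ) : tr_gN N = tr_quot N (tr_rN N) := rfl

theorem tr_gN_ne_zero (N : ℕ) (z : ℍ) : tr_gN N z ≠ 0 := tr_quot_ne_zero N _ z

theorem tr_gN_isModFun (N : ℕ) [NeZero N] : anB_IsModFun N (tr_gN N) :=
  tr_quot_isModFun N _ (tr_rN_sum N (Nat.pos_of_ne_zero (NeZero.ne N)))

/-- The `q^(1/N)`-order of the translate of `g_N` by `γ`:
`N (J₂(N) - φ(N))` if `γ ∈ Γ₀(N)` and `-N φ(N)` otherwise. -/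
def tr_kN (N : ℕ) (c : ℤ) : ℤ :=
  (N : ℤ) * ((if (N : ℤ) ∣ c then ordC_J N else 0) - (N.totient : ℤ))

theorem tr_kN_of_dvd (N : ℕ) {c : ℤ} (h : (N : ℤ) ∣ c) :
    tr_kN N c = (N : ℤ) * (ordC_J N - (N.totient : ℤ)) := by
  rw [tr_kN, if_pos h]

theorem tr_kN_of_not_dvd (N : ℕ) {c : ℤ} (h : ¬ (N : ℤ) ∣ c) :
    tr_kN N c = -(((N.totient * N : ℕ)) : ℤ) := by
  rw [tr_kN, if_neg h]
  push_cast
  ring

/-- `J₂(N) - φ(N) = φ(N) (ψ(N) - 1)`. -/
theorem tr_J_sub (N : ℕ) (hN : 0 < N) :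
    ordC_J N - (N.totient : ℤ) = (N.totient : ℤ) * ((ModularCurve.dedekindPsi N : ℤ) - 1) := by
  rw [tr_J_eq N hN]
  ring

/-- **Translates of `g_N`**: the `q`-expansion of `z ↦ (g_N ∘ γ)(N z)`. -/
theorem tr_gN_translate (N : ℕ) [NeZero N] (γ : SL(2, ℤ)) :
    tr_UL (tr_R N) (tr_kN N (γ 1 0)) (fun z => tr_gN N (γ • tr_pt N z)) := by
  have hN : 0 < N := Nat.pos_of_ne_zero (NeZero.ne N)
  exact (tr_translate_UL N (tr_rN N) (tr_rN_sum N hN) γ).congr_order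
    (tr_rN_order N hN (γ 1 0))

theorem tr_gN_translate_inv (N : ℕ) [NeZero N] (γ : SL(2, ℤ)) :
    tr_UL (tr_R N) (-tr_kN N (γ 1 0)) (fun z => (tr_gN N (γ • tr_pt N z))⁻¹) := by
  have hN : 0 < N := Nat.pos_of_ne_zero (NeZero.ne N)
  exact (tr_translate_UL_inv N (tr_rN N) (tr_rN_sum N hN) γ).congr_order
    (by rw [tr_rN_order N hN (γ 1 0)]; rfl)

/-! ### The family of translates indexed by `SL(2,ℤ) ⧸ Γ₀(N)` -/

theorem tr_mem_Gamma0_iff (N : ℕ) (γ : SL(2, ℤ)) : γ ∈ Gamma0 N ↔ (N : ℤ) ∣ γ 1 0 := by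
  rw [Gamma0_mem, ZMod.intCast_zmod_eq_zero_iff_dvd]

theorem tr_out_inv_dvd_iff (N : ℕ) (x : XN N) :
    (N : ℤ) ∣ ((Quotient.out x : SL(2, ℤ))⁻¹) 1 0 ↔ x = (QuotientGroup.mk 1 : XN N) := by
  rw [← tr_mem_Gamma0_iff, inv_mem_iff]
  constructor
  · intro h
    have h1 : (QuotientGroup.mk (Quotient.out x) : XN N) = QuotientGroup.mk 1 := by
      rw [QuotientGroup.eq]
      simpa using inv_mem h
    rwa [QuotientGroup.out_eq'] at h1
  · intro h
    have h1 : (QuotientGroup.mk (Quotient.out x) : XN N) = QuotientGroup.mk 1 := by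
      rw [QuotientGroup.out_eq']; exact h
    rw [QuotientGroup.eq] at h1
    simpa using inv_mem h1

open scoped Classical in
/-- The order of the translate of `g_N` at the coset `x` (in `q^(1/N)`). -/
def tr_kX (N : ℕ) (x : XN N) : ℤ :=
  (N : ℤ) * ((if x = (QuotientGroup.mk 1 : XN N) then ordC_J N else 0) - (N.totient : ℤ))

theorem tr_kX_eq (N : ℕ) (x : XN N) :
    tr_kN N (((Quotient.out x : SL(2, ℤ))⁻¹) 1 0) = tr_kX N x := by
  unfold tr_kN tr_kX
  by_cases h : x = (QuotientGroup.mk 1 : XN N)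
  · rw [if_pos h, if_pos ((tr_out_inv_dvd_iff N x).mpr h)]
  · rw [if_neg h, if_neg (fun h' => h ((tr_out_inv_dvd_iff N x).mp h'))]

theorem tr_kX_one (N : ℕ) :
    tr_kX N (QuotientGroup.mk 1 : XN N) = (N : ℤ) * (ordC_J N - (N.totient : ℤ)) := by
  rw [tr_kX, if_pos rfl]

theorem tr_kX_of_ne (N : ℕ) {x : XN N} (h : x ≠ (QuotientGroup.mk 1 : XN N)) :
    tr_kX N x = -(((N.totient * N : ℕ)) : ℤ) := by
  rw [tr_kX, if_neg h]
  push_cast
  ring

/-- (T1) -/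
theorem tr_gN_tr_mdiff (N : ℕ) [NeZero N] (x : XN N) : MDiff (anB_tr N (tr_gN N) x) :=
  anB_tr_mdiff (tr_gN_isModFun N).holo x

/-- (T2) -/
theorem tr_gN_tr_perm (N : ℕ) [NeZero N] (γ : SL(2, ℤ)) :
    ∃ σ : Equiv.Perm (XN N), ∀ (x : XN N) (z : ℍ),
      anB_tr N (tr_gN N) x (γ • z) = anB_tr N (tr_gN N) (σ x) z :=
  ⟨MulAction.toPerm γ⁻¹, fun x z => anB_tr_smul (tr_gN_isModFun N).inv γ x z⟩

/-- (T3) -/
theorem tr_gN_tr_ne_zero (N : ℕ) (x : XN N) (z : ℍ) : anB_tr N (tr_gN N) x z ≠ 0 :=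
  tr_gN_ne_zero N _

theorem tr_gN_tr_one (N : ℕ) [NeZero N] :
    anB_tr N (tr_gN N) (QuotientGroup.mk 1 : XN N) = tr_gN N :=
  anB_tr_one (tr_gN_isModFun N).inv

/-- (T6): the `q^(1/N)`-expansions of all translates. -/
theorem tr_gN_tr_UL (N : ℕ) [NeZero N] (x : XN N) :
    tr_UL (tr_R N) (tr_kX N x) (fun z => anB_tr N (tr_gN N) x (tr_pt N z)) :=
  (tr_gN_translate N (Quotient.out x : SL(2, ℤ))⁻¹).congr_order (tr_kX_eq N x)

/-- (T6) for the inverses. -/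
theorem tr_gN_tr_UL_inv (N : ℕ) [NeZero N] (x : XN N) :
    tr_UL (tr_R N) (-tr_kX N x) (fun z => (anB_tr N (tr_gN N) x (tr_pt N z))⁻¹) :=
  (tr_gN_translate_inv N (Quotient.out x : SL(2, ℤ))⁻¹).congr_order
    (by rw [tr_kX_eq N x])

/-- (T4): sharp growth of the translates at the non-identity cosets. -/
theorem tr_gN_tr_isBigO (N : ℕ) [NeZero N] {x : XN N}
    (hx : x ≠ (QuotientGroup.mk 1 : XN N)) :
    anB_tr N (tr_gN N) x =O[atImInfty] fun z : ℍ => Real.exp (2 * π * N.totient * z.im) := by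
  have hN : 0 < N := Nat.pos_of_ne_zero (NeZero.ne N)
  refine tr_UL.isBigO_of_dilate (f := anB_tr N (tr_gN N) x) hN (tr_gN_tr_UL N x) N.totient ?_
  rw [tr_kX_of_ne N hx]

/-- The sum of the orders of all translates vanishes. -/
theorem tr_kX_sum (N : ℕ) [NeZero N] [Fintype (XN N)] : ∑ x : XN N, tr_kX N x = 0 := by
  classical
  have hN : 0 < N := Nat.pos_of_ne_zero (NeZero.ne N)
  have hcard : (Fintype.card (XN N) : ℤ) = (ModularCurve.dedekindPsi N : ℤ) := by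
    rw [← Nat.card_eq_fintype_card]
    exact_mod_cast Comb.card_X N hN.ne'
  have h1 : ∀ x ∈ (Finset.univ : Finset (XN N)), tr_kX N x =
      (N : ℤ) * ((if x = (QuotientGroup.mk 1 : XN N) then ordC_J N else 0) -
        (N.totient : ℤ)) := by
    intro x _
    by_cases h : x = (QuotientGroup.mk 1 : XN N)
    · rw [h, tr_kX_one, if_pos rfl]
    · rw [tr_kX_of_ne N h, if_neg h]
      push_cast
      ring
  rw [Finset.sum_congr rfl h1, ← Finset.mul_sum, Finset.sum_sub_distrib,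
    Finset.sum_ite_eq' Finset.univ (QuotientGroup.mk 1 : XN N), if_pos (Finset.mem_univ _),
    Finset.sum_const, Finset.card_univ, nsmul_eq_mul, hcard, tr_J_eq N hN]
  ring

/-! ### The identity coset: the integral `q`-expansion of `g_N` -/

/-- The `q`-expansion of `g_N`, with integer coefficients. -/
def tr_g0 (N : ℕ) : LaurentSeries ℤ := twL_quot ℤ N (tr_rN N)

/-- (T5) -/
theorem tr_g0_hasLaurent (N : ℕ) :
    anA_HasLaurent (ModularCurve.coeffMap (Int.castRingHom ℂ) (tr_g0 N)) (tr_gN N) :=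
  twL_hasLaurent_tr_quot_int N (tr_rN N)

theorem tr_g0_hasLaurent_tr (N : ℕ) [NeZero N] :
    anA_HasLaurent (ModularCurve.coeffMap (Int.castRingHom ℂ) (tr_g0 N))
      (anB_tr N (tr_gN N) (QuotientGroup.mk 1 : XN N)) := by
  rw [tr_gN_tr_one]
  exact tr_g0_hasLaurent N

theorem tr_g0_leadingCoeff (N : ℕ) : (tr_g0 N).leadingCoeff = 1 :=
  twL_quot_leadingCoeff N (tr_rN N)

theorem tr_sum_rN_mul (N : ℕ) (hN : 0 < N) :
    ∑ d ∈ N.divisors, tr_rN N d * (d : ℤ) = ordC_J N - (N.totient : ℤ) := by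
  have h := tr_rN_order N hN 0
  simp only [dvd_zero, if_true] at h
  have h1 : ∀ d ∈ N.divisors, tr_rN N d * ((N / d : ℕ) : ℤ) * ((Int.gcd (d : ℤ) 0 : ℕ) : ℤ) ^ 2 =
      (N : ℤ) * (tr_rN N d * (d : ℤ)) := by
    intro d hd
    have hdN : d ∣ N := Nat.dvd_of_mem_divisors hd
    have h2 : (d : ℤ) * ((N / d : ℕ) : ℤ) = (N : ℤ) := by
      exact_mod_cast Nat.mul_div_cancel' hdN
    have h3 : ((Int.gcd (d : ℤ) 0 : ℕ) : ℤ) = (d : ℤ) := by simp
    rw [h3, ← h2]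
    ring
  rw [Finset.sum_congr rfl h1, ← Finset.mul_sum] at h
  have hN0 : (N : ℤ) ≠ 0 := by exact_mod_cast hN.ne'
  exact mul_left_cancel₀ hN0 h

theorem tr_g0_order (N : ℕ) (hN : 0 < N) :
    (tr_g0 N).order = ordC_J N - (N.totient : ℤ) := by
  rw [tr_g0, twL_quot_order, tr_sum_rN_mul N hN]

theorem tr_g0_order' (N : ℕ) (hN : 0 < N) :
    (tr_g0 N).order = (N.totient : ℤ) * ((ModularCurve.dedekindPsi N : ℤ) - 1) := by
  rw [tr_g0_order N hN, tr_J_sub N hN]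

theorem tr_g0_ne_zero (N : ℕ) : tr_g0 N ≠ 0 := twL_quot_ne_zero N (tr_rN N)

/-- The first conjunct of KEY. -/
theorem tr_g0_mem (N : ℕ) [NeZero N] :
    ModularCurve.coeffMap (Int.castRingHom ℚ) (tr_g0 N) ∈ ModularCurve.modularFunctionFieldFull N :=
  twL_quot_int_mem N (tr_rN N) (tr_rN_sum N (Nat.pos_of_ne_zero (NeZero.ne N)))

/-- Reduction of the integral model: the same formula over any ring. -/
theorem tr_g0_coeffMap {S : Type*} [CommRing S] (φ : ℤ →+* S) :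
    ∀ N : ℕ, ModularCurve.coeffMap φ (tr_g0 N) = twL_quot S N (tr_rN N) :=
  fun N => twL_coeffMap_quot φ N (tr_rN N)

end Fermat.Agent.S28
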