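import Mathlib
import Fermat.Prelude.Def_ModularCurve_JqCoeff
import Fermat.Prelude.Def_ModularCurve_X0ModL
import Fermat.Agent.S24.CharPoly
import Fermat.Agent.S24.BridgeLaurent
import Fermat.Agent.S28.TrGN
import Fermat.Agent.S28.TwistFormal
import Fermat.Agent.S28.EsymOrd
import Fermat.Agent.S28.EsymChi
import Fermat.Agent.S28.ChiCoeff
import Fermat.Agent.S28.ChiAbs
import Fermat.Agent.S28.ChiHDeg
import Fermat.Agent.S28.KeyRed
import Fermat.Agent.S28.KeyOne
import Fermat.Agent.S28.ResField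

/-!
# S28, [CHI] assembly (hedge): KEY

`chiH_key : s28_KeyStatement`.  For `N ≥ 2` and `ℓ ∤ N` the witness is the integral
`q`-expansion `tr_g0 N` of the modular unit `g_N` (`TrGN.lean`): the characteristic polynomial
`χ = ∏_x (X - g_N ∘ γ_x)` over `ℂ[j]` has coefficients in `tr_R N` (numbers integral over
`ℤ[1/N]`), constant term a unit and dominant linear coefficient with unit leading coefficient,
so its reduction modulo a maximal ideal above `ℓ` is irreducible (K1), whence the linear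
independence of `1, ḡ, …, ḡ^(n-1)` over `𝔽_ℓ[j̄]`.
-/

set_option autoImplicit false

noncomputable section

namespace Fermat.Agent.S28

open UpperHalfPlane Function Filter Topology Asymptotics CongruenceSubgroup Polynomial
open Fermat.Agent.S22 Fermat.Agent.S24 ModularForm EisensteinSeries
open scoped MatrixGroups ModularForm Manifold Real

local notation "Δ" => ModularForm.discriminant

theorem chiH_jN_order (N : ℕ) [NeZero N] :
    (ModularCurve.qExpand ℂ N (ModularCurve.jqModC ℂ)).order = -(N : ℤ) := by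
  rw [twL_order_qExpand, keyR_order_jqModC]
  ring

theorem chiH_jN_leadingCoeff (N : ℕ) [NeZero N] :
    (ModularCurve.qExpand ℂ N (ModularCurve.jqModC ℂ)).leadingCoeff = 1 := by
  rw [twL_leadingCoeff_qExpand, HahnSeries.leadingCoeff_eq, keyR_order_jqModC,
    ModularCurve.coeff_jqModC_neg_one]

theorem chiH_jN_coeff_mem (N : ℕ) [NeZero N] (R₀ : Subring ℂ) (n : ℤ) :
    (ModularCurve.qExpand ℂ N (ModularCurve.jqModC ℂ)).coeff n ∈ R₀ :=
  s28c_mem_coeffRing.mp (s28c_qExpand_mem R₀ N (s28c_jqModC_mem R₀)) n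

theorem chiH_le_dedekindPsi (N : ℕ) (hN : 0 < N) : N ≤ ModularCurve.dedekindPsi N := by
  rw [ModularCurve.dedekindPsi]
  have h1 : (1 : ℕ) ∈ N.divisors.filter fun d => Squarefree d :=
    Finset.mem_filter.mpr ⟨Nat.one_mem_divisors.mpr hN.ne', squarefree_one⟩
  have h2 := Finset.single_le_sum (f := fun d => N / d) (fun _ _ => Nat.zero_le _) h1
  simpa using h2

theorem chiH_two_le_card (N : ℕ) [NeZero N] (hN : 2 ≤ N) [Fintype (XN N)] :
    2 ≤ Fintype.card (XN N) := by
  have h1 : Fintype.card (XN N) = ModularCurve.dedekindPsi N := by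
    rw [← Nat.card_eq_fintype_card]
    exact Comb.card_X N (NeZero.ne N)
  rw [h1]
  exact hN.trans (chiH_le_dedekindPsi N (by omega))

theorem chiH_ser_leadingCoeff {c : ℂ} (hc : c ≠ 0) (k : ℤ) {P : PowerSeries ℂ}
    (hP : PowerSeries.constantCoeff P = 1) : (tr_ser c k P).leadingCoeff = c := by
  rw [HahnSeries.leadingCoeff_eq, tr_ser_order hc k hP, tr_ser_coeff_self, hP, mul_one]

theorem chiH_neg_one_pow_mem (R : Subring ℂ) (m : ℕ) : ((-1 : ℂ)) ^ m ∈ R :=
  R.pow_mem (R.neg_mem R.one_mem) m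

theorem chiH_unit_prod {ι : Type*} (R : Subring ℂ) (s : Finset ι) (c : ι → ℂ)
    (hc : ∀ i ∈ s, c i ∈ R) (hc' : ∀ i ∈ s, (c i)⁻¹ ∈ R) (hc0 : ∀ i ∈ s, c i ≠ 0) (m : ℕ) :
    ((-1 : ℂ) ^ m * ∏ i ∈ s, c i) ∈ R ∧ ((-1 : ℂ) ^ m * ∏ i ∈ s, c i)⁻¹ ∈ R ∧
      ((-1 : ℂ) ^ m * ∏ i ∈ s, c i) ≠ 0 := by
  refine ⟨R.mul_mem (chiH_neg_one_pow_mem R m) (Subring.prod_mem _ hc), ?_, ?_⟩
  · rw [mul_inv, ← inv_pow, ← Finset.prod_inv_distrib]
    refine R.mul_mem ?_ (Subring.prod_mem _ hc')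
    have : ((-1 : ℂ))⁻¹ = -1 := by norm_num
    rw [this]
    exact chiH_neg_one_pow_mem R m
  · exact mul_ne_zero (pow_ne_zero _ (by norm_num)) (Finset.prod_ne_zero_iff.mpr hc0)

/-- **KEY at level `N ≥ 2`.** -/
theorem chiH_keyAt (N ℓ : ℕ) [NeZero N] [Fact ℓ.Prime] (hN : 2 ≤ N) (hℓ : ¬ ℓ ∣ N) :
    s28_KeyAt N ℓ (Nat.card (SL(2, ℤ) ⧸ CongruenceSubgroup.Gamma0 N)) := by
  classical
  have hN0 : 0 < N := by omega
  have : Finite (XN N) := Comb.finite_X N (NeZero.ne N)
  let _ : Fintype (XN N) := Fintype.ofFinite _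
  have hcard : 2 ≤ Fintype.card (XN N) := chiH_two_le_card N hN
  obtain ⟨k', hk'F, hk'C, ρ, -⟩ := resF_exists N ℓ hℓ
  -- the analytic characteristic polynomial
  have hgr : ∀ x, anD_ModGrowth (anB_tr N (tr_gN N) x) := fun x =>
    anB_tr_growth (tr_gN_isModFun N) x
  obtain ⟨P, hP0, hPe, hProot⟩ := anD_exists_charPoly (anB_tr N (tr_gN N))
    (tr_gN_tr_mdiff N) hgr (tr_gN_tr_perm N)
  -- the series of the translates
  choose c Ps hc hc' hc0 hPs0 hPsc hHL using fun x => tr_gN_tr_UL N x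
  set S : XN N → LaurentSeries ℂ := fun x => tr_ser (c x) (tr_kX N x) (Ps x) with hSdef
  have hSord : ∀ x, (S x).order = tr_kX N x := fun x => tr_ser_order (hc0 x) _ (hPs0 x)
  have hSlead : ∀ x, (S x).leadingCoeff = c x := fun x =>
    chiH_ser_leadingCoeff (hc0 x) _ (hPs0 x)
  have hSne : ∀ x, S x ≠ 0 := fun x => tr_ser_ne_zero (hc0 x) _ (hPs0 x)
  have hScoef : ∀ x m, (S x).coeff m ∈ tr_R N := fun x m =>
    tr_ser_coeff_mem _ (hc x) _ (hPsc x) m
  set t : LaurentSeries ℂ := ModularCurve.qExpand ℂ N (ModularCurve.jqModC ℂ) with ht_def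
  have ht : t.order < 0 := by
    rw [chiH_jN_order]
    have : (0 : ℤ) < N := by exact_mod_cast hN0
    omega
  have hA : ∀ j, aeval t (P j) =
      ∑ s ∈ Finset.powersetCard j (Finset.univ : Finset (XN N)), ∏ x ∈ s, S x := fun j =>
    s28c_aeval_eq_esymm (anB_tr N (tr_gN N)) N S hHL j (P j) (hPe j)
  -- orders
  have hφ : 0 < N.totient := Nat.totient_pos.mpr hN0
  have hψ : (1 : ℤ) ≤ (ModularCurve.dedekindPsi N : ℤ) := by
    have := chiH_le_dedekindPsi N hN0
    have h2 : 1 ≤ ModularCurve.dedekindPsi N := by omega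
    exact_mod_cast h2
  have hpos : 0 ≤ (S (QuotientGroup.mk 1 : XN N)).order := by
    rw [hSord, tr_kX_one, tr_J_sub N hN0]
    have h1 : (0 : ℤ) ≤ (N.totient : ℤ) := by positivity
    have h2 : (0 : ℤ) ≤ (N : ℤ) := by positivity
    have h3 : (0 : ℤ) ≤ (ModularCurve.dedekindPsi N : ℤ) - 1 := by omega
    positivity
  have hneg : ∀ x, x ≠ (QuotientGroup.mk 1 : XN N) → (S x).order < 0 := by
    intro x hx
    rw [hSord, tr_kX_of_ne N hx]
    have : 0 < N.totient * N := Nat.mul_pos hφ hN0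
    have : (0 : ℤ) < ((N.totient * N : ℕ) : ℤ) := by exact_mod_cast this
    omega
  have hsum : ∑ x, (S x).order = 0 := by
    rw [Finset.sum_congr rfl fun x _ => hSord x]
    exact tr_kX_sum N
  obtain ⟨h0, -, hdeg, hlead⟩ := chiHd_K1 S (QuotientGroup.mk 1 : XN N) hpos hneg hSne hsum
    hcard t ht P hP0 hA
  -- coefficients in `tr_R N`
  have hPcoef : ∀ j i, (P j).coeff i ∈ tr_R N := fun j =>
    esymO_descent (tr_R N) t ht (chiH_jN_coeff_mem N _)
      (by rw [chiH_jN_leadingCoeff, inv_one]; exact (tr_R N).one_mem) (P j)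
      (by rw [hA j]; exact esymO_coeff_mem (tr_R N) S hScoef j)
  have hcoef : ∀ i j, ((chiHd_chi (Fintype.card (XN N)) P).coeff i).coeff j ∈ tr_R N := by
    intro i j
    rcases le_or_gt i (Fintype.card (XN N)) with hi | hi
    · rw [chiHd_coeff _ P i hi]
      have e : ((-1 : ℂ[X]) ^ (Fintype.card (XN N) - i) * P (Fintype.card (XN N) - i)) =
          Polynomial.C ((-1 : ℂ) ^ (Fintype.card (XN N) - i)) * P (Fintype.card (XN N) - i) := by
        simp
      rw [e, Polynomial.coeff_C_mul]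
      exact (tr_R N).mul_mem (chiH_neg_one_pow_mem _ _) (hPcoef _ _)
    · rw [chiHd_coeff_of_lt _ P i hi]
      simp
  -- the constant term is a unit
  obtain ⟨hcR, hcR', hcne⟩ := chiH_unit_prod (tr_R N) Finset.univ (fun x => (S x).leadingCoeff)
    (fun x _ => by rw [hSlead]; exact hc x) (fun x _ => by rw [hSlead]; exact hc' x)
    (fun x _ => by rw [hSlead]; exact hc0 x) (Fintype.card (XN N))
  -- the leading coefficient of the linear coefficient is a unit
  obtain ⟨hlR, hlR', hlne⟩ := chiH_unit_prod (tr_R N)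
    ((Finset.univ : Finset (XN N)).erase (QuotientGroup.mk 1)) (fun x => (S x).leadingCoeff)
    (fun x _ => by rw [hSlead]; exact hc x) (fun x _ => by rw [hSlead]; exact hc' x)
    (fun x _ => by rw [hSlead]; exact hc0 x) (Fintype.card (XN N) - 1)
  rw [chiH_jN_leadingCoeff, one_pow, mul_one] at hlead
  have hroot : ((chiHd_chi (Fintype.card (XN N)) P).map
      (Polynomial.aeval (ModularCurve.jqModC ℂ) : ℂ[X] →ₐ[ℂ] LaurentSeries ℂ).toRingHom).eval
      (ModularCurve.coeffMap (Int.castRingHom ℂ) (tr_g0 N)) = 0 := by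
    rw [chiHd_eval_map]
    exact s28c_relation (anB_tr N (tr_gN N)) (QuotientGroup.mk 1 : XN N) _
      (tr_g0_hasLaurent_tr N) P (hProot _)
  refine keyOne_keyAt_of_keyR N ℓ (tr_R N) ρ (chiHd_chi (Fintype.card (XN N)) P)
    (chiHd_monic _ P hP0) hcoef hcR (resF_map_ne_zero ρ hcR hcR' hcne) h0 hdeg ?_
    (tr_g0 N) (tr_g0_mem N) hroot _ ?_
  · have := resF_map_ne_zero ρ hlR hlR' hlne
    convert this using 2
    exact Subtype.ext hlead
  · rw [chiHd_natDegree _ P hP0, Nat.card_eq_fintype_card]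

/-- **KEY.** -/
theorem chiH_key : s28_KeyStatement :=
  keyOne_key_of_two_le fun N ℓ _ _ hN hℓ => chiH_keyAt N ℓ hN hℓ

end Fermat.Agent.S28
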