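import Mathlib
import Fermat.Prelude.Def_GaloisRep_Flat

/-!
# S28, (R1) STEP 2, abstract core

Owner: helper27.

Setting: a field `F ⊇ ℚ` with a valuation subring `O`, a ring homomorphism `ρ : O → κ` into a
field of characteristic `ℓ` whose kernel is `ℓ O` and which detects units, an element `t ∈ O`
with `ρ t` transcendental over `𝔽_ℓ`, and `n ≥ [F : ℚ(t)]` elements of `O` whose reductions are
linearly independent over `𝔽_ℓ(ρ t)`.  Then every element `x` of `F` which is integral over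
`ℤ_(ℓ)[t]` and reduces to `0` is `ℓ` times an element integral over `ℤ_(ℓ)[t]`.
-/

set_option autoImplicit false

open Polynomial IntermediateField

namespace Fermat.Agent.S28

section Zl

variable (ℓ : ℕ) [Fact ℓ.Prime]

set_option quotPrecheck false in
local notation "ℤℓ" => ↥(GaloisRep.ratLocalizedAt ℓ)

theorem redK_mem_ratLocalizedAt_iff (q : ℚ) :
    q ∈ GaloisRep.ratLocalizedAt ℓ ↔ ¬ ℓ ∣ q.den := by
  show q.den.Coprime ℓ ↔ _
  rw [Nat.coprime_comm, (Fact.out : ℓ.Prime).coprime_iff_not_dvd]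

theorem redK_den_ne_zero {q : ℚ} (hq : q ∈ GaloisRep.ratLocalizedAt ℓ) :
    ((q.den : ℕ) : ZMod ℓ) ≠ 0 := by
  rw [Ne, ZMod.natCast_eq_zero_iff]
  exact (redK_mem_ratLocalizedAt_iff ℓ q).mp hq

/-- The residue map `ℤ_(ℓ) → 𝔽_ℓ`. -/
noncomputable def redK_resid : ℤℓ →+* ZMod ℓ where
  toFun a := ((a : ℚ) : ZMod ℓ)
  map_one' := by simp
  map_zero' := by simp
  map_mul' a b := by
    show (((a * b : ℤℓ) : ℚ) : ZMod ℓ) = _
    rw [Subring.coe_mul]
    exact Rat.cast_mul_of_ne_zero (redK_den_ne_zero ℓ a.2) (redK_den_ne_zero ℓ b.2)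
  map_add' a b := by
    show (((a + b : ℤℓ) : ℚ) : ZMod ℓ) = _
    rw [Subring.coe_add]
    exact Rat.cast_add_of_ne_zero (redK_den_ne_zero ℓ a.2) (redK_den_ne_zero ℓ b.2)

theorem redK_resid_apply (a : ℤℓ) : redK_resid ℓ a = ((a : ℚ) : ZMod ℓ) := rfl

omit [Fact ℓ.Prime] in
theorem redK_intCast_mem (n : ℤ) : (n : ℚ) ∈ GaloisRep.ratLocalizedAt ℓ :=
  intCast_mem _ n

theorem redK_resid_intCast (n : ℤ) : redK_resid ℓ (n : ℤℓ) = (n : ZMod ℓ) := map_intCast _ n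

theorem redK_resid_natCast (n : ℕ) : redK_resid ℓ (n : ℤℓ) = (n : ZMod ℓ) := map_natCast _ n

theorem redK_resid_surjective : Function.Surjective (redK_resid ℓ) := fun z => by
  obtain ⟨n, rfl⟩ := ZMod.intCast_surjective z
  exact ⟨(n : ℤℓ), redK_resid_intCast ℓ n⟩

/-- `ℤ_(ℓ)` is a valuation ring of `ℚ`. -/
theorem redK_mem_or_inv_mem (q : ℚ) :
    q ∈ GaloisRep.ratLocalizedAt ℓ ∨ q⁻¹ ∈ GaloisRep.ratLocalizedAt ℓ := by
  by_cases h : ℓ ∣ q.den
  · right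
    rw [redK_mem_ratLocalizedAt_iff]
    intro h'
    have hq0 : q ≠ 0 := by
      rintro rfl
      rw [Rat.den_zero] at h
      exact (Fact.out : ℓ.Prime).one_lt.ne' (Nat.dvd_one.mp h)
    rw [Rat.den_inv_of_ne_zero hq0] at h'
    have hcop := q.reduced
    have := Nat.dvd_gcd h' h
    rw [hcop.gcd_eq_one] at this
    exact (Fact.out : ℓ.Prime).one_lt.ne' (Nat.dvd_one.mp this)
  · left
    exact (redK_mem_ratLocalizedAt_iff ℓ q).mpr h

/-- A non-unit of `ℤ_(ℓ)` has residue `0`. -/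
theorem redK_resid_eq_zero_of_inv_not_mem (a : ℤℓ)
    (h : (a : ℚ)⁻¹ ∉ GaloisRep.ratLocalizedAt ℓ) : redK_resid ℓ a = 0 := by
  have ha0 : (a : ℚ) ≠ 0 := by
    intro h0
    apply h
    rw [h0, inv_zero]
    exact zero_mem _
  rw [redK_mem_ratLocalizedAt_iff, not_not, Rat.den_inv_of_ne_zero ha0] at h
  rw [redK_resid_apply, Rat.cast_def]
  have : ((a : ℚ).num : ZMod ℓ) = 0 := by
    rw [ZMod.intCast_zmod_eq_zero_iff_dvd]
    exact Int.natCast_dvd.mpr h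
  rw [this, zero_div]

/-- `ℤ_(ℓ)` as a valuation subring of `ℚ`. -/
def redK_Zl : ValuationSubring ℚ :=
  { GaloisRep.ratLocalizedAt ℓ with
    mem_or_inv_mem' := redK_mem_or_inv_mem ℓ }

theorem redK_mem_Zl_iff (q : ℚ) : q ∈ redK_Zl ℓ ↔ q ∈ GaloisRep.ratLocalizedAt ℓ := Iff.rfl

end Zl

section core

variable (ℓ : ℕ) [Fact ℓ.Prime]
variable {F : Type*} [Field F] [Algebra ℚ F]
variable {κ : Type*} [Field κ] [Algebra (ZMod ℓ) κ]
variable (O : ValuationSubring F) (ρ : O →+* κ)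

set_option quotPrecheck false in
local notation "ℤℓ" => ↥(GaloisRep.ratLocalizedAt ℓ)

theorem redK_natCast_kappa : ((ℓ : ℕ) : κ) = 0 := by
  have : ((ℓ : ℕ) : κ) = algebraMap (ZMod ℓ) κ ((ℓ : ℕ) : ZMod ℓ) := (map_natCast _ _).symm
  rw [this, ZMod.natCast_self, map_zero]

theorem redK_natCast_kappa_ne_zero {d : ℕ} (hd : ¬ ℓ ∣ d) : ((d : ℕ) : κ) ≠ 0 := by
  have : ((d : ℕ) : κ) = algebraMap (ZMod ℓ) κ ((d : ℕ) : ZMod ℓ) := (map_natCast _ _).symm
  rw [this, Ne, map_eq_zero, ZMod.natCast_eq_zero_iff]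
  exact hd

variable {O ρ}

omit [Fact ℓ.Prime] [Algebra (ZMod ℓ) κ] in
theorem redK_algebraMap_rat (q : ℚ) :
    algebraMap ℚ F q = ((q.num : ℤ) : F) * ((q.den : ℕ) : F)⁻¹ := by
  conv_lhs => rw [← Rat.num_div_den q]
  rw [map_div₀, map_intCast, map_natCast, div_eq_mul_inv]

/-- `ℤ_(ℓ) ⊆ O`. -/
theorem redK_rat_mem (hunit : ∀ x : O, ρ x ≠ 0 → (x : F)⁻¹ ∈ O) (a : ℤℓ) :
    algebraMap ℚ F (a : ℚ) ∈ O := by
  have hd : ¬ ℓ ∣ (a : ℚ).den := (redK_mem_ratLocalizedAt_iff ℓ _).mp a.2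
  have hdO : (((a : ℚ).den : ℕ) : F) ∈ O := natCast_mem O _
  have hρd : ρ ⟨_, hdO⟩ ≠ 0 := by
    have : (⟨_, hdO⟩ : O) = (((a : ℚ).den : ℕ) : O) := Subtype.ext (by simp)
    rw [this, map_natCast]
    exact redK_natCast_kappa_ne_zero ℓ hd
  have hinv := hunit _ hρd
  have hnum : (((a : ℚ).num : ℤ) : F) ∈ O := intCast_mem O _
  rw [redK_algebraMap_rat]
  exact O.mul_mem _ _ hnum hinv

/-- On `ℤ_(ℓ)` the reduction is the residue map. -/
theorem redK_rho_rat (hunit : ∀ x : O, ρ x ≠ 0 → (x : F)⁻¹ ∈ O) (a : ℤℓ) :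
    ρ ⟨algebraMap ℚ F (a : ℚ), redK_rat_mem ℓ hunit a⟩ =
      algebraMap (ZMod ℓ) κ (redK_resid ℓ a) := by
  have hd : ¬ ℓ ∣ (a : ℚ).den := (redK_mem_ratLocalizedAt_iff ℓ _).mp a.2
  have hdκ : (((a : ℚ).den : ℕ) : κ) ≠ 0 := redK_natCast_kappa_ne_zero ℓ hd
  have hdZ : (((a : ℚ).den : ℕ) : ZMod ℓ) ≠ 0 := redK_den_ne_zero ℓ a.2
  have h1 : (⟨algebraMap ℚ F (a : ℚ), redK_rat_mem ℓ hunit a⟩ : O) * (((a : ℚ).den : ℕ) : O) =
      (((a : ℚ).num : ℤ) : O) := by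
    apply Subtype.ext
    have : CharZero F := algebraRat.charZero F
    have hdF : (((a : ℚ).den : ℕ) : F) ≠ 0 := Nat.cast_ne_zero.mpr (a : ℚ).den_ne_zero
    show algebraMap ℚ F (a : ℚ) * (((a : ℚ).den : ℕ) : F) = (((a : ℚ).num : ℤ) : F)
    rw [redK_algebraMap_rat, mul_assoc, inv_mul_cancel₀ hdF, mul_one]
  have h2 := congrArg ρ h1
  rw [map_mul, map_natCast, map_intCast] at h2
  rw [redK_resid_apply, Rat.cast_def, map_div₀, map_intCast, map_natCast, eq_div_iff hdκ]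
  exact h2

/-- `O ∩ ℚ = ℤ_(ℓ)`. -/
theorem redK_rat_of_mem (hunit : ∀ x : O, ρ x ≠ 0 → (x : F)⁻¹ ∈ O) (c : ℚ)
    (hc : algebraMap ℚ F c ∈ O) : c ∈ GaloisRep.ratLocalizedAt ℓ := by
  rcases redK_mem_or_inv_mem ℓ c with h | h
  · exact h
  by_contra hcon
  have h0 := redK_resid_eq_zero_of_inv_not_mem ℓ ⟨c⁻¹, h⟩ (by rw [inv_inv]; exact hcon)
  have h1 := redK_rho_rat ℓ hunit ⟨c⁻¹, h⟩
  rw [h0, map_zero] at h1
  have hc0 : c ≠ 0 := by
    rintro rfl
    exact hcon (zero_mem _)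
  have h2 : (⟨algebraMap ℚ F c, hc⟩ : O) * ⟨algebraMap ℚ F c⁻¹, redK_rat_mem ℓ hunit ⟨c⁻¹, h⟩⟩
      = 1 := by
    apply Subtype.ext
    show algebraMap ℚ F c * algebraMap ℚ F c⁻¹ = 1
    rw [← map_mul, mul_inv_cancel₀ hc0, map_one]
  have h3 := congrArg ρ h2
  rw [map_mul, h1, mul_zero, map_one] at h3
  exact zero_ne_one h3

omit [Fact ℓ.Prime] [Algebra (ZMod ℓ) κ] in
/-- Key step of the basis argument: a combination `∑ gᵢ uᵢ` divided by its coefficient of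
maximal valuation lies in `O` and has nonzero reduction. -/
theorem redK_key_aux (K₀ : IntermediateField ℚ F) {n : ℕ} (u : Fin n → O)
    (hu : ∀ c : Fin n → O, (∀ i, (c i : F) ∈ K₀) → ∑ i, ρ (c i) * ρ (u i) = 0 →
      ∀ i, ρ (c i) = 0)
    (g : Fin n → F) (hg : ∀ i, g i ∈ K₀) (i₀ : Fin n) (hi₀ : g i₀ ≠ 0)
    (hmax : ∀ i, O.valuation (g i) ≤ O.valuation (g i₀)) :
    (∑ i, g i * (u i : F)) / g i₀ ∈ O ∧
      ∀ z : O, (z : F) = (∑ i, g i * (u i : F)) / g i₀ → ρ z ≠ 0 := by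
  have hv0 : O.valuation (g i₀) ≠ 0 := (Valuation.ne_zero_iff _).mpr hi₀
  have hc : ∀ i, g i / g i₀ ∈ O := fun i => by
    rw [← O.valuation_le_one_iff, map_div₀]
    exact (div_le_one₀ (zero_lt_iff.mpr hv0)).mpr (hmax i)
  have hcK : ∀ i, g i / g i₀ ∈ K₀ := fun i => K₀.div_mem (hg i) (hg i₀)
  have hsum : (∑ i, g i * (u i : F)) / g i₀ = ∑ i, (g i / g i₀) * (u i : F) := by
    rw [Finset.sum_div]
    refine Finset.sum_congr rfl fun i _ => by ring
  have hmem : (∑ i, g i * (u i : F)) / g i₀ ∈ O := by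
    rw [hsum]
    exact O.toSubring.sum_mem fun i _ => O.mul_mem _ _ (hc i) (u i).2
  refine ⟨hmem, ?_⟩
  intro z hz h0
  have h1 : z = ∑ i, (⟨g i / g i₀, hc i⟩ : O) * u i := by
    apply Subtype.ext
    rw [hz, hsum, AddSubmonoidClass.coe_finsetSum]
    rfl
  rw [h1, map_sum] at h0
  simp only [map_mul] at h0
  have h2 := hu (fun i => ⟨g i / g i₀, hc i⟩) hcK h0 i₀
  have h3 : (⟨g i₀ / g i₀, hc i₀⟩ : O) = 1 := Subtype.ext (div_self hi₀)
  rw [h3, map_one] at h2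
  exact one_ne_zero h2

omit [Fact ℓ.Prime] [Algebra (ZMod ℓ) κ] in
/-- **Basis argument.** If `n ≥ [F : K₀]` elements of `O` have reductions which are linearly
independent over the reduction of `O ∩ K₀`, then `O` is spanned by them over `O ∩ K₀`. -/
theorem redK_span (hunit : ∀ x : O, ρ x ≠ 0 → (x : F)⁻¹ ∈ O)
    (K₀ : IntermediateField ℚ F) [FiniteDimensional K₀ F] (n : ℕ)
    (hn : Module.finrank K₀ F ≤ n) (u : Fin n → O)
    (hu : ∀ c : Fin n → O, (∀ i, (c i : F) ∈ K₀) → ∑ i, ρ (c i) * ρ (u i) = 0 →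
      ∀ i, ρ (c i) = 0)
    (y : F) (hy : y ∈ O) :
    ∃ c : Fin n → F, (∀ i, c i ∈ K₀) ∧ (∀ i, c i ∈ O) ∧ y = ∑ i, c i * (u i : F) := by
  classical
  have hn0 : 0 < n := lt_of_lt_of_le Module.finrank_pos hn
  have : Nonempty (Fin n) := ⟨⟨0, hn0⟩⟩
  have hmaxex : ∀ g : Fin n → F, ∃ i₀, ∀ i, O.valuation (g i) ≤ O.valuation (g i₀) := by
    intro g
    obtain ⟨i₀, -, h⟩ := Finset.exists_max_image Finset.univ (fun i => O.valuation (g i))
      Finset.univ_nonempty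
    exact ⟨i₀, fun i => h i (Finset.mem_univ i)⟩
  -- linear independence over `K₀`
  have hli : LinearIndependent K₀ (fun i => (u i : F)) := by
    rw [Fintype.linearIndependent_iff]
    intro g hg
    by_contra hcon
    push Not at hcon
    obtain ⟨i₁, hi₁⟩ := hcon
    obtain ⟨i₀, hmax⟩ := hmaxex (fun i => ((g i : K₀) : F))
    have hi₀ : ((g i₀ : K₀) : F) ≠ 0 := by
      intro h0
      have := hmax i₁
      rw [h0, map_zero, le_zero_iff, map_eq_zero] at this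
      exact hi₁ (Subtype.ext this)
    obtain ⟨-, hne⟩ := redK_key_aux K₀ u hu (fun i => ((g i : K₀) : F)) (fun i => (g i).2)
      i₀ hi₀ hmax
    refine hne 0 ?_ (map_zero ρ)
    have : ∑ i, ((g i : K₀) : F) * (u i : F) = ∑ i, g i • (u i : F) :=
      Finset.sum_congr rfl fun i _ => by rw [Algebra.smul_def]; rfl
    rw [this, hg, zero_div]
    rfl
  have hcard : Fintype.card (Fin n) = Module.finrank K₀ F := by
    have := hli.fintype_card_le_finrank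
    rw [Fintype.card_fin] at this ⊢
    omega
  let b := basisOfLinearIndependentOfCardEqFinrank hli hcard
  have hb : ∀ i, b i = (u i : F) := fun i => by
    rw [coe_basisOfLinearIndependentOfCardEqFinrank]
  have hrepr : y = ∑ i, ((b.repr y i : K₀) : F) * (u i : F) := by
    conv_lhs => rw [← b.sum_repr y]
    refine Finset.sum_congr rfl fun i _ => ?_
    rw [hb, Algebra.smul_def]
    rfl
  refine ⟨fun i => ((b.repr y i : K₀) : F), fun i => (b.repr y i).2, ?_, hrepr⟩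
  by_contra hcon
  push Not at hcon
  obtain ⟨i₁, hi₁⟩ := hcon
  obtain ⟨i₀, hmax⟩ := hmaxex (fun i => ((b.repr y i : K₀) : F))
  have hi₀O : ((b.repr y i₀ : K₀) : F) ∉ O := by
    intro h
    apply hi₁
    rw [← O.valuation_le_one_iff] at h ⊢
    exact (hmax i₁).trans h
  have hi₀ : ((b.repr y i₀ : K₀) : F) ≠ 0 := fun h0 => hi₀O (h0 ▸ O.zero_mem)
  obtain ⟨h, hne⟩ := redK_key_aux K₀ u hu (fun i => ((b.repr y i : K₀) : F))
    (fun i => (b.repr y i).2) i₀ hi₀ hmax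
  have hne' := hne ⟨_, h⟩ rfl
  have hinv : ((∑ i, ((b.repr y i : K₀) : F) * (u i : F)) / ((b.repr y i₀ : K₀) : F))⁻¹ ∈ O :=
    hunit _ hne'
  rw [← hrepr] at hinv
  have hy0 : y ≠ 0 := by
    intro hy0
    refine hne 0 ?_ (map_zero ρ)
    rw [← hrepr, hy0, zero_div]
    rfl
  apply hi₀O
  have : ((b.repr y i₀ : K₀) : F) = y * (y / ((b.repr y i₀ : K₀) : F))⁻¹ := by
    field_simp
  rw [this]
  exact O.mul_mem _ _ hy hinv

end core

end Fermat.Agent.S28
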