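import Mathlib
import Fermat.Prelude.Def_GaloisRep_Flat
import Fermat.Agent.S28.RedKerAbs

/-!
# S28, (R1) STEP 2, abstract core: contents of polynomials (Gauss lemma)

Owner: helper27.

Same setting as `RedKerAbs`: `O` a valuation subring of `F ⊇ ℚ`, `ρ : O → κ`, `t ∈ O` with
`ρ t` transcendental over `𝔽_ℓ`.  We show `O ∩ ℚ[t] = ℤ_(ℓ)[t]`, that `t` is transcendental
over `ℚ`, and that the reduction of an element of `O ∩ ℚ(t)` lies in `𝔽_ℓ(ρ t)`.
-/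

set_option autoImplicit false

open Polynomial IntermediateField

namespace Fermat.Agent.S28

section content

variable (ℓ : ℕ) [Fact ℓ.Prime]

set_option quotPrecheck false in
local notation "ℤℓ" => ↥(GaloisRep.ratLocalizedAt ℓ)

/-- **Content lemma.** A nonzero rational polynomial is a nonzero constant times a polynomial
over `ℤ_(ℓ)` with nonzero reduction. -/
theorem redK_content (P : ℚ[X]) (hP : P ≠ 0) :
    ∃ (a : ℚ) (P₁ : ℤℓ[X]), a ≠ 0 ∧ P₁.map (redK_resid ℓ) ≠ 0 ∧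
      P = C a * P₁.map (algebraMap ℤℓ ℚ) := by
  classical
  obtain ⟨i₀, hi₀, hmax⟩ := Finset.exists_max_image P.support
    (fun i => (redK_Zl ℓ).valuation (P.coeff i)) (Polynomial.support_nonempty.mpr hP)
  have ha : P.coeff i₀ ≠ 0 := Polynomial.mem_support_iff.mp hi₀
  have hv0 : (redK_Zl ℓ).valuation (P.coeff i₀) ≠ 0 := (Valuation.ne_zero_iff _).mpr ha
  have hc : ∀ i, P.coeff i / P.coeff i₀ ∈ GaloisRep.ratLocalizedAt ℓ := fun i => by
    rw [← redK_mem_Zl_iff, ← (redK_Zl ℓ).valuation_le_one_iff, map_div₀]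
    refine (div_le_one₀ (zero_lt_iff.mpr hv0)).mpr ?_
    by_cases hi : i ∈ P.support
    · exact hmax i hi
    · rw [Polynomial.notMem_support_iff.mp hi, map_zero]
      exact zero_le
  have hl : C (P.coeff i₀)⁻¹ * P ∈ Polynomial.lifts (algebraMap ℤℓ ℚ) := by
    rw [Polynomial.lifts_iff_coeff_lifts]
    intro i
    rw [coeff_C_mul]
    refine ⟨⟨_, hc i⟩, ?_⟩
    show P.coeff i / P.coeff i₀ = _
    rw [div_eq_inv_mul]
  obtain ⟨P₁, hP₁⟩ := (Polynomial.mem_lifts _).mp hl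
  refine ⟨P.coeff i₀, P₁, ha, ?_, ?_⟩
  · intro h0
    have h1 : (P₁.coeff i₀ : ℚ) = 1 := by
      have := congrArg (fun q => q.coeff i₀) hP₁
      simp only [coeff_map, coeff_C_mul] at this
      rw [inv_mul_cancel₀ ha] at this
      exact this
    have h2 : P₁.coeff i₀ = 1 := Subtype.ext h1
    have h3 := congrArg (fun q => q.coeff i₀) h0
    simp only [coeff_map, coeff_zero, h2, map_one] at h3
    exact one_ne_zero h3
  · rw [hP₁, ← mul_assoc, ← C_mul, mul_inv_cancel₀ ha, C_1, one_mul]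

end content

section gauss

variable (ℓ : ℕ) [Fact ℓ.Prime]
variable {F : Type*} [Field F] [Algebra ℚ F]
variable {κ : Type*} [Field κ] [Algebra (ZMod ℓ) κ]
variable {O : ValuationSubring F} {ρ : O →+* κ}

set_option quotPrecheck false in
local notation "ℤℓ" => ↥(GaloisRep.ratLocalizedAt ℓ)

/-- The inclusion `ℤ_(ℓ) → O`. -/
noncomputable def redK_iota (hunit : ∀ x : O, ρ x ≠ 0 → (x : F)⁻¹ ∈ O) : ℤℓ →+* O where
  toFun a := ⟨algebraMap ℚ F (a : ℚ), redK_rat_mem ℓ hunit a⟩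
  map_one' := Subtype.ext (by simp)
  map_zero' := Subtype.ext (by simp)
  map_mul' a b := Subtype.ext (map_mul (algebraMap ℚ F) (a : ℚ) (b : ℚ))
  map_add' a b := Subtype.ext (map_add (algebraMap ℚ F) (a : ℚ) (b : ℚ))

theorem redK_iota_coe (hunit : ∀ x : O, ρ x ≠ 0 → (x : F)⁻¹ ∈ O) (a : ℤℓ) :
    ((redK_iota ℓ hunit a : O) : F) = algebraMap ℚ F (a : ℚ) := rfl

theorem redK_rho_iota (hunit : ∀ x : O, ρ x ≠ 0 → (x : F)⁻¹ ∈ O) (a : ℤℓ) :
    ρ (redK_iota ℓ hunit a) = algebraMap (ZMod ℓ) κ (redK_resid ℓ a) :=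
  redK_rho_rat ℓ hunit a

/-- Evaluation of polynomials over `ℤ_(ℓ)` at an element of `O`. -/
noncomputable def redK_evalO (hunit : ∀ x : O, ρ x ≠ 0 → (x : F)⁻¹ ∈ O) (t : O) : ℤℓ[X] →+* O :=
  Polynomial.eval₂RingHom (redK_iota ℓ hunit) t

theorem redK_evalO_coe (hunit : ∀ x : O, ρ x ≠ 0 → (x : F)⁻¹ ∈ O) (t : O) (P : ℤℓ[X]) :
    ((redK_evalO ℓ hunit t P : O) : F) = aeval (t : F) (P.map (algebraMap ℤℓ ℚ)) := by
  have h : (O.subtype : O →+* F).comp (redK_evalO ℓ hunit t) =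
      ((aeval (t : F) : ℚ[X] →ₐ[ℚ] F) : ℚ[X] →+* F).comp
        (Polynomial.mapRingHom (algebraMap ℤℓ ℚ)) := by
    apply Polynomial.ringHom_ext
    · intro a
      show ((Polynomial.eval₂ (redK_iota ℓ hunit) t (C a) : O) : F) =
        aeval (t : F) ((C a).map (algebraMap ℤℓ ℚ))
      rw [Polynomial.eval₂_C, Polynomial.map_C, aeval_C]
      rfl
    · show ((Polynomial.eval₂ (redK_iota ℓ hunit) t X : O) : F) =
        aeval (t : F) ((X : ℤℓ[X]).map (algebraMap ℤℓ ℚ))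
      rw [Polynomial.eval₂_X, Polynomial.map_X, aeval_X]
  exact congrArg (fun f => f P) h

theorem redK_rho_evalO (hunit : ∀ x : O, ρ x ≠ 0 → (x : F)⁻¹ ∈ O) (t : O) (P : ℤℓ[X]) :
    ρ (redK_evalO ℓ hunit t P) = aeval (ρ t) (P.map (redK_resid ℓ)) := by
  have h : ρ.comp (redK_evalO ℓ hunit t) =
      ((aeval (ρ t) : (ZMod ℓ)[X] →ₐ[ZMod ℓ] κ) : (ZMod ℓ)[X] →+* κ).comp
        (Polynomial.mapRingHom (redK_resid ℓ)) := by
    apply Polynomial.ringHom_ext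
    · intro a
      show ρ (Polynomial.eval₂ (redK_iota ℓ hunit) t (C a)) =
        aeval (ρ t) ((C a).map (redK_resid ℓ))
      rw [Polynomial.eval₂_C, Polynomial.map_C, aeval_C, redK_rho_iota]
    · show ρ (Polynomial.eval₂ (redK_iota ℓ hunit) t X) =
        aeval (ρ t) ((X : ℤℓ[X]).map (redK_resid ℓ))
      rw [Polynomial.eval₂_X, Polynomial.map_X, aeval_X]
  exact congrArg (fun f => f P) h

/-- A polynomial over `ℤ_(ℓ)` with nonzero reduction takes a unit value at `t`. -/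
theorem redK_rho_evalO_ne_zero (hunit : ∀ x : O, ρ x ≠ 0 → (x : F)⁻¹ ∈ O) (t : O)
    (htr : Transcendental (ZMod ℓ) (ρ t)) (P : ℤℓ[X]) (hP : P.map (redK_resid ℓ) ≠ 0) :
    ρ (redK_evalO ℓ hunit t P) ≠ 0 := by
  rw [redK_rho_evalO]
  intro h
  exact hP ((transcendental_iff.mp htr) _ h)

/-- A polynomial over `ℤ_(ℓ)` with nonzero reduction takes a unit value at `t`. -/
theorem redK_evalO_unit (hunit : ∀ x : O, ρ x ≠ 0 → (x : F)⁻¹ ∈ O) (t : O)
    (htr : Transcendental (ZMod ℓ) (ρ t)) (P : ℤℓ[X]) (hP : P.map (redK_resid ℓ) ≠ 0) :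
    ((redK_evalO ℓ hunit t P : O) : F) ≠ 0 ∧ ((redK_evalO ℓ hunit t P : O) : F)⁻¹ ∈ O := by
  have hne := redK_rho_evalO_ne_zero ℓ hunit t htr P hP
  refine ⟨?_, hunit _ hne⟩
  intro h
  apply hne
  have : redK_evalO ℓ hunit t P = 0 := Subtype.ext h
  rw [this, map_zero]

/-- `t` is transcendental over `ℚ`. -/
theorem redK_transcendental (hunit : ∀ x : O, ρ x ≠ 0 → (x : F)⁻¹ ∈ O) (t : O)
    (htr : Transcendental (ZMod ℓ) (ρ t)) : Transcendental ℚ (t : F) := by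
  rw [transcendental_iff]
  intro P hP
  by_contra hP0
  obtain ⟨a, P₁, ha, hP₁, rfl⟩ := redK_content ℓ P hP0
  rw [map_mul, aeval_C, ← redK_evalO_coe ℓ hunit] at hP
  have ha' : algebraMap ℚ F a ≠ 0 := by
    rw [Ne, map_eq_zero]; exact ha
  have h0 : redK_evalO ℓ hunit t P₁ = 0 :=
    Subtype.ext ((mul_eq_zero.mp hP).resolve_left ha')
  exact redK_rho_evalO_ne_zero ℓ hunit t htr P₁ hP₁ (by rw [h0, map_zero])

/-- **Gauss lemma**: `O ∩ ℚ[t] = ℤ_(ℓ)[t]`. -/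
theorem redK_gauss (hunit : ∀ x : O, ρ x ≠ 0 → (x : F)⁻¹ ∈ O) (t : O)
    (htr : Transcendental (ZMod ℓ) (ρ t)) (P : ℚ[X]) (hP : aeval (t : F) P ∈ O) :
    ∃ P' : ℤℓ[X], P'.map (algebraMap ℤℓ ℚ) = P := by
  by_cases hP0 : P = 0
  · exact ⟨0, by rw [hP0, Polynomial.map_zero]⟩
  obtain ⟨a, P₁, ha, hP₁, rfl⟩ := redK_content ℓ P hP0
  rw [map_mul, aeval_C, ← redK_evalO_coe ℓ hunit] at hP
  obtain ⟨h0, hinv⟩ := redK_evalO_unit ℓ hunit t htr P₁ hP₁
  have haO : algebraMap ℚ F a ∈ O := by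
    have := O.mul_mem _ _ hP hinv
    rwa [mul_assoc, mul_inv_cancel₀ h0, mul_one] at this
  have haZ := redK_rat_of_mem ℓ hunit a haO
  refine ⟨C (⟨a, haZ⟩ : ℤℓ) * P₁, ?_⟩
  rw [Polynomial.map_mul, Polynomial.map_C]
  rfl

/-- **Bridging lemma**: the reduction of an element of `O ∩ ℚ(t)` lies in `𝔽_ℓ(ρ t)`. -/
theorem redK_bridge (hunit : ∀ x : O, ρ x ≠ 0 → (x : F)⁻¹ ∈ O) (t : O)
    (htr : Transcendental (ZMod ℓ) (ρ t)) (c : O) (hc : (c : F) ∈ ℚ⟮(t : F)⟯) :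
    ∃ P S : (ZMod ℓ)[X], S ≠ 0 ∧ ρ c * aeval (ρ t) S = aeval (ρ t) P := by
  obtain ⟨r, s, hrs⟩ := (IntermediateField.mem_adjoin_simple_iff ℚ (c : F)).mp hc
  by_cases hc0 : c = 0
  · exact ⟨0, 1, one_ne_zero, by rw [hc0, map_zero, zero_mul, map_zero]⟩
  have hcF : (c : F) ≠ 0 := fun h => hc0 (Subtype.ext h)
  have hs0 : aeval (t : F) s ≠ 0 := by
    intro h
    rw [h, div_zero] at hrs
    exact hcF hrs
  have hr0 : aeval (t : F) r ≠ 0 := by
    intro h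
    rw [h, zero_div] at hrs
    exact hcF hrs
  have hr : r ≠ 0 := by rintro rfl; exact hr0 (map_zero _)
  have hs : s ≠ 0 := by rintro rfl; exact hs0 (map_zero _)
  obtain ⟨a, r₁, ha, hr₁, rfl⟩ := redK_content ℓ r hr
  obtain ⟨b, s₁, hb, hs₁, rfl⟩ := redK_content ℓ s hs
  rw [map_mul, aeval_C, ← redK_evalO_coe ℓ hunit, map_mul, aeval_C,
    ← redK_evalO_coe ℓ hunit] at hrs
  obtain ⟨hR0, hRinv⟩ := redK_evalO_unit ℓ hunit t htr r₁ hr₁
  obtain ⟨hS0, -⟩ := redK_evalO_unit ℓ hunit t htr s₁ hs₁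
  have hρR := redK_rho_evalO ℓ hunit t r₁
  have hρS := redK_rho_evalO ℓ hunit t s₁
  generalize redK_evalO ℓ hunit t r₁ = R at hrs hR0 hRinv hρR
  generalize redK_evalO ℓ hunit t s₁ = S at hrs hS0 hρS
  have haF : algebraMap ℚ F a ≠ 0 := by rw [Ne, map_eq_zero]; exact ha
  have hbF : algebraMap ℚ F b ≠ 0 := by rw [Ne, map_eq_zero]; exact hb
  -- `a / b = c * S / R ∈ O`
  have hab : algebraMap ℚ F (a / b) = (c : F) * (S : F) * (R : F)⁻¹ := by
    rw [hrs, map_div₀]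
    field_simp
  have habO : algebraMap ℚ F (a / b) ∈ O := by
    rw [hab]
    exact O.mul_mem _ _ (O.mul_mem _ _ c.2 S.2) hRinv
  have habZ := redK_rat_of_mem ℓ hunit (a / b) habO
  have hcS : c * S = redK_iota ℓ hunit ⟨a / b, habZ⟩ * R := by
    apply Subtype.ext
    show (c : F) * (S : F) = algebraMap ℚ F (a / b) * (R : F)
    rw [hab]
    field_simp
  have h1 := congrArg ρ hcS
  rw [map_mul, map_mul, redK_rho_iota, hρR, hρS] at h1
  refine ⟨C (redK_resid ℓ ⟨a / b, habZ⟩) * r₁.map (redK_resid ℓ), s₁.map (redK_resid ℓ),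
    hs₁, ?_⟩
  rw [h1, map_mul, aeval_C]

end gauss

end Fermat.Agent.S28
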