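import Mathlib
import Fermat.Prelude.Def_GaloisRep_Flat
import Fermat.Agent.S28.RedKerAbs
import Fermat.Agent.S28.RedKerGauss

/-!
# S28, (R1) STEP 2, abstract core: the kernel of the reduction on a chart

Owner: helper27.

Setting of `RedKerAbs` / `RedKerGauss`.  Main result `redK_core`: an element `x ∈ O` which is
integral over `ℤ_(ℓ)[t]` and whose reduction vanishes is `ℓ` times an element which is integral
over `ℤ_(ℓ)[t]`.
-/

set_option autoImplicit false

open Polynomial IntermediateField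

namespace Fermat.Agent.S28

/-- Coefficients of the minimal polynomial over the fraction field of an integrally closed
domain of an integral element lie in the domain. -/
theorem redK_minpoly_coeff_mem {R K S : Type*} [CommRing R] [IsDomain R] [IsIntegrallyClosed R]
    [Field K] [Algebra R K] [IsFractionRing R K] [Field S] [Algebra R S] [Algebra K S]
    [IsScalarTower R K S] {s : S} (hs : IsIntegral R s) (i : ℕ) :
    (minpoly K s).coeff i ∈ Set.range (algebraMap R K) := by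
  rw [minpoly.isIntegrallyClosed_eq_field_fractions' K hs, coeff_map]
  exact ⟨_, rfl⟩

/-- Integrality only depends on the image of the base ring. -/
theorem redK_isIntegral_of_range_le {R₁ R₂ S : Type*} [CommRing R₁] [CommRing R₂] [CommRing S]
    [Algebra R₁ S] [Algebra R₂ S]
    (h : ∀ a : R₁, algebraMap R₁ S a ∈ Set.range (algebraMap R₂ S)) {x : S}
    (hx : IsIntegral R₁ x) : IsIntegral R₂ x := by
  obtain ⟨p, hp, hpx⟩ := hx
  have hl : p.map (algebraMap R₁ S) ∈ Polynomial.lifts (algebraMap R₂ S) := by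
    rw [Polynomial.lifts_iff_coeff_lifts]
    intro i
    rw [coeff_map]
    exact h _
  obtain ⟨q, hq, -, hqm⟩ := Polynomial.lifts_and_natDegree_eq_and_monic hl (hp.map _)
  refine ⟨q, hqm, ?_⟩
  rw [← Polynomial.eval_map, hq, Polynomial.eval_map]
  exact hpx

section core

variable (ℓ : ℕ) [Fact ℓ.Prime]
variable {F : Type*} [Field F] [Algebra ℚ F]
variable {κ : Type*} [Field κ] [Algebra (ZMod ℓ) κ]
variable {O : ValuationSubring F} {ρ : O →+* κ}

set_option quotPrecheck false in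
local notation "ℤℓ" => ↥(GaloisRep.ratLocalizedAt ℓ)

omit [Fact ℓ.Prime] [Algebra (ZMod ℓ) κ] in
/-- `O` is integral over `O ∩ K₀`. -/
theorem redK_isIntegral_comap (hunit : ∀ x : O, ρ x ≠ 0 → (x : F)⁻¹ ∈ O)
    (K₀ : IntermediateField ℚ F) [FiniteDimensional K₀ F] (n : ℕ)
    (hn : Module.finrank K₀ F ≤ n) (u : Fin n → O)
    (hu : ∀ c : Fin n → O, (∀ i, (c i : F) ∈ K₀) → ∑ i, ρ (c i) * ρ (u i) = 0 →
      ∀ i, ρ (c i) = 0)
    (y : F) (hy : y ∈ O) :
    IsIntegral ↥(O.comap (algebraMap ↥K₀ F)) y := by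
  let S : Subalgebra ↥(O.comap (algebraMap ↥K₀ F)) F :=
    { O.toSubring with algebraMap_mem' := fun a => a.2 }
  refine IsIntegral.of_mem_of_fg S ?_ y hy
  have heq : Subalgebra.toSubmodule S =
      Submodule.span ↥(O.comap (algebraMap ↥K₀ F)) (Set.range fun i => (u i : F)) := by
    apply le_antisymm
    · intro z hz
      obtain ⟨c, hcK, hcO, hz'⟩ := redK_span hunit K₀ n hn u hu z hz
      rw [hz']
      refine Submodule.sum_mem _ fun i _ => ?_
      have : c i * (u i : F) =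
          (⟨⟨c i, hcK i⟩, hcO i⟩ : ↥(O.comap (algebraMap ↥K₀ F))) • (u i : F) := rfl
      rw [this]
      exact Submodule.smul_mem _ _ (Submodule.subset_span ⟨i, rfl⟩)
    · rw [Submodule.span_le]
      rintro _ ⟨i, rfl⟩
      exact (u i).2
  rw [heq]
  exact Submodule.fg_span (Set.finite_range _)

variable [Algebra ↥(GaloisRep.ratLocalizedAt ℓ) F]
  [IsScalarTower ↥(GaloisRep.ratLocalizedAt ℓ) ℚ F]

omit [Fact ℓ.Prime] in
theorem redK_adjoin_le (t : F) (z : F) (hz : z ∈ Algebra.adjoin ℤℓ {t}) :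
    z ∈ Algebra.adjoin ℚ {t} := by
  induction hz using Algebra.adjoin_induction with
  | mem x hx => exact Algebra.subset_adjoin hx
  | algebraMap r =>
    rw [IsScalarTower.algebraMap_apply ℤℓ ℚ F]
    exact Subalgebra.algebraMap_mem _ _
  | add x y _ _ hx hy => exact Subalgebra.add_mem _ hx hy
  | mul x y _ _ hx hy => exact Subalgebra.mul_mem _ hx hy

omit [Fact ℓ.Prime] in
/-- An element integral over `ℤ_(ℓ)[t]`, multiplied by a rational number, is integral over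
`ℚ[t]`. -/
theorem redK_isIntegral_adjoin_rat (t x : F) (hx : IsIntegral (Algebra.adjoin ℤℓ {t}) x)
    (q : ℚ) : IsIntegral (Algebra.adjoin ℚ {t}) (x * algebraMap ℚ F q) := by
  have h1 : IsIntegral (Algebra.adjoin ℚ {t}) x := by
    refine redK_isIntegral_of_range_le ?_ hx
    intro a
    exact ⟨⟨(a : F), redK_adjoin_le ℓ t _ a.2⟩, rfl⟩
  have h2 : IsIntegral (Algebra.adjoin ℚ {t}) (algebraMap ℚ F q) := by
    have hm : algebraMap ℚ F q ∈ Algebra.adjoin ℚ {t} := Subalgebra.algebraMap_mem _ _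
    have : algebraMap ℚ F q = algebraMap (Algebra.adjoin ℚ {t}) F ⟨_, hm⟩ := rfl
    rw [this]
    exact isIntegral_algebraMap
  exact h1.mul h2

open scoped IntermediateField.algebraAdjoinAdjoin in
/-- **Core theorem.** -/
theorem redK_core (hunit : ∀ x : O, ρ x ≠ 0 → (x : F)⁻¹ ∈ O)
    (hker : ∀ x : O, ρ x = 0 → (x : F) / ((ℓ : ℕ) : F) ∈ O)
    (t : O) (htr : Transcendental (ZMod ℓ) (ρ t))
    (K₀ : IntermediateField ℚ F) (hK₀ : K₀ = ℚ⟮(t : F)⟯) [FiniteDimensional K₀ F]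
    (n : ℕ) (hn : Module.finrank K₀ F ≤ n) (u : Fin n → O)
    (hu : ∀ c : Fin n → O, (∀ i, (c i : F) ∈ K₀) → ∑ i, ρ (c i) * ρ (u i) = 0 →
      ∀ i, ρ (c i) = 0)
    (x : O) (hx : IsIntegral (Algebra.adjoin ℤℓ {(t : F)}) (x : F)) (hρ : ρ x = 0) :
    IsIntegral (Algebra.adjoin ℤℓ {(t : F)}) ((x : F) / ((ℓ : ℕ) : F)) := by
  subst hK₀
  have hyO : (x : F) / ((ℓ : ℕ) : F) ∈ O := hker x hρ
  have hyA := redK_isIntegral_comap hunit ℚ⟮(t : F)⟯ n hn u hu _ hyO
  have hyB : IsIntegral (Algebra.adjoin ℚ {(t : F)}) ((x : F) / ((ℓ : ℕ) : F)) := by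
    have := redK_isIntegral_adjoin_rat ℓ (t : F) (x : F) hx ((ℓ : ℚ)⁻¹)
    rwa [map_inv₀, map_natCast, ← div_eq_mul_inv] at this
  have htrQ : Transcendental ℚ (t : F) := redK_transcendental ℓ hunit t htr
  have : IsIntegrallyClosed ↥(Algebra.adjoin ℚ {(t : F)}) :=
    IsIntegrallyClosed.of_equiv (Polynomial.algEquivOfTranscendental ℚ (t : F) htrQ).toRingEquiv
  set y : F := (x : F) / ((ℓ : ℕ) : F) with hy
  -- the coefficients of the minimal polynomial lie in `ℤ_(ℓ)[t]`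
  have hcoeff : ∀ i, algebraMap ↥ℚ⟮(t : F)⟯ F ((minpoly ↥ℚ⟮(t : F)⟯ y).coeff i) ∈
      Set.range (algebraMap ↥(Algebra.adjoin ℤℓ {(t : F)}) F) := by
    intro i
    obtain ⟨a, ha⟩ := redK_minpoly_coeff_mem (K := ↥ℚ⟮(t : F)⟯) hyA i
    obtain ⟨b, hb⟩ := redK_minpoly_coeff_mem (K := ↥ℚ⟮(t : F)⟯) hyB i
    have haO : algebraMap ↥ℚ⟮(t : F)⟯ F ((minpoly ↥ℚ⟮(t : F)⟯ y).coeff i) ∈ O := by
      rw [← ha]
      exact a.2
    have hbB : algebraMap ↥ℚ⟮(t : F)⟯ F ((minpoly ↥ℚ⟮(t : F)⟯ y).coeff i) ∈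
        Algebra.adjoin ℚ {(t : F)} := by
      rw [← hb]
      exact b.2
    rw [Algebra.adjoin_singleton_eq_range_aeval] at hbB
    obtain ⟨P, hP⟩ := hbB
    have hP' : aeval (t : F) P ∈ O := by
      have : aeval (t : F) P = algebraMap ↥ℚ⟮(t : F)⟯ F ((minpoly ↥ℚ⟮(t : F)⟯ y).coeff i) := hP
      rw [this]
      exact haO
    obtain ⟨P', rfl⟩ := redK_gauss ℓ hunit t htr P hP'
    have h1 : aeval (t : F) P' ∈ Algebra.adjoin ℤℓ {(t : F)} := by
      rw [Algebra.adjoin_singleton_eq_range_aeval]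
      exact ⟨P', rfl⟩
    refine ⟨⟨_, h1⟩, ?_⟩
    show aeval (t : F) P' = _
    rw [← aeval_map_algebraMap ℚ (t : F) P']
    exact hP
  have hl : (minpoly ↥ℚ⟮(t : F)⟯ y).map (algebraMap ↥ℚ⟮(t : F)⟯ F) ∈
      Polynomial.lifts (algebraMap ↥(Algebra.adjoin ℤℓ {(t : F)}) F) := by
    rw [Polynomial.lifts_iff_coeff_lifts]
    intro i
    rw [coeff_map]
    exact hcoeff i
  have hyK : IsIntegral ↥ℚ⟮(t : F)⟯ y := IsIntegral.of_finite _ _
  have hmonic : ((minpoly ↥ℚ⟮(t : F)⟯ y).map (algebraMap ↥ℚ⟮(t : F)⟯ F)).Monic :=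
    (minpoly.monic hyK).map _
  obtain ⟨q, hq, -, hqm⟩ := Polynomial.lifts_and_natDegree_eq_and_monic hl hmonic
  refine ⟨q, hqm, ?_⟩
  rw [← Polynomial.eval_map, hq, Polynomial.eval_map, ← Polynomial.aeval_def, minpoly.aeval]

end core

end Fermat.Agent.S28
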