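import Mathlib
import Fermat.Prelude.Def_GaloisRep_Flat
import Fermat.Agent.S28.RedKerAbs
import Fermat.Agent.S28.RedKerGauss
import Fermat.Agent.S28.RedKerCore

/-!
# S28, (R1) STEP 2, abstract core: from KEY to the independence hypothesis

Owner: helper27.

KEY says that the reduction `ρ g` of some `g ∈ O` satisfies no nonzero polynomial relation of
degree `< n` with coefficients in `𝔽_ℓ[ρ t]`.  We deduce the independence hypothesis `hu` of
`redK_core` for `u i = g ^ i`, and that elements integral over `ℤ_(ℓ)[t]` lie in `O`.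
-/

set_option autoImplicit false

open Polynomial IntermediateField

namespace Fermat.Agent.S28

section key

variable (ℓ : ℕ) [Fact ℓ.Prime]
variable {F : Type*} [Field F] [Algebra ℚ F]
variable {κ : Type*} [Field κ] [Algebra (ZMod ℓ) κ]
variable {O : ValuationSubring F} {ρ : O →+* κ}

set_option quotPrecheck false in
local notation "ℤℓ" => ↥(GaloisRep.ratLocalizedAt ℓ)

/-- From KEY to the independence hypothesis of `redK_core`. -/
theorem redK_hu_of_key (hunit : ∀ x : O, ρ x ≠ 0 → (x : F)⁻¹ ∈ O) (t : O)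
    (htr : Transcendental (ZMod ℓ) (ρ t)) (n : ℕ) (g : O)
    (hkey : ∀ Q : (ZMod ℓ)[X][X], Q ≠ 0 → Q.natDegree < n →
      (Q.map ((aeval (ρ t) : (ZMod ℓ)[X] →ₐ[ZMod ℓ] κ) : (ZMod ℓ)[X] →+* κ)).eval (ρ g) ≠ 0)
    (c : Fin n → O) (hc : ∀ i, (c i : F) ∈ ℚ⟮(t : F)⟯)
    (h0 : ∑ i, ρ (c i) * ρ (g ^ (i : ℕ)) = 0) : ∀ i, ρ (c i) = 0 := by
  classical
  choose P S hS hPS using fun i => redK_bridge ℓ hunit t htr (c i) (hc i)
  intro j
  have hn : 0 < n := lt_of_le_of_lt (Nat.zero_le _) j.2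
  set a : Fin n → (ZMod ℓ)[X] := fun i => P i * ∏ k ∈ Finset.univ.erase i, S k with ha
  set Q : (ZMod ℓ)[X][X] := ∑ i : Fin n, C (a i) * X ^ (i : ℕ) with hQ
  have hdeg : Q.natDegree < n := by
    have : Q.natDegree ≤ n - 1 := by
      refine Polynomial.natDegree_sum_le_of_forall_le _ _ fun i _ => ?_
      refine (natDegree_C_mul_X_pow_le _ _).trans ?_
      have := i.2
      omega
    omega
  have hev : (Q.map ((aeval (ρ t) : (ZMod ℓ)[X] →ₐ[ZMod ℓ] κ) : (ZMod ℓ)[X] →+* κ)).eval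
      (ρ g) = 0 := by
    rw [hQ, Polynomial.map_sum, Polynomial.eval_finsetSum]
    have hterm : ∀ i : Fin n,
        ((C (a i) * X ^ (i : ℕ) : (ZMod ℓ)[X][X]).map
          ((aeval (ρ t) : (ZMod ℓ)[X] →ₐ[ZMod ℓ] κ) : (ZMod ℓ)[X] →+* κ)).eval (ρ g) =
        aeval (ρ t) (∏ k, S k) * (ρ (c i) * ρ (g ^ (i : ℕ))) := by
      intro i
      rw [Polynomial.map_mul, Polynomial.map_C, Polynomial.map_pow, Polynomial.map_X,
        Polynomial.eval_mul, Polynomial.eval_C, Polynomial.eval_pow, Polynomial.eval_X,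
        ← Finset.mul_prod_erase Finset.univ S (Finset.mem_univ i), map_pow]
      show aeval (ρ t) (P i * ∏ k ∈ Finset.univ.erase i, S k) * ρ g ^ (i : ℕ) = _
      rw [map_mul, map_mul, ← hPS i]
      ring
    rw [Finset.sum_congr rfl fun i _ => hterm i, ← Finset.mul_sum, h0, mul_zero]
  have hQ0 : Q = 0 := by
    by_contra hne
    exact hkey Q hne hdeg hev
  have hcoeff : Q.coeff (j : ℕ) = a j := by
    rw [hQ, Polynomial.finsetSum_coeff]
    rw [Finset.sum_eq_single j]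
    · rw [coeff_C_mul_X_pow, if_pos rfl]
    · intro i _ hij
      rw [coeff_C_mul_X_pow, if_neg]
      intro h
      exact hij (Fin.ext h.symm)
    · intro h
      exact absurd (Finset.mem_univ j) h
  rw [hQ0, coeff_zero] at hcoeff
  have hprod : ∏ k ∈ Finset.univ.erase j, S k ≠ 0 :=
    Finset.prod_ne_zero_iff.mpr fun k _ => hS k
  have hPj : P j = 0 := by
    have := hcoeff.symm
    rw [ha] at this
    exact (mul_eq_zero.mp this).resolve_right hprod
  have h1 := hPS j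
  rw [hPj, map_zero] at h1
  have hSj : aeval (ρ t) (S j) ≠ 0 := fun h => hS j ((transcendental_iff.mp htr) _ h)
  exact (mul_eq_zero.mp h1).resolve_right hSj

variable [Algebra ↥(GaloisRep.ratLocalizedAt ℓ) F]
  [IsScalarTower ↥(GaloisRep.ratLocalizedAt ℓ) ℚ F]

/-- `ℤ_(ℓ)[t] ⊆ O`. -/
theorem redK_adjoin_le_O (hunit : ∀ x : O, ρ x ≠ 0 → (x : F)⁻¹ ∈ O) (t : O) (z : F)
    (hz : z ∈ Algebra.adjoin ℤℓ {(t : F)}) : z ∈ O := by
  induction hz using Algebra.adjoin_induction with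
  | mem x hx =>
    rw [Set.mem_singleton_iff.mp hx]
    exact t.2
  | algebraMap r =>
    rw [IsScalarTower.algebraMap_apply ℤℓ ℚ F]
    exact redK_rat_mem ℓ hunit r
  | add x y _ _ hx hy => exact O.add_mem _ _ hx hy
  | mul x y _ _ hx hy => exact O.mul_mem _ _ hx hy

/-- Elements integral over `ℤ_(ℓ)[t]` lie in `O` (a valuation ring is integrally closed). -/
theorem redK_mem_of_isIntegral (hunit : ∀ x : O, ρ x ≠ 0 → (x : F)⁻¹ ∈ O) (t : O) (x : F)
    (hx : IsIntegral (Algebra.adjoin ℤℓ {(t : F)}) x) : x ∈ O := by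
  have h1 : IsIntegral ↥O x := by
    refine redK_isIntegral_of_range_le ?_ hx
    intro a
    exact ⟨⟨(a : F), redK_adjoin_le_O ℓ hunit t _ a.2⟩, rfl⟩
  obtain ⟨y, hy⟩ := (IsIntegrallyClosed.isIntegral_iff (R := ↥O) (K := F)).mp h1
  rw [← hy]
  exact y.2

end key

end Fermat.Agent.S28
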