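import Mathlib
import Fermat.Prelude.Def_ModularCurve_IgusaScheme
import Fermat.Prelude.Def_ModularCurve_X0ModL
import Fermat.Agent.S28.RedKerAbs
import Fermat.Agent.S28.RedKerGauss
import Fermat.Agent.S28.RedKerCore
import Fermat.Agent.S28.RedKerKey
import Fermat.Agent.S28.RedO
import Fermat.Agent.S28.LocalOrder
import Fermat.Agent.S28.Defs

/-!
# S28, (R1) STEP 2, assembly: the reduction maps on the two charts

Owner: helper27.

We apply the abstract core (`redK_core`) to the function field `F = ℚ(X₀(N))`, the valuation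
ring `O_F = redO ℓ ∩ F` (STEP 1, `RedO.lean`) and the reduction `ρ_F : O_F → 𝔽_ℓ((q))`, for
`t = j` and `t = 1/j`.  Final export: `redK_red : s28_RedStatement`.
-/

set_option autoImplicit false

open ModularCurve ModularCurve.IgusaScheme Polynomial IntermediateField

noncomputable section

namespace Fermat.Agent.S28

section assembly

variable (N : ℕ) [NeZero N] (ℓ : ℕ) [Fact ℓ.Prime]

/-- The valuation ring `O_F = redO ℓ ∩ F` of the function field. -/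
def redK_OF : ValuationSubring ↥(modularFunctionFieldFull N) :=
  { (redO ℓ).comap ((modularFunctionFieldFull N).val : ↥(modularFunctionFieldFull N) →+*
      LaurentSeries ℚ) with
    mem_or_inv_mem' := fun x => by
      rcases redO_mem_or ℓ N (x : LaurentSeries ℚ) x.2 with h | ⟨h, -⟩
      · exact Or.inl h
      · exact Or.inr h }

theorem redK_mem_OF_iff (x : ↥(modularFunctionFieldFull N)) :
    x ∈ redK_OF N ℓ ↔ (x : LaurentSeries ℚ) ∈ redO ℓ := Iff.rfl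

/-- The inclusion `O_F → redO ℓ`. -/
def redK_inclOF : ↥(redK_OF N ℓ) →+* ↥(redO ℓ) where
  toFun x := ⟨((x : ↥(modularFunctionFieldFull N)) : LaurentSeries ℚ), x.2⟩
  map_one' := rfl
  map_mul' _ _ := rfl
  map_zero' := rfl
  map_add' _ _ := rfl

/-- The reduction `ρ_F : O_F → 𝔽_ℓ((q))`. -/
def redK_rhoF : ↥(redK_OF N ℓ) →+* LaurentSeries (ZMod ℓ) :=
  (redO_rho ℓ).comp (redK_inclOF N ℓ)

theorem redK_rhoF_apply (x : ↥(redK_OF N ℓ)) :
    redK_rhoF N ℓ x =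
      redO_rho ℓ ⟨((x : ↥(modularFunctionFieldFull N)) : LaurentSeries ℚ), x.2⟩ := rfl

theorem redK_hunitF (x : ↥(redK_OF N ℓ)) (h : redK_rhoF N ℓ x ≠ 0) :
    (x : ↥(modularFunctionFieldFull N))⁻¹ ∈ redK_OF N ℓ :=
  redO_inv_mem ℓ ⟨_, x.2⟩ h

theorem redK_hkerF (x : ↥(redK_OF N ℓ)) (h : redK_rhoF N ℓ x = 0) :
    (x : ↥(modularFunctionFieldFull N)) / ((ℓ : ℕ) : ↥(modularFunctionFieldFull N)) ∈
      redK_OF N ℓ := by
  have := redO_rho_eq_zero ℓ ⟨_, x.2⟩ h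
  exact this


/-- The reduction of the image of an integral Laurent series. -/
theorem redK_rhoF_int (G : LaurentSeries ℤ) (x : ↥(redK_OF N ℓ))
    (hx : ((x : ↥(modularFunctionFieldFull N)) : LaurentSeries ℚ) =
      coeffMap (Int.castRingHom ℚ) G) :
    redK_rhoF N ℓ x = coeffMap (Int.castRingHom (ZMod ℓ)) G := by
  rw [redK_rhoF_apply, ← redO_rho_int ℓ G]
  congr 1
  exact Subtype.ext hx

theorem redK_jq_eq : (jq : LaurentSeries ℚ) = coeffMap (Int.castRingHom ℚ) (jqModC ℤ) := by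
  rw [coeffMap_jqModC]
  rfl

theorem redK_j_mem : jFull N ∈ redK_OF N ℓ := by
  rw [redK_mem_OF_iff, coe_jFull, redK_jq_eq]
  exact redO_int ℓ _

/-- `j` as an element of `O_F`. -/
def redK_tj : ↥(redK_OF N ℓ) := ⟨jFull N, redK_j_mem N ℓ⟩

theorem redK_rhoF_tj : redK_rhoF N ℓ (redK_tj N ℓ) = jqModC (ZMod ℓ) := by
  rw [redK_rhoF_int N ℓ (jqModC ℤ) (redK_tj N ℓ) redK_jq_eq, coeffMap_jqModC]

theorem redK_order_jqModC (k : Type*) [Field k] : (jqModC k).order = -1 := by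
  have hne : jqModC k ≠ 0 := jqModC_ne_zero_of_nontrivial k
  refine le_antisymm (HahnSeries.order_le_of_coeff_ne_zero ?_) ?_
  · rw [coeff_jqModC_neg_one]
    exact one_ne_zero
  · by_contra hlt
    rw [not_le] at hlt
    exact HahnSeries.coeff_order_eq_zero.not.mpr hne (coeff_jqModC_of_lt k hlt)

theorem redK_rhoF_tj_ne_zero : redK_rhoF N ℓ (redK_tj N ℓ) ≠ 0 := by
  rw [redK_rhoF_tj]
  exact jqModC_ne_zero_of_nontrivial _

theorem redK_htr_tj : Transcendental (ZMod ℓ) (redK_rhoF N ℓ (redK_tj N ℓ)) := by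
  rw [redK_rhoF_tj]
  refine locO_transcendental _ ?_
  rw [redK_order_jqModC]
  norm_num

/-- `1/j` as an element of `O_F`. -/
def redK_tinv : ↥(redK_OF N ℓ) :=
  ⟨(jFull N)⁻¹, redK_hunitF N ℓ (redK_tj N ℓ) (redK_rhoF_tj_ne_zero N ℓ)⟩

theorem redK_tj_mul_tinv : redK_tj N ℓ * redK_tinv N ℓ = 1 :=
  Subtype.ext (mul_inv_cancel₀ (jFull_ne_zero N))

theorem redK_rhoF_tinv : redK_rhoF N ℓ (redK_tinv N ℓ) = (jqModC (ZMod ℓ))⁻¹ := by
  have h := congrArg (redK_rhoF N ℓ) (redK_tj_mul_tinv N ℓ)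
  rw [map_mul, map_one, redK_rhoF_tj] at h
  exact eq_inv_of_mul_eq_one_right h

theorem redK_htr_tinv : Transcendental (ZMod ℓ) (redK_rhoF N ℓ (redK_tinv N ℓ)) := by
  rw [redK_rhoF_tinv]
  refine locO_transcendental _ ?_
  have hne : jqModC (ZMod ℓ) ≠ 0 := jqModC_ne_zero_of_nontrivial _
  have h1 : (jqModC (ZMod ℓ) * (jqModC (ZMod ℓ))⁻¹).order = 0 := by
    rw [mul_inv_cancel₀ hne, HahnSeries.order_one]
  rw [HahnSeries.order_mul hne (inv_ne_zero hne), redK_order_jqModC] at h1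
  omega

theorem redK_adjoin_inv : ℚ⟮jFull N⟯ = ℚ⟮(jFull N)⁻¹⟯ := by
  apply le_antisymm
  · rw [IntermediateField.adjoin_simple_le_iff]
    have h := (ℚ⟮(jFull N)⁻¹⟯).inv_mem (IntermediateField.mem_adjoin_simple_self ℚ (jFull N)⁻¹)
    rwa [inv_inv] at h
  · rw [IntermediateField.adjoin_simple_le_iff]
    exact (ℚ⟮jFull N⟯).inv_mem (IntermediateField.mem_adjoin_simple_self ℚ (jFull N))


open scoped ModularCurve.IgusaScheme

/-- The independence hypothesis of `redK_core`, from KEY. -/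
theorem redK_huF (n : ℕ) (g : LaurentSeries ℤ)
    (hg : coeffMap (Int.castRingHom ℚ) g ∈ modularFunctionFieldFull N)
    (hkey : ∀ Q : (ZMod ℓ)[X][X], Q ≠ 0 → Q.natDegree < n →
      (Q.map (aeval (jqModC (ZMod ℓ))).toRingHom).eval
        (coeffMap (Int.castRingHom (ZMod ℓ)) g) ≠ 0) :
    ∃ u : Fin n → ↥(redK_OF N ℓ),
      ∀ c : Fin n → ↥(redK_OF N ℓ),
        (∀ i, ((c i : ↥(redK_OF N ℓ)) : ↥(modularFunctionFieldFull N)) ∈ ℚ⟮jFull N⟯) →
        ∑ i, redK_rhoF N ℓ (c i) * redK_rhoF N ℓ (u i) = 0 → ∀ i, redK_rhoF N ℓ (c i) = 0 := by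
  have hgO : (⟨coeffMap (Int.castRingHom ℚ) g, hg⟩ : ↥(modularFunctionFieldFull N)) ∈
      redK_OF N ℓ := redO_int ℓ g
  set gF : ↥(redK_OF N ℓ) := ⟨⟨coeffMap (Int.castRingHom ℚ) g, hg⟩, hgO⟩ with hgF
  have hρg : redK_rhoF N ℓ gF = coeffMap (Int.castRingHom (ZMod ℓ)) g :=
    redK_rhoF_int N ℓ g gF rfl
  refine ⟨fun i => gF ^ (i : ℕ), fun c hc h0 => ?_⟩
  refine redK_hu_of_key ℓ (redK_hunitF N ℓ) (redK_tj N ℓ) (redK_htr_tj N ℓ) n gF ?_ c hc h0
  intro Q hQ hdeg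
  rw [redK_rhoF_tj, hρg]
  exact hkey Q hQ hdeg

/-- The charts lie in `O_F`. -/
theorem redK_chartFin_le (x : ↥(modularFunctionFieldFull N)) (hx : x ∈ chartAlgFin N ℓ) :
    x ∈ redK_OF N ℓ :=
  redK_mem_of_isIntegral ℓ (redK_hunitF N ℓ) (redK_tj N ℓ) x hx

theorem redK_chartInf_le (x : ↥(modularFunctionFieldFull N)) (hx : x ∈ chartAlgInf N ℓ) :
    x ∈ redK_OF N ℓ :=
  redK_mem_of_isIntegral ℓ (redK_hunitF N ℓ) (redK_tinv N ℓ) x hx

/-- Restriction of `ρ_F` to a subalgebra contained in `O_F`. -/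
def redK_restrict (B : Subalgebra ↥(GaloisRep.ratLocalizedAt ℓ) ↥(modularFunctionFieldFull N))
    (h : ∀ x, x ∈ B → x ∈ redK_OF N ℓ) : ↥B →+* LaurentSeries (ZMod ℓ) :=
  (redK_rhoF N ℓ).comp
    { toFun := fun x => ⟨(x : ↥(modularFunctionFieldFull N)), h x x.2⟩
      map_one' := rfl
      map_mul' := fun _ _ => rfl
      map_zero' := rfl
      map_add' := fun _ _ => rfl }

theorem redK_restrict_apply
    (B : Subalgebra ↥(GaloisRep.ratLocalizedAt ℓ) ↥(modularFunctionFieldFull N))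
    (h : ∀ x, x ∈ B → x ∈ redK_OF N ℓ) (x : ↥B) :
    redK_restrict N ℓ B h x = redK_rhoF N ℓ ⟨(x : ↥(modularFunctionFieldFull N)), h x x.2⟩ :=
  rfl

omit [NeZero N] in
theorem redK_natCast_ne_zero : ((ℓ : ℕ) : ↥(modularFunctionFieldFull N)) ≠ 0 :=
  Nat.cast_ne_zero.mpr (Fact.out : ℓ.Prime).ne_zero

omit [NeZero N] [Fact ℓ.Prime] in
theorem redK_coe_natCast
    (B : Subalgebra ↥(GaloisRep.ratLocalizedAt ℓ) ↥(modularFunctionFieldFull N)) (m : ℕ) :
    (((m : ℕ) : ↥B) : ↥(modularFunctionFieldFull N)) = ((m : ℕ) : ↥(modularFunctionFieldFull N)) :=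
  map_natCast B.val m

/-- **RED**: the reduction maps on the two charts. -/
theorem redK_red : s28_RedStatement := by
  intro N ℓ _ _ n hfin hn hkey
  obtain ⟨g, hg, hkey⟩ := hkey
  obtain ⟨u, hu⟩ := redK_huF N ℓ n g hg hkey
  have hℓ := redK_natCast_ne_zero N ℓ
  refine ⟨redK_restrict N ℓ (chartAlgFin N ℓ) (redK_chartFin_le N ℓ),
    redK_restrict N ℓ (chartAlgInf N ℓ) (redK_chartInf_le N ℓ), ?_, ?_, ?_⟩
  · intro b hb
    rw [redK_restrict_apply] at hb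
    have h1 := redK_core ℓ (redK_hunitF N ℓ) (redK_hkerF N ℓ) (redK_tj N ℓ) (redK_htr_tj N ℓ)
      ℚ⟮jFull N⟯ rfl n hn u hu ⟨(b : ↥(modularFunctionFieldFull N)), _⟩ b.2 hb
    refine ⟨⟨_, h1⟩, Subtype.ext ?_⟩
    rw [Subalgebra.coe_mul, redK_coe_natCast]
    show (b : ↥(modularFunctionFieldFull N)) = _
    field_simp
  · rw [redK_restrict_apply]
    exact redK_rhoF_tj_ne_zero N ℓ
  · intro b hb
    rw [redK_restrict_apply] at hb
    have h1 := redK_core ℓ (redK_hunitF N ℓ) (redK_hkerF N ℓ) (redK_tinv N ℓ)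
      (redK_htr_tinv N ℓ) ℚ⟮jFull N⟯ (redK_adjoin_inv N) n hn u hu
      ⟨(b : ↥(modularFunctionFieldFull N)), _⟩ b.2 hb
    refine ⟨⟨_, h1⟩, Subtype.ext ?_⟩
    rw [Subalgebra.coe_mul, redK_coe_natCast]
    show (b : ↥(modularFunctionFieldFull N)) = _
    field_simp

end assembly

end Fermat.Agent.S28
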