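import Mathlib
import Fermat.Prelude.Def_ModularCurve_X0ModL
import Fermat.Agent.S28.LocalOrder
import Fermat.Agent.S28.EsymOrd
import Fermat.Agent.S28.KeyRed

/-!
# S28 [CHI], formal slices

* `chiP_coeff_mem` (**CHI-INT**, triangular descent): if `P ∈ A[X]` and the Laurent series
  `P(t)` has all coefficients in a subring `B`, where `t` has negative order, coefficients in `B`
  and leading coefficient `1`, then `P ∈ B[X]`.
* `chiP_chi P n = ∑ₖ (-1)^k (P k) X^(n-k)` (**CHI-FIN-POLY**): the characteristic polynomial as an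
  element of `A[j][X]`, with its coefficients, monicity, degree, evaluation, and the translation of
  degree statements on the `P k` into the (K1) shape used by `keyR_key_subring`.
-/

set_option autoImplicit false

open Polynomial ModularCurve

noncomputable section

namespace Fermat.Agent.S28

section Descent

variable {A : Type*} [Field A]

theorem chiP_C_mem (B : Subring A) {c : A} (hc : c ∈ B) :
    (HahnSeries.C c : LaurentSeries A) ∈ esymO_coeffSubring B := by
  intro n
  rw [HahnSeries.C_apply, HahnSeries.coeff_single]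
  split_ifs
  · exact hc
  · exact B.zero_mem

/-- **(CHI-INT)** Triangular descent of coefficients. -/
theorem chiP_coeff_mem (B : Subring A) (t : LaurentSeries A) (ht : t.order < 0)
    (htB : ∀ n, t.coeff n ∈ B) (hlc : t.leadingCoeff = 1) (P : A[X])
    (hP : ∀ n, (Polynomial.aeval t P).coeff n ∈ B) : ∀ i, P.coeff i ∈ B := by
  have htmem : t ∈ esymO_coeffSubring B := htB
  -- strong induction on the degree
  suffices H : ∀ (d : ℕ) (P : A[X]), P.natDegree ≤ d →
      (Polynomial.aeval t P) ∈ esymO_coeffSubring B → ∀ i, P.coeff i ∈ B from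
    H P.natDegree P le_rfl hP
  intro d
  induction d with
  | zero =>
    intro P hd hmem i
    have hPC : P = Polynomial.C (P.coeff 0) :=
      Polynomial.eq_C_of_natDegree_le_zero hd
    have h0 : P.coeff 0 ∈ B := by
      have := hmem 0
      rw [hPC, Polynomial.aeval_C, esymO_algebraMap_eq_C, HahnSeries.C_apply,
        HahnSeries.coeff_single_same] at this
      exact this
    rw [hPC, Polynomial.coeff_C]
    split_ifs
    · exact h0
    · exact B.zero_mem
  | succ d ih =>
    intro P hd hmem i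
    by_cases hP0 : P = 0
    · rw [hP0, Polynomial.coeff_zero]
      exact B.zero_mem
    have hlcP : P.leadingCoeff ∈ B := by
      have h1 := esymO_aeval_leadingCoeff t ht P
      rw [hlc, one_pow, mul_one, HahnSeries.leadingCoeff_eq] at h1
      rw [← h1]
      exact hmem _
    have hsplit : Polynomial.aeval t P.eraseLead =
        Polynomial.aeval t P - HahnSeries.C P.leadingCoeff * t ^ P.natDegree := by
      have key := congrArg (Polynomial.aeval t) (Polynomial.eraseLead_add_C_mul_X_pow P)
      rw [map_add, map_mul, map_pow, Polynomial.aeval_C, Polynomial.aeval_X,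
        esymO_algebraMap_eq_C] at key
      exact eq_sub_of_add_eq key
    have hmem' : Polynomial.aeval t P.eraseLead ∈ esymO_coeffSubring B := by
      rw [hsplit]
      exact Subring.sub_mem _ hmem
        (Subring.mul_mem _ (chiP_C_mem B hlcP) (Subring.pow_mem _ htmem _))
    have hdeg : P.eraseLead.natDegree ≤ d := by
      have := Polynomial.eraseLead_natDegree_le P
      omega
    have hE := ih P.eraseLead hdeg hmem'
    by_cases hi : i = P.natDegree
    · subst hi
      exact hlcP
    · rw [← Polynomial.eraseLead_coeff_of_ne i hi]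
      exact hE i

end Descent

section JSeries

variable (k : Type*) [Field k] (N : ℕ) [NeZero N]

theorem chiP_jq_ne_zero : qExpand k N (jqModC k) ≠ 0 :=
  locO_qExpand_ne_zero N (jqModC_ne_zero_of_nontrivial k)

theorem chiP_jq_order : (qExpand k N (jqModC k)).order = -(N : ℤ) := by
  rw [locO_order_qExpand N _ (jqModC_ne_zero_of_nontrivial k), keyR_order_jqModC]
  ring

theorem chiP_jq_order_neg : (qExpand k N (jqModC k)).order < 0 := by
  rw [chiP_jq_order]
  have : 0 < N := Nat.pos_of_ne_zero (NeZero.ne N)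
  omega

theorem chiP_jq_leadingCoeff : (qExpand k N (jqModC k)).leadingCoeff = 1 := by
  rw [HahnSeries.leadingCoeff_eq, chiP_jq_order,
    show (-(N : ℤ)) = (N : ℤ) * (-1) by ring, qExpand_coeff_mul, coeff_jqModC_neg_one]

/-- All coefficients of `j(q^N)` are integers. -/
theorem chiP_jq_coeff_mem (B : Subring k) (n : ℤ) : (qExpand k N (jqModC k)).coeff n ∈ B := by
  by_cases hn : (N : ℤ) ∣ n
  · obtain ⟨m, rfl⟩ := hn
    rw [qExpand_coeff_mul, coeff_jqModC_eq_intCast]
    exact intCast_mem B _
  · rw [qExpand_coeff_of_not_dvd N _ hn]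
    exact B.zero_mem

/-- **(CHI-INT)** for `t = j(q^N)`. -/
theorem chiP_coeff_mem_jq (B : Subring k) (P : k[X])
    (hP : ∀ n, (Polynomial.aeval (qExpand k N (jqModC k)) P).coeff n ∈ B) :
    ∀ i, P.coeff i ∈ B :=
  chiP_coeff_mem B _ (chiP_jq_order_neg k N) (chiP_jq_coeff_mem k N B)
    (chiP_jq_leadingCoeff k N) P hP

end JSeries

section Chi

variable {A : Type*} [CommRing A]

/-- The characteristic polynomial `∑ₖ (-1)^k (P k) X^(n-k)` as an element of `A[j][X]`. -/
def chiP_chi (P : ℕ → A[X]) (n : ℕ) : A[X][X] :=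
  ∑ k ∈ Finset.range (n + 1), Polynomial.C ((-1) ^ k * P k) * Polynomial.X ^ (n - k)

theorem chiP_chi_coeff (P : ℕ → A[X]) (n i : ℕ) :
    (chiP_chi P n).coeff i = if i ≤ n then (-1) ^ (n - i) * P (n - i) else 0 := by
  rw [chiP_chi, Polynomial.finsetSum_coeff]
  simp only [Polynomial.coeff_C_mul_X_pow]
  split_ifs with hi
  · rw [Finset.sum_eq_single (n - i)]
    · rw [if_pos (by omega)]
    · intro k hk hne
      rw [Finset.mem_range] at hk
      rw [if_neg (by omega)]
    · intro h
      exact absurd (Finset.mem_range.2 (by omega)) h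
  · refine Finset.sum_eq_zero fun k hk => ?_
    rw [if_neg (by omega)]

theorem chiP_chi_coeff_sub (P : ℕ → A[X]) (n k : ℕ) (hk : k ≤ n) :
    (chiP_chi P n).coeff (n - k) = (-1) ^ k * P k := by
  rw [chiP_chi_coeff, if_pos (Nat.sub_le n k), Nat.sub_sub_self hk]

theorem chiP_chi_natDegree_le (P : ℕ → A[X]) (n : ℕ) : (chiP_chi P n).natDegree ≤ n := by
  rw [Polynomial.natDegree_le_iff_coeff_eq_zero]
  intro i hi
  rw [chiP_chi_coeff, if_neg (by omega)]

theorem chiP_chi_coeff_top (P : ℕ → A[X]) (hP0 : P 0 = 1) (n : ℕ) :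
    (chiP_chi P n).coeff n = 1 := by
  rw [chiP_chi_coeff, if_pos le_rfl, Nat.sub_self, pow_zero, one_mul, hP0]

theorem chiP_chi_monic (P : ℕ → A[X]) (hP0 : P 0 = 1) (n : ℕ) : (chiP_chi P n).Monic :=
  Polynomial.monic_of_natDegree_le_of_coeff_eq_one n (chiP_chi_natDegree_le P n)
    (chiP_chi_coeff_top P hP0 n)

theorem chiP_chi_natDegree [Nontrivial A] (P : ℕ → A[X]) (hP0 : P 0 = 1) (n : ℕ) :
    (chiP_chi P n).natDegree = n := by
  refine le_antisymm (chiP_chi_natDegree_le P n) (Polynomial.le_natDegree_of_ne_zero ?_)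
  rw [chiP_chi_coeff_top P hP0 n]
  exact one_ne_zero

theorem chiP_neg_one_pow_mul_coeff_mem (B : Subring A) (k : ℕ) {Q : A[X]}
    (hQ : ∀ j, Q.coeff j ∈ B) (j : ℕ) : ((-1) ^ k * Q).coeff j ∈ B := by
  rcases neg_one_pow_eq_or A[X] k with h | h
  · rw [h, one_mul]; exact hQ j
  · rw [h, neg_one_mul, Polynomial.coeff_neg]; exact B.neg_mem (hQ j)

/-- `hcoef` of `keyR_key_subring`. -/
theorem chiP_chi_coeff_mem (B : Subring A) (P : ℕ → A[X]) (n : ℕ)
    (hP : ∀ k, k ≤ n → ∀ j, (P k).coeff j ∈ B) (i j : ℕ) :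
    ((chiP_chi P n).coeff i).coeff j ∈ B := by
  rw [chiP_chi_coeff]
  split_ifs with hi
  · exact chiP_neg_one_pow_mul_coeff_mem B _ (hP (n - i) (Nat.sub_le n i)) j
  · rw [Polynomial.coeff_zero]; exact B.zero_mem

theorem chiP_natDegree_neg_one_pow_mul (k : ℕ) (Q : A[X]) :
    ((-1) ^ k * Q).natDegree = Q.natDegree := by
  rcases neg_one_pow_eq_or A[X] k with h | h
  · rw [h, one_mul]
  · rw [h, neg_one_mul, Polynomial.natDegree_neg]

theorem chiP_leadingCoeff_neg_one_pow_mul (k : ℕ) (Q : A[X]) :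
    ((-1) ^ k * Q).leadingCoeff = (-1) ^ k * Q.leadingCoeff := by
  rcases Nat.even_or_odd k with h | h
  · rw [h.neg_one_pow, h.neg_one_pow, one_mul, one_mul]
  · rw [h.neg_one_pow, h.neg_one_pow, neg_one_mul, neg_one_mul, Polynomial.leadingCoeff_neg]

/-- Evaluation of the characteristic polynomial at `(t, g)`. -/
theorem chiP_chi_eval₂ {S : Type*} [CommRing S] (f : A[X] →+* S) (g : S) (P : ℕ → A[X])
    (n : ℕ) :
    (chiP_chi P n).eval₂ f g = ∑ k ∈ Finset.range (n + 1), (-1) ^ k * (f (P k) * g ^ (n - k)) := by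
  rw [chiP_chi, Polynomial.eval₂_finsetSum]
  refine Finset.sum_congr rfl fun k _ => ?_
  rw [Polynomial.eval₂_mul, Polynomial.eval₂_C, Polynomial.eval₂_pow, Polynomial.eval₂_X,
    map_mul, map_pow, map_neg, map_one, mul_assoc]

/-- The root identity in the shape of `S24.anD_exists_charPoly`, as an identity of Laurent
series, is `χ(t, g) = 0`. -/
theorem chiP_chi_eval (t g : LaurentSeries A) (P : ℕ → A[X]) (n : ℕ) :
    ((chiP_chi P n).map (Polynomial.aeval t : A[X] →ₐ[A] LaurentSeries A).toRingHom).eval g =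
      ∑ k ∈ Finset.range (n + 1), (-1) ^ k * (Polynomial.aeval t (P k) * g ^ (n - k)) := by
  rw [← Polynomial.eval₂_eq_eval_map, chiP_chi_eval₂]
  rfl

/-- **(K1) shape translation.**  If `P n` is a constant `c`, `deg (P k) < deg (P (n-1))` for
`k ≤ n - 2` and `0 < deg (P (n-1))`, then `χ = chiP_chi P n` has the shape required by (K1):
constant coefficient `C (±c)` and the coefficient of `X¹` strictly dominant in `j`-degree. -/
theorem chiP_K1 (P : ℕ → A[X]) (n : ℕ) (hn : 1 ≤ n) {c : A} (hconst : P n = Polynomial.C c)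
    (hdeg : ∀ k, k + 2 ≤ n → (P k).natDegree < (P (n - 1)).natDegree)
    (hpos : 0 < (P (n - 1)).natDegree) :
    (chiP_chi P n).coeff 0 = Polynomial.C ((-1) ^ n * c) ∧
    (∀ i, i ≠ 1 → ((chiP_chi P n).coeff i).natDegree < ((chiP_chi P n).coeff 1).natDegree) ∧
    ((chiP_chi P n).coeff 1).leadingCoeff = (-1) ^ (n - 1) * (P (n - 1)).leadingCoeff := by
  have h1 : (chiP_chi P n).coeff 1 = (-1) ^ (n - 1) * P (n - 1) := by
    rw [chiP_chi_coeff, if_pos hn]
  refine ⟨?_, fun i hi => ?_, ?_⟩
  · rw [chiP_chi_coeff, if_pos (Nat.zero_le n), Nat.sub_zero, hconst, map_mul, map_pow, map_neg,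
      map_one]
  · rw [h1, chiP_natDegree_neg_one_pow_mul, chiP_chi_coeff]
    split_ifs with hin
    · rw [chiP_natDegree_neg_one_pow_mul]
      rcases Nat.eq_zero_or_pos i with h0 | hpos'
      · subst h0
        rw [Nat.sub_zero, hconst, Polynomial.natDegree_C]
        exact hpos
      · exact hdeg (n - i) (by omega)
    · rw [Polynomial.natDegree_zero]
      exact hpos
  · rw [h1, chiP_leadingCoeff_neg_one_pow_mul]

end Chi

end Fermat.Agent.S28

end
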