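import Mathlib
import Fermat.Prelude.Def_ModularCurve_X0ModL
import Fermat.Agent.S28.ChiPoly

/-!
# S28 [CHI] hedge, SLICE C (integrality of the coefficients of the characteristic polynomial)

The four statements requested by the hedge integrator, verbatim; the proofs are in
`S28/ChiPoly.lean`.
-/

set_option autoImplicit false

open Polynomial

noncomputable section

namespace Fermat.Agent.S28

/-- Triangular descent: if `P(t)` has all its coefficients in `R₀`, where `t` has negative order,
leading coefficient `1` and coefficients in `R₀`, then `P ∈ R₀[X]`. -/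
theorem chiHi_coeff_mem {K : Type*} [Field K] (R₀ : Subring K) (t : LaurentSeries K)
    (ht : t.order < 0) (hlead : t.leadingCoeff = 1) (htc : ∀ n, t.coeff n ∈ R₀) (P : K[X])
    (hP : ∀ n, (aeval t P).coeff n ∈ R₀) : ∀ i, P.coeff i ∈ R₀ :=
  chiP_coeff_mem R₀ t ht htc hlead P hP

theorem chiHi_jN_order (N : ℕ) [NeZero N] :
    (ModularCurve.qExpand ℂ N (ModularCurve.jqModC ℂ)).order = -(N : ℤ) :=
  chiP_jq_order ℂ N

theorem chiHi_jN_leadingCoeff (N : ℕ) [NeZero N] :
    (ModularCurve.qExpand ℂ N (ModularCurve.jqModC ℂ)).leadingCoeff = 1 :=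
  chiP_jq_leadingCoeff ℂ N

theorem chiHi_jN_coeff_mem (N : ℕ) [NeZero N] (R₀ : Subring ℂ) (n : ℤ) :
    (ModularCurve.qExpand ℂ N (ModularCurve.jqModC ℂ)).coeff n ∈ R₀ :=
  chiP_jq_coeff_mem ℂ N R₀ n

end Fermat.Agent.S28

end
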