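import Mathlib
import Fermat.Prelude.Def_ModularCurve_X0ModL
import Fermat.Agent.S24.BridgeLaurent
import Fermat.Agent.S24.CharPoly
import Fermat.Agent.S28.TrDefs
import Fermat.Agent.S28.TwistLaurent

/-!
# S28, [CHI], slice (a): the characteristic polynomial as an identity of Laurent series

For a finite family `F : X → ℍ → ℂ` whose elementary symmetric functions are polynomials
`P k` in `j` (S24 `anD_exists_charPoly`), and Laurent expansions `S x` of the dilated members
`z ↦ F x (N z)`:

* `chiS_esymm_series`: `(P k)(j(q^N)) = e_k(S)` in `ℂ((q))`;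
* `chiS_root`: if `g` is a member of the family with expansion `g̃` in `q`, then
  `∑ₖ (-1)^k (P k)(j(q)) g̃^(n-k) = 0` in `ℂ((q))`.
-/

set_option autoImplicit false

noncomputable section

namespace Fermat.Agent.S28

open UpperHalfPlane ModularFormClass Function Filter Topology ModularForm EisensteinSeries
open scoped MatrixGroups ModularForm Manifold

open Fermat.Agent.S22 Fermat.Agent.S24 ModularCurve Polynomial

local notation "Δ" => ModularForm.discriminant

/-! ### Polynomials in functions with Laurent expansions -/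

theorem chiS_algebraMap_eq_C (c : ℂ) :
    algebraMap ℂ (LaurentSeries ℂ) c = HahnSeries.C c := by
  rw [HahnSeries.algebraMap_apply']
  simp

theorem chiS_hasLaurent_aeval {s : LaurentSeries ℂ} {f : ℍ → ℂ} (h : anA_HasLaurent s f)
    (P : ℂ[X]) : anA_HasLaurent (Polynomial.aeval s P) (fun z => P.eval (f z)) := by
  induction P using Polynomial.induction_on' with
  | add p q hp hq =>
    rw [map_add]
    have h1 := hp.add hq
    have e : (fun z => (p + q).eval (f z)) = (fun z => p.eval (f z)) + fun z => q.eval (f z) := by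
      funext z
      simp
    rw [e]
    exact h1
  | monomial n c =>
    rw [Polynomial.aeval_monomial, chiS_algebraMap_eq_C]
    have h1 := (anA_HasLaurent.const c).mul (twL_hasLaurent_pow h n)
    have e : (fun z => (Polynomial.monomial n c).eval (f z)) =
        (fun _ => c) * fun z => f z ^ n := by
      funext z
      simp [Polynomial.eval_monomial]
    rw [e]
    exact h1

/-- The Laurent expansion of `j = E₄³/Δ` is `jqModC ℂ`. -/
theorem chiS_hasLaurent_j : anA_HasLaurent (jqModC ℂ) (fun z : ℍ => E₄ z ^ 3 / Δ z) := by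
  have h := anA_hasLaurent_jd 1
  rw [ModularCurve.qExpand_one_apply] at h
  have e : (fun z : ℍ => jfun (heckeDiagMatrix 1 • z)) = fun z : ℍ => E₄ z ^ 3 / Δ z := by
    funext z
    have h1 : heckeDiagMatrix 1 • z = z := by
      rw [← twL_ofComplex_mul 1 z]
      apply UpperHalfPlane.ext
      have hpos : 0 < (((1 : ℕ) : ℂ) * (z : ℂ)).im := by simpa using z.im_pos
      rw [ofComplex_apply_of_im_pos hpos]
      simp
    rw [h1]
    rfl
  rw [e] at h
  exact h

/-- The Laurent expansion of `z ↦ j (N z)` is `j(q^N)`. -/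
theorem chiS_hasLaurent_j_diag (N : ℕ) [NeZero N] :
    anA_HasLaurent (qExpand ℂ N (jqModC ℂ))
      (fun z : ℍ => E₄ (tr_pt N z) ^ 3 / Δ (tr_pt N z)) :=
  twL_hasLaurent_diag chiS_hasLaurent_j N

/-! ### The elementary symmetric functions -/

section Family

variable {X : Type} [Fintype X] (F : X → ℍ → ℂ)

/-- The Laurent expansion of the `k`-th elementary symmetric function of the dilated family. -/
theorem chiS_hasLaurent_esymm (N : ℕ) (S : X → LaurentSeries ℂ)
    (hS : ∀ x, anA_HasLaurent (S x) (fun z => F x (tr_pt N z))) (k : ℕ) :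
    anA_HasLaurent (∑ t ∈ Finset.powersetCard k (Finset.univ : Finset X), ∏ x ∈ t, S x)
      (fun z => anD_esymm F k (tr_pt N z)) := by
  have h1 := anA_HasLaurent.sum (Finset.powersetCard k (Finset.univ : Finset X))
    (σ := fun t => ∏ x ∈ t, S x) (F := fun t => fun z => ∏ x ∈ t, F x (tr_pt N z))
    (fun t _ => twL_hasLaurent_prod t fun x _ => hS x)
  have e : (fun z => anD_esymm F k (tr_pt N z)) =
      ∑ t ∈ Finset.powersetCard k (Finset.univ : Finset X),
        fun z => ∏ x ∈ t, F x (tr_pt N z) := by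
    funext z
    rw [Finset.sum_apply]
    rfl
  rw [e]
  exact h1

/-- **[CHI-SER], part 1.** `(P k)(j(q^N)) = e_k(S)`. -/
theorem chiS_esymm_series (N : ℕ) [NeZero N] (P : ℕ → ℂ[X]) (S : X → LaurentSeries ℂ)
    (hS : ∀ x, anA_HasLaurent (S x) (fun z => F x (tr_pt N z)))
    (hP : ∀ k (z : ℍ), anD_esymm F k z = (P k).eval (E₄ z ^ 3 / Δ z)) (k : ℕ) :
    Polynomial.aeval (qExpand ℂ N (jqModC ℂ)) (P k) =
      ∑ t ∈ Finset.powersetCard k (Finset.univ : Finset X), ∏ x ∈ t, S x := by
  have h1 := chiS_hasLaurent_esymm F N S hS k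
  have h2 := chiS_hasLaurent_aeval (chiS_hasLaurent_j_diag N) (P k)
  have e : (fun z : ℍ => (P k).eval (E₄ (tr_pt N z) ^ 3 / Δ (tr_pt N z))) =
      fun z => anD_esymm F k (tr_pt N z) := by
    funext z
    rw [hP]
  rw [e] at h2
  exact h2.unique_series h1

/-- The same for the undilated family (`N = 1`), with expansions in `q` itself. -/
theorem chiS_esymm_series_one (P : ℕ → ℂ[X]) (S : X → LaurentSeries ℂ)
    (hS : ∀ x, anA_HasLaurent (S x) (F x))
    (hP : ∀ k (z : ℍ), anD_esymm F k z = (P k).eval (E₄ z ^ 3 / Δ z)) (k : ℕ) :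
    Polynomial.aeval (jqModC ℂ) (P k) =
      ∑ t ∈ Finset.powersetCard k (Finset.univ : Finset X), ∏ x ∈ t, S x := by
  have h := chiS_esymm_series F 1 P S (fun x => by
    have e : (fun z => F x (tr_pt 1 z)) = F x := by
      funext z
      rw [tr_pt_one]
    rw [e]
    exact hS x) hP k
  rwa [ModularCurve.qExpand_one_apply] at h

end Family

/-! ### The root identity -/

/-- **[CHI-SER], part 2.** If `∑ₖ (-1)^k (P k)(j z) (g z)^(n-k) = 0` for all `z` and `g` has the
Laurent expansion `g̃`, then `∑ₖ (-1)^k (P k)(j(q)) g̃^(n-k) = 0` in `ℂ((q))`. -/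
theorem chiS_root (P : ℕ → ℂ[X]) (g : ℍ → ℂ) (gs : LaurentSeries ℂ)
    (hg : anA_HasLaurent gs g) (n : ℕ)
    (hroot : ∀ z : ℍ, ∑ k ∈ Finset.range (n + 1),
      (-1) ^ k * ((P k).eval (E₄ z ^ 3 / Δ z) * g z ^ (n - k)) = 0) :
    ∑ k ∈ Finset.range (n + 1),
      (-1) ^ k * (Polynomial.aeval (jqModC ℂ) (P k) * gs ^ (n - k)) = 0 := by
  have h1 := anA_HasLaurent.sum (Finset.range (n + 1))
    (σ := fun k => (-1) ^ k * (Polynomial.aeval (jqModC ℂ) (P k) * gs ^ (n - k)))
    (F := fun k => fun z => (-1) ^ k * ((P k).eval (E₄ z ^ 3 / Δ z) * g z ^ (n - k)))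
    (fun k _ => by
      have h2 := (chiS_hasLaurent_aeval chiS_hasLaurent_j (P k)).mul
        (twL_hasLaurent_pow hg (n - k))
      have h3 := (anA_HasLaurent.const ((-1 : ℂ) ^ k)).mul h2
      have e1 : HahnSeries.C ((-1 : ℂ) ^ k) = (-1 : LaurentSeries ℂ) ^ k := by
        rw [map_pow, map_neg, map_one]
      rw [e1] at h3
      exact h3)
  have e : (∑ k ∈ Finset.range (n + 1),
      fun z => (-1) ^ k * ((P k).eval (E₄ z ^ 3 / Δ z) * g z ^ (n - k))) = (0 : ℍ → ℂ) := by
    funext z
    rw [Finset.sum_apply]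
    exact hroot z
  rw [e] at h1
  exact h1.series_eq_zero

/-- The root identity in the shape `(χ.map (aeval j)).eval g̃ = 0` for the two-variable
polynomial `χ = ∑ₖ C ((-1)^k P k) X^(n-k)`. -/
theorem chiS_root_eval (P : ℕ → ℂ[X]) (g : ℍ → ℂ) (gs : LaurentSeries ℂ)
    (hg : anA_HasLaurent gs g) (n : ℕ)
    (hroot : ∀ z : ℍ, ∑ k ∈ Finset.range (n + 1),
      (-1) ^ k * ((P k).eval (E₄ z ^ 3 / Δ z) * g z ^ (n - k)) = 0) :
    ((∑ k ∈ Finset.range (n + 1),
        Polynomial.C ((-1) ^ k * P k) * (Polynomial.X : ℂ[X][X]) ^ (n - k)).map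
      (Polynomial.aeval (jqModC ℂ) : ℂ[X] →ₐ[ℂ] LaurentSeries ℂ).toRingHom).eval gs = 0 := by
  rw [Polynomial.map_sum, Polynomial.eval_finsetSum]
  rw [← chiS_root P g gs hg n hroot]
  refine Finset.sum_congr rfl fun k _ => ?_
  rw [Polynomial.map_mul, Polynomial.map_pow, Polynomial.map_X, Polynomial.map_C,
    Polynomial.eval_mul, Polynomial.eval_pow, Polynomial.eval_X, Polynomial.eval_C]
  simp only [AlgHom.toRingHom_eq_coe, RingHom.coe_coe, map_mul, map_pow, map_neg, map_one]
  ring

end Fermat.Agent.S28
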