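import Mathlib
import Fermat.Prelude.Def_ModularCurve_X0ModL
import Fermat.Agent.S24.BridgeLaurent
import Fermat.Agent.S24.CharPoly
import Fermat.Agent.S28.TrDefs
import Fermat.Agent.S28.TwistLaurent
import Fermat.Agent.S28.ChiSer

/-!
# S28, [CHI] hedge, SLICE A: the Laurent-series identities of the characteristic polynomial

The statements are the interface fixed by the hedge integrator (names, binders, order); the
proofs are the `chiS_` lemmas of `S28/ChiSer.lean`.
-/

set_option autoImplicit false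

noncomputable section

namespace Fermat.Agent.S28

open UpperHalfPlane Polynomial Fermat.Agent.S22 Fermat.Agent.S24 ModularForm EisensteinSeries
open scoped MatrixGroups Manifold

local notation "Δ" => ModularForm.discriminant

theorem chiHs_hasLaurent_eval {J : LaurentSeries ℂ} {jf : ℍ → ℂ} (hJ : anA_HasLaurent J jf)
    (P : ℂ[X]) : anA_HasLaurent (aeval J P) (fun z => P.eval (jf z)) :=
  chiS_hasLaurent_aeval hJ P

theorem chiHs_hasLaurent_esymm {X : Type} [Fintype X] (S : X → LaurentSeries ℂ)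
    (G : X → ℍ → ℂ) (h : ∀ x, anA_HasLaurent (S x) (G x)) (k : ℕ) :
    anA_HasLaurent (∑ t ∈ Finset.powersetCard k (Finset.univ : Finset X), ∏ x ∈ t, S x)
      (fun z => ∑ t ∈ Finset.powersetCard k (Finset.univ : Finset X), ∏ x ∈ t, G x z) := by
  have h1 := anA_HasLaurent.sum (Finset.powersetCard k (Finset.univ : Finset X))
    (σ := fun t => ∏ x ∈ t, S x) (F := fun t => fun z => ∏ x ∈ t, G x z)
    (fun t _ => twL_hasLaurent_prod t fun x _ => h x)
  have e : (fun z => ∑ t ∈ Finset.powersetCard k (Finset.univ : Finset X), ∏ x ∈ t, G x z) =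
      ∑ t ∈ Finset.powersetCard k (Finset.univ : Finset X), fun z => ∏ x ∈ t, G x z := by
    funext z
    rw [Finset.sum_apply]
  rw [e]
  exact h1

theorem chiHs_hasLaurent_j :
    anA_HasLaurent (ModularCurve.jqModC ℂ) (fun z : ℍ => E₄ z ^ 3 / Δ z) :=
  chiS_hasLaurent_j

theorem chiHs_hasLaurent_jN (N : ℕ) [NeZero N] :
    anA_HasLaurent (ModularCurve.qExpand ℂ N (ModularCurve.jqModC ℂ))
      (fun z : ℍ => E₄ (tr_pt N z) ^ 3 / Δ (tr_pt N z)) :=
  chiS_hasLaurent_j_diag N

theorem chiHs_aeval_eq_esymm {X : Type} [Fintype X] (N : ℕ) [NeZero N] (F : X → ℍ → ℂ)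
    (S : X → LaurentSeries ℂ)
    (hS : ∀ x, anA_HasLaurent (S x) (fun z => F x (tr_pt N z))) (P : ℂ[X]) (k : ℕ)
    (hP : ∀ z : ℍ, anD_esymm F k z = P.eval (E₄ z ^ 3 / Δ z)) :
    aeval (ModularCurve.qExpand ℂ N (ModularCurve.jqModC ℂ)) P =
      ∑ t ∈ Finset.powersetCard k (Finset.univ : Finset X), ∏ x ∈ t, S x := by
  have h1 := chiS_hasLaurent_esymm F N S hS k
  have h2 := chiS_hasLaurent_aeval (chiS_hasLaurent_j_diag N) P
  have e : (fun z : ℍ => P.eval (E₄ (tr_pt N z) ^ 3 / Δ (tr_pt N z))) =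
      fun z => anD_esymm F k (tr_pt N z) := by
    funext z
    rw [hP]
  rw [e] at h2
  exact h2.unique_series h1

theorem chiHs_root {X : Type} [Fintype X] (F : X → ℍ → ℂ) (x₀ : X) (g : LaurentSeries ℂ)
    (hg : anA_HasLaurent g (F x₀)) (P : ℕ → ℂ[X])
    (hroot : ∀ z : ℍ, ∑ k ∈ Finset.range (Fintype.card X + 1),
      (-1) ^ k * ((P k).eval (E₄ z ^ 3 / Δ z) * F x₀ z ^ (Fintype.card X - k)) = 0) :
    ∑ k ∈ Finset.range (Fintype.card X + 1),
      (-1) ^ k * (aeval (ModularCurve.jqModC ℂ) (P k) * g ^ (Fintype.card X - k)) = 0 :=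
  chiS_root P (F x₀) g hg (Fintype.card X) hroot

end Fermat.Agent.S28
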