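import Mathlib
import Fermat.Agent.S28.IrredCrit

/-!
# S28 [CHI], part 2: from the irreducibility criterion (K1) to linear independence

`s28c_indep`: let `χ ∈ k[j][X]` be monic and satisfy the hypotheses of (K1), let `φ : k[j] → L`
be an injective ring homomorphism into a field and `g ∈ L` a root of `χ`.  Then no nonzero
`Q ∈ k[j][X]` of `X`-degree `< deg χ` vanishes at `g`; in other words `1, g, …, g^(n-1)` are
linearly independent over `k[j]`.
-/

set_option autoImplicit false

open Polynomial

noncomputable section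

namespace Fermat.Agent.S28

theorem s28c_indep {k L : Type*} [Field k] [Field L] (φ : k[X] →+* L)
    (hφ : Function.Injective φ) (χ : k[X][X]) (hmonic : χ.Monic) {c : k} (hc : c ≠ 0)
    (h0 : χ.coeff 0 = C c)
    (hdeg : ∀ i, i ≠ 1 → (χ.coeff i).natDegree < (χ.coeff 1).natDegree)
    (g : L) (hroot : (χ.map φ).eval g = 0)
    (Q : k[X][X]) (hQ : Q ≠ 0) (hdegQ : Q.natDegree < χ.natDegree) :
    (Q.map φ).eval g ≠ 0 := by
  intro hQ0
  let K := FractionRing k[X]
  let ψ : K →+* L := IsFractionRing.lift hφ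
  letI : Algebra K L := ψ.toAlgebra
  have hcomp : ∀ p : k[X][X],
      Polynomial.aeval g (p.map (algebraMap k[X] K)) = (p.map φ).eval g := by
    intro p
    rw [Polynomial.aeval_def, Polynomial.eval₂_map, Polynomial.eval_map]
    congr 1
    ext x
    · show ψ (algebraMap k[X] K (C x)) = φ (C x)
      exact IsFractionRing.lift_algebraMap hφ _
    · show ψ (algebraMap k[X] K X) = φ X
      exact IsFractionRing.lift_algebraMap hφ _
  have h1 : (minpoly K g).natDegree = χ.natDegree :=
    s28k_natDegree_minpoly χ hmonic hc h0 hdeg K g (by rw [hcomp, hroot])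
  have h2 : minpoly K g ∣ Q.map (algebraMap k[X] K) :=
    minpoly.dvd K g (by rw [hcomp, hQ0])
  have h3 : Q.map (algebraMap k[X] K) ≠ 0 := by
    rw [Ne, Polynomial.map_eq_zero_iff (IsFractionRing.injective k[X] K)]
    exact hQ
  have h4 := Polynomial.natDegree_le_of_dvd h2 h3
  have h5 := Polynomial.natDegree_map_le (f := algebraMap k[X] K) (p := Q)
  omega

/-- Uniqueness of the monic relation of degree `deg χ`. -/
theorem s28c_unique {k L : Type*} [Field k] [Field L] (φ : k[X] →+* L)
    (hφ : Function.Injective φ) (χ : k[X][X]) (hmonic : χ.Monic) {c : k} (hc : c ≠ 0)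
    (h0 : χ.coeff 0 = C c)
    (hdeg : ∀ i, i ≠ 1 → (χ.coeff i).natDegree < (χ.coeff 1).natDegree)
    (g : L) (hroot : (χ.map φ).eval g = 0)
    (χ' : k[X][X]) (hmonic' : χ'.Monic) (hn : χ'.natDegree = χ.natDegree)
    (hroot' : (χ'.map φ).eval g = 0) : χ' = χ := by
  by_contra hne
  have hQ : χ' - χ ≠ 0 := sub_ne_zero.2 hne
  have hχ1 : 0 < χ.natDegree := by
    by_contra h
    rw [not_lt, Nat.le_zero] at h
    have h1 := hdeg 0 (by norm_num)
    have h2 : χ.coeff 1 = 0 := Polynomial.coeff_eq_zero_of_natDegree_lt (by omega)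
    rw [h2, Polynomial.natDegree_zero] at h1
    exact Nat.not_lt_zero _ h1
  have hd : (χ' - χ).natDegree < χ.natDegree := by
    have hdeg' : χ'.degree = χ.degree := by
      rw [Polynomial.degree_eq_natDegree hmonic'.ne_zero,
        Polynomial.degree_eq_natDegree hmonic.ne_zero, hn]
    have h1 := Polynomial.degree_sub_lt hdeg' hmonic'.ne_zero
      (by rw [hmonic'.leadingCoeff, hmonic.leadingCoeff])
    rw [hdeg'] at h1
    exact (Polynomial.natDegree_lt_iff_degree_lt hQ).2
      (by rwa [Polynomial.degree_eq_natDegree hmonic.ne_zero] at h1)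
  refine s28c_indep φ hφ χ hmonic hc h0 hdeg g hroot (χ' - χ) hQ hd ?_
  rw [Polynomial.map_sub, Polynomial.eval_sub, hroot', hroot, sub_zero]

end Fermat.Agent.S28

end
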