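import Mathlib
import Fermat.Agent.S28.TrDefs

/-!
# S28, package [RES-FIELD]: a residue field of characteristic `ℓ` of `tr_R N`

`tr_R N` is the ring of complex numbers integral over `ℤ[1/N]`.  For a prime `ℓ ∤ N` the
number `ℓ` is not a unit of `tr_R N`, so there is a maximal ideal containing it; the quotient
is a field of characteristic `ℓ`.

* `resF_natCast_not_isUnit` : `ℓ` is not a unit of `tr_R N`;
* `resF_exists` : a surjective ring hom from `tr_R N` onto a field `k' : Type` of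
  characteristic `ℓ`;
* `resF_map_ne_zero` : ring homs to a field do not kill elements `u` with `u, u⁻¹ ∈ tr_R N`;
* bookkeeping: every ring hom `tr_R N →+* k'` restricts to the integer cast, factors the
  integer cast through `ZMod ℓ`, and `ZMod ℓ → k'` is injective.
-/

set_option autoImplicit false

noncomputable section

namespace Fermat.Agent.S28

/-- A rational number which is an algebraic integer in `ℂ` is an integer. -/
theorem resF_exists_int_of_isIntegral_ratCast {r : ℚ} (h : IsIntegral ℤ ((r : ℚ) : ℂ)) :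
    ∃ m : ℤ, (m : ℚ) = r := by
  have h1 : IsIntegral ℤ (algebraMap ℚ ℂ r) := by simpa using h
  have h2 : IsIntegral ℤ r := (isIntegral_algebraMap_iff (algebraMap ℚ ℂ).injective).mp h1
  obtain ⟨m, hm⟩ := IsIntegrallyClosed.isIntegral_iff.mp h2
  exact ⟨m, by simpa using hm⟩

/-- If `ℓ` is prime and `ℓ ∤ N`, then `1 / ℓ` is not integral over `ℤ[1/N]`. -/
theorem resF_inv_not_mem (N ℓ : ℕ) (hℓ : ℓ.Prime) (hℓN : ¬ ℓ ∣ N) :
    ((ℓ : ℂ))⁻¹ ∉ tr_R N := by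
  rintro ⟨k, hk⟩
  have hℓ0 : (ℓ : ℚ) ≠ 0 := Nat.cast_ne_zero.mpr hℓ.ne_zero
  have hcast : (((N : ℚ) ^ k / (ℓ : ℚ) : ℚ) : ℂ) = (N : ℂ) ^ k * ((ℓ : ℂ))⁻¹ := by
    push_cast
    rw [div_eq_mul_inv]
  rw [← hcast] at hk
  obtain ⟨m, hm⟩ := resF_exists_int_of_isIntegral_ratCast hk
  have h1 : (m : ℚ) * (ℓ : ℚ) = (N : ℚ) ^ k := by
    rw [hm]
    field_simp
  have h2 : m * (ℓ : ℤ) = (N : ℤ) ^ k := by
    exact_mod_cast h1
  have h3 : (ℓ : ℤ) ∣ (N : ℤ) ^ k := ⟨m, by rw [← h2]; ring⟩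
  have h4 : ℓ ∣ N ^ k := by exact_mod_cast h3
  exact hℓN (hℓ.dvd_of_dvd_pow h4)

/-- If `ℓ` is prime and `ℓ ∤ N`, then `ℓ` is not a unit of `tr_R N`. -/
theorem resF_natCast_not_isUnit (N ℓ : ℕ) (hℓ : ℓ.Prime) (hℓN : ¬ ℓ ∣ N) :
    ¬ IsUnit ((ℓ : ℕ) : tr_R N) := by
  rintro ⟨u, hu⟩
  have h1 : ((u⁻¹ : (tr_R N)ˣ) : tr_R N) * ((ℓ : ℕ) : tr_R N) = 1 := by
    rw [← hu]
    simp
  have h2 : (((u⁻¹ : (tr_R N)ˣ) : tr_R N) : ℂ) * (ℓ : ℂ) = 1 := by
    have := congrArg (Subring.subtype (tr_R N)) h1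
    simpa using this
  have hx : (((u⁻¹ : (tr_R N)ˣ) : tr_R N) : ℂ) = ((ℓ : ℂ))⁻¹ := eq_inv_of_mul_eq_one_left h2
  exact resF_inv_not_mem N ℓ hℓ hℓN (hx ▸ ((u⁻¹ : (tr_R N)ˣ) : tr_R N).2)

/-- **[RES-FIELD]** For a prime `ℓ ∤ N` there is a field `k'` of characteristic `ℓ` (in
`Type`) and a surjective ring homomorphism `tr_R N →+* k'`. -/
theorem resF_exists (N ℓ : ℕ) [hℓ : Fact ℓ.Prime] (hℓN : ¬ ℓ ∣ N) :
    ∃ (k' : Type) (_ : Field k') (_ : CharP k' ℓ) (φ : tr_R N →+* k'),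
      Function.Surjective φ := by
  have hne : Ideal.span {((ℓ : ℕ) : tr_R N)} ≠ ⊤ := by
    rw [Ne, Ideal.span_singleton_eq_top]
    exact resF_natCast_not_isUnit N ℓ hℓ.out hℓN
  obtain ⟨M, hM, hle⟩ := Ideal.exists_le_maximal _ hne
  letI : Field (tr_R N ⧸ M) := Ideal.Quotient.field M
  have hzero : ((ℓ : ℕ) : tr_R N ⧸ M) = 0 := by
    have hmem : ((ℓ : ℕ) : tr_R N) ∈ M := hle (Ideal.subset_span (Set.mem_singleton _))
    have := Ideal.Quotient.eq_zero_iff_mem.mpr hmem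
    simpa using this
  exact ⟨tr_R N ⧸ M, inferInstance, (CharP.charP_iff_prime_eq_zero hℓ.out).mpr hzero,
    Ideal.Quotient.mk M, Ideal.Quotient.mk_surjective⟩

/-- A ring hom from `tr_R N` to a nontrivial ring does not kill `u` if `u, u⁻¹ ∈ tr_R N`. -/
theorem resF_map_ne_zero {N : ℕ} {k' : Type*} [Semiring k'] [Nontrivial k']
    (φ : tr_R N →+* k') {u : ℂ} (hu : u ∈ tr_R N) (hu' : u⁻¹ ∈ tr_R N) (h0 : u ≠ 0) :
    φ ⟨u, hu⟩ ≠ 0 := by
  intro h
  have h1 : (⟨u, hu⟩ : tr_R N) * ⟨u⁻¹, hu'⟩ = 1 := by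
    apply Subtype.ext
    simp [h0]
  have h2 := congrArg φ h1
  rw [map_mul, h, zero_mul, map_one] at h2
  exact zero_ne_one h2

/-- Elements `u` with `u, u⁻¹ ∈ tr_R N` are units of `tr_R N`. -/
theorem resF_isUnit {N : ℕ} {u : ℂ} (hu : u ∈ tr_R N) (hu' : u⁻¹ ∈ tr_R N) (h0 : u ≠ 0) :
    IsUnit (⟨u, hu⟩ : tr_R N) := by
  refine IsUnit.of_mul_eq_one (⟨u⁻¹, hu'⟩ : tr_R N) ?_
  apply Subtype.ext
  simp [h0]

/-- Integers lie in `tr_R N`. -/
theorem resF_intCast_mem (N : ℕ) (m : ℤ) : (m : ℂ) ∈ tr_R N :=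
  tr_R_of_isIntegral N (isIntegral_algebraMap (R := ℤ) (A := ℂ) (x := m))

/-- Every ring hom out of `tr_R N` is the integer cast on integers. -/
theorem resF_map_intCast {N : ℕ} {k' : Type*} [Ring k'] (φ : tr_R N →+* k') (m : ℤ) :
    φ ⟨(m : ℂ), resF_intCast_mem N m⟩ = (m : k') := by
  have h : (⟨(m : ℂ), resF_intCast_mem N m⟩ : tr_R N) = ((m : ℤ) : tr_R N) := by
    apply Subtype.ext
    simp
  rw [h, map_intCast]

/-- The inclusion `tr_R N → ℂ` composed with the integer cast. -/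
theorem resF_subtype_comp_intCast (N : ℕ) :
    (Subring.subtype (tr_R N)).comp (Int.castRingHom (tr_R N)) = Int.castRingHom ℂ :=
  RingHom.ext_int _ _

/-- A ring hom `tr_R N → k'` composed with the integer cast. -/
theorem resF_comp_intCast {N : ℕ} {k' : Type*} [Ring k'] (φ : tr_R N →+* k') :
    φ.comp (Int.castRingHom (tr_R N)) = Int.castRingHom k' :=
  RingHom.ext_int _ _

/-- In characteristic `ℓ` the integer cast factors through `ZMod ℓ`. -/
theorem resF_castHom_comp_intCast (ℓ : ℕ) (k' : Type*) [Ring k'] [CharP k' ℓ] :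
    (ZMod.castHom (dvd_refl ℓ) k').comp (Int.castRingHom (ZMod ℓ)) = Int.castRingHom k' :=
  RingHom.ext_int _ _

/-- `ZMod ℓ → k'` is injective for a field `k'` of characteristic `ℓ`. -/
theorem resF_castHom_injective (ℓ : ℕ) [Fact ℓ.Prime] (k' : Type*) [Field k'] [CharP k' ℓ] :
    Function.Injective (ZMod.castHom (dvd_refl ℓ) k') :=
  (ZMod.castHom (dvd_refl ℓ) k').injective

end Fermat.Agent.S28
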