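import Mathlib
import Fermat.Agent.S24.CombIndex
import Fermat.Agent.S28.ChiAbs
import Fermat.Agent.S28.TrGN
import Fermat.Agent.S28.EsymChi
import Fermat.Agent.S28.ResField
import Fermat.Agent.S28.KeyOne

/-!
# S28 [CHI], part 4: KEY

`s28c_key : s28_KeyStatement`: for `ℓ ∤ N` the powers `1, ḡ, …, ḡ^(n-1)` of the reduction mod `ℓ`
of the modular unit `g_N` are linearly independent over `𝔽_ℓ[j̄]`, `n = [SL₂(ℤ) : Γ₀(N)]`.

The characteristic polynomial of `g_N` over `ℂ[j]` comes from `s28c_chi_abs` applied to the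
family of translates of `g_N` (`TrGN.lean`); it has coefficients in `tr_R N`, the shape of the
irreducibility criterion (K1) and the root `(j, g_N)`; then `keyOne_keyAt_of_keyR` with a residue
field of `tr_R N` above `ℓ` (`resF_exists`).
-/

set_option autoImplicit false

open UpperHalfPlane ModularForm Polynomial ModularCurve
open scoped MatrixGroups Manifold

noncomputable section

namespace Fermat.Agent.S28

open Fermat.Agent.S24

/-- KEY from the coefficients `P k` of a characteristic polynomial in (K1) shape. -/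
theorem s28c_keyAt_of_P (N ℓ : ℕ) [NeZero N] [Fact ℓ.Prime] (hℓN : ¬ ℓ ∣ N) (n : ℕ)
    (hn : 2 ≤ n) (P : ℕ → ℂ[X]) (hP0 : P 0 = 1) (hPR : ∀ k i, (P k).coeff i ∈ tr_R N)
    (hPn : ∃ c₀ : ℂ, c₀ ≠ 0 ∧ c₀⁻¹ ∈ tr_R N ∧ P n = C c₀)
    (hdeg : ∀ k, k ≠ n - 1 → (P k).natDegree < (P (n - 1)).natDegree)
    (hlc : ((P (n - 1)).leadingCoeff)⁻¹ ∈ tr_R N)
    (g : LaurentSeries ℤ)
    (hmem : coeffMap (Int.castRingHom ℚ) g ∈ modularFunctionFieldFull N)
    (hroot : ∑ k ∈ Finset.range (n + 1),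
      (-1) ^ k * (Polynomial.aeval (jqModC ℂ) (P k) *
        (coeffMap (Int.castRingHom ℂ) g) ^ (n - k)) = 0) :
    s28_KeyAt N ℓ n := by
  obtain ⟨k', hk'F, hk'C, φ, -⟩ := resF_exists N ℓ hℓN
  obtain ⟨c₀, hc₀, hc₀inv, hPn⟩ := hPn
  have hsign : ∀ m : ℕ, ((-1 : ℂ) ^ m) ∈ tr_R N := fun m =>
    Subring.pow_mem _ (Subring.neg_mem _ (Subring.one_mem _)) m
  have hsignP : ∀ (m : ℕ) (Q : ℂ[X]), (-1 : ℂ[X]) ^ m * Q = C ((-1 : ℂ) ^ m) * Q := by
    intro m Q
    rw [map_pow, map_neg, map_one]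
  have hmon := esymO_chi_monic n P hP0
  have hnat := esymO_chi_natDegree n P hP0
  have hcoef : ∀ i j, ((esymO_chi n P).coeff i).coeff j ∈ tr_R N := by
    intro i j
    rw [esymO_chi_coeff]
    split_ifs
    · rw [hsignP, Polynomial.coeff_C_mul]
      exact Subring.mul_mem _ (hsign _) (hPR _ _)
    · rw [Polynomial.coeff_zero]
      exact Subring.zero_mem _
  have hc₀R : c₀ ∈ tr_R N := by
    have := hPR n 0
    rwa [hPn, Polynomial.coeff_C_zero] at this
  have h0 : (esymO_chi n P).coeff 0 = C ((-1) ^ n * c₀) := by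
    rw [esymO_chi_coeff_of_le n P (Nat.zero_le n), Nat.sub_zero, hPn, hsignP, ← map_mul]
  have hcR : (-1) ^ n * c₀ ∈ tr_R N := Subring.mul_mem _ (hsign n) hc₀R
  have hcinv : ((-1) ^ n * c₀)⁻¹ ∈ tr_R N := by
    rw [mul_inv, ← inv_pow, inv_neg, inv_one]
    exact Subring.mul_mem _ (hsign n) hc₀inv
  have hcne : (-1) ^ n * c₀ ≠ 0 := mul_ne_zero (pow_ne_zero _ (by norm_num)) hc₀
  have hc1 : (esymO_chi n P).coeff 1 = (-1) ^ (n - 1) * P (n - 1) :=
    esymO_chi_coeff_of_le n P (by omega)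
  have hpos : 0 < (P (n - 1)).natDegree :=
    lt_of_le_of_lt (Nat.zero_le _) (hdeg 0 (by omega))
  have hP1ne : P (n - 1) ≠ 0 := by
    intro h
    rw [h, Polynomial.natDegree_zero] at hpos
    exact lt_irrefl _ hpos
  have hdeg' : ∀ i, i ≠ 1 →
      ((esymO_chi n P).coeff i).natDegree < ((esymO_chi n P).coeff 1).natDegree := by
    intro i hi
    rw [hc1, esymO_natDegree_neg_one_pow_mul, esymO_chi_coeff]
    split_ifs with hin
    · rw [esymO_natDegree_neg_one_pow_mul]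
      exact hdeg _ (by omega)
    · rw [Polynomial.natDegree_zero]
      exact hpos
  have hlcoeff : ((esymO_chi n P).coeff 1).leadingCoeff =
      (-1) ^ (n - 1) * (P (n - 1)).leadingCoeff := by
    rw [hc1, esymO_leadingCoeff_neg_one_pow_mul]
  have hlR : ((esymO_chi n P).coeff 1).leadingCoeff⁻¹ ∈ tr_R N := by
    rw [hlcoeff, mul_inv, ← inv_pow, inv_neg, inv_one]
    exact Subring.mul_mem _ (hsign _) hlc
  have hlne : ((esymO_chi n P).coeff 1).leadingCoeff ≠ 0 := by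
    rw [hlcoeff]
    exact mul_ne_zero (pow_ne_zero _ (by norm_num)) (Polynomial.leadingCoeff_ne_zero.2 hP1ne)
  have hroot' : ((esymO_chi n P).map
      (Polynomial.aeval (jqModC ℂ) : ℂ[X] →ₐ[ℂ] LaurentSeries ℂ).toRingHom).eval
      (coeffMap (Int.castRingHom ℂ) g) = 0 := by
    rw [esymO_chi_eval, ← hroot,
      ← Finset.sum_flip (f := fun k => (-1 : LaurentSeries ℂ) ^ k *
        (Polynomial.aeval (jqModC ℂ) (P k) * (coeffMap (Int.castRingHom ℂ) g) ^ (n - k)))]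
    refine Finset.sum_congr rfl fun i hi => ?_
    have hin : i ≤ n := Nat.lt_succ_iff.1 (Finset.mem_range.1 hi)
    rw [Nat.sub_sub_self hin, mul_assoc]
  exact keyOne_keyAt_of_keyR N ℓ (tr_R N) φ (esymO_chi n P) hmon hcoef hcR
    (resF_map_ne_zero φ hcR hcinv hcne) h0 hdeg'
    (resF_map_ne_zero φ (hcoef 1 _) hlR hlne) g hmem hroot' n (le_of_eq hnat.symm)

/-- For `N ≥ 2` there is a coset of `Γ₀(N)` different from the identity coset. -/
theorem s28c_exists_ne (N : ℕ) (hN : 2 ≤ N) :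
    ∃ x : XN N, x ≠ (QuotientGroup.mk 1 : XN N) := by
  refine ⟨QuotientGroup.mk ModularGroup.S, fun h => ?_⟩
  rw [QuotientGroup.eq, mul_one, inv_mem_iff, tr_mem_Gamma0_iff] at h
  have h1 : (ModularGroup.S : SL(2, ℤ)) 1 0 = 1 := by
    simp [ModularGroup.S]
  rw [h1] at h
  have h2 : (N : ℤ) ≤ 1 := Int.le_of_dvd one_pos h
  omega

/-- **KEY.** -/
theorem s28c_key : s28_KeyStatement := by
  refine keyOne_key_of_two_le fun N ℓ _ _ hN hℓN => ?_
  classical
  haveI : Finite (XN N) := Comb.comb_cosetFinite N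
  letI : Fintype (XN N) := Fintype.ofFinite (XN N)
  have hcard : Nat.card (SL(2, ℤ) ⧸ CongruenceSubgroup.Gamma0 N) = Fintype.card (XN N) :=
    Nat.card_eq_fintype_card
  rw [hcard]
  have hX := s28c_exists_ne N hN
  have hcard2 : 2 ≤ Fintype.card (XN N) := by
    obtain ⟨x, hx⟩ := hX
    exact Fintype.one_lt_card_iff.2 ⟨x, _, hx⟩
  have hN0 : 0 < N := Nat.pos_of_ne_zero (NeZero.ne N)
  obtain ⟨P, h1, h2, h3, h4, h5, h6⟩ := s28c_chi_abs N (QuotientGroup.mk 1 : XN N) hX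
    (anB_tr N (tr_gN N)) (tr_gN_tr_mdiff N)
    (fun x => anB_tr_growth (tr_gN_isModFun N) x) (tr_gN_tr_perm N)
    (coeffMap (Int.castRingHom ℂ) (tr_g0 N)) (tr_g0_hasLaurent_tr N) (tr_R N) (tr_kX N)
    (tr_kX_sum N)
    (fun x hx => by
      rw [tr_kX_of_ne N hx, neg_lt_zero]
      exact_mod_cast Nat.mul_pos (Nat.totient_pos.2 hN0) hN0)
    (fun x => tr_gN_tr_UL N x)
  exact s28c_keyAt_of_P N ℓ hℓN _ hcard2 P h1 h2 h3 h4 h5 (tr_g0 N) (tr_g0_mem N) h6

end Fermat.Agent.S28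

end
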