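/-
S28 (DEG-Q, part 4): the exact degree `[ℚ(X₀(N)) : ℚ(j)] = [SL(2,ℤ) : Γ₀(N)]`.
* `degQ_card_le_natDegree` : a nonzero `P ∈ Q̄[X][Y]` with `P(j, j_N) = 0` has `Y`-degree at
  least the index (the content of the S24 degree lower bound);
* `degQ_le_finrank`, `degQ_finrank_eq`.
Owner: helper22.
-/
import Fermat.Agent.S28.DegQ

set_option autoImplicit false

noncomputable section

namespace Fermat.Agent.S28

open Polynomial ModularCurve IntermediateField Fermat.Agent.S24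
open scoped MatrixGroups

/-- A nonzero polynomial relation `P(j, j_N) = 0` over `Q̄` has `Y`-degree at least
`[SL(2,ℤ) : Γ₀(N)]`. -/
theorem degQ_card_le_natDegree (N : ℕ) [NeZero N] (P : QBar[X][X]) (hP0 : P ≠ 0)
    (hPv : P.eval₂ (Polynomial.aeval (jF N) : QBar[X] →ₐ[QBar] FunField N).toRingHom
      (jDiv N N dvd_rfl) = 0) :
    Nat.card (SL(2, ℤ) ⧸ CongruenceSubgroup.Gamma0 N) ≤ P.natDegree := by
  obtain ⟨Θ₀, ρ, hΘ⟩ := bridge N
  have hinj : Function.Injective (Polynomial.mapRingHom iota) :=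
    Polynomial.map_injective _ iota.injective
  have hP'0 : P.map (Polynomial.mapRingHom iota) ≠ 0 :=
    (Polynomial.map_ne_zero_iff hinj).mpr hP0
  refine le_trans (anG_card_le_natDegree N _ hP'0 ?_) Polynomial.natDegree_map_le
  intro z
  rw [← anG_bridge_evalA hΘ P z]
  have h0 : anG_evalA N P = 0 := by
    apply Subtype.ext
    rw [anG_coe_evalA, hPv]
    rfl
  rw [h0, map_zero]
  rfl

/-- `j(q^N)` as an element of `ℚ(X₀(N))`. -/
def degQ_jN (N : ℕ) [NeZero N] : ↥(modularFunctionFieldFull N) :=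
  ⟨qExpand ℚ N jq, jqd_mem_full N dvd_rfl⟩

theorem degQ_toBar_jN (N : ℕ) [NeZero N] : degQ_toBar N (degQ_jN N) = jDiv N N dvd_rfl := rfl

theorem degQ_toBar_algebraMap (N : ℕ) (c : ℚ) :
    degQ_toBar N (algebraMap ℚ ↥(modularFunctionFieldFull N) c)
      = algebraMap QBar (FunField N) (algebraMap ℚ QBar c) := by
  have h1 : (degQ_toBar N).comp (algebraMap ℚ ↥(modularFunctionFieldFull N))
      = (algebraMap QBar (FunField N)).comp (algebraMap ℚ QBar) := Subsingleton.elim _ _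
  exact congrArg (fun f : ℚ →+* FunField N => f c) h1

theorem degQ_toBar_comp_aeval (N : ℕ) [NeZero N] :
    (degQ_toBar N).comp
        (Polynomial.aeval (IgusaScheme.jFull N) : ℚ[X] →ₐ[ℚ] ↥(modularFunctionFieldFull N)).toRingHom
      = ((Polynomial.aeval (jF N) : QBar[X] →ₐ[QBar] FunField N).toRingHom).comp
          (Polynomial.mapRingHom (algebraMap ℚ QBar)) := by
  apply Polynomial.ringHom_ext
  · intro c
    simp only [RingHom.coe_comp, Function.comp_apply, AlgHom.toRingHom_eq_coe, RingHom.coe_coe,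
      aeval_C, coe_mapRingHom, map_C]
    exact degQ_toBar_algebraMap N c
  · simp only [RingHom.coe_comp, Function.comp_apply, AlgHom.toRingHom_eq_coe, RingHom.coe_coe,
      aeval_X, coe_mapRingHom, map_X]
    exact degQ_toBar_jFull N

/-- (DEG-Q 3c) `[SL(2,ℤ) : Γ₀(N)] ≤ [ℚ(X₀(N)) : ℚ(j)]`. -/
theorem degQ_le_finrank (N : ℕ) [NeZero N] :
    Nat.card (SL(2, ℤ) ⧸ CongruenceSubgroup.Gamma0 N)
      ≤ Module.finrank ↥(ℚ⟮IgusaScheme.jFull N⟯) ↥(modularFunctionFieldFull N) := by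
  haveI hfd : FiniteDimensional ↥(ℚ⟮IgusaScheme.jFull N⟯) ↥(modularFunctionFieldFull N) :=
    degQ_finite N
  obtain ⟨P, hP0, hPdeg, hPv⟩ := anG_exists_poly (K := ℚ) (IgusaScheme.jFull N) (degQ_jN N)
  refine le_trans ?_ hPdeg
  have hinj : Function.Injective (Polynomial.mapRingHom (algebraMap ℚ QBar)) :=
    Polynomial.map_injective _ (algebraMap ℚ QBar).injective
  have hP'0 : P.map (Polynomial.mapRingHom (algebraMap ℚ QBar)) ≠ 0 :=
    (Polynomial.map_ne_zero_iff hinj).mpr hP0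
  refine le_trans (degQ_card_le_natDegree N _ hP'0 ?_) Polynomial.natDegree_map_le
  rw [Polynomial.eval₂_map, ← degQ_toBar_comp_aeval, ← degQ_toBar_jN,
    ← Polynomial.hom_eval₂, hPv, map_zero]

/-- (DEG-Q 3d) `[ℚ(X₀(N)) : ℚ(j)] = [SL(2,ℤ) : Γ₀(N)]`. -/
theorem degQ_finrank_eq (N : ℕ) [NeZero N] :
    Module.finrank ↥(ℚ⟮IgusaScheme.jFull N⟯) ↥(modularFunctionFieldFull N)
      = Nat.card (SL(2, ℤ) ⧸ CongruenceSubgroup.Gamma0 N) :=
  le_antisymm (degQ_finrank_le N) (degQ_le_finrank N)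

end Fermat.Agent.S28
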