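/-
S28, hedge of package [MEM] (helper4), part 1: the formal derivation `θ = q d/dq` on Laurent
series and implicit differentiation along algebraic elements.  Pure algebra.
-/
import Mathlib
import Fermat.Prelude.Def_ModularCurve_X0
import Fermat.Prelude.Def_ModularCurve_LaurentCoeff

set_option autoImplicit false

noncomputable section

namespace Fermat.Agent.S28

open HahnSeries Polynomial

section Theta

variable {R : Type*} [CommRing R]

/-- `θ f = ∑ n f_n q^n`. -/
def thD_theta (f : LaurentSeries R) : LaurentSeries R where
  coeff n := (n : R) * f.coeff n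
  isPWO_support' := f.isPWO_support.mono fun n hn => by
    simp only [Function.mem_support, ne_eq] at hn ⊢
    intro h
    exact hn (by rw [h, mul_zero])

@[simp]
theorem thD_theta_coeff (f : LaurentSeries R) (n : ℤ) :
    (thD_theta f).coeff n = (n : R) * f.coeff n := rfl

theorem thD_theta_support (f : LaurentSeries R) : (thD_theta f).support ⊆ f.support := by
  intro n hn
  simp only [HahnSeries.mem_support, thD_theta_coeff, ne_eq] at hn ⊢
  intro h
  exact hn (by rw [h, mul_zero])

@[simp]
theorem thD_theta_zero : thD_theta (0 : LaurentSeries R) = 0 := by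
  ext n; simp

theorem thD_theta_add (f g : LaurentSeries R) :
    thD_theta (f + g) = thD_theta f + thD_theta g := by
  ext n; simp [mul_add]

theorem thD_theta_neg (f : LaurentSeries R) : thD_theta (-f) = -thD_theta f := by
  ext n; simp

theorem thD_theta_sub (f g : LaurentSeries R) :
    thD_theta (f - g) = thD_theta f - thD_theta g := by
  ext n; simp [mul_sub]

theorem thD_theta_single (n : ℤ) (r : R) :
    thD_theta (HahnSeries.single n r) = HahnSeries.single n ((n : R) * r) := by
  ext m
  by_cases h : m = n
  · subst h; simp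
  · simp [HahnSeries.coeff_single_of_ne h]

@[simp]
theorem thD_theta_C (r : R) : thD_theta (HahnSeries.C r : LaurentSeries R) = 0 := by
  rw [HahnSeries.C_apply, thD_theta_single]; simp

@[simp]
theorem thD_theta_one : thD_theta (1 : LaurentSeries R) = 0 := by
  have : (1 : LaurentSeries R) = HahnSeries.single 0 1 := rfl
  rw [this, thD_theta_single]; simp

/-- The Leibniz rule. -/
theorem thD_theta_mul (f g : LaurentSeries R) :
    thD_theta (f * g) = thD_theta f * g + f * thD_theta g := by
  ext a
  rw [thD_theta_coeff, HahnSeries.coeff_add, HahnSeries.coeff_mul,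
    HahnSeries.coeff_mul_left' f.isPWO_support (thD_theta_support f),
    HahnSeries.coeff_mul_right' g.isPWO_support (thD_theta_support g),
    Finset.mul_sum, ← Finset.sum_add_distrib]
  refine Finset.sum_congr rfl fun ij hij => ?_
  have h : ij.1 + ij.2 = a := (Finset.mem_antidiagonal.mp hij).2.2
  simp only [thD_theta_coeff]
  rw [← h]
  push_cast
  ring

theorem thD_theta_pow (f : LaurentSeries R) (n : ℕ) :
    thD_theta (f ^ n) = (n : LaurentSeries R) * f ^ (n - 1) * thD_theta f := by
  induction n with
  | zero => simp
  | succ n ih =>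
    rw [pow_succ, thD_theta_mul, ih]
    rcases Nat.eq_zero_or_pos n with h | h
    · subst h; simp
    · obtain ⟨m, rfl⟩ : ∃ m, n = m + 1 := ⟨n - 1, by omega⟩
      simp only [Nat.add_sub_cancel]
      push_cast
      ring

theorem thD_theta_sum {ι : Type*} (s : Finset ι) (f : ι → LaurentSeries R) :
    thD_theta (∑ i ∈ s, f i) = ∑ i ∈ s, thD_theta (f i) := by
  classical
  induction s using Finset.induction_on with
  | empty => simp
  | insert a s ha ih => rw [Finset.sum_insert ha, Finset.sum_insert ha, thD_theta_add, ih]

/-- `θ` commutes with `q ↦ q ^ N` up to the factor `N`. -/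
theorem thD_theta_qExpand (N : ℕ) [NeZero N] (f : LaurentSeries R) :
    thD_theta (ModularCurve.qExpand R N f) =
      (N : LaurentSeries R) * ModularCurve.qExpand R N (thD_theta f) := by
  have hN : ((N : ℕ) : LaurentSeries R) = HahnSeries.C (N : R) := by
    rw [map_natCast]
  rw [hN]
  ext k
  rw [thD_theta_coeff, HahnSeries.C_mul_eq_smul, HahnSeries.coeff_smul, smul_eq_mul]
  by_cases hk : (N : ℤ) ∣ k
  · obtain ⟨m, rfl⟩ := hk
    rw [ModularCurve.qExpand_coeff_mul, ModularCurve.qExpand_coeff_mul, thD_theta_coeff]
    push_cast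
    ring
  · rw [ModularCurve.qExpand_coeff_of_not_dvd N _ hk, ModularCurve.qExpand_coeff_of_not_dvd N _ hk]
    simp

/-- `θ` commutes with coefficientwise ring homomorphisms. -/
theorem thD_theta_coeffMap {S : Type*} [CommRing S] (φ : R →+* S) (f : LaurentSeries R) :
    thD_theta (ModularCurve.coeffMap φ f) = ModularCurve.coeffMap φ (thD_theta f) := by
  ext k
  simp [ModularCurve.coeffMap_coeff]

end Theta

/-! ### Implicit differentiation -/

section Implicit

variable {L : Type*} [Field L]

/-- Implicit differentiation for an additive map `θ` satisfying the Leibniz rule: if `p x = 0`,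
`p' x ≠ 0`, `x ∈ F`, and the coefficients of `p` lie in `F` and have derivatives in `w F`, then
`θ x ∈ w F`. -/
theorem thD_implicit (θ : L → L) (hadd : ∀ a b, θ (a + b) = θ a + θ b)
    (hmul : ∀ a b, θ (a * b) = θ a * b + a * θ b) (w : L) (F : Subfield L) (x : L) (hxF : x ∈ F)
    (p : L[X]) (hpF : ∀ i, p.coeff i ∈ F) (hp : ∀ i, ∃ c' ∈ F, θ (p.coeff i) = w * c')
    (h0 : p.eval x = 0) (hsep : p.derivative.eval x ≠ 0) : ∃ y ∈ F, θ x = w * y := by
  choose c' hc'F hc' using hp
  have hzero : θ 0 = 0 := by
    have := hadd 0 0
    rw [add_zero] at this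
    exact left_eq_add.mp this
  have hone : θ 1 = 0 := by
    have := hmul 1 1
    rw [mul_one, one_mul, mul_one] at this
    exact left_eq_add.mp this
  have hsum : ∀ (n : ℕ) (f : ℕ → L), θ (∑ i ∈ Finset.range n, f i) =
      ∑ i ∈ Finset.range n, θ (f i) := by
    intro n f
    induction n with
    | zero => simpa using hzero
    | succ n ih => rw [Finset.sum_range_succ, Finset.sum_range_succ, hadd, ih]
  have hpow : ∀ n : ℕ, θ (x ^ n) = (n : L) * x ^ (n - 1) * θ x := by
    intro n
    induction n with
    | zero => simpa using hone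
    | succ n ih =>
      rw [pow_succ, hmul, ih]
      rcases Nat.eq_zero_or_pos n with h | h
      · subst h; simp
      · obtain ⟨m, rfl⟩ : ∃ m, n = m + 1 := ⟨n - 1, by omega⟩
        simp only [Nat.add_sub_cancel]
        push_cast
        ring
  have hder : p.derivative.eval x ∈ F := by
    rw [Polynomial.eval_eq_sum_range]
    refine Subfield.sum_mem _ fun i _ => ?_
    refine Subfield.mul_mem _ ?_ (Subfield.pow_mem _ hxF _)
    rw [Polynomial.coeff_derivative]
    refine Subfield.mul_mem _ (hpF _) ?_
    exact_mod_cast Subfield.add_mem _ (natCast_mem F i) (Subfield.one_mem F)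
  have key : θ (p.eval x) =
      w * (∑ i ∈ Finset.range (p.natDegree + 1), c' i * x ^ i) + p.derivative.eval x * θ x := by
    have hd : p.derivative.eval x =
        ∑ i ∈ Finset.range (p.natDegree + 1), p.coeff i * (i : L) * x ^ (i - 1) := by
      rw [Polynomial.derivative_eval, Polynomial.sum_over_range]
      intro n
      simp
    rw [Polynomial.eval_eq_sum_range, hsum, hd, Finset.mul_sum, Finset.sum_mul,
      ← Finset.sum_add_distrib]
    refine Finset.sum_congr rfl fun i _ => ?_
    rw [hmul, hpow, hc' i]
    ring
  rw [h0, hzero] at key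
  refine ⟨-(∑ i ∈ Finset.range (p.natDegree + 1), c' i * x ^ i) / p.derivative.eval x, ?_, ?_⟩
  · refine Subfield.div_mem _ (Subfield.neg_mem _ (Subfield.sum_mem _ fun i _ => ?_)) hder
    exact Subfield.mul_mem _ (hc'F i) (Subfield.pow_mem _ hxF _)
  · rw [mul_div_assoc', eq_div_iff hsep]
    linear_combination -key

end Implicit

end Fermat.Agent.S28
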