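/-
S28, hedge of package [MEM] (helper4), part 2: the normalised derivative `D = (2πi)⁻¹ d/dz` acts on
Laurent expansions at `i∞` as the formal derivation `θ = q d/dq`.
-/
import Mathlib
import Fermat.Agent.S22.Nice
import Fermat.Agent.S24.BridgeEta
import Fermat.Agent.S24.BridgeLaurent
import Fermat.Agent.S24.JOrder
import Fermat.Agent.S28.ThetaDer

set_option autoImplicit false

noncomputable section

namespace Fermat.Agent.S28

open UpperHalfPlane hiding I
open Complex Filter Function ModularForm ModularFormClass Derivative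
open scoped Topology Manifold Real MatrixGroups ModularForm
open Fermat.Agent.S22 Fermat.Agent.S24

local notation "𝕢" => Periodic.qParam

/-- Taylor coefficients of `q ↦ q g'(q)`. -/
theorem thD_iteratedDeriv_id_mul_deriv {g : ℂ → ℂ} (hg : AnalyticAt ℂ g 0) (m : ℕ) :
    iteratedDeriv m (fun q : ℂ => q * deriv g q) 0 = (m : ℂ) * iteratedDeriv m g 0 := by
  have hg' : AnalyticAt ℂ (deriv g) 0 := hg.deriv
  have h1 : ContDiffAt ℂ m (fun q : ℂ => q) 0 := contDiffAt_id
  have h2 : ContDiffAt ℂ m (deriv g) 0 := hg'.contDiffAt.of_le le_top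
  have h := iteratedDeriv_fun_mul h1 h2
  rw [h]
  rcases m with _ | m
  · simp
  · rw [Finset.sum_eq_single 1]
    · rw [iteratedDeriv_fun_id_zero, if_pos rfl, Nat.choose_one_right, mul_one,
        Nat.add_sub_cancel, ← iteratedDeriv_succ']
    · intro i _ hi
      rw [iteratedDeriv_fun_id_zero, if_neg hi, mul_zero, zero_mul]
    · intro h
      exact absurd (Finset.mem_range.mpr (by omega)) h

/-- `D h = G ∘ q` with `G q = q · (cuspFunction h)' q`. -/
theorem thD_D_eq_comp {h : ℍ → ℂ} (hh : IsNice h) :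
    D h = fun z : ℍ => (fun q : ℂ => q * deriv (cuspFunction 1 h) q) (𝕢 1 (z : ℂ)) :=
  funext fun z => anE_D_eq_qParam_mul hh.per hh.holo hh.bdd z

theorem thD_differentiableOn_G {h : ℍ → ℂ} (hh : IsNice h) :
    DifferentiableOn ℂ (fun q : ℂ => q * deriv (cuspFunction 1 h) q) (Metric.ball (0 : ℂ) 1) := by
  have hg : DifferentiableOn ℂ (cuspFunction 1 h) (Metric.ball (0 : ℂ) 1) :=
    differentiableOn_cuspFunction_ball one_pos hh.per hh.holo hh.bdd
  exact differentiableOn_id.mul (hg.deriv Metric.isOpen_ball)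

/-- `D` preserves nice functions. -/
theorem thD_isNice_D {h : ℍ → ℂ} (hh : IsNice h) : IsNice (D h) := by
  rw [thD_D_eq_comp hh]
  exact anA_isNice_comp_qParam (thD_differentiableOn_G hh)

/-- The `q`-expansion of `D h` is `θ` of the `q`-expansion of `h`. -/
theorem thD_qExpansion_D_coeff {h : ℍ → ℂ} (hh : IsNice h) (m : ℕ) :
    (qExpansion 1 (D h)).coeff m = (m : ℂ) * (qExpansion 1 h).coeff m := by
  rw [thD_D_eq_comp hh, anA_qExpansion_comp_qParam_coeff (thD_differentiableOn_G hh),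
    thD_iteratedDeriv_id_mul_deriv hh.analyticAt, qExpansion_coeff]
  ring

theorem thD_ofPowerSeries_qExpansion_D {h : ℍ → ℂ} (hh : IsNice h) :
    HahnSeries.ofPowerSeries ℤ ℂ (qExpansion 1 (D h)) =
      thD_theta (HahnSeries.ofPowerSeries ℤ ℂ (qExpansion 1 h)) := by
  ext k
  rw [thD_theta_coeff]
  rcases lt_or_ge k 0 with hk | hk
  · rw [ModularCurve.ofPowerSeries_coeff_of_neg _ hk, ModularCurve.ofPowerSeries_coeff_of_neg _ hk,
      mul_zero]
  · obtain ⟨n, rfl⟩ := Int.eq_ofNat_of_zero_le hk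
    rw [HahnSeries.ofPowerSeries_apply_coeff, HahnSeries.ofPowerSeries_apply_coeff,
      thD_qExpansion_D_coeff hh]
    simp

/-- `D q = q`. -/
theorem thD_D_qfun_pow (m : ℕ) : D (anA_qfun ^ m) = (m : ℂ) • anA_qfun ^ m := by
  have hn : IsNice (anA_qfun ^ m) := anA_isNice_qfun.pow m
  refine (thD_isNice_D hn).eq_of_qExpansion_eq (hn.smul _) ?_
  ext k
  rw [thD_qExpansion_D_coeff hn, IsNice.qExpansion_smul _ hn, anA_isNice_qfun.qExpansion_pow,
    anA_qExpansion_qfun, PowerSeries.coeff_smul, PowerSeries.coeff_X_pow, smul_eq_mul]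
  by_cases hk : k = m
  · subst hk; simp
  · simp [hk]

/-- **The bridge for derivatives**: if `f` has the Laurent expansion `s` at `i∞`, then `D f` has
the Laurent expansion `θ s`. -/
theorem thD_hasLaurent_D {s : LaurentSeries ℂ} {f : ℍ → ℂ} (hf : anA_HasLaurent s f) :
    anA_HasLaurent (thD_theta s) (D f) := by
  have hfm : MDiff f := hf.mdiff
  obtain ⟨m, hnice, hser⟩ := hf
  have hqm : MDiff (anA_qfun ^ m) := (anA_isNice_qfun.pow m).holo
  have hD : anA_qfun ^ m * D f = D (anA_qfun ^ m * f) - (m : ℂ) • (anA_qfun ^ m * f) := by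
    rw [normalizedDerivOfComplex_mul _ _ hqm hfm, thD_D_qfun_pow]
    funext z
    simp only [Pi.mul_apply, Pi.add_apply, Pi.sub_apply, Pi.smul_apply, smul_eq_mul]
    ring
  have hn1 : IsNice (D (anA_qfun ^ m * f)) := thD_isNice_D hnice
  have hn2 : IsNice ((m : ℂ) • (anA_qfun ^ m * f)) := hnice.smul _
  refine ⟨m, ?_, ?_⟩
  · rw [hD]
    exact hn1.sub hn2
  · rw [hD, hn1.qExpansion_sub hn2, IsNice.qExpansion_smul _ hnice, map_sub,
      thD_ofPowerSeries_qExpansion_D hnice, hser, thD_theta_mul, thD_theta_single]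
    have e : HahnSeries.ofPowerSeries ℤ ℂ ((m : ℂ) • qExpansion 1 (anA_qfun ^ m * f)) =
        HahnSeries.C (m : ℂ) * (HahnSeries.single (m : ℤ) (1 : ℂ) * s) := by
      rw [← hser, HahnSeries.C_mul_eq_smul]
      ext k
      rcases lt_or_ge k 0 with hk | hk
      · rw [HahnSeries.coeff_smul, ModularCurve.ofPowerSeries_coeff_of_neg _ hk,
          ModularCurve.ofPowerSeries_coeff_of_neg _ hk, smul_zero]
      · obtain ⟨n, rfl⟩ := Int.eq_ofNat_of_zero_le hk
        rw [HahnSeries.coeff_smul, HahnSeries.ofPowerSeries_apply_coeff,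
          HahnSeries.ofPowerSeries_apply_coeff, PowerSeries.coeff_smul]
    rw [e]
    have e2 : (HahnSeries.single (m : ℤ) (((m : ℤ) : ℂ) * 1) : LaurentSeries ℂ) =
        HahnSeries.C (m : ℂ) * HahnSeries.single (m : ℤ) (1 : ℂ) := by
      rw [HahnSeries.C_apply, HahnSeries.single_mul_single]
      simp
    rw [e2]
    ring

end Fermat.Agent.S28
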