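/-
S28, hedge of package [MEM] (helper4), part 3: the formal identity
`(θ j)⁶ = j⁴ (j - 1728)³ Δ` in `ℚ((q))`.
-/
import Mathlib
import Fermat.Agent.S22.Nice
import Fermat.Agent.S24.BridgeEta
import Fermat.Agent.S24.BridgeLaurent
import Fermat.Agent.S24.Bridge
import Fermat.Agent.S24.JOrder
import Fermat.Agent.S28.ThetaDer
import Fermat.Agent.S28.ThetaAn

set_option autoImplicit false

noncomputable section

namespace Fermat.Agent.S28

open UpperHalfPlane hiding I
open Complex Filter Function ModularForm ModularFormClass Derivative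
open scoped Topology Manifold Real MatrixGroups ModularForm
open Fermat.Agent.S22 Fermat.Agent.S24

/-! ### Leading terms -/

section Lead

variable {R : Type*} [CommRing R]

/-- `f = c q^a + higher terms`. -/
def thD_LeadAt (f : LaurentSeries R) (a : ℤ) (c : R) : Prop :=
  (∀ k < a, f.coeff k = 0) ∧ f.coeff a = c

theorem thD_leadAt_mul {f g : LaurentSeries R} {a b : ℤ} {c d : R} (hf : thD_LeadAt f a c)
    (hg : thD_LeadAt g b d) : thD_LeadAt (f * g) (a + b) (c * d) := by
  have hsupp : ∀ k, ∀ ij ∈ Finset.antidiagonal f.isPWO_support g.isPWO_support k,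
      a ≤ ij.1 ∧ b ≤ ij.2 ∧ ij.1 + ij.2 = k := by
    intro k ij hij
    obtain ⟨h1, h2, h3⟩ := Finset.mem_antidiagonal.mp hij
    refine ⟨?_, ?_, h3⟩
    · by_contra h
      exact h1 (hf.1 _ (not_le.mp h))
    · by_contra h
      exact h2 (hg.1 _ (not_le.mp h))
  constructor
  · intro k hk
    rw [HahnSeries.coeff_mul]
    refine Finset.sum_eq_zero fun ij hij => ?_
    obtain ⟨h1, h2, h3⟩ := hsupp k ij hij
    omega
  · rw [HahnSeries.coeff_mul, ← hf.2, ← hg.2]
    by_cases hab : f.coeff a ≠ 0 ∧ g.coeff b ≠ 0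
    · rw [Finset.sum_eq_single (a, b)]
      · intro ij hij hne
        obtain ⟨h1, h2, h3⟩ := hsupp _ ij hij
        exfalso
        apply hne
        ext <;> simp <;> omega
      · intro h
        exfalso
        exact h (Finset.mem_antidiagonal.mpr ⟨hab.1, hab.2, rfl⟩)
    · have h0 : f.coeff a * g.coeff b = 0 := by
        by_cases h : f.coeff a = 0
        · rw [h, zero_mul]
        · have : g.coeff b = 0 := by
            by_contra h'
            exact hab ⟨h, h'⟩
          rw [this, mul_zero]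
      rw [h0]
      refine Finset.sum_eq_zero fun ij hij => ?_
      obtain ⟨h1, h2, h3⟩ := hsupp _ ij hij
      have e1 : ij.1 = a := by omega
      have e2 : ij.2 = b := by omega
      rw [e1, e2, h0]

theorem thD_leadAt_pow {f : LaurentSeries R} {a : ℤ} {c : R} (hf : thD_LeadAt f a c) (n : ℕ) :
    thD_LeadAt (f ^ n) (n * a) (c ^ n) := by
  induction n with
  | zero =>
    refine ⟨fun k hk => ?_, ?_⟩
    · simp only [Nat.cast_zero, zero_mul] at hk
      rw [pow_zero, HahnSeries.coeff_one, if_neg hk.ne]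
    · simp
  | succ n ih =>
    have := thD_leadAt_mul ih hf
    rw [pow_succ, pow_succ]
    convert this using 1
    push_cast
    ring

theorem thD_leadAt_theta {f : LaurentSeries R} {a : ℤ} {c : R} (hf : thD_LeadAt f a c) :
    thD_LeadAt (thD_theta f) a ((a : R) * c) :=
  ⟨fun k hk => by rw [thD_theta_coeff, hf.1 k hk, mul_zero], by rw [thD_theta_coeff, hf.2]⟩

theorem thD_leadAt_sub_C {f : LaurentSeries R} {a : ℤ} {c : R} (hf : thD_LeadAt f a c) (ha : a < 0)
    (r : R) : thD_LeadAt (f - HahnSeries.C r) a c := by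
  have h : ∀ k ≤ a, (HahnSeries.C r : LaurentSeries R).coeff k = 0 := by
    intro k hk
    rw [HahnSeries.C_apply, HahnSeries.coeff_single_of_ne (by omega)]
  exact ⟨fun k hk => by rw [HahnSeries.coeff_sub, hf.1 k hk, h k hk.le, sub_zero],
    by rw [HahnSeries.coeff_sub, hf.2, h a le_rfl, sub_zero]⟩

theorem thD_leadAt_C_mul {f : LaurentSeries R} {a : ℤ} {c : R} (hf : thD_LeadAt f a c) (r : R) :
    thD_LeadAt (HahnSeries.C r * f) a (r * c) := by
  rw [HahnSeries.C_mul_eq_smul]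
  exact ⟨fun k hk => by rw [HahnSeries.coeff_smul, hf.1 k hk, smul_zero],
    by rw [HahnSeries.coeff_smul, hf.2, smul_eq_mul]⟩

theorem thD_leadAt_single_mul_ofPowerSeries (a : ℤ) (P : PowerSeries R) :
    thD_LeadAt (HahnSeries.single a (1 : R) * HahnSeries.ofPowerSeries ℤ R P) a
      (PowerSeries.constantCoeff P) := by
  constructor
  · intro k hk
    rw [HahnSeries.coeff_single_mul, one_mul]
    exact ModularCurve.ofPowerSeries_coeff_of_neg _ (by omega)
  · rw [HahnSeries.coeff_single_mul, one_mul, sub_self,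
      show (0 : ℤ) = ((0 : ℕ) : ℤ) from rfl, HahnSeries.ofPowerSeries_apply_coeff,
      PowerSeries.coeff_zero_eq_constantCoeff]

end Lead

/-! ### The Laurent expansions of `j`, `Δ` and `D j` -/

/-- The formal `q`-expansion `q ∏ (1 - qⁿ)²⁴` of `Δ`, rational coefficients. -/
def thD_deltaQ : LaurentSeries ℚ :=
  HahnSeries.single (1 : ℤ) (1 : ℚ) *
    HahnSeries.ofPowerSeries ℤ ℚ (ModularCurve.dedekindEtaUnit.map (Int.castRingHom ℚ))

/-- The formal `q`-expansion of `Δ`, complex coefficients. -/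
def thD_deltaC : LaurentSeries ℂ :=
  HahnSeries.single (1 : ℤ) (1 : ℂ) *
    HahnSeries.ofPowerSeries ℤ ℂ (ModularCurve.dedekindEtaUnit.map (Int.castRingHom ℂ))

theorem thD_coeffMap_deltaQ (φ : ℚ →+* ℂ) : ModularCurve.coeffMap φ thD_deltaQ = thD_deltaC := by
  rw [thD_deltaQ, map_mul, ModularCurve.coeffMap_single, map_one, anA_coeffMap_ofPowerSeries,
    thD_deltaC]
  congr 2
  ext n
  simp only [PowerSeries.coeff_map]
  simp

theorem thD_hasLaurent_j : anA_HasLaurent anA_jSeries jfun := by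
  have e : anA_qfun ^ 1 * jfun = anA_jNumF := by
    rw [pow_one, ← anA_qfun_mul_jfun, anA_jfun_eq]
  refine ⟨1, ?_, ?_⟩
  · rw [e]
    exact anA_isNice_jNumF
  · rw [e, anA_qExpansion_jNumF, anA_jSeries, ← mul_assoc, anA_single_mul_single]
    rw [show ((1 : ℕ) : ℤ) + (-1) = 0 by norm_num, show HahnSeries.single (0 : ℤ) (1 : ℂ) = 1
      from rfl, one_mul]

theorem thD_hasLaurent_delta : anA_HasLaurent thD_deltaC (discriminant : ℍ → ℂ) := by
  have e : (discriminant : ℍ → ℂ) = anA_qfun * anA_etaF ^ 24 := by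
    funext z
    exact anA_discriminant_eq z
  have hn : IsNice (anA_qfun * anA_etaF ^ 24) := anA_isNice_qfun.mul (anA_isNice_etaF.pow 24)
  have h := anA_HasLaurent.of_isNice hn
  rw [anA_isNice_qfun.qExpansion_mul (anA_isNice_etaF.pow 24), anA_isNice_etaF.qExpansion_pow,
    anA_qExpansion_qfun, anA_qExpansion_etaF, map_mul, HahnSeries.ofPowerSeries_X] at h
  rw [e, thD_deltaC, ModularCurve.dedekindEtaUnit, map_pow]
  exact h

theorem thD_hasLaurent_Dj : anA_HasLaurent (thD_theta anA_jSeries) (D jfun) :=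
  thD_hasLaurent_D thD_hasLaurent_j

theorem thD_hasLaurent_pow {s : LaurentSeries ℂ} {f : ℍ → ℂ} (h : anA_HasLaurent s f) (n : ℕ) :
    anA_HasLaurent (s ^ n) (f ^ n) := by
  induction n with
  | zero => simpa using anA_HasLaurent.one
  | succ n ih => rw [pow_succ, pow_succ]; exact ih.mul h

/-! ### The analytic identity -/

theorem thD_analytic_identity (z : ℍ) :
    (1728 : ℂ) ^ 6 * D jfun z ^ 6 =
      anE_c ^ 6 * (jfun z ^ 4 * (jfun z - 1728) ^ 3 * discriminant z) := by
  have hΔ := discriminant_ne_zero z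
  have h1 := anE_D_jfun' z
  have h2 := jfun_sub_1728 z
  have h3 : jfun z = E₄ z ^ 3 / discriminant z := rfl
  have h4 : ((1728 : ℂ) * discriminant z * D jfun z) ^ 6 = (anE_c * (E₄ z ^ 2 * E₆ z)) ^ 6 := by
    rw [h1]
  have h5 : discriminant z ^ 6 * ((1728 : ℂ) ^ 6 * D jfun z ^ 6) =
      discriminant z ^ 6 *
        (anE_c ^ 6 * (jfun z ^ 4 * (jfun z - 1728) ^ 3 * discriminant z)) := by
    rw [h2, h3]
    field_simp
    linear_combination h4
  exact mul_left_cancel₀ (pow_ne_zero 6 hΔ) h5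

/-! ### The formal identity -/

theorem thD_leadAt_jSeries : thD_LeadAt anA_jSeries (-1) (1 : ℂ) := by
  have h := thD_leadAt_single_mul_ofPowerSeries (-1 : ℤ)
    (ModularCurve.jNum.map (Int.castRingHom ℂ))
  have e : PowerSeries.constantCoeff (ModularCurve.jNum.map (Int.castRingHom ℂ)) = 1 := by
    rw [← PowerSeries.coeff_zero_eq_constantCoeff, PowerSeries.coeff_map,
      PowerSeries.coeff_zero_eq_constantCoeff, ModularCurve.constantCoeff_jNum]
    simp
  rw [e] at h
  exact h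

theorem thD_leadAt_deltaC : thD_LeadAt thD_deltaC 1 (1 : ℂ) := by
  have h := thD_leadAt_single_mul_ofPowerSeries (1 : ℤ)
    (ModularCurve.dedekindEtaUnit.map (Int.castRingHom ℂ))
  have e : PowerSeries.constantCoeff
      (ModularCurve.dedekindEtaUnit.map (Int.castRingHom ℂ)) = 1 := by
    rw [← PowerSeries.coeff_zero_eq_constantCoeff, PowerSeries.coeff_map,
      PowerSeries.coeff_zero_eq_constantCoeff, ModularCurve.constantCoeff_dedekindEtaUnit]
    simp
  rw [e] at h
  exact h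

theorem thD_series_identity :
    HahnSeries.C ((1728 : ℂ) ^ 6) * thD_theta anA_jSeries ^ 6 =
      HahnSeries.C (anE_c ^ 6) *
        (anA_jSeries ^ 4 * (anA_jSeries - HahnSeries.C (1728 : ℂ)) ^ 3 * thD_deltaC) := by
  have hL : anA_HasLaurent (HahnSeries.C ((1728 : ℂ) ^ 6) * thD_theta anA_jSeries ^ 6)
      ((fun _ => (1728 : ℂ) ^ 6) * D jfun ^ 6) :=
    (anA_HasLaurent.const _).mul (thD_hasLaurent_pow thD_hasLaurent_Dj 6)
  have hR : anA_HasLaurent (HahnSeries.C (anE_c ^ 6) *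
        (anA_jSeries ^ 4 * (anA_jSeries - HahnSeries.C (1728 : ℂ)) ^ 3 * thD_deltaC))
      ((fun _ => anE_c ^ 6) * (jfun ^ 4 * (jfun - fun _ => (1728 : ℂ)) ^ 3 * discriminant)) :=
    (anA_HasLaurent.const _).mul
      (((thD_hasLaurent_pow thD_hasLaurent_j 4).mul
        (thD_hasLaurent_pow (thD_hasLaurent_j.sub (anA_HasLaurent.const _)) 3)).mul
          thD_hasLaurent_delta)
  have e : ((fun _ => (1728 : ℂ) ^ 6) * D jfun ^ 6 : ℍ → ℂ) =
      (fun _ => anE_c ^ 6) * (jfun ^ 4 * (jfun - fun _ => (1728 : ℂ)) ^ 3 * discriminant) := by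
    funext z
    simp only [Pi.mul_apply, Pi.pow_apply, Pi.sub_apply]
    exact thD_analytic_identity z
  rw [e] at hL
  exact hL.unique_series hR

theorem thD_c_pow : anE_c ^ 6 = (1728 : ℂ) ^ 6 := by
  have hL : thD_LeadAt (HahnSeries.C ((1728 : ℂ) ^ 6) * thD_theta anA_jSeries ^ 6)
      (((6 : ℕ) : ℤ) * (-1)) ((1728 : ℂ) ^ 6 * ((((-1 : ℤ) : ℂ)) * 1) ^ 6) :=
    thD_leadAt_C_mul (thD_leadAt_pow (thD_leadAt_theta thD_leadAt_jSeries) 6) _
  have hR : thD_LeadAt (HahnSeries.C (anE_c ^ 6) *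
        (anA_jSeries ^ 4 * (anA_jSeries - HahnSeries.C (1728 : ℂ)) ^ 3 * thD_deltaC))
      (((4 : ℕ) : ℤ) * (-1) + ((3 : ℕ) : ℤ) * (-1) + 1) (anE_c ^ 6 * ((1 : ℂ) ^ 4 * 1 ^ 3 * 1)) :=
    thD_leadAt_C_mul (thD_leadAt_mul (thD_leadAt_mul (thD_leadAt_pow thD_leadAt_jSeries 4)
      (thD_leadAt_pow (thD_leadAt_sub_C thD_leadAt_jSeries (by norm_num) _) 3))
        thD_leadAt_deltaC) _
  have h1 := hL.2
  have h2 := hR.2
  rw [thD_series_identity] at h1
  have e : ((6 : ℕ) : ℤ) * (-1) = ((4 : ℕ) : ℤ) * (-1) + ((3 : ℕ) : ℤ) * (-1) + 1 := by norm_num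
  rw [e, h2] at h1
  have h3 : anE_c ^ 6 * ((1 : ℂ) ^ 4 * 1 ^ 3 * 1) = anE_c ^ 6 := by ring
  have h4 : (1728 : ℂ) ^ 6 * ((((-1 : ℤ) : ℂ)) * 1) ^ 6 = 1728 ^ 6 := by push_cast; ring
  rw [h3, h4] at h1
  exact h1

/-- **The formal identity** `(θ j)⁶ = j⁴ (j - 1728)³ Δ`, complex coefficients. -/
theorem thD_ramanujanC :
    thD_theta anA_jSeries ^ 6 =
      anA_jSeries ^ 4 * (anA_jSeries - HahnSeries.C (1728 : ℂ)) ^ 3 * thD_deltaC := by
  have h := thD_series_identity
  rw [thD_c_pow] at h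
  have h0 : (HahnSeries.C ((1728 : ℂ) ^ 6) : LaurentSeries ℂ) ≠ 0 := by
    intro h'
    have := congrArg (fun s : LaurentSeries ℂ => s.coeff 0) h'
    simp at this
  exact mul_left_cancel₀ h0 h

/-- **The formal identity** `(θ j)⁶ = j⁴ (j - 1728)³ Δ`, rational coefficients. -/
theorem thD_ramanujanQ :
    thD_theta ModularCurve.jq ^ 6 =
      ModularCurve.jq ^ 4 * (ModularCurve.jq - HahnSeries.C (1728 : ℚ)) ^ 3 * thD_deltaQ := by
  let φ : ℚ →+* ℂ := algebraMap ℚ ℂ
  apply (ModularCurve.coeffMap φ).injective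
  have hC : ModularCurve.coeffMap φ (HahnSeries.C (1728 : ℚ)) = HahnSeries.C (1728 : ℂ) := by
    rw [HahnSeries.C_apply, ModularCurve.coeffMap_single, HahnSeries.C_apply]
    congr 1
  rw [map_pow, ← thD_theta_coeffMap, map_mul, map_mul, map_pow, map_pow, map_sub,
    anA_coeffMap_jq, thD_coeffMap_deltaQ, hC]
  exact thD_ramanujanC

end Fermat.Agent.S28
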