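/-
S28, hedge of package [MEM] (helper4), part 4: the modular units `Δ(q^d)/Δ(q)` lie in the
function field `ℚ(j(q^d) : d ∣ N)`, by implicit differentiation of the modular equation and the
formal identity `(θ j)⁶ = j⁴ (j - 1728)³ Δ`.
-/
import Mathlib
import Fermat.Prelude.Def_ModularCurve_X0
import Fermat.Prelude.Def_ModularCurve_IgusaScheme
import Fermat.Agent.S28.DegQ
import Fermat.Agent.S28.ThetaDer
import Fermat.Agent.S28.ThetaJ

set_option autoImplicit false

noncomputable section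

namespace Fermat.Agent.S28

open Polynomial ModularCurve IntermediateField

/-! ### `θ` on `ℚ(j)` -/

theorem thD_theta_algebraMap (a : ℚ) :
    thD_theta (algebraMap ℚ (LaurentSeries ℚ) a) = 0 := by
  rw [algebraMap_apply_eq_single, thD_theta_single]
  simp

theorem thD_theta_aeval_jq (r : ℚ[X]) :
    thD_theta (aeval jq r) = aeval jq (derivative r) * thD_theta jq := by
  induction r using Polynomial.induction_on' with
  | add p q hp hq => rw [map_add, thD_theta_add, hp, hq, derivative_add, map_add, add_mul]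
  | monomial n a =>
    rw [aeval_monomial, thD_theta_mul, thD_theta_algebraMap, zero_mul, zero_add, thD_theta_pow,
      derivative_monomial, aeval_monomial, map_mul, map_natCast]
    ring

theorem thD_jq_ne_zero : jq ≠ 0 := jq_ne_zero

theorem thD_theta_mem_adjoin_jq {c : LaurentSeries ℚ} (hc : c ∈ ℚ⟮jq⟯) :
    ∃ c' ∈ ℚ⟮jq⟯, thD_theta c = thD_theta jq * c' := by
  obtain ⟨r, s, rfl⟩ := (IntermediateField.mem_adjoin_simple_iff ℚ c).mp hc
  have hj : jq ∈ ℚ⟮jq⟯ := IntermediateField.mem_adjoin_simple_self ℚ jq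
  have hmem : ∀ p : ℚ[X], aeval jq p ∈ ℚ⟮jq⟯ := fun p => by
    rw [aeval_eq_sum_range]
    refine sum_mem fun i _ => ?_
    rw [Algebra.smul_def]
    exact mul_mem (IntermediateField.algebraMap_mem _ _) (pow_mem hj _)
  by_cases hs : aeval jq s = 0
  · refine ⟨0, zero_mem _, ?_⟩
    rw [hs, div_zero, thD_theta_zero, mul_zero]
  · refine ⟨(aeval jq (derivative r) - aeval jq r / aeval jq s * aeval jq (derivative s)) /
      aeval jq s, ?_, ?_⟩
    · exact div_mem (sub_mem (hmem _) (mul_mem (div_mem (hmem _) (hmem _)) (hmem _))) (hmem _)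
    · have h1 : thD_theta (aeval jq r / aeval jq s * aeval jq s) = thD_theta (aeval jq r) := by
        rw [div_mul_cancel₀ _ hs]
      rw [thD_theta_mul, thD_theta_aeval_jq, thD_theta_aeval_jq] at h1
      rw [mul_div_assoc', eq_div_iff hs]
      linear_combination h1

/-! ### A separable equation for `j(q^d)` over `ℚ(j)` -/

theorem thD_coe_mem_adjoin_jq (d : ℕ) [NeZero d] (c : ↥(modularFunctionFieldFull d))
    (hc : c ∈ ℚ⟮IgusaScheme.jFull d⟯) : (c : LaurentSeries ℚ) ∈ ℚ⟮jq⟯ := by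
  induction hc using IntermediateField.adjoin_induction with
  | mem x hx =>
    rw [Set.mem_singleton_iff] at hx
    subst hx
    exact IntermediateField.mem_adjoin_simple_self ℚ jq
  | algebraMap x =>
    rw [eq_ratCast (algebraMap ℚ ↥(modularFunctionFieldFull d)) x]
    have : (((x : ℚ) : ↥(modularFunctionFieldFull d)) : LaurentSeries ℚ) =
        ((x : ℚ) : LaurentSeries ℚ) := by norm_cast
    rw [this, ← eq_ratCast (algebraMap ℚ (LaurentSeries ℚ)) x]
    exact IntermediateField.algebraMap_mem _ x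
  | add x y _ _ hx hy => exact add_mem hx hy
  | inv x _ hx => exact inv_mem hx
  | mul x y _ _ hx hy => exact mul_mem hx hy

theorem thD_exists_separable_poly (d : ℕ) [NeZero d] :
    ∃ P : (LaurentSeries ℚ)[X], (∀ i, P.coeff i ∈ ℚ⟮jq⟯) ∧ P.eval (qExpand ℚ d jq) = 0 ∧
      P.derivative.eval (qExpand ℚ d jq) ≠ 0 := by
  haveI := degQ_finite d
  let x' : ↥(modularFunctionFieldFull d) := ⟨qExpand ℚ d jq, jqd_mem_full d dvd_rfl⟩
  have hint : IsIntegral ↥(ℚ⟮IgusaScheme.jFull d⟯) x' := IsIntegral.of_finite _ x'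
  have hsep : (minpoly ↥(ℚ⟮IgusaScheme.jFull d⟯) x').Separable :=
    (minpoly.irreducible hint).separable
  let ι : ↥(ℚ⟮IgusaScheme.jFull d⟯) →+* LaurentSeries ℚ :=
    ((modularFunctionFieldFull d).val : ↥(modularFunctionFieldFull d) →+* LaurentSeries ℚ).comp
      (algebraMap ↥(ℚ⟮IgusaScheme.jFull d⟯) ↥(modularFunctionFieldFull d))
  have hev : ∀ p : (↥(ℚ⟮IgusaScheme.jFull d⟯))[X],
      (p.map ι).eval (qExpand ℚ d jq) = ((aeval x' p : ↥(modularFunctionFieldFull d)) :
        LaurentSeries ℚ) := by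
    intro p
    rw [Polynomial.eval_map, Polynomial.aeval_def]
    exact (Polynomial.hom_eval₂ p (algebraMap ↥(ℚ⟮IgusaScheme.jFull d⟯)
      ↥(modularFunctionFieldFull d))
      ((modularFunctionFieldFull d).val : ↥(modularFunctionFieldFull d) →+* LaurentSeries ℚ)
      x').symm
  refine ⟨(minpoly ↥(ℚ⟮IgusaScheme.jFull d⟯) x').map ι, fun i => ?_, ?_, ?_⟩
  · rw [Polynomial.coeff_map]
    exact thD_coe_mem_adjoin_jq d _ (Subtype.mem _)
  · rw [hev, minpoly.aeval]
    rfl
  · rw [Polynomial.derivative_map, hev]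
    intro h
    exact hsep.aeval_derivative_ne_zero (minpoly.aeval _ x') (Subtype.ext h)

/-! ### Implicit differentiation of the modular equation -/

theorem thD_adjoin_jq_le_full (N : ℕ) [NeZero N] : ℚ⟮jq⟯ ≤ modularFunctionFieldFull N :=
  (adjoin_jq_le N).trans (modularFunctionField_le_full N)

/-- `θ (j(q^d)) / θ j` lies in the function field. -/
theorem thD_theta_jqd_mem (N d : ℕ) [NeZero N] [NeZero d] (hd : d ∣ N) :
    ∃ y ∈ modularFunctionFieldFull N, thD_theta (qExpand ℚ d jq) = thD_theta jq * y := by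
  obtain ⟨P, hPc, hP0, hP1⟩ := thD_exists_separable_poly d
  obtain ⟨y, hy, hy'⟩ := thD_implicit (thD_theta (R := ℚ)) thD_theta_add thD_theta_mul
    (thD_theta jq) (modularFunctionFieldFull N).toSubfield (qExpand ℚ d jq)
    (jqd_mem_full N hd) P (fun i => thD_adjoin_jq_le_full N (hPc i))
    (fun i => by
      obtain ⟨c', hc', h⟩ := thD_theta_mem_adjoin_jq (hPc i)
      exact ⟨c', thD_adjoin_jq_le_full N hc', h⟩) hP0 hP1
  exact ⟨y, hy, hy'⟩

/-! ### The modular units -/

theorem thD_deltaQ_ne_zero : thD_deltaQ ≠ 0 := by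
  intro h
  have h1 := (thD_leadAt_single_mul_ofPowerSeries (1 : ℤ)
    (ModularCurve.dedekindEtaUnit.map (Int.castRingHom ℚ))).2
  have e : PowerSeries.constantCoeff
      (ModularCurve.dedekindEtaUnit.map (Int.castRingHom ℚ)) = 1 := by
    rw [← PowerSeries.coeff_zero_eq_constantCoeff, PowerSeries.coeff_map,
      PowerSeries.coeff_zero_eq_constantCoeff, ModularCurve.constantCoeff_dedekindEtaUnit]
    simp
  rw [e] at h1
  have h2 : thD_deltaQ.coeff 1 = 1 := h1
  rw [h] at h2
  simp at h2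

theorem thD_C_mem (N : ℕ) [NeZero N] (r : ℚ) :
    (HahnSeries.C r : LaurentSeries ℚ) ∈ modularFunctionFieldFull N := by
  rw [HahnSeries.C_apply, ← algebraMap_apply_eq_single]
  exact IntermediateField.algebraMap_mem _ r

theorem thD_jq_sub_C_ne_zero (r : ℚ) : jq - HahnSeries.C r ≠ 0 := by
  intro h
  have h1 := congrArg (fun s : LaurentSeries ℚ => s.coeff (-1)) h
  simp only [HahnSeries.coeff_sub, coeff_jq_neg_one, HahnSeries.coeff_zero, HahnSeries.C_apply] at h1
  rw [HahnSeries.coeff_single_of_ne (by norm_num)] at h1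
  norm_num at h1

/-- **[MEM]** The modular unit `Δ(q^d)/Δ(q)` lies in the function field `ℚ(j(q^e) : e ∣ N)` for
every `d ∣ N`. -/
theorem thD_unit_mem (N d : ℕ) [NeZero N] [NeZero d] (hd : d ∣ N) :
    qExpand ℚ d thD_deltaQ * thD_deltaQ⁻¹ ∈ modularFunctionFieldFull N := by
  obtain ⟨y, hy, hy'⟩ := thD_theta_jqd_mem N d hd
  have hj : jq ∈ modularFunctionFieldFull N := modularFunctionField_le_full N (jq_mem N)
  have hjd : qExpand ℚ d jq ∈ modularFunctionFieldFull N := jqd_mem_full N hd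
  have hC := thD_C_mem N 1728
  have h1 := thD_ramanujanQ
  have h2 := congrArg (qExpand ℚ d) h1
  rw [map_pow, map_mul, map_mul, map_pow, map_pow, map_sub, qExpand_C] at h2
  have h3 := thD_theta_qExpand (R := ℚ) d jq
  rw [hy'] at h3
  have hd0 : ((d : ℕ) : LaurentSeries ℚ) ≠ 0 := by
    rw [← map_natCast (HahnSeries.C : ℚ →+* LaurentSeries ℚ) d, HahnSeries.C_apply]
    intro h
    have h' := congrArg (fun s : LaurentSeries ℚ => s.coeff 0) h
    simp only [HahnSeries.coeff_single_same, HahnSeries.coeff_zero] at h'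
    exact NeZero.ne d (by exact_mod_cast h')
  have hΔ := thD_deltaQ_ne_zero
  have hA : qExpand ℚ d jq ^ 4 * (qExpand ℚ d jq - HahnSeries.C (1728 : ℚ)) ^ 3 ≠ 0 := by
    refine mul_ne_zero (pow_ne_zero _ ?_) (pow_ne_zero _ ?_)
    · intro h
      exact jq_ne_zero (qExpand_injective d (by rw [h, map_zero]))
    · intro h
      have : qExpand ℚ d (jq - HahnSeries.C (1728 : ℚ)) = 0 := by
        rw [map_sub, qExpand_C, h]
      exact thD_jq_sub_C_ne_zero 1728 (qExpand_injective d (by rw [this, map_zero]))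
  have key : qExpand ℚ d thD_deltaQ * thD_deltaQ⁻¹ =
      (jq ^ 4 * (jq - HahnSeries.C (1728 : ℚ)) ^ 3) * y ^ 6 /
        ((d : LaurentSeries ℚ) ^ 6 *
          (qExpand ℚ d jq ^ 4 * (qExpand ℚ d jq - HahnSeries.C (1728 : ℚ)) ^ 3)) := by
    have h4 : (thD_theta jq * y) ^ 6 = ((d : LaurentSeries ℚ) * qExpand ℚ d (thD_theta jq)) ^ 6 := by
      rw [h3]
    rw [mul_pow, mul_pow, h1, h2] at h4
    rw [eq_div_iff (mul_ne_zero (pow_ne_zero _ hd0) hA), ← div_eq_mul_inv, div_mul_eq_mul_div,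
      div_eq_iff hΔ]
    linear_combination -h4
  rw [key]
  exact div_mem (mul_mem (mul_mem (pow_mem hj _) (pow_mem (sub_mem hj hC) _)) (pow_mem hy _))
    (mul_mem (pow_mem (IntermediateField.natCast_mem _ d) _)
      (mul_mem (pow_mem hjd _) (pow_mem (sub_mem hjd hC) _)))

end Fermat.Agent.S28
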