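/-
S28 (Igusa), package [TR] (4): FAMILY PACKAGING + (T4) growth (owner: helper2).

For a `Γ₀(N)`-invariant function `f : ℍ → ℂ` the family of its `SL(2,ℤ)`-translates is indexed by
`X = SL(2,ℤ) ⧸ Γ₀(N)` (S24's `XN N`), `F x = anB_tr N f x = f ∘ (γ⁻¹ • ·)` for any representative
`γ` of `x`.  This file packages (T1)-(T3) of the characteristic-polynomial input and proves
(T4): a function whose `q_N`-expansion has order `≥ -C N` is `O(exp (2 π C Im z))` at `i∞`.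
-/
import Mathlib
import Fermat.Agent.S24.Translate
import Fermat.Agent.S24.TranslateAN
import Fermat.Agent.S24.BridgeLaurent
import Fermat.Agent.S24.CharPoly
import Fermat.Agent.S24.Comb

set_option autoImplicit false

noncomputable section

namespace Fermat.Agent.S28

open UpperHalfPlane ModularFormClass CongruenceSubgroup Matrix.SpecialLinearGroup Function
open ModularForm Filter Asymptotics
open scoped MatrixGroups ModularForm Manifold Real Topology

open Fermat.Agent.S22 Fermat.Agent.S24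

local notation "𝕢" => Function.Periodic.qParam

/-! ### (T1)-(T3): the family of translates -/

section Family

variable {N : ℕ} {f : ℍ → ℂ}

/-- The identity coset. -/
def trF_x₀ (N : ℕ) : XN N := QuotientGroup.mk (1 : SL(2, ℤ))

/-- The translate attached to the coset of `γ` is `f ∘ (γ⁻¹ • ·)`, for EVERY representative. -/
theorem trF_mk (hinv : ∀ γ ∈ Gamma0 N, ∀ z : ℍ, f (γ • z) = f z) (γ : SL(2, ℤ)) (z : ℍ) :
    anB_tr N f (QuotientGroup.mk γ : XN N) z = f (γ⁻¹ • z) :=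
  anB_tr_mk hinv γ z

/-- The translate attached to the coset of `γ⁻¹` is `f ∘ (γ • ·)`. -/
theorem trF_mk_inv (hinv : ∀ γ ∈ Gamma0 N, ∀ z : ℍ, f (γ • z) = f z) (γ : SL(2, ℤ)) :
    anB_tr N f (QuotientGroup.mk γ⁻¹ : XN N) = fun z => f (γ • z) := by
  funext z
  rw [anB_tr_mk hinv, inv_inv]

theorem trF_one (hinv : ∀ γ ∈ Gamma0 N, ∀ z : ℍ, f (γ • z) = f z) :
    anB_tr N f (trF_x₀ N) = f :=
  anB_tr_one hinv

/-- (T1) -/
theorem trF_mdiff (hmd : MDiff f) (x : XN N) : MDiff (anB_tr N f x) :=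
  anB_tr_mdiff hmd x

/-- (T2) the family of translates is permuted by `SL(2,ℤ)`. -/
theorem trF_perm (hinv : ∀ γ ∈ Gamma0 N, ∀ z : ℍ, f (γ • z) = f z) (γ : SL(2, ℤ)) :
    ∃ σ : Equiv.Perm (XN N), ∀ (x : XN N) (z : ℍ),
      anB_tr N f x (γ • z) = anB_tr N f (σ x) z :=
  ⟨MulAction.toPerm γ⁻¹, fun x z => anB_tr_smul hinv γ x z⟩

/-- (T3) -/
theorem trF_ne_zero (hne : ∀ z, f z ≠ 0) (x : XN N) (z : ℍ) : anB_tr N f x z ≠ 0 :=
  hne _

theorem trF_mk_eq_x₀_iff (γ : SL(2, ℤ)) :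
    (QuotientGroup.mk γ : XN N) = trF_x₀ N ↔ γ ∈ Gamma0 N := by
  rw [trF_x₀, QuotientGroup.eq, mul_one, inv_mem_iff]

theorem trF_mk_inv_eq_x₀_iff (γ : SL(2, ℤ)) :
    (QuotientGroup.mk γ⁻¹ : XN N) = trF_x₀ N ↔ γ ∈ Gamma0 N := by
  rw [trF_mk_eq_x₀_iff, inv_mem_iff]

theorem trF_mem_Gamma0_iff (γ : SL(2, ℤ)) : γ ∈ Gamma0 N ↔ (N : ℤ) ∣ γ 1 0 := by
  rw [Gamma0_mem, ZMod.intCast_zmod_eq_zero_iff_dvd]

/-- Every member of the family is `f ∘ (γ • ·)` for some `γ`, and it is the member of the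
identity coset iff `N ∣ γ 1 0`. -/
theorem trF_exists_rep (hinv : ∀ γ ∈ Gamma0 N, ∀ z : ℍ, f (γ • z) = f z) (x : XN N) :
    ∃ γ : SL(2, ℤ), (QuotientGroup.mk γ⁻¹ : XN N) = x ∧
      (anB_tr N f x = fun z => f (γ • z)) ∧ (x = trF_x₀ N ↔ (N : ℤ) ∣ γ 1 0) := by
  induction x using QuotientGroup.induction_on with
  | H δ =>
    refine ⟨δ⁻¹, by rw [inv_inv], ?_, ?_⟩
    · have := trF_mk_inv hinv δ⁻¹
      rwa [inv_inv] at this
    · rw [← trF_mem_Gamma0_iff, inv_mem_iff]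
      exact trF_mk_eq_x₀_iff δ

end Family

/-- `X = SL(2,ℤ) ⧸ Γ₀(N)` is finite. -/
theorem trF_finite (N : ℕ) [NeZero N] : Finite (XN N) := Comb.comb_cosetFinite N

/-- `X = SL(2,ℤ) ⧸ Γ₀(N)` has `ψ(N)` elements. -/
theorem trF_card (N : ℕ) [NeZero N] : Nat.card (XN N) = ModularCurve.dedekindPsi N :=
  Comb.comb_cosetCard N

/-! ### (T4): growth from the order of the Laurent expansion -/

section Growth

/-- A function with a Laurent expansion of order `≥ -M` at `i∞` is `O(exp (2 π M Im z))`. -/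
theorem trF_isBigO_of_hasLaurent {g : ℍ → ℂ} {s : LaurentSeries ℂ} (M : ℕ)
    (hs : anA_HasLaurent s g) (hord : -(M : ℤ) ≤ s.order) :
    g =O[atImInfty] fun z : ℍ => Real.exp (2 * π * M * z.im) := by
  obtain ⟨m, hmM, hnice, hq⟩ := hs.exists_ge M
  set h : ℍ → ℂ := anA_qfun ^ m * g with hh
  -- the low coefficients of the `q`-expansion of `h` vanish
  have hcoeff : ∀ i : ℕ, i < m - M → (qExpansion 1 h).coeff i = 0 := by
    intro i hi
    have h1 := congrArg (fun t : LaurentSeries ℂ => t.coeff (i : ℤ)) hq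
    beta_reduce at h1
    rw [HahnSeries.ofPowerSeries_apply_coeff] at h1
    rw [h1]
    have h2 : (i : ℤ) = ((i : ℤ) - m) + m := by ring
    rw [h2, HahnSeries.coeff_single_mul_add, one_mul]
    apply HahnSeries.coeff_eq_zero_of_lt_order
    have : (i : ℤ) < (m : ℤ) - M := by
      have := Nat.lt_sub_iff_add_lt.mp hi
      omega
    omega
  have horder : ((m - M : ℕ) : ℕ∞) ≤ analyticOrderAt (cuspFunction 1 h) 0 := by
    rw [natCast_le_analyticOrderAt_iff_iteratedDeriv_eq_zero hnice.analyticAt]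
    intro i hi
    have h1 := hcoeff i hi
    rw [qExpansion_coeff] at h1
    rcases mul_eq_zero.mp h1 with h2 | h2
    · exact absurd (inv_eq_zero.mp h2) (by exact_mod_cast Nat.factorial_ne_zero i)
    · exact h2
  obtain ⟨φ, hφ, hev⟩ := (natCast_le_analyticOrderAt hnice.analyticAt).mp horder
  have hq0 : Tendsto (fun z : ℍ => 𝕢 1 (z : ℂ)) atImInfty (𝓝 0) :=
    qParam_tendsto_atImInfty one_pos
  have hev' : ∀ᶠ z : ℍ in atImInfty,
      cuspFunction 1 h (𝕢 1 (z : ℂ)) = (𝕢 1 (z : ℂ)) ^ (m - M) * φ (𝕢 1 (z : ℂ)) := by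
    have := hq0.eventually hev
    filter_upwards [this] with z hz
    simpa using hz
  have hbdd : ∀ᶠ z : ℍ in atImInfty, ‖φ (𝕢 1 (z : ℂ))‖ ≤ ‖φ 0‖ + 1 := by
    have ht : Tendsto (fun z : ℍ => φ (𝕢 1 (z : ℂ))) atImInfty (𝓝 (φ 0)) :=
      hφ.continuousAt.tendsto.comp hq0
    have := ht.norm.eventually (eventually_le_nhds (lt_add_one ‖φ 0‖))
    exact this
  rw [Asymptotics.isBigO_iff]
  refine ⟨‖φ 0‖ + 1, ?_⟩
  filter_upwards [hev', hbdd] with z hz hb
  have hqne : 𝕢 1 (z : ℂ) ≠ 0 := Periodic.qParam_ne_zero _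
  have h1 : h z = (𝕢 1 (z : ℂ)) ^ (m - M) * φ (𝕢 1 (z : ℂ)) := by
    rw [← hz, eq_cuspFunction z one_ne_zero hnice.per]
  have h2 : h z = (𝕢 1 (z : ℂ)) ^ (m - M) * ((𝕢 1 (z : ℂ)) ^ M * g z) := by
    rw [hh]
    simp only [Pi.mul_apply, Pi.pow_apply, anA_qfun_apply]
    rw [← mul_assoc, ← pow_add, Nat.sub_add_cancel hmM]
  have h3 : (𝕢 1 (z : ℂ)) ^ M * g z = φ (𝕢 1 (z : ℂ)) := by
    have := h2.symm.trans h1
    exact mul_left_cancel₀ (pow_ne_zero _ hqne) this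
  have h4 : g z = φ (𝕢 1 (z : ℂ)) / (𝕢 1 (z : ℂ)) ^ M := by
    rw [← h3]
    field_simp
  have h5 : ‖(𝕢 1 (z : ℂ)) ^ M‖ = (Real.exp (2 * π * M * z.im))⁻¹ := by
    rw [norm_pow, Periodic.norm_qParam, ← Real.exp_nat_mul, ← Real.exp_neg]
    congr 1
    simp only [div_one, coe_im]
    ring
  rw [h4, norm_div, h5, div_inv_eq_mul, Real.norm_eq_abs, abs_of_pos (Real.exp_pos _)]
  exact mul_le_mul_of_nonneg_right hb (Real.exp_pos _).le

/-- The point `w / N` of the upper half plane. -/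
def trF_div (N : ℕ) [NeZero N] (w : ℍ) : ℍ :=
  ⟨(w : ℂ) / N, by
    have hN : (0 : ℝ) < N := Nat.cast_pos.mpr (NeZero.pos N)
    have : ((w : ℂ) / (N : ℂ)).im = w.im / N := by
      rw [show ((N : ℂ)) = ((N : ℝ) : ℂ) by push_cast; rfl, Complex.div_ofReal_im]
      rfl
    rw [this]
    exact div_pos w.im_pos hN⟩

theorem trF_div_im (N : ℕ) [NeZero N] (w : ℍ) : (trF_div N w).im = w.im / N := by
  show ((w : ℂ) / (N : ℂ)).im = w.im / N
  rw [show ((N : ℂ)) = ((N : ℝ) : ℂ) by push_cast; rfl, Complex.div_ofReal_im]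
  rfl

theorem trF_ofComplex_mul_div (N : ℕ) [NeZero N] (w : ℍ) :
    ofComplex ((N : ℂ) * (trF_div N w : ℂ)) = w := by
  have hN : (N : ℂ) ≠ 0 := Nat.cast_ne_zero.mpr (NeZero.ne N)
  have : (N : ℂ) * (trF_div N w : ℂ) = (w : ℂ) := by
    show (N : ℂ) * ((w : ℂ) / N) = w
    field_simp
  rw [this, ofComplex_apply]

theorem trF_tendsto_div (N : ℕ) [NeZero N] : Tendsto (trF_div N) atImInfty atImInfty := by
  have hN : (0 : ℝ) < N := Nat.cast_pos.mpr (NeZero.pos N)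
  rw [atImInfty, tendsto_comap_iff]
  have : (im ∘ trF_div N) = fun w : ℍ => w.im / N := by
    funext w
    exact trF_div_im N w
  rw [this]
  exact (tendsto_id.atTop_div_const hN).comp tendsto_comap

/-- **(T4)** If the `q`-expansion of `z ↦ G (N z)` (i.e. the `q_N`-expansion of `G`) has order
`≥ -C N`, then `G = O(exp (2 π C Im z))` at `i∞`. -/
theorem trF_growth_of_hasLaurent (N : ℕ) [NeZero N] (C : ℕ) (G : ℍ → ℂ) (s : LaurentSeries ℂ)
    (hs : anA_HasLaurent s (fun z : ℍ => G (ofComplex ((N : ℂ) * (z : ℂ)))))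
    (hord : -((C * N : ℕ) : ℤ) ≤ s.order) :
    G =O[atImInfty] fun z : ℍ => Real.exp (2 * π * C * z.im) := by
  have hN : (0 : ℝ) < N := Nat.cast_pos.mpr (NeZero.pos N)
  have h1 := (trF_isBigO_of_hasLaurent (C * N) hs hord).comp_tendsto (trF_tendsto_div N)
  refine (h1.congr_left fun w => ?_).congr_right fun w => ?_
  · simp only [comp_apply, trF_ofComplex_mul_div]
  · simp only [comp_apply, trF_div_im]
    congr 1
    push_cast
    field_simp

/-- Variant of (T4) in S24's `anB_Growth` form (moderate growth). -/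
theorem trF_anB_growth_of_hasLaurent (N : ℕ) [NeZero N] (G : ℍ → ℂ) (s : LaurentSeries ℂ)
    (hs : anA_HasLaurent s (fun z : ℍ => G (ofComplex ((N : ℂ) * (z : ℂ))))) :
    ∃ C : ℕ, G =O[atImInfty] fun z : ℍ => Real.exp (2 * π * C * z.im) := by
  refine ⟨(-s.order).toNat, trF_growth_of_hasLaurent N _ G s hs ?_⟩
  have hN : 1 ≤ N := NeZero.one_le
  have h1 : (-s.order) ≤ ((-s.order).toNat : ℤ) := Int.self_le_toNat _
  have h2 : (((-s.order).toNat : ℕ) : ℤ) ≤ (((-s.order).toNat * N : ℕ) : ℤ) := by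
    exact_mod_cast Nat.le_mul_of_pos_right _ hN
  omega

/-- (T4) in S24's `anD_ModGrowth` form (the growth notion of `anD_exists_charPoly`). -/
theorem trF_modGrowth_of_hasLaurent (N : ℕ) [NeZero N] (G : ℍ → ℂ) (s : LaurentSeries ℂ)
    (hs : anA_HasLaurent s (fun z : ℍ => G (ofComplex ((N : ℂ) * (z : ℂ))))) :
    anD_ModGrowth G :=
  trF_anB_growth_of_hasLaurent N G s hs

/-- **(T4), family form.**  If for every `γ ∉ Γ₀(N)` the `q_N`-expansion of `f ∘ (γ • ·)` has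
order `≥ -C N`, then every member of the family of translates other than the one of the
identity coset is `O(exp (2 π C Im z))`. -/
theorem trF_growth_family {N : ℕ} [NeZero N] {f : ℍ → ℂ}
    (hinv : ∀ γ ∈ Gamma0 N, ∀ z : ℍ, f (γ • z) = f z) (C : ℕ)
    (hexp : ∀ γ : SL(2, ℤ), ¬ (N : ℤ) ∣ γ 1 0 → ∃ s : LaurentSeries ℂ,
      anA_HasLaurent s (fun z : ℍ => f (γ • ofComplex ((N : ℂ) * (z : ℂ)))) ∧
        -((C * N : ℕ) : ℤ) ≤ s.order)
    (x : XN N) (hx : x ≠ trF_x₀ N) :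
    anB_tr N f x =O[atImInfty] fun z : ℍ => Real.exp (2 * π * C * z.im) := by
  obtain ⟨γ, -, hF, hiff⟩ := trF_exists_rep hinv x
  obtain ⟨s, hs, hord⟩ := hexp γ (fun h => hx (hiff.mpr h))
  rw [hF]
  exact trF_growth_of_hasLaurent N C (fun z => f (γ • z)) s hs hord

/-- Moderate growth of every member of the family, from the existence of `q_N`-expansions. -/
theorem trF_modGrowth_family {N : ℕ} [NeZero N] {f : ℍ → ℂ}
    (hinv : ∀ γ ∈ Gamma0 N, ∀ z : ℍ, f (γ • z) = f z)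
    (hexp : ∀ γ : SL(2, ℤ), ∃ s : LaurentSeries ℂ,
      anA_HasLaurent s (fun z : ℍ => f (γ • ofComplex ((N : ℂ) * (z : ℂ)))))
    (x : XN N) : anD_ModGrowth (anB_tr N f x) := by
  obtain ⟨γ, -, hF, -⟩ := trF_exists_rep hinv x
  obtain ⟨s, hs⟩ := hexp γ
  rw [hF]
  exact trF_modGrowth_of_hasLaurent N (fun z => f (γ • z)) s hs

end Growth

end Fermat.Agent.S28
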